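import Mathlib

/-!
# Program FF (S19 + S32): Galois-equivariant functions, independence over `ℚ` and over `ℚ̄`

Owner: helper7.  Namespace `Fermat.Agent.FF`, prefix `ffar`.

`M` a set with maps `act σ : M → M` (`σ ∈ G = Gal(ℚ̄/ℚ)`), each surjective.  A function
`φ : M → ℚ̄` is equivariant if `φ (act σ m) = σ (φ m)`.

* `ffar_exists_rat_relation` (Artin's argument): a nontrivial `ℚ̄`-linear relation between
  equivariant functions yields a nontrivial `ℚ`-linear relation.
* `ffar_linearIndependent` : equivariant functions which are linearly independent over a subring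
  `R ⊂ ℚ` ... (stated over `ℤ`-relations: no nontrivial integral relation) are `ℚ̄`-linearly
  independent.
-/

set_option autoImplicit false
set_option linter.unusedSectionVars false

noncomputable section

namespace Fermat.Agent.FF

open Finset

/-- `ℚ̄`. -/
abbrev FfarQb : Type := AlgebraicClosure ℚ

/-- the absolute Galois group of `ℚ`. -/
abbrev FfarG : Type := FfarQb ≃ₐ[ℚ] FfarQb

local instance ffarIsAlgebraic : Algebra.IsAlgebraic ℚ FfarQb := AlgebraicClosure.isAlgebraic ℚ
local instance ffarIsAlgClosure : IsAlgClosure ℚ FfarQb := ⟨inferInstance, inferInstance⟩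
local instance ffarNormal : Normal ℚ FfarQb := IsAlgClosure.normal ℚ FfarQb
local instance ffarIsGalois : IsGalois ℚ FfarQb := inferInstance

variable {M : Type*} {ι : Type*} [Fintype ι]

open Classical in
/-- **Artin's argument**: a nontrivial `ℚ̄`-relation between equivariant functions gives a
nontrivial `ℚ`-relation. -/
theorem ffar_exists_rat_relation (act : FfarG → M → M) (hsurj : ∀ σ, Function.Surjective (act σ))
    (φ : ι → M → FfarQb) (heq : ∀ i σ m, φ i (act σ m) = σ (φ i m)) :
    ∀ (n : ℕ) (c : ι → FfarQb), (univ.filter fun i => c i ≠ 0).card = n → c ≠ 0 →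
      (∀ m, ∑ i, c i * φ i m = 0) →
      ∃ q : ι → ℚ, q ≠ 0 ∧ ∀ m, ∑ i, algebraMap ℚ FfarQb (q i) * φ i m = 0 := by
  classical
  intro n
  induction n using Nat.strong_induction_on with
  | _ n ih =>
    intro c hcard hc hrel
    obtain ⟨i₀, hi₀⟩ : ∃ i, c i ≠ 0 := by
      by_contra h
      push Not at h
      exact hc (funext h)
    set c' : ι → FfarQb := fun i => c i / c i₀ with hc'
    have hc'i₀ : c' i₀ = 1 := div_self hi₀
    have hrel' : ∀ m, ∑ i, c' i * φ i m = 0 := fun m => by
      have : ∑ i, c' i * φ i m = (∑ i, c i * φ i m) / c i₀ := by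
        rw [Finset.sum_div]
        refine Finset.sum_congr rfl fun i _ => ?_
        rw [hc']
        ring
      rw [this, hrel m, zero_div]
    by_cases hfix : ∀ i (σ : FfarG), σ (c' i) = c' i
    · -- all coefficients rational
      have hq : ∀ i, ∃ q : ℚ, algebraMap ℚ FfarQb q = c' i := fun i =>
        (InfiniteGalois.mem_range_algebraMap_iff_fixed (k := ℚ) (c' i)).mpr (hfix i)
      choose q hq using hq
      refine ⟨q, ?_, fun m => ?_⟩
      · intro h0
        have h1 := hq i₀
        rw [h0, hc'i₀] at h1
        simp at h1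
      · simp only [hq]
        exact hrel' m
    · push Not at hfix
      obtain ⟨i₁, σ, hσ⟩ := hfix
      set d : ι → FfarQb := fun i => σ (c' i) - c' i with hd
      have hd0 : d ≠ 0 := by
        intro h0
        have := congrFun h0 i₁
        rw [hd] at this
        exact hσ (sub_eq_zero.mp this)
      have hdrel : ∀ m, ∑ i, d i * φ i m = 0 := fun m => by
        obtain ⟨m', rfl⟩ := hsurj σ m
        have h1 : ∑ i, σ (c' i) * φ i (act σ m') = σ (∑ i, c' i * φ i m') := by
          rw [map_sum]
          refine Finset.sum_congr rfl fun i _ => ?_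
          rw [map_mul, heq]
        have h2 : ∑ i, d i * φ i (act σ m') =
            ∑ i, σ (c' i) * φ i (act σ m') - ∑ i, c' i * φ i (act σ m') := by
          rw [← Finset.sum_sub_distrib]
          refine Finset.sum_congr rfl fun i _ => ?_
          rw [hd]
          ring
        rw [h2, h1, hrel' m', hrel' (act σ m'), map_zero, sub_zero]
      have hsub : (univ.filter fun i => d i ≠ 0) ⊆ (univ.filter fun i => c i ≠ 0).erase i₀ := by
        intro i hi
        rw [Finset.mem_filter] at hi
        rw [Finset.mem_erase, Finset.mem_filter]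
        refine ⟨?_, Finset.mem_univ _, ?_⟩
        · rintro rfl
          apply hi.2
          rw [hd]
          simp only
          rw [hc'i₀, map_one, sub_self]
        · intro h0
          apply hi.2
          rw [hd]
          simp only
          rw [hc']
          simp only
          rw [h0, zero_div, map_zero, sub_self]
      have hlt : (univ.filter fun i => d i ≠ 0).card < n := by
        refine lt_of_le_of_lt (Finset.card_le_card hsub) ?_
        rw [← hcard]
        exact Finset.card_erase_lt_of_mem (Finset.mem_filter.mpr ⟨Finset.mem_univ _, hi₀⟩)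
      exact ih _ hlt d rfl hd0 hdrel

/-- equivariant functions without a nontrivial `ℤ`-relation are `ℚ̄`-linearly independent:
the relation form. -/
theorem ffar_eq_zero_of_relation (act : FfarG → M → M) (hsurj : ∀ σ, Function.Surjective (act σ))
    (φ : ι → M → FfarQb) (heq : ∀ i σ m, φ i (act σ m) = σ (φ i m))
    (hZ : ∀ z : ι → ℤ, (∀ m, ∑ i, (z i : FfarQb) * φ i m = 0) → z = 0)
    (c : ι → FfarQb) (hrel : ∀ m, ∑ i, c i * φ i m = 0) : c = 0 := by
  classical
  by_contra hc
  obtain ⟨q, hq0, hq⟩ := ffar_exists_rat_relation act hsurj φ heq _ c rfl hc hrel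
  -- clear denominators
  set D : ℕ := ∏ i, (q i).den with hD
  have hDpos : (D : ℚ) ≠ 0 := by
    rw [hD]
    push_cast
    exact Finset.prod_ne_zero_iff.mpr fun i _ => by exact_mod_cast (q i).den_ne_zero
  have hint : ∀ i, ∃ z : ℤ, (z : ℚ) = D * q i := fun i => by
    refine ⟨(∏ j ∈ univ.erase i, ((q j).den : ℤ)) * (q i).num, ?_⟩
    rw [hD, ← Finset.mul_prod_erase univ _ (Finset.mem_univ i)]
    push_cast
    have := Rat.mul_den_eq_num (q i)
    calc (∏ j ∈ univ.erase i, ((q j).den : ℚ)) * ((q i).num : ℚ)
        = (∏ j ∈ univ.erase i, ((q j).den : ℚ)) * (q i * (q i).den) := by rw [this]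
      _ = ((q i).den : ℚ) * (∏ j ∈ univ.erase i, ((q j).den : ℚ)) * q i := by ring
  choose z hz using hint
  have hz0 : z = 0 := by
    apply hZ
    intro m
    have h1 : ∀ i, ((z i : ℤ) : FfarQb) = algebraMap ℚ FfarQb (D : ℚ) * algebraMap ℚ FfarQb (q i) := by
      intro i
      rw [← map_mul, ← hz i]
      simp
    simp only [h1, mul_assoc]
    rw [← Finset.mul_sum, hq m, mul_zero]
  apply hq0
  funext i
  have := hz i
  rw [hz0] at this
  simp only [Pi.zero_apply, Int.cast_zero] at this
  rcases mul_eq_zero.mp this.symm with h | h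
  · exact absurd h hDpos
  · exact h

end Fermat.Agent.FF
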