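/-
Program FF — the constant-rank lemma (helper25, prefix `ffcr`).  Mathlib only.

Setting: `B` ANY commutative ring, `M : Matrix m n B`, `f : s → m`, `g : s → n` a choice of rows and
columns such that the minor `A := M.submatrix f g` has a UNIT determinant and every minor bordering
`A` (one more row `i`, one more column `j`) vanishes.  Then `M` behaves like a matrix of constant
rank `|s|`:

* CUR factorisation `M = M_{•,g} * A⁻¹ * M_{f,•}`;
* the kernel projector `ffcrK = 1 - G_g * A⁻¹ * M_{f,•}` is idempotent with range `ker M` and kernel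
  the coordinate subspace of the `g`-columns;
* the range projector `ffcrR = M_{•,g} * A⁻¹ * E_f` is idempotent with range `range M` and kernel
  the coordinate subspace "the `f`-rows vanish";
* everything commutes with every base change `φ : B →+* B'` by `Matrix.map φ`;
* producers of the hypotheses (local ring + residue rank; jointly injective family of points).
-/
import Mathlib

set_option linter.unusedSectionVars false

namespace Fermat.Agent.FF

open Matrix

section Core

variable {B : Type*} [CommRing B]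
variable {m n s : Type*} [Fintype m] [Fintype n] [Fintype s]
  [DecidableEq m] [DecidableEq n] [DecidableEq s]

/-- The minor of `M` bordering the `(f, g)`-minor by the row `i` and the column `j`. -/
noncomputable def ffcrBord (M : Matrix m n B) (f : s → m) (g : s → n) (i : m) (j : n) : B :=
  (M.submatrix (Sum.elim f fun _ : Unit => i) (Sum.elim g fun _ : Unit => j)).det

/-- The constant-rank hypotheses: the `(f,g)`-minor is a unit and all bordering minors vanish. -/
structure FfcrData (M : Matrix m n B) (f : s → m) (g : s → n) : Prop where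
  unit : IsUnit (M.submatrix f g).det
  bord : ∀ i j, ffcrBord M f g i j = 0

/-- The bordered matrix as a block matrix. -/
theorem ffcr_bord_eq_fromBlocks (M : Matrix m n B) (f : s → m) (g : s → n) (i : m) (j : n) :
    M.submatrix (Sum.elim f fun _ : Unit => i) (Sum.elim g fun _ : Unit => j) =
      Matrix.fromBlocks (M.submatrix f g) (M.submatrix f fun _ : Unit => j)
        (M.submatrix (fun _ : Unit => i) g) (M.submatrix (fun _ : Unit => i) fun _ : Unit => j) := by
  ext a b
  rcases a with a | a <;> rcases b with b | b <;> rfl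

/-- Schur complement formula for the bordered minor. -/
theorem ffcr_bord_eq (M : Matrix m n B) (f : s → m) (g : s → n)
    (hA : IsUnit (M.submatrix f g).det) (i : m) (j : n) :
    ffcrBord M f g i j =
      (M.submatrix f g).det *
        (M i j - (M.submatrix id g * (M.submatrix f g)⁻¹ * M.submatrix f id) i j) := by
  classical
  let _ : Invertible (M.submatrix f g) := Matrix.invertibleOfIsUnitDet _ hA
  rw [ffcrBord, ffcr_bord_eq_fromBlocks, Matrix.det_fromBlocks₁₁, Matrix.invOf_eq_nonsing_inv]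
  congr 1
  rw [Matrix.det_unique]
  simp only [Matrix.sub_apply, Matrix.submatrix_apply, Matrix.mul_apply, id_eq]

/-- CUR factorisation, entrywise. -/
theorem ffcr_entry {M : Matrix m n B} {f : s → m} {g : s → n} (h : FfcrData M f g) (i : m) (j : n) :
    M i j = (M.submatrix id g * (M.submatrix f g)⁻¹ * M.submatrix f id) i j := by
  have h1 := ffcr_bord_eq M f g h.unit i j
  rw [h.bord i j] at h1
  have h2 := h.unit.mul_right_eq_zero.mp h1.symm
  exact sub_eq_zero.mp h2

/-- CUR factorisation `M = M_{•,g} * A⁻¹ * M_{f,•}`. -/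
theorem ffcr_cur {M : Matrix m n B} {f : s → m} {g : s → n} (h : FfcrData M f g) :
    M = M.submatrix id g * (M.submatrix f g)⁻¹ * M.submatrix f id := by
  ext i j
  exact ffcr_entry h i j

/-- Conversely a unit minor together with the CUR factorisation gives the hypotheses. -/
theorem ffcr_data_of_cur {M : Matrix m n B} {f : s → m} {g : s → n}
    (hA : IsUnit (M.submatrix f g).det)
    (hcur : M = M.submatrix id g * (M.submatrix f g)⁻¹ * M.submatrix f id) : FfcrData M f g := by
  refine ⟨hA, fun i j => ?_⟩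
  rw [ffcr_bord_eq M f g hA i j, ← hcur, sub_self, mul_zero]

/-! ### Selector matrices -/

/-- Column selector `G_g : Matrix n s B`, `(G_g) j a = [j = g a]`. -/
def ffcrCol (B : Type*) [CommRing B] (g : s → n) : Matrix n s B := (1 : Matrix n n B).submatrix id g

/-- Row selector `E_f : Matrix s m B`, `(E_f) a i = [f a = i]`. -/
def ffcrRow (B : Type*) [CommRing B] (f : s → m) : Matrix s m B := (1 : Matrix m m B).submatrix f id

theorem ffcr_mul_col {t : Type*} (N : Matrix t n B) (g : s → n) :
    N * ffcrCol B g = N.submatrix id g := by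
  ext i a
  simp [ffcrCol, Matrix.mul_apply, Matrix.one_apply]

theorem ffcr_row_mul {t : Type*} (N : Matrix m t B) (f : s → m) :
    ffcrRow B f * N = N.submatrix f id := by
  ext a j
  simp [ffcrRow, Matrix.mul_apply, Matrix.one_apply]

theorem ffcr_row_mulVec (f : s → m) (v : m → B) : ffcrRow B f *ᵥ v = v ∘ f := by
  ext a
  simp [ffcrRow, Matrix.mulVec, dotProduct, Matrix.one_apply]

theorem ffcr_col_mulVec_apply (g : s → n) (hg : Function.Injective g) (w : s → B) (a : s) :
    (ffcrCol B g *ᵥ w) (g a) = w a := by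
  simp [ffcrCol, Matrix.mulVec, dotProduct, Matrix.one_apply, hg.eq_iff]

theorem ffcr_col_mulVec_apply_of_notMem (g : s → n) (w : s → B) (j : n) (hj : j ∉ Set.range g) :
    (ffcrCol B g *ᵥ w) j = 0 := by
  have : ∀ a, j ≠ g a := fun a h => hj ⟨a, h.symm⟩
  simp [ffcrCol, Matrix.mulVec, dotProduct, this]

theorem ffcr_row_mul_col (M : Matrix m n B) (f : s → m) (g : s → n) :
    ffcrRow B f * M * ffcrCol B g = M.submatrix f g := by
  rw [ffcr_row_mul, ffcr_mul_col]
  rfl

/-! ### The two projectors -/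

/-- Kernel projector `K = 1 - G_g * A⁻¹ * M_{f,•}`. -/
noncomputable def ffcrK (M : Matrix m n B) (f : s → m) (g : s → n) : Matrix n n B :=
  1 - ffcrCol B g * (M.submatrix f g)⁻¹ * M.submatrix f id

/-- Range projector `R = M_{•,g} * A⁻¹ * E_f`. -/
noncomputable def ffcrR (M : Matrix m n B) (f : s → m) (g : s → n) : Matrix m m B :=
  M.submatrix id g * (M.submatrix f g)⁻¹ * ffcrRow B f

/-- Normalised generators of the range: `M_{•,g} * A⁻¹` (chart coordinates of `range M` in the
standard chart `U_f` of the Grassmannian: the `f`-rows form the identity matrix). -/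
noncomputable def ffcrRangeMat (M : Matrix m n B) (f : s → m) (g : s → n) : Matrix m s B :=
  M.submatrix id g * (M.submatrix f g)⁻¹

/-- Normalised generators of the kernel: the columns of `K` indexed by a complement `g' : t → n` of
`g` (e.g. `Subtype.val : {j // j ∉ Set.range g} → n`); chart coordinates of `ker M`: the `g'`-rows
form the identity matrix. -/
noncomputable def ffcrKerMat {t : Type*} (M : Matrix m n B) (f : s → m) (g : s → n) (g' : t → n) :
    Matrix n t B :=
  (ffcrK M f g).submatrix id g'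

section UnitOnly

variable {M : Matrix m n B} {f : s → m} {g : s → n}

theorem ffcr_subf_mul_col (M : Matrix m n B) (f : s → m) (g : s → n) :
    M.submatrix f id * ffcrCol B g = M.submatrix f g := by
  rw [ffcr_mul_col]; rfl

theorem ffcr_row_mul_subg (M : Matrix m n B) (f : s → m) (g : s → n) :
    ffcrRow B f * M.submatrix id g = M.submatrix f g := by
  rw [ffcr_row_mul]; rfl

theorem ffcr_subf_mul_K (hA : IsUnit (M.submatrix f g).det) :
    M.submatrix f id * ffcrK M f g = 0 := by
  rw [ffcrK, Matrix.mul_sub, Matrix.mul_one, ← Matrix.mul_assoc, ← Matrix.mul_assoc,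
    ffcr_subf_mul_col, Matrix.mul_nonsing_inv _ hA, Matrix.one_mul, sub_self]

theorem ffcr_K_mul_col (hA : IsUnit (M.submatrix f g).det) :
    ffcrK M f g * ffcrCol B g = 0 := by
  rw [ffcrK, Matrix.sub_mul, Matrix.one_mul, Matrix.mul_assoc, ffcr_subf_mul_col,
    Matrix.mul_assoc, Matrix.nonsing_inv_mul _ hA, Matrix.mul_one, sub_self]

theorem ffcr_K_idem (hA : IsUnit (M.submatrix f g).det) :
    ffcrK M f g * ffcrK M f g = ffcrK M f g := by
  have h : ffcrK M f g = 1 - ffcrCol B g * (M.submatrix f g)⁻¹ * M.submatrix f id := rfl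
  calc ffcrK M f g * ffcrK M f g
      = (1 - ffcrCol B g * (M.submatrix f g)⁻¹ * M.submatrix f id) * ffcrK M f g := by rw [← h]
    _ = ffcrK M f g -
          ffcrCol B g * (M.submatrix f g)⁻¹ * (M.submatrix f id * ffcrK M f g) := by
        rw [Matrix.sub_mul, Matrix.one_mul, Matrix.mul_assoc]
    _ = ffcrK M f g := by rw [ffcr_subf_mul_K hA, Matrix.mul_zero, sub_zero]

theorem ffcr_row_mul_R (hA : IsUnit (M.submatrix f g).det) :
    ffcrRow B f * ffcrR M f g = ffcrRow B f := by
  rw [ffcrR, ← Matrix.mul_assoc, ← Matrix.mul_assoc, ffcr_row_mul_subg,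
    Matrix.mul_nonsing_inv _ hA, Matrix.one_mul]

theorem ffcr_R_mul_subg (hA : IsUnit (M.submatrix f g).det) :
    ffcrR M f g * M.submatrix id g = M.submatrix id g := by
  rw [ffcrR, Matrix.mul_assoc, ffcr_row_mul_subg, Matrix.mul_assoc,
    Matrix.nonsing_inv_mul _ hA, Matrix.mul_one]

theorem ffcr_R_idem (hA : IsUnit (M.submatrix f g).det) :
    ffcrR M f g * ffcrR M f g = ffcrR M f g := by
  have h : ffcrR M f g = ffcrRangeMat M f g * ffcrRow B f := rfl
  calc ffcrR M f g * ffcrR M f g
      = ffcrRangeMat M f g * (ffcrRow B f * ffcrR M f g) := by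
        rw [← Matrix.mul_assoc, ← h]
    _ = ffcrR M f g := by rw [ffcr_row_mul_R hA, ← h]

theorem ffcrR_eq_rangeMat_mul (M : Matrix m n B) (f : s → m) (g : s → n) :
    ffcrR M f g = ffcrRangeMat M f g * ffcrRow B f := rfl

theorem ffcr_rangeMat_subf (hA : IsUnit (M.submatrix f g).det) :
    (ffcrRangeMat M f g).submatrix f id = 1 := by
  rw [← ffcr_row_mul, ffcrRangeMat, ← Matrix.mul_assoc, ffcr_row_mul_subg,
    Matrix.mul_nonsing_inv _ hA]

theorem ffcr_kerMat_sub {t : Type*} [DecidableEq t] (M : Matrix m n B) (f : s → m) (g : s → n)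
    {g' : t → n} (hg' : Function.Injective g') (hd : ∀ a b, g a ≠ g' b) :
    (ffcrKerMat M f g g').submatrix g' id = (1 : Matrix t t B) := by
  ext j j'
  have h1 : (ffcrCol B g * ((M.submatrix f g)⁻¹ * M.submatrix f id)) (g' j) (g' j') = 0 := by
    rw [Matrix.mul_apply]
    refine Finset.sum_eq_zero fun a _ => ?_
    have : g' j ≠ g a := fun h => hd a j h.symm
    simp [ffcrCol, this]
  simp only [ffcrKerMat, ffcrK, Matrix.submatrix_apply, id_eq, Matrix.sub_apply,
    Matrix.mul_assoc, h1, sub_zero, Matrix.one_apply, hg'.eq_iff]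

theorem ffcrKerMat_eq_mul {t : Type*} (M : Matrix m n B) (f : s → m) (g : s → n) (g' : t → n) :
    ffcrKerMat M f g g' = ffcrK M f g * ffcrCol B g' := by
  ext i b
  simp [ffcrKerMat, ffcrCol, Matrix.mul_apply, Matrix.one_apply]

end UnitOnly

/-! ### Consequences of the constant-rank hypotheses -/

section Data

variable {M : Matrix m n B} {f : s → m} {g : s → n}

theorem ffcr_rangeMat_mul_subf (h : FfcrData M f g) :
    ffcrRangeMat M f g * M.submatrix f id = M := (ffcr_cur h).symm

theorem ffcr_mul_K (h : FfcrData M f g) : M * ffcrK M f g = 0 := by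
  have h1 : M * ffcrK M f g = ffcrRangeMat M f g * (M.submatrix f id * ffcrK M f g) := by
    rw [← Matrix.mul_assoc, ffcr_rangeMat_mul_subf h]
  rw [h1, ffcr_subf_mul_K h.unit, Matrix.mul_zero]

theorem ffcr_R_mul (h : FfcrData M f g) : ffcrR M f g * M = M := by
  have h1 : ffcrR M f g * M = ffcrRangeMat M f g * M.submatrix f id := by
    rw [ffcrR_eq_rangeMat_mul, Matrix.mul_assoc, ffcr_row_mul]
  rw [h1, ffcr_rangeMat_mul_subf h]

/-- `M v = 0 ↔ M_{f,•} v = 0`. -/
theorem ffcr_mulVec_eq_zero_iff (h : FfcrData M f g) (v : n → B) :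
    M *ᵥ v = 0 ↔ M.submatrix f id *ᵥ v = 0 := by
  constructor
  · intro hv
    rw [← ffcr_row_mul, ← Matrix.mulVec_mulVec, hv, Matrix.mulVec_zero]
  · intro hv
    rw [ffcr_cur h, ← Matrix.mulVec_mulVec, hv, Matrix.mulVec_zero]

/-- `M v = 0 ↔ K v = v`. -/
theorem ffcr_mulVec_eq_zero_iff_K (h : FfcrData M f g) (v : n → B) :
    M *ᵥ v = 0 ↔ ffcrK M f g *ᵥ v = v := by
  constructor
  · intro hv
    have hv' := (ffcr_mulVec_eq_zero_iff h v).mp hv
    rw [ffcrK, Matrix.sub_mulVec, Matrix.one_mulVec, ← Matrix.mulVec_mulVec, hv',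
      Matrix.mulVec_zero, sub_zero]
  · intro hv
    rw [← hv, Matrix.mulVec_mulVec, ffcr_mul_K h, Matrix.zero_mulVec]

/-- `v ∈ range M ↔ R v = v`. -/
theorem ffcr_mem_range_iff_R (h : FfcrData M f g) (v : m → B) :
    v ∈ LinearMap.range M.mulVecLin ↔ ffcrR M f g *ᵥ v = v := by
  constructor
  · rintro ⟨w, rfl⟩
    rw [Matrix.mulVecLin_apply, Matrix.mulVec_mulVec, ffcr_R_mul h]
  · intro hv
    refine ⟨ffcrCol B g *ᵥ ((M.submatrix f g)⁻¹ *ᵥ (ffcrRow B f *ᵥ v)), ?_⟩
    rw [Matrix.mulVecLin_apply, Matrix.mulVec_mulVec, Matrix.mulVec_mulVec, Matrix.mulVec_mulVec,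
      ffcr_mul_col]
    exact hv

theorem ffcr_ker_eq (h : FfcrData M f g) :
    LinearMap.ker M.mulVecLin = LinearMap.ker (M.submatrix f id).mulVecLin := by
  ext v
  simp only [LinearMap.mem_ker, Matrix.mulVecLin_apply]
  exact ffcr_mulVec_eq_zero_iff h v

theorem ffcr_ker_eq_range_K (h : FfcrData M f g) :
    LinearMap.ker M.mulVecLin = LinearMap.range (ffcrK M f g).mulVecLin := by
  ext v
  simp only [LinearMap.mem_ker, LinearMap.mem_range, Matrix.mulVecLin_apply]
  constructor
  · intro hv
    exact ⟨v, (ffcr_mulVec_eq_zero_iff_K h v).mp hv⟩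
  · rintro ⟨w, rfl⟩
    rw [Matrix.mulVec_mulVec, ffcr_mul_K h, Matrix.zero_mulVec]

theorem ffcr_range_eq_range_R (h : FfcrData M f g) :
    LinearMap.range M.mulVecLin = LinearMap.range (ffcrR M f g).mulVecLin := by
  ext v
  constructor
  · intro hv
    exact ⟨v, (ffcr_mem_range_iff_R h v).mp hv⟩
  · rintro ⟨w, rfl⟩
    refine (ffcr_mem_range_iff_R h _).mpr ?_
    rw [Matrix.mulVecLin_apply, Matrix.mulVec_mulVec, ffcr_R_idem h.unit]

theorem ffcr_range_eq (h : FfcrData M f g) :
    LinearMap.range M.mulVecLin = LinearMap.range (M.submatrix id g).mulVecLin := by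
  apply le_antisymm
  · rintro v hv
    have hv' := (ffcr_mem_range_iff_R h v).mp hv
    refine ⟨(M.submatrix f g)⁻¹ *ᵥ (ffcrRow B f *ᵥ v), ?_⟩
    rw [Matrix.mulVecLin_apply, Matrix.mulVec_mulVec, Matrix.mulVec_mulVec]
    exact hv'
  · rintro v ⟨w, rfl⟩
    refine ⟨ffcrCol B g *ᵥ w, ?_⟩
    rw [Matrix.mulVecLin_apply, Matrix.mulVecLin_apply, Matrix.mulVec_mulVec, ffcr_mul_col]

theorem ffcr_range_eq_range_rangeMat (h : FfcrData M f g) :
    LinearMap.range M.mulVecLin = LinearMap.range (ffcrRangeMat M f g).mulVecLin := by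
  apply le_antisymm
  · rintro v hv
    have hv' := (ffcr_mem_range_iff_R h v).mp hv
    refine ⟨ffcrRow B f *ᵥ v, ?_⟩
    rw [Matrix.mulVecLin_apply, Matrix.mulVec_mulVec]
    exact hv'
  · rintro v ⟨w, rfl⟩
    rw [ffcr_range_eq h]
    refine ⟨(M.submatrix f g)⁻¹ *ᵥ w, ?_⟩
    rw [Matrix.mulVecLin_apply, Matrix.mulVecLin_apply, Matrix.mulVec_mulVec]
    rfl

/-- The kernel of the kernel projector is the coordinate subspace of the `g`-columns. -/
theorem ffcr_ker_K (hA : IsUnit (M.submatrix f g).det) :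
    LinearMap.ker (ffcrK M f g).mulVecLin = LinearMap.range (ffcrCol B g).mulVecLin := by
  apply le_antisymm
  · intro v hv
    rw [LinearMap.mem_ker, Matrix.mulVecLin_apply, ffcrK, Matrix.sub_mulVec, Matrix.one_mulVec,
      sub_eq_zero] at hv
    refine ⟨(M.submatrix f g)⁻¹ *ᵥ (M.submatrix f id *ᵥ v), ?_⟩
    rw [Matrix.mulVecLin_apply, Matrix.mulVec_mulVec, Matrix.mulVec_mulVec]
    exact hv.symm
  · rintro v ⟨w, rfl⟩
    rw [LinearMap.mem_ker, Matrix.mulVecLin_apply, Matrix.mulVecLin_apply, Matrix.mulVec_mulVec,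
      ffcr_K_mul_col hA, Matrix.zero_mulVec]

/-- The kernel of the range projector is the coordinate subspace "the `f`-rows vanish". -/
theorem ffcr_ker_R (hA : IsUnit (M.submatrix f g).det) :
    LinearMap.ker (ffcrR M f g).mulVecLin = LinearMap.ker (ffcrRow B f).mulVecLin := by
  apply le_antisymm
  · intro v hv
    rw [LinearMap.mem_ker, Matrix.mulVecLin_apply] at hv ⊢
    rw [← ffcr_row_mul_R hA, ← Matrix.mulVec_mulVec, hv, Matrix.mulVec_zero]
  · intro v hv
    rw [LinearMap.mem_ker, Matrix.mulVecLin_apply] at hv ⊢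
    rw [ffcrR, ← Matrix.mulVec_mulVec, hv, Matrix.mulVec_zero]

theorem ffcr_K_isIdempotentElem (hA : IsUnit (M.submatrix f g).det) :
    IsIdempotentElem (ffcrK M f g).mulVecLin := by
  show (ffcrK M f g).mulVecLin * (ffcrK M f g).mulVecLin = (ffcrK M f g).mulVecLin
  rw [Module.End.mul_eq_comp, ← Matrix.mulVecLin_mul, ffcr_K_idem hA]

theorem ffcr_R_isIdempotentElem (hA : IsUnit (M.submatrix f g).det) :
    IsIdempotentElem (ffcrR M f g).mulVecLin := by
  show (ffcrR M f g).mulVecLin * (ffcrR M f g).mulVecLin = (ffcrR M f g).mulVecLin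
  rw [Module.End.mul_eq_comp, ← Matrix.mulVecLin_mul, ffcr_R_idem hA]

/-- `ker M` is a direct summand of `B^n`, with complement the coordinate subspace of the
`g`-columns. -/
theorem ffcr_isCompl_ker (h : FfcrData M f g) :
    IsCompl (LinearMap.ker M.mulVecLin) (LinearMap.range (ffcrCol B g).mulVecLin) := by
  rw [ffcr_ker_eq_range_K h, ← ffcr_ker_K h.unit]
  exact LinearMap.IsIdempotentElem.isCompl (ffcr_K_isIdempotentElem h.unit)

/-- `range M` is a direct summand of `B^m`, with complement the coordinate subspace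
"the `f`-rows vanish". -/
theorem ffcr_isCompl_range (h : FfcrData M f g) :
    IsCompl (LinearMap.range M.mulVecLin) (LinearMap.ker (ffcrRow B f).mulVecLin) := by
  rw [ffcr_range_eq_range_R h, ← ffcr_ker_R h.unit]
  exact LinearMap.IsIdempotentElem.isCompl (ffcr_R_isIdempotentElem h.unit)

end Data

/-! ### Base change -/

section Map

variable {B' : Type*} [CommRing B'] (φ : B →+* B')
variable {M : Matrix m n B} {f : s → m} {g : s → n}

theorem ffcr_map_inv {A : Matrix s s B} (hA : IsUnit A.det) : (A⁻¹).map φ = (A.map φ)⁻¹ := by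
  symm
  apply Matrix.inv_eq_right_inv
  rw [← Matrix.map_mul, Matrix.mul_nonsing_inv _ hA, Matrix.map_one _ φ.map_zero φ.map_one]

theorem ffcr_det_submatrix_map {t : Type*} [Fintype t] [DecidableEq t] (M : Matrix m n B)
    (f : t → m) (g : t → n) : ((M.map φ).submatrix f g).det = φ (M.submatrix f g).det := by
  rw [RingHom.map_det, RingHom.mapMatrix_apply]
  rfl

theorem ffcr_isUnit_map (hA : IsUnit (M.submatrix f g).det) :
    IsUnit ((M.map φ).submatrix f g).det := by
  rw [ffcr_det_submatrix_map]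
  exact hA.map φ

theorem ffcrBord_map (M : Matrix m n B) (f : s → m) (g : s → n) (i : m) (j : n) :
    ffcrBord (M.map φ) f g i j = φ (ffcrBord M f g i j) := by
  rw [ffcrBord, ffcrBord, ffcr_det_submatrix_map]

/-- The constant-rank hypotheses persist under every base change. -/
theorem FfcrData.map (h : FfcrData M f g) : FfcrData (M.map φ) f g :=
  ⟨ffcr_isUnit_map φ h.unit, fun i j => by rw [ffcrBord_map, h.bord, map_zero]⟩

theorem ffcrCol_map (g : s → n) : (ffcrCol B g).map φ = ffcrCol B' g := by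
  ext j a
  simp only [ffcrCol, Matrix.map_apply, Matrix.submatrix_apply, Matrix.one_apply, id_eq]
  split_ifs <;> simp

theorem ffcrRow_map (f : s → m) : (ffcrRow B f).map φ = ffcrRow B' f := by
  ext a i
  simp only [ffcrRow, Matrix.map_apply, Matrix.submatrix_apply, Matrix.one_apply, id_eq]
  split_ifs <;> simp

theorem ffcrK_map (hA : IsUnit (M.submatrix f g).det) :
    (ffcrK M f g).map φ = ffcrK (M.map φ) f g := by
  rw [ffcrK, ffcrK, Matrix.map_sub _ (map_sub φ), Matrix.map_one _ φ.map_zero φ.map_one,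
    Matrix.map_mul, Matrix.map_mul, ffcrCol_map, ffcr_map_inv φ hA]
  rfl

theorem ffcrR_map (hA : IsUnit (M.submatrix f g).det) :
    (ffcrR M f g).map φ = ffcrR (M.map φ) f g := by
  rw [ffcrR, ffcrR, Matrix.map_mul, Matrix.map_mul, ffcrRow_map, ffcr_map_inv φ hA]
  rfl

theorem ffcrRangeMat_map (hA : IsUnit (M.submatrix f g).det) :
    (ffcrRangeMat M f g).map φ = ffcrRangeMat (M.map φ) f g := by
  rw [ffcrRangeMat, ffcrRangeMat, Matrix.map_mul, ffcr_map_inv φ hA]
  rfl

theorem ffcrKerMat_map {t : Type*} (hA : IsUnit (M.submatrix f g).det) (g' : t → n) :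
    (ffcrKerMat M f g g').map φ = ffcrKerMat (M.map φ) f g g' := by
  rw [ffcrKerMat, ffcrKerMat, ← ffcrK_map φ hA]
  rfl

/-- `φ ∘ (M v) = (M.map φ) (φ ∘ v)`. -/
theorem ffcr_map_mulVec {t u : Type*} [Fintype u] (N : Matrix t u B) (v : u → B) :
    (fun i => φ ((N *ᵥ v) i)) = N.map φ *ᵥ fun j => φ (v j) := by
  ext i
  exact RingHom.map_mulVec φ N v i

theorem ffcr_mulVec_eq_sum {t u : Type*} [Fintype u] (N : Matrix t u B) (w : u → B) :
    N *ᵥ w = ∑ j, w j • N.col j := by
  ext i
  simp [Matrix.mulVec, dotProduct, Matrix.col_apply, mul_comm]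

/-- The kernel commutes with base change: `ker (M.map φ)` is the `B'`-span of `φ ∘ (ker M)`. -/
theorem ffcr_ker_map (h : FfcrData M f g) :
    LinearMap.ker (M.map φ).mulVecLin =
      Submodule.span B' ((fun v : n → B => fun j => φ (v j)) '' {v | M *ᵥ v = 0}) := by
  apply le_antisymm
  · intro w hw
    have hw' : M.map φ *ᵥ w = 0 := hw
    have h1 := (ffcr_mulVec_eq_zero_iff_K (h.map φ) w).mp hw'
    rw [← h1, ← ffcrK_map φ h.unit, ffcr_mulVec_eq_sum]
    refine Submodule.sum_mem _ fun j _ => Submodule.smul_mem _ _ (Submodule.subset_span ?_)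
    refine ⟨(ffcrK M f g).col j, ?_, ?_⟩
    · show M *ᵥ (ffcrK M f g).col j = 0
      have : M *ᵥ (ffcrK M f g).col j = (M * ffcrK M f g).col j := by
        ext i
        simp [Matrix.mulVec, dotProduct, Matrix.mul_apply, Matrix.col_apply]
      rw [this, ffcr_mul_K h]
      rfl
    · ext i
      simp [Matrix.col_apply]
  · rw [Submodule.span_le]
    rintro _ ⟨v, hv, rfl⟩
    have hv' : M *ᵥ v = 0 := hv
    show (M.map φ) *ᵥ (fun j => φ (v j)) = 0
    rw [← ffcr_map_mulVec, hv']
    ext i
    simp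

/-- The range commutes with base change (true for every matrix). -/
theorem ffcr_range_map (M : Matrix m n B) :
    LinearMap.range (M.map φ).mulVecLin =
      Submodule.span B' ((fun v : m → B => fun i => φ (v i)) ''
        (LinearMap.range M.mulVecLin : Set (m → B))) := by
  apply le_antisymm
  · rintro _ ⟨w, rfl⟩
    rw [Matrix.mulVecLin_apply, ffcr_mulVec_eq_sum]
    refine Submodule.sum_mem _ fun j _ => Submodule.smul_mem _ _ (Submodule.subset_span ?_)
    refine ⟨M.col j, ⟨Pi.single j 1, ?_⟩, ?_⟩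
    · rw [Matrix.mulVecLin_apply, Matrix.mulVec_single_one]
    · ext i
      simp [Matrix.col_apply]
  · rw [Submodule.span_le]
    rintro _ ⟨_, ⟨v, rfl⟩, rfl⟩
    refine ⟨fun j => φ (v j), ?_⟩
    rw [Matrix.mulVecLin_apply, Matrix.mulVecLin_apply, ← ffcr_map_mulVec]

end Map

/-! ### Free bases of the kernel and of the range -/

section Bases

variable {M : Matrix m n B} {f : s → m} {g : s → n}

theorem ffcr_mulVec_comp {t u : Type*} [Fintype u] (N : Matrix m u B) (e : t → m) (w : u → B) :
    (N *ᵥ w) ∘ e = N.submatrix e id *ᵥ w := by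
  ext a
  simp [Matrix.mulVec, dotProduct]

/-- `range M` is free on `s`: `w ↦ (M_{•,g} A⁻¹) w`, with inverse `v ↦ v ∘ f`. -/
noncomputable def ffcrRangeEquiv (h : FfcrData M f g) :
    (s → B) ≃ₗ[B] LinearMap.range M.mulVecLin where
  toFun w := ⟨ffcrRangeMat M f g *ᵥ w, by
    rw [ffcr_range_eq_range_rangeMat h]; exact ⟨w, rfl⟩⟩
  map_add' a b := by
    ext i
    simp [Matrix.mulVec_add]
  map_smul' c a := by
    ext i
    simp [Matrix.mulVec_smul]
  invFun v := v.1 ∘ f
  left_inv w := by
    show (ffcrRangeMat M f g *ᵥ w) ∘ f = w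
    rw [ffcr_mulVec_comp, ffcr_rangeMat_subf h.unit, Matrix.one_mulVec]
  right_inv v := by
    apply Subtype.ext
    show ffcrRangeMat M f g *ᵥ (v.1 ∘ f) = v.1
    rw [← ffcr_row_mulVec, Matrix.mulVec_mulVec, ← ffcrR_eq_rangeMat_mul]
    exact (ffcr_mem_range_iff_R h v.1).mp v.2

theorem ffcrRangeEquiv_apply (h : FfcrData M f g) (w : s → B) :
    ((ffcrRangeEquiv h w : LinearMap.range M.mulVecLin) : m → B) = ffcrRangeMat M f g *ᵥ w := rfl

theorem ffcrRangeEquiv_symm_apply (h : FfcrData M f g) (v : LinearMap.range M.mulVecLin) :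
    (ffcrRangeEquiv h).symm v = v.1 ∘ f := rfl

theorem ffcr_mul_kerMat {t : Type*} (h : FfcrData M f g) (g' : t → n) :
    M * ffcrKerMat M f g g' = 0 := by
  rw [ffcrKerMat_eq_mul, ← Matrix.mul_assoc, ffcr_mul_K h, Matrix.zero_mul]

/-- The columns of `K` indexed by `range g` vanish, so `K v` only depends on the complementary
coordinates of `v`. -/
theorem ffcr_K_mulVec_eq {t : Type*} [Fintype t] (hA : IsUnit (M.submatrix f g).det)
    {g' : t → n} (hg' : Function.Injective g') (hc : ∀ j, (∃ a, g a = j) ∨ ∃ b, g' b = j)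
    (v : n → B) : ffcrK M f g *ᵥ v = ffcrKerMat M f g g' *ᵥ (v ∘ g') := by
  classical
  ext i
  simp only [Matrix.mulVec, dotProduct, ffcrKerMat, Matrix.submatrix_apply, id_eq,
    Function.comp_apply]
  rw [← Finset.sum_image (s := Finset.univ) (g := g')
    (f := fun j => ffcrK M f g i j * v j) (fun a _ b _ hab => hg' hab)]
  symm
  refine Finset.sum_subset (Finset.subset_univ _) fun j _ hj => ?_
  rcases hc j with ⟨a, rfl⟩ | ⟨b, rfl⟩
  · have h0 : (ffcrK M f g * ffcrCol B g) i a = 0 := by rw [ffcr_K_mul_col hA]; rfl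
    rw [ffcr_mul_col] at h0
    have h1 : ffcrK M f g i (g a) = 0 := h0
    rw [h1, zero_mul]
  · exact absurd (Finset.mem_image_of_mem g' (Finset.mem_univ b)) hj

/-- `ker M` is free on any complement `g' : t → n` of `g`: `u ↦ KerMat u`, with inverse
`v ↦ v ∘ g'`. -/
noncomputable def ffcrKerEquiv {t : Type*} [Fintype t] [DecidableEq t] (h : FfcrData M f g)
    {g' : t → n} (hg' : Function.Injective g') (hd : ∀ a b, g a ≠ g' b)
    (hc : ∀ j, (∃ a, g a = j) ∨ ∃ b, g' b = j) :
    (t → B) ≃ₗ[B] LinearMap.ker M.mulVecLin where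
  toFun u := ⟨ffcrKerMat M f g g' *ᵥ u, by
    rw [LinearMap.mem_ker, Matrix.mulVecLin_apply, Matrix.mulVec_mulVec, ffcr_mul_kerMat h,
      Matrix.zero_mulVec]⟩
  map_add' a b := by
    ext i
    simp [Matrix.mulVec_add]
  map_smul' c a := by
    ext i
    simp [Matrix.mulVec_smul]
  invFun v := v.1 ∘ g'
  left_inv u := by
    show (ffcrKerMat M f g g' *ᵥ u) ∘ g' = u
    rw [ffcr_mulVec_comp, ffcr_kerMat_sub M f g hg' hd, Matrix.one_mulVec]
  right_inv v := by
    apply Subtype.ext
    show ffcrKerMat M f g g' *ᵥ (v.1 ∘ g') = v.1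
    rw [← ffcr_K_mulVec_eq h.unit hg' hc]
    exact (ffcr_mulVec_eq_zero_iff_K h v.1).mp v.2

theorem ffcrKerEquiv_apply {t : Type*} [Fintype t] [DecidableEq t] (h : FfcrData M f g)
    {g' : t → n} (hg' : Function.Injective g') (hd : ∀ a b, g a ≠ g' b)
    (hc : ∀ j, (∃ a, g a = j) ∨ ∃ b, g' b = j) (u : t → B) :
    ((ffcrKerEquiv h hg' hd hc u : LinearMap.ker M.mulVecLin) : n → B) =
      ffcrKerMat M f g g' *ᵥ u := rfl

theorem ffcrKerEquiv_symm_apply {t : Type*} [Fintype t] [DecidableEq t] (h : FfcrData M f g)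
    {g' : t → n} (hg' : Function.Injective g') (hd : ∀ a b, g a ≠ g' b)
    (hc : ∀ j, (∃ a, g a = j) ∨ ∃ b, g' b = j) (v : LinearMap.ker M.mulVecLin) :
    (ffcrKerEquiv h hg' hd hc).symm v = v.1 ∘ g' := rfl

theorem ffcr_ker_eq_range_kerMat {t : Type*} [Fintype t] (h : FfcrData M f g)
    {g' : t → n} (hg' : Function.Injective g') (hc : ∀ j, (∃ a, g a = j) ∨ ∃ b, g' b = j) :
    LinearMap.ker M.mulVecLin = LinearMap.range (ffcrKerMat M f g g').mulVecLin := by
  apply le_antisymm
  · intro v hv
    refine ⟨v ∘ g', ?_⟩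
    rw [Matrix.mulVecLin_apply, ← ffcr_K_mulVec_eq h.unit hg' hc]
    exact (ffcr_mulVec_eq_zero_iff_K h v).mp hv
  · rintro _ ⟨u, rfl⟩
    rw [LinearMap.mem_ker, Matrix.mulVecLin_apply, Matrix.mulVecLin_apply, Matrix.mulVec_mulVec,
      ffcr_mul_kerMat h, Matrix.zero_mulVec]

/-- The canonical complement `Subtype.val : {j // j ∉ Set.range g} → n` satisfies the three
complement hypotheses. -/
theorem ffcr_compl_val (g : s → n) :
    Function.Injective (Subtype.val : {j : n // j ∉ Set.range g} → n) ∧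
      (∀ (a : s) (b : {j : n // j ∉ Set.range g}), g a ≠ b.1) ∧
      ∀ j, (∃ a, g a = j) ∨ ∃ b : {j : n // j ∉ Set.range g}, b.1 = j := by
  refine ⟨Subtype.val_injective, fun a b hab => b.2 ⟨a, hab⟩, fun j => ?_⟩
  by_cases hj : j ∈ Set.range g
  · exact Or.inl hj
  · exact Or.inr ⟨⟨j, hj⟩, rfl⟩

end Bases

end Core

/-! ### Producers of the hypotheses -/

section Producers

variable {B : Type*} [CommRing B]
variable {m n s : Type*} [Fintype m] [Fintype n] [Fintype s]
  [DecidableEq m] [DecidableEq n] [DecidableEq s]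

/-- Over a field, a matrix of rank `r` has a non-vanishing `r × r` minor (with injective choices of
rows and columns). -/
theorem ffcr_exists_minor_of_rank {k : Type*} [Field k] (N : Matrix m n k) (r : ℕ)
    (hr : N.rank = r) :
    ∃ (f : Fin r → m) (g : Fin r → n), Function.Injective f ∧ Function.Injective g ∧
      (N.submatrix f g).det ≠ 0 := by
  classical
  -- choose independent columns spanning the column space
  obtain ⟨κ, a, ha, hspa, hlia⟩ := exists_linearIndependent' k N.col
  have : Finite κ := Finite.of_injective a ha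
  let _ : Fintype κ := Fintype.ofFinite κ
  have hκ : Fintype.card κ = r := by
    rw [← finrank_span_eq_card hlia, hspa, ← Matrix.rank_eq_finrank_span_cols, hr]
  set N₁ : Matrix m κ k := N.submatrix id a with hN₁
  have hN₁rank : N₁.rank = r := by
    rw [Matrix.rank_eq_finrank_span_cols]
    have : N₁.col = N.col ∘ a := rfl
    rw [this, hspa, ← Matrix.rank_eq_finrank_span_cols, hr]
  -- choose independent rows of `N₁` spanning its row space
  obtain ⟨κ', b, hb, hspb, hlib⟩ := exists_linearIndependent' k N₁.row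
  have : Finite κ' := Finite.of_injective b hb
  let _ : Fintype κ' := Fintype.ofFinite κ'
  have hκ' : Fintype.card κ' = r := by
    rw [← finrank_span_eq_card hlib, hspb, ← Matrix.rank_eq_finrank_span_row, hN₁rank]
  let e : Fin r ≃ κ := (Fintype.equivFinOfCardEq hκ).symm
  let e' : Fin r ≃ κ' := (Fintype.equivFinOfCardEq hκ').symm
  refine ⟨b ∘ e', a ∘ e, hb.comp e'.injective, ha.comp e.injective, ?_⟩
  set N₂ : Matrix κ' κ k := N₁.submatrix b id with hN₂
  have hN₂rank : N₂.rank = r := by
    rw [Matrix.rank_eq_finrank_span_row]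
    have : N₂.row = N₁.row ∘ b := rfl
    rw [this, hspb, ← Matrix.rank_eq_finrank_span_row, hN₁rank]
  have h3 : N.submatrix (b ∘ e') (a ∘ e) = N₂.submatrix e' e := rfl
  have h3rank : (N.submatrix (b ∘ e') (a ∘ e)).rank = r := by
    rw [h3, Matrix.rank_submatrix, hN₂rank]
  have hli : LinearIndependent k (N.submatrix (b ∘ e') (a ∘ e)).row := by
    rw [linearIndependent_iff_card_eq_finrank_span, Fintype.card_fin, Set.finrank,
      ← Matrix.rank_eq_finrank_span_row, h3rank]
  have hu := Matrix.linearIndependent_rows_iff_isUnit.mp hli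
  exact ((Matrix.isUnit_iff_isUnit_det _).mp hu).ne_zero

/-- Producer of the unit minor: a local homomorphism `ρ : B →+* k` to a field (e.g. the residue map
of a local ring) such that `M.map ρ` has rank `r` gives rows and columns with a unit minor. -/
theorem ffcr_exists_unit_minor {k : Type*} [Field k] (ρ : B →+* k) [IsLocalHom ρ]
    (M : Matrix m n B) (r : ℕ) (hr : (M.map ρ).rank = r) :
    ∃ (f : Fin r → m) (g : Fin r → n), Function.Injective f ∧ Function.Injective g ∧
      IsUnit (M.submatrix f g).det := by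
  obtain ⟨f, g, hf, hg, hdet⟩ := ffcr_exists_minor_of_rank (M.map ρ) r hr
  refine ⟨f, g, hf, hg, ?_⟩
  rw [ffcr_det_submatrix_map] at hdet
  exact isUnit_of_map_unit ρ _ (isUnit_iff_ne_zero.mpr hdet)

/-- Producer of the vanishing of the bordered minors: a jointly injective family of points
`x i : B →+* L i` into fields at which `M` has rank at most `|s|`. -/
theorem ffcr_bord_eq_zero_of_points {ι : Type*} {L : ι → Type*} [∀ i, Field (L i)]
    (x : ∀ i, B →+* L i) (hx : ∀ b : B, (∀ i, x i b = 0) → b = 0)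
    (M : Matrix m n B) (f : s → m) (g : s → n)
    (hrk : ∀ i, (M.map (x i)).rank ≤ Fintype.card s) (i₀ : m) (j₀ : n) :
    ffcrBord M f g i₀ j₀ = 0 := by
  apply hx
  intro i
  rw [← ffcrBord_map]
  by_contra hne
  have h1 := Matrix.rank_of_det_ne_zero hne
  have h2 := Matrix.rank_submatrix_le (M.map (x i)) (Sum.elim f fun _ : Unit => i₀)
    (Sum.elim g fun _ : Unit => j₀)
  rw [h1] at h2
  have h3 := h2.trans (hrk i)
  simp at h3

/-- Both producers together. -/
theorem ffcr_exists_data {k : Type*} [Field k] (ρ : B →+* k) [IsLocalHom ρ]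
    {ι : Type*} {L : ι → Type*} [∀ i, Field (L i)]
    (x : ∀ i, B →+* L i) (hx : ∀ b : B, (∀ i, x i b = 0) → b = 0)
    (M : Matrix m n B) (r : ℕ) (hr : (M.map ρ).rank = r) (hrk : ∀ i, (M.map (x i)).rank ≤ r) :
    ∃ (f : Fin r → m) (g : Fin r → n), Function.Injective f ∧ Function.Injective g ∧
      FfcrData M f g := by
  obtain ⟨f, g, hf, hg, hu⟩ := ffcr_exists_unit_minor ρ M r hr
  refine ⟨f, g, hf, hg, hu, fun i j => ?_⟩
  exact ffcr_bord_eq_zero_of_points x hx M f g (fun i => by simpa using hrk i) i j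

/-! ### Pointwise tests (reducedness principle) -/

/-- Two matrices over `B` agreeing at a jointly injective family of points are equal. -/
theorem ffcr_eq_of_points {ι : Type*} {L : ι → Type*} [∀ i, Field (L i)]
    (x : ∀ i, B →+* L i) (hx : ∀ b : B, (∀ i, x i b = 0) → b = 0)
    {t u : Type*} (N N' : Matrix t u B) (h : ∀ i, N.map (x i) = N'.map (x i)) : N = N' := by
  ext a b
  rw [← sub_eq_zero]
  apply hx
  intro i
  have := congrFun (congrFun (h i) a) b
  simp only [Matrix.map_apply] at this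
  rw [map_sub, this, sub_self]

/-- `P * N = 0` can be tested pointwise. -/
theorem ffcr_mul_eq_zero_of_points {ι : Type*} {L : ι → Type*} [∀ i, Field (L i)]
    (x : ∀ i, B →+* L i) (hx : ∀ b : B, (∀ i, x i b = 0) → b = 0)
    {t u : Type*} (P : Matrix t m B) (N : Matrix m u B)
    (h : ∀ i, P.map (x i) * N.map (x i) = 0) : P * N = 0 := by
  apply ffcr_eq_of_points x hx
  intro i
  rw [Matrix.map_mul, h i, Matrix.map_zero _ (map_zero (x i))]

/-- Inclusion into the range of an idempotent can be tested pointwise. -/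
theorem ffcr_range_le_of_points {ι : Type*} {L : ι → Type*} [∀ i, Field (L i)]
    (x : ∀ i, B →+* L i) (hx : ∀ b : B, (∀ i, x i b = 0) → b = 0)
    {u : Type*} [Fintype u] (Q : Matrix m m B) (hQ : Q * Q = Q) (N : Matrix m u B)
    (h : ∀ i, LinearMap.range (N.map (x i)).mulVecLin ≤ LinearMap.range (Q.map (x i)).mulVecLin) :
    LinearMap.range N.mulVecLin ≤ LinearMap.range Q.mulVecLin := by
  classical
  have hQN : Q * N = N := by
    apply ffcr_eq_of_points x hx
    intro i
    rw [Matrix.map_mul]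
    ext a b
    have hcol : (N.map (x i)).col b ∈ LinearMap.range (Q.map (x i)).mulVecLin := by
      apply h i
      refine ⟨Pi.single b 1, ?_⟩
      rw [Matrix.mulVecLin_apply, Matrix.mulVec_single_one]
    obtain ⟨w, hw⟩ := hcol
    rw [Matrix.mulVecLin_apply] at hw
    have h1 : (Q.map (x i) * N.map (x i)) a b = (Q.map (x i) *ᵥ (N.map (x i)).col b) a := by
      simp [Matrix.mul_apply, Matrix.mulVec, dotProduct, Matrix.col_apply]
    rw [h1, ← hw, Matrix.mulVec_mulVec, ← Matrix.map_mul, hQ, hw]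
    rfl
  rintro _ ⟨w, rfl⟩
  refine ⟨N *ᵥ w, ?_⟩
  rw [Matrix.mulVecLin_apply, Matrix.mulVecLin_apply, Matrix.mulVec_mulVec, hQN]

end Producers

end Fermat.Agent.FF
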