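/-
Program FF — Grassmannian chart coordinates of the range of an idempotent (helper25, prefix `ffch`).
Imports `FF/ConstRank` only.

* `ffch_unique`: a matrix with identity `f`-rows is determined by its range (any commutative ring).
* `ffch_data_of_idem`: for an IDEMPOTENT matrix over a ring with a local closed point the
  constant-rank hypotheses `FfcrData` hold as soon as one minor of the right size is a unit:
  the bordered minors vanish automatically.
* `ffch_exists_cols`: a chart `f` separating the closed fibre of the range produces the columns `g`.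
* `ffch_main`: the chart matrix `Z`, its base change and its uniqueness on every fibre.
-/
import Fermat.Agent.FF.ConstRank

set_option linter.unusedSectionVars false

namespace Fermat.Agent.FF

open Matrix

section Unique

variable {B : Type*} [CommRing B]
variable {n s : Type*} [Fintype n] [Fintype s] [DecidableEq n] [DecidableEq s]

/-- A matrix with identity `f`-rows is determined by its range. -/
theorem ffch_unique {f : s → n} {Z Z' : Matrix n s B}
    (hZ : Z.submatrix f id = 1) (hZ' : Z'.submatrix f id = 1)
    (h : LinearMap.range Z.mulVecLin ≤ LinearMap.range Z'.mulVecLin) : Z = Z' := by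
  -- every column of `Z` is `Z' *ᵥ c`, and restricting to the `f`-rows identifies `c`
  ext i a
  have hcol : Z.col a ∈ LinearMap.range Z'.mulVecLin := by
    apply h
    refine ⟨Pi.single a 1, ?_⟩
    rw [Matrix.mulVecLin_apply, Matrix.mulVec_single_one]
  obtain ⟨c, hc⟩ := hcol
  rw [Matrix.mulVecLin_apply] at hc
  have h1 : (Z' *ᵥ c) ∘ f = c := by
    rw [ffcr_mulVec_comp, hZ', Matrix.one_mulVec]
  have h2 : (Z.col a) ∘ f = Pi.single a 1 := by
    ext b
    have := congrFun (congrFun hZ b) a
    simp only [Matrix.submatrix_apply, id_eq] at this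
    simp only [Function.comp_apply, Matrix.col_apply, this, Matrix.one_apply, Pi.single_apply]
  have h3 : c = Pi.single a 1 := by rw [← h1, hc, h2]
  have h4 : Z.col a = Z'.col a := by
    rw [← hc, h3, Matrix.mulVec_single_one]
  exact congrFun h4 i

end Unique

section Idem

variable {R : Type*} [CommRing R] {k : Type*} [Field k]
variable {n s : Type*} [Fintype n] [Fintype s] [DecidableEq n] [DecidableEq s]

/-- An idempotent matrix which vanishes at a local closed point is zero. -/
theorem ffch_idem_eq_zero (ρ₀ : R →+* k) [IsLocalHom ρ₀] {E : Matrix n n R} (hE : E * E = E)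
    (h0 : E.map ρ₀ = 0) : E = 0 := by
  have hdet : IsUnit (1 - E).det := by
    apply isUnit_of_map_unit ρ₀
    have : ρ₀ (1 - E).det = ((1 - E).map ρ₀).det := by
      rw [RingHom.map_det, RingHom.mapMatrix_apply]
    rw [this, Matrix.map_sub _ (map_sub ρ₀), h0, sub_zero,
      Matrix.map_one _ ρ₀.map_zero ρ₀.map_one, Matrix.det_one]
    exact isUnit_one
  have h1 : E * (1 - E) = 0 := by rw [Matrix.mul_sub, Matrix.mul_one, hE, sub_self]
  calc E = E * ((1 - E) * (1 - E)⁻¹) := by rw [Matrix.mul_nonsing_inv _ hdet, Matrix.mul_one]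
    _ = 0 := by rw [← Matrix.mul_assoc, h1, Matrix.zero_mul]

/-- For an idempotent over a ring with a local closed point, a unit minor of the size of the
closed rank gives the constant-rank hypotheses: the bordered minors vanish automatically. -/
theorem ffch_data_of_idem (ρ₀ : R →+* k) [IsLocalHom ρ₀] {P : Matrix n n R} (hP : P * P = P)
    {f g : s → n} (hu : IsUnit (P.submatrix f g).det)
    (hr : (P.map ρ₀).rank ≤ Fintype.card s) : FfcrData P f g := by
  -- the closed fibre satisfies the hypotheses (one point suffices over a field)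
  have hk : FfcrData (P.map ρ₀) f g := by
    refine ⟨ffcr_isUnit_map ρ₀ hu, fun i j => ?_⟩
    refine ffcr_bord_eq_zero_of_points (L := fun _ : Unit => k) (fun _ => RingHom.id k)
      (fun b hb => hb ()) (P.map ρ₀) f g (fun _ => ?_) i j
    have : (P.map ρ₀).map (RingHom.id k) = P.map ρ₀ := by
      ext a b
      simp
    rw [this]
    exact hr
  set Z := ffcrRangeMat P f g with hZdef
  set Q := Z * P.submatrix f id with hQdef
  -- basic identities
  have hPZ : P * Z = Z := by
    have : Z = P * (ffcrCol R g * (P.submatrix f g)⁻¹) := by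
      rw [hZdef, ffcrRangeMat, ← Matrix.mul_assoc, ffcr_mul_col]
    rw [this, ← Matrix.mul_assoc, hP]
  have hPfZ : P.submatrix f id * Z = 1 := by
    have h1 : P.submatrix f id * Z = (P * Z).submatrix f id := by
      rw [← ffcr_row_mul, ← ffcr_row_mul, Matrix.mul_assoc]
    rw [h1, hPZ, hZdef, ffcr_rangeMat_subf hu]
  have hPfP : P.submatrix f id * P = P.submatrix f id := by
    rw [← ffcr_row_mul, Matrix.mul_assoc, hP]
  have hPQ : P * Q = Q := by rw [hQdef, ← Matrix.mul_assoc, hPZ]
  have hQP : Q * P = Q := by rw [hQdef, Matrix.mul_assoc, hPfP]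
  have hQQ : Q * Q = Q := by
    calc Q * Q = Z * (P.submatrix f id * Z) * P.submatrix f id := by
          rw [hQdef]; simp only [Matrix.mul_assoc]
      _ = Q := by rw [hPfZ, Matrix.mul_one]
  have hE : (P - Q) * (P - Q) = P - Q := by
    rw [Matrix.sub_mul, Matrix.mul_sub, Matrix.mul_sub, hP, hPQ, hQP, hQQ]
    abel
  have hE0 : (P - Q).map ρ₀ = 0 := by
    rw [Matrix.map_sub _ (map_sub ρ₀), sub_eq_zero, hQdef, Matrix.map_mul, hZdef,
      ffcrRangeMat_map ρ₀ hu]
    exact ffcr_cur hk
  have hzero := ffch_idem_eq_zero ρ₀ hE hE0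
  have hcur : P = P.submatrix id g * (P.submatrix f g)⁻¹ * P.submatrix f id :=
    sub_eq_zero.mp hzero
  exact ffcr_data_of_cur hu hcur

end Idem

/-! ### The chart matrix -/

section ChartMat

variable {B : Type*} [CommRing B]
variable {m n s : Type*} [Fintype m] [Fintype n] [Fintype s]
  [DecidableEq m] [DecidableEq n] [DecidableEq s]

/-- The normalised generators do not depend on the choice of the columns `g`. -/
theorem ffch_rangeMat_indep {M : Matrix m n B} {f : s → m} {g g' : s → n} (h : FfcrData M f g)
    (hu' : IsUnit (M.submatrix f g').det) : ffcrRangeMat M f g' = ffcrRangeMat M f g := by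
  have h1 : M.submatrix id g' = ffcrRangeMat M f g * M.submatrix f g' := by
    have h2 : M.submatrix id g' = (ffcrRangeMat M f g * M.submatrix f id).submatrix id g' := by
      rw [ffcr_rangeMat_mul_subf h]
    rw [h2, ← ffcr_mul_col, Matrix.mul_assoc, ffcr_subf_mul_col]
  rw [ffcrRangeMat, h1, Matrix.mul_assoc, Matrix.mul_nonsing_inv _ hu', Matrix.mul_one]

open Classical in
/-- THE chart matrix of `range M` in the chart `f` (identity `f`-rows): `M_{•,g} * (M_{f,g})⁻¹` for
any columns `g` with a unit minor. -/
noncomputable def ffchZ (M : Matrix m n B) (f : s → m) : Matrix m s B :=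
  if h : ∃ g : s → n, IsUnit (M.submatrix f g).det then ffcrRangeMat M f h.choose else 0

theorem ffchZ_eq {M : Matrix m n B} {f : s → m} {g : s → n} (h : FfcrData M f g) :
    ffchZ M f = ffcrRangeMat M f g := by
  have hex : ∃ g : s → n, IsUnit (M.submatrix f g).det := ⟨g, h.unit⟩
  rw [ffchZ, dif_pos hex]
  exact ffch_rangeMat_indep h hex.choose_spec

theorem ffchZ_subf {M : Matrix m n B} {f : s → m} {g : s → n} (h : FfcrData M f g) :
    (ffchZ M f).submatrix f id = 1 := by
  rw [ffchZ_eq h, ffcr_rangeMat_subf h.unit]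

theorem ffchZ_range {M : Matrix m n B} {f : s → m} {g : s → n} (h : FfcrData M f g) :
    LinearMap.range (ffchZ M f).mulVecLin = LinearMap.range M.mulVecLin := by
  rw [ffchZ_eq h, ffcr_range_eq_range_rangeMat h]

theorem ffchZ_mul {M : Matrix m n B} {f : s → m} {g : s → n} (h : FfcrData M f g) :
    ffchZ M f * M.submatrix f id = M := by
  rw [ffchZ_eq h, ffcr_rangeMat_mul_subf h]

/-- The chart matrix commutes with every base change. -/
theorem ffchZ_map {B' : Type*} [CommRing B'] (φ : B →+* B') {M : Matrix m n B} {f : s → m}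
    {g : s → n} (h : FfcrData M f g) : (ffchZ M f).map φ = ffchZ (M.map φ) f := by
  rw [ffchZ_eq h, ffchZ_eq (h.map φ), ffcrRangeMat_map φ h.unit]

/-- Uniqueness: any matrix with identity `f`-rows and the same range is the chart matrix. -/
theorem ffchZ_unique {M : Matrix m n B} {f : s → m} {g : s → n} (h : FfcrData M f g)
    {Z' : Matrix m s B} (hZ' : Z'.submatrix f id = 1)
    (hr : LinearMap.range Z'.mulVecLin = LinearMap.range M.mulVecLin) : Z' = ffchZ M f := by
  refine ffch_unique hZ' (ffchZ_subf h) ?_
  rw [hr, ffchZ_range h]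

/-- Fibrewise form of the uniqueness: after any base change `φ`, a matrix with identity `f`-rows
and range `range (M.map φ)` is the image of the chart matrix. -/
theorem ffchZ_map_unique {B' : Type*} [CommRing B'] (φ : B →+* B') {M : Matrix m n B} {f : s → m}
    {g : s → n} (h : FfcrData M f g) {Z' : Matrix m s B'} (hZ' : Z'.submatrix f id = 1)
    (hr : LinearMap.range Z'.mulVecLin = LinearMap.range (M.map φ).mulVecLin) :
    Z' = (ffchZ M f).map φ := by
  rw [ffchZ_map φ h]
  exact ffchZ_unique (h.map φ) hZ' hr

/-- A vector of `range M` is determined by its `f`-coordinates: `v = Z (v ∘ f)`. -/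
theorem ffchZ_mulVec_comp {M : Matrix m n B} {f : s → m} {g : s → n} (h : FfcrData M f g)
    {v : m → B} (hv : v ∈ LinearMap.range M.mulVecLin) : ffchZ M f *ᵥ (v ∘ f) = v := by
  rw [ffchZ_eq h, ← ffcr_row_mulVec, Matrix.mulVec_mulVec, ← ffcrR_eq_rangeMat_mul]
  exact (ffcr_mem_range_iff_R h v).mp hv

/-- The chart `f` separates `range M`. -/
theorem ffch_separates {M : Matrix m n B} {f : s → m} {g : s → n} (h : FfcrData M f g)
    {v : m → B} (hv : v ∈ LinearMap.range M.mulVecLin) (h0 : v ∘ f = 0) : v = 0 := by
  rw [← ffchZ_mulVec_comp h hv, h0, Matrix.mulVec_zero]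

/-- Membership in `range M` in chart coordinates. -/
theorem ffchZ_mem_range_iff {M : Matrix m n B} {f : s → m} {g : s → n} (h : FfcrData M f g)
    (v : m → B) : v ∈ LinearMap.range M.mulVecLin ↔ ffchZ M f *ᵥ (v ∘ f) = v := by
  constructor
  · exact fun hv => ffchZ_mulVec_comp h hv
  · intro hv
    rw [← ffchZ_range h, ← hv]
    exact ⟨v ∘ f, rfl⟩

end ChartMat

/-! ### Producing the columns from a separating chart at the closed point -/

section Cols

variable {k : Type*} [Field k]
variable {m n : Type*} [Fintype m] [Fintype n] [DecidableEq m] [DecidableEq n]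

/-- Over a field: if `N` has rank `r` and the chart `f : Fin r → m` separates `range N`, then some
`r` columns give a non-vanishing minor in the rows `f`. -/
theorem ffch_exists_cols (N : Matrix m n k) (r : ℕ) (hr : N.rank = r) (f : Fin r → m)
    (hf : ∀ v ∈ LinearMap.range N.mulVecLin, v ∘ f = 0 → v = 0) :
    ∃ g : Fin r → n, Function.Injective g ∧ (N.submatrix f g).det ≠ 0 := by
  classical
  set S := LinearMap.range N.mulVecLin with hS
  set π : (m → k) →ₗ[k] (Fin r → k) := LinearMap.funLeft k k f with hπ
  -- the rows `f` of `N` still have rank `r`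
  have hcomp : (N.submatrix f id).mulVecLin = π ∘ₗ N.mulVecLin := by
    apply LinearMap.ext
    intro w
    ext a
    simp [hπ, LinearMap.funLeft_apply, Matrix.mulVec, dotProduct]
  have hinj : Function.Injective (π.domRestrict S) := by
    rw [← LinearMap.ker_eq_bot, LinearMap.ker_eq_bot']
    intro v hv
    apply Subtype.ext
    refine hf v.1 v.2 ?_
    have : π v.1 = 0 := hv
    ext a
    have := congrFun this a
    simpa [hπ, LinearMap.funLeft_apply] using this
  have hrange : LinearMap.range (N.submatrix f id).mulVecLin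
      = LinearMap.range (π.domRestrict S) := by
    rw [hcomp]
    ext w
    constructor
    · rintro ⟨v, rfl⟩
      exact ⟨⟨N.mulVecLin v, ⟨v, rfl⟩⟩, rfl⟩
    · rintro ⟨⟨_, ⟨v, rfl⟩⟩, rfl⟩
      exact ⟨v, rfl⟩
  have hrank : (N.submatrix f id).rank = r := by
    rw [Matrix.rank, hrange, LinearMap.finrank_range_of_inj hinj, ← hr]
    rfl
  obtain ⟨f', g', hf', hg', hdet⟩ := ffcr_exists_minor_of_rank (N.submatrix f id) r hrank
  have hbij : Function.Bijective f' := Finite.injective_iff_bijective.mp hf'
  let e : Fin r ≃ Fin r := Equiv.ofBijective f' hbij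
  refine ⟨g' ∘ e.symm, hg'.comp e.symm.injective, ?_⟩
  have h1 : N.submatrix f (g' ∘ e.symm)
      = ((N.submatrix f id).submatrix f' g').submatrix e.symm e.symm := by
    ext a b
    simp only [Matrix.submatrix_apply, id_eq, Function.comp_apply]
    congr 2
    exact (e.apply_symm_apply a).symm
  rw [h1, Matrix.det_submatrix_equiv_self]
  exact hdet

/-- Field level: a subspace `V ≤ K^m` of dimension `r` separated by the chart `f : Fin r → m` has a
chart matrix (identity `f`-rows, range `V`); it is unique by `ffch_unique`. -/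
theorem ffch_exists_of_subspace (V : Submodule k (m → k)) (r : ℕ) (hr : Module.finrank k V = r)
    (f : Fin r → m) (hf : ∀ v ∈ V, v ∘ f = 0 → v = 0) :
    ∃ Z : Matrix m (Fin r) k, Z.submatrix f id = 1 ∧ LinearMap.range Z.mulVecLin = V := by
  classical
  let b : Module.Basis (Fin r) k V := Module.finBasisOfFinrankEq k V hr
  set N : Matrix m (Fin r) k := Matrix.of fun i a => (b a : m → k) i with hN
  have hrange : LinearMap.range N.mulVecLin = V := by
    rw [Matrix.range_mulVecLin]
    have h1 : Set.range N.col = (V.subtype) '' (Set.range b) := by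
      ext v
      constructor
      · rintro ⟨a, rfl⟩
        exact ⟨b a, ⟨a, rfl⟩, rfl⟩
      · rintro ⟨_, ⟨a, rfl⟩, rfl⟩
        exact ⟨a, rfl⟩
    rw [h1, Submodule.span_image, b.span_eq, Submodule.map_subtype_top]
  have hrank : N.rank = r := by
    rw [Matrix.rank, hrange, hr]
  obtain ⟨g, -, hdet⟩ := ffch_exists_cols N r hrank f (by rw [hrange]; exact hf)
  have hdata : FfcrData N f g := by
    refine ⟨isUnit_iff_ne_zero.mpr hdet, fun i j => ?_⟩
    refine ffcr_bord_eq_zero_of_points (L := fun _ : Unit => k) (fun _ => RingHom.id k)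
      (fun b hb => hb ()) N f g (fun _ => ?_) i j
    have : N.map (RingHom.id k) = N := by
      ext a b
      simp
    rw [this, hrank]
    simp
  exact ⟨ffchZ N f, ffchZ_subf hdata, by rw [ffchZ_range hdata, hrange]⟩

end Cols

/-! ### Main statement for idempotent families -/

section Main

variable {R : Type*} [CommRing R] {k : Type*} [Field k]
variable {n : Type*} [Fintype n] [DecidableEq n]

/-- (CHART) An idempotent `P` over a ring with a local closed point `ρ₀`, of closed rank `r`, and a
chart `f : Fin r → n` separating the closed fibre of its range: the constant-rank hypotheses hold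
for `f` and suitable columns `g`, so the chart matrix `ffchZ P f` has identity `f`-rows, the same
range as `P`, commutes with base change and is unique on every fibre. -/
theorem ffch_main (ρ₀ : R →+* k) [IsLocalHom ρ₀] {P : Matrix n n R} (hP : P * P = P) {r : ℕ}
    (hr : (P.map ρ₀).rank = r) (f : Fin r → n)
    (hf : ∀ v ∈ LinearMap.range (P.map ρ₀).mulVecLin, v ∘ f = 0 → v = 0) :
    ∃ g : Fin r → n, Function.Injective g ∧ FfcrData P f g := by
  obtain ⟨g, hg, hdet⟩ := ffch_exists_cols (P.map ρ₀) r hr f hf
  refine ⟨g, hg, ffch_data_of_idem ρ₀ hP ?_ (by simpa using hr.le)⟩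
  rw [ffcr_det_submatrix_map] at hdet
  exact isUnit_of_map_unit ρ₀ _ (isUnit_iff_ne_zero.mpr hdet)

/-- All the consequences of `ffch_main` in one statement. -/
theorem ffch_main' (ρ₀ : R →+* k) [IsLocalHom ρ₀] {P : Matrix n n R} (hP : P * P = P) {r : ℕ}
    (hr : (P.map ρ₀).rank = r) (f : Fin r → n)
    (hf : ∀ v ∈ LinearMap.range (P.map ρ₀).mulVecLin, v ∘ f = 0 → v = 0) :
    (ffchZ P f).submatrix f id = 1 ∧
      LinearMap.range (ffchZ P f).mulVecLin = LinearMap.range P.mulVecLin ∧
      ffchZ P f * P.submatrix f id = P ∧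
      (∀ Z' : Matrix n (Fin r) R, Z'.submatrix f id = 1 →
        LinearMap.range Z'.mulVecLin = LinearMap.range P.mulVecLin → Z' = ffchZ P f) := by
  obtain ⟨g, -, h⟩ := ffch_main ρ₀ hP hr f hf
  exact ⟨ffchZ_subf h, ffchZ_range h, ffchZ_mul h, fun Z' h1 h2 => ffchZ_unique h h1 h2⟩

/-- Base change of `ffch_main`: on every fibre `φ : R →+* L` the image of the chart matrix is THE
matrix with identity `f`-rows and range `range (P.map φ)`. -/
theorem ffch_main_map (ρ₀ : R →+* k) [IsLocalHom ρ₀] {P : Matrix n n R} (hP : P * P = P) {r : ℕ}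
    (hr : (P.map ρ₀).rank = r) (f : Fin r → n)
    (hf : ∀ v ∈ LinearMap.range (P.map ρ₀).mulVecLin, v ∘ f = 0 → v = 0)
    {L : Type*} [CommRing L] (φ : R →+* L) :
    ((ffchZ P f).map φ).submatrix f id = 1 ∧
      LinearMap.range ((ffchZ P f).map φ).mulVecLin = LinearMap.range (P.map φ).mulVecLin ∧
      (∀ Z' : Matrix n (Fin r) L, Z'.submatrix f id = 1 →
        LinearMap.range Z'.mulVecLin = LinearMap.range (P.map φ).mulVecLin →
        Z' = (ffchZ P f).map φ) := by
  obtain ⟨g, -, h⟩ := ffch_main ρ₀ hP hr f hf
  refine ⟨?_, ?_, fun Z' h1 h2 => ffchZ_map_unique φ h h1 h2⟩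
  · rw [ffchZ_map φ h]; exact ffchZ_subf (h.map φ)
  · rw [ffchZ_map φ h]; exact ffchZ_range (h.map φ)

end Main

end Fermat.Agent.FF
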