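import Mathlib
import Fermat.Agent.V.RR.Pack

/-!
# Program FF (S19), genericity on a curve with a Riemann–Roch package (characteristic free)

Owner: helper27.  Prefix `ffgn`.

`R : V27RR K F g`, all places of degree one, infinitely many places.  For a finite family of
degree-zero divisors `Z c` (representatives of finitely many classes) and a finite set `Sig` of
places there is an effective divisor `D₀` of degree `g`, off `Sig`, such that for every `c`
* `l(Z c + D₀) = 1`, and
* `L(Z c + D₀ - s) = 0` for every `s ∈ Sig`,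
i.e. the unique effective divisor `E c ∈ |Z c + D₀|` avoids `Sig`.

Proof: by Riemann–Roch both conditions say `L(X - D₀) = 0` for the finitely many divisors
`X ∈ {W - Z c} ∪ {W - Z c + s}`, all with `l(X) ≤ g`; the `g` points of `D₀` are chosen one at a time
off the (finitely many) base points.  No separability, no characteristic assumption.
-/

set_option autoImplicit false
set_option linter.unusedSectionVars false
set_option linter.style.haveILetI false

noncomputable section

namespace Fermat.Agent.FF

open AlgebraicCurve Module Fermat.Agent.V.RR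

variable {K F : Type*} [Field K] [Field F] [Algebra K F] {g : ℕ}

/-- **one cutting step**: if `L(X) ≠ 0`, all places of degree one outside a finite set cut the
dimension down. -/
theorem ffgn_cut (R : V27RR K F g) {X : Divisor K F} (hX : riemannRochSpace X ≠ ⊥) :
    ∃ S : Finset (Place K F), ∀ P : Place K F, P ∉ S →
      finrank K (riemannRochSpace (X - Finsupp.single P 1)) + 1 ≤
        finrank K (riemannRochSpace X) := by
  classical
  haveI := R.hasDiv
  obtain ⟨s, hs, hs0⟩ := Submodule.exists_mem_ne_zero_of_ne_bot hX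
  obtain ⟨Ds, hDs, -⟩ := HasPrincipalDivisors.exists_divisor (K := K) s hs0
  refine ⟨(Ds + X).support, fun P hP => ?_⟩
  have hEP : (Ds + X) P = 0 := Finsupp.notMem_support_iff.1 hP
  rw [Finsupp.add_apply, hDs] at hEP
  have hle : riemannRochSpace (X - Finsupp.single P 1) ≤ riemannRochSpace X :=
    v27rr_rrSpace_mono (by
      rw [sub_le_self_iff]
      exact Finsupp.single_nonneg.mpr zero_le_one)
  have hsn : s ∉ riemannRochSpace (X - Finsupp.single P 1) := by
    intro hmem
    rw [mem_riemannRochSpace_iff] at hmem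
    have := (hmem P).resolve_left hs0
    rw [Finsupp.sub_apply, Finsupp.single_eq_same] at this
    omega
  have hlt : riemannRochSpace (X - Finsupp.single P 1) < riemannRochSpace X :=
    lt_of_le_of_ne hle (fun h => hsn (h ▸ hs))
  haveI := R.finL X
  exact Submodule.finrank_lt_finrank_of_lt hlt

/-- **cutting a finite family down to zero** by `n` points off a finite set. -/
theorem ffgn_family (R : V27RR K F g) [Infinite (Place K F)] {ι : Type*} [Finite ι]
    (Sig : Finset (Place K F)) :
    ∀ (n : ℕ) (X : ι → Divisor K F), (∀ j, finrank K (riemannRochSpace (X j)) ≤ n) →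
      ∃ A : Divisor K F, 0 ≤ A ∧ (∀ s ∈ Sig, A s = 0) ∧
        (∃ pts : Fin n → Place K F, A = ∑ i, Finsupp.single (pts i) (1 : ℤ)) ∧
        ∀ j, riemannRochSpace (X j - A) = ⊥ := by
  classical
  cases nonempty_fintype ι
  intro n
  induction n with
  | zero =>
    intro X hX
    refine ⟨0, le_rfl, fun _ _ => rfl, ⟨Fin.elim0, by simp⟩, fun j => ?_⟩
    haveI := R.finL (X j)
    rw [sub_zero]
    exact Submodule.finrank_eq_zero.1 (Nat.le_zero.1 (hX j))
  | succ n ih =>
    intro X hX
    -- the bad places
    have hex : ∀ j, ∃ S : Finset (Place K F), ∀ P : Place K F, P ∉ S →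
        finrank K (riemannRochSpace (X j - Finsupp.single P 1)) ≤ n := by
      intro j
      by_cases hj : riemannRochSpace (X j) = ⊥
      · refine ⟨∅, fun P _ => ?_⟩
        have hle : riemannRochSpace (X j - Finsupp.single P 1) ≤ riemannRochSpace (X j) :=
          v27rr_rrSpace_mono (by
            rw [sub_le_self_iff]
            exact Finsupp.single_nonneg.mpr zero_le_one)
        rw [hj, le_bot_iff] at hle
        rw [hle, finrank_bot]
        exact Nat.zero_le _
      · obtain ⟨S, hS⟩ := ffgn_cut R hj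
        refine ⟨S, fun P hP => ?_⟩
        have := hS P hP
        have := hX j
        omega
    choose S hS using hex
    obtain ⟨P, hP⟩ := Infinite.exists_notMem_finset (Sig ∪ Finset.univ.biUnion S)
    have hPSig : P ∉ Sig := fun h => hP (Finset.mem_union_left _ h)
    have hPS : ∀ j, P ∉ S j := fun j h =>
      hP (Finset.mem_union_right _ (Finset.mem_biUnion.2 ⟨j, Finset.mem_univ j, h⟩))
    obtain ⟨A, hA0, hASig, ⟨pts, hpts⟩, hA⟩ :=
      ih (fun j => X j - Finsupp.single P 1) (fun j => hS j P (hPS j))
    refine ⟨Finsupp.single P 1 + A, ?_, ?_, ?_, fun j => ?_⟩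
    · exact add_nonneg (Finsupp.single_nonneg.mpr zero_le_one) hA0
    · intro s hs
      rw [Finsupp.add_apply, hASig s hs, add_zero]
      exact Finsupp.single_eq_of_ne (fun h => hPSig (h ▸ hs))
    · refine ⟨Fin.cons P pts, ?_⟩
      rw [Fin.sum_univ_succ, hpts]
      simp
    · have : X j - (Finsupp.single P 1 + A) = X j - Finsupp.single P 1 - A := by abel
      rw [this]
      exact hA j

/-- `l(D) ≤ l(D - P) + 1` for a place of degree one. -/
theorem ffgn_finrank_le_sub_single_add_one (R : V27RR K F g) (D : Divisor K F) {P : Place K F}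
    (hP : P.deg = 1) :
    finrank K (riemannRochSpace D) ≤ finrank K (riemannRochSpace (D - Finsupp.single P 1)) + 1 := by
  obtain ⟨W, hW, -, -, hRR⟩ := R.can
  have h1 := hRR D
  have h2 := hRR (D - Finsupp.single P 1)
  rw [map_sub, Divisor.degree_single, hP] at h2
  haveI := R.finL (W - (D - Finsupp.single P 1))
  have hm : finrank K (riemannRochSpace (W - D)) ≤
      finrank K (riemannRochSpace (W - (D - Finsupp.single P 1))) := by
    refine Submodule.finrank_mono (v27rr_rrSpace_mono ?_)
    have : W - (D - Finsupp.single P 1) = W - D + Finsupp.single P 1 := by abel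
    rw [this]
    exact le_add_of_nonneg_right (Finsupp.single_nonneg.mpr zero_le_one)
  have hm' : (finrank K (riemannRochSpace (W - D)) : ℤ) ≤
      finrank K (riemannRochSpace (W - (D - Finsupp.single P 1))) := by exact_mod_cast hm
  push_cast at h2
  have : (finrank K (riemannRochSpace D) : ℤ) ≤
      finrank K (riemannRochSpace (D - Finsupp.single P 1)) + 1 := by linarith
  exact_mod_cast this

/-- a divisor of degree zero has `l ≤ 1`. -/
theorem ffgn_finrank_le_one (R : V27RR K F g) (hdeg1 : ∀ v : Place K F, v.deg = 1)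
    {Z : Divisor K F} (hZ : Divisor.degree Z = 0) :
    finrank K (riemannRochSpace Z) ≤ 1 := by
  obtain ⟨P⟩ := R.place
  have h := ffgn_finrank_le_sub_single_add_one R Z (hdeg1 P)
  have hbot : riemannRochSpace (Z - Finsupp.single P 1) = ⊥ := by
    apply R.neg
    rw [map_sub, hZ, Divisor.degree_single, hdeg1 P]
    norm_num
  rw [hbot, finrank_bot] at h
  exact h

/-- **the generic divisor**: for finitely many classes `Z c` of degree `0` and a finite set `Sig`
of places there is an effective `D₀` of degree `g` off `Sig` with `l(Z c + D₀) = 1` and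
`L(Z c + D₀ - s) = 0` for all `s ∈ Sig`, all `c`. -/
theorem ffgn_main' (R : V27RR K F g) (hdeg1 : ∀ v : Place K F, v.deg = 1)
    [Infinite (Place K F)] {ι : Type*} [Finite ι]
    (Z : ι → Divisor K F) (hZ : ∀ c, Divisor.degree (Z c) = 0) (Sig : Finset (Place K F)) :
    ∃ D₀ : Divisor K F, 0 ≤ D₀ ∧ Divisor.degree D₀ = g ∧ (∀ s ∈ Sig, D₀ s = 0) ∧
      (∃ pts : Fin g → Place K F, D₀ = ∑ i, Finsupp.single (pts i) (1 : ℤ)) ∧
      ∀ c, finrank K (riemannRochSpace (Z c + D₀)) = 1 ∧
        ∀ s ∈ Sig, riemannRochSpace (Z c + D₀ - Finsupp.single s 1) = ⊥ := by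
  classical
  obtain ⟨W, hWdeg, -, -, hRR⟩ := R.can
  -- the family
  let X : ι ⊕ (ι × Sig) → Divisor K F := fun j =>
    match j with
    | Sum.inl c => W - Z c
    | Sum.inr (c, s) => W - Z c + Finsupp.single (s : Place K F) 1
  have hX : ∀ j, finrank K (riemannRochSpace (X j)) ≤ g := by
    rintro (c | ⟨c, s⟩)
    · show finrank K (riemannRochSpace (W - Z c)) ≤ g
      have h := hRR (W - Z c)
      have h1 := ffgn_finrank_le_one R hdeg1 (hZ c)
      have e : W - (W - Z c) = Z c := by abel
      rw [e, map_sub, hWdeg, hZ c] at h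
      have h1' : (finrank K (riemannRochSpace (Z c)) : ℤ) ≤ 1 := by exact_mod_cast h1
      have : (finrank K (riemannRochSpace (W - Z c)) : ℤ) ≤ g := by linarith
      exact_mod_cast this
    · show finrank K (riemannRochSpace (W - Z c + Finsupp.single (s : Place K F) 1)) ≤ g
      have h := hRR (W - Z c + Finsupp.single (s : Place K F) 1)
      have e : W - (W - Z c + Finsupp.single (s : Place K F) 1) =
          Z c - Finsupp.single (s : Place K F) 1 := by abel
      have hbot : riemannRochSpace (Z c - Finsupp.single (s : Place K F) 1) = ⊥ := by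
        apply R.neg
        rw [map_sub, hZ c, Divisor.degree_single, hdeg1]
        norm_num
      rw [e, hbot, finrank_bot, map_add, map_sub, hWdeg, hZ c, Divisor.degree_single, hdeg1] at h
      have : (finrank K (riemannRochSpace (W - Z c + Finsupp.single (s : Place K F) 1)) : ℤ)
          ≤ g := by push_cast at h; linarith
      exact_mod_cast this
  obtain ⟨A, hA0, hASig, ⟨pts, hpts⟩, hA⟩ := ffgn_family R Sig g X hX
  have hAdeg : Divisor.degree A = g := by
    rw [hpts, map_sum]
    simp [Divisor.degree_single, hdeg1]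
  refine ⟨A, hA0, hAdeg, hASig, ⟨pts, hpts⟩, fun c => ⟨?_, fun s hs => ?_⟩⟩
  · have h := hRR (Z c + A)
    have e : W - (Z c + A) = W - Z c - A := by abel
    have hb : riemannRochSpace (W - Z c - A) = ⊥ := hA (Sum.inl c)
    rw [e, hb, finrank_bot, map_add, hZ c, hAdeg] at h
    have : (finrank K (riemannRochSpace (Z c + A)) : ℤ) = 1 := by push_cast at h; linarith
    exact_mod_cast this
  · have h := hRR (Z c + A - Finsupp.single s 1)
    have e : W - (Z c + A - Finsupp.single s 1) = W - Z c + Finsupp.single s 1 - A := by abel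
    have hb : riemannRochSpace (W - Z c + Finsupp.single s 1 - A) = ⊥ := hA (Sum.inr (c, ⟨s, hs⟩))
    rw [e, hb, finrank_bot, map_sub, map_add, hZ c, hAdeg, Divisor.degree_single, hdeg1] at h
    have h0 : (finrank K (riemannRochSpace (Z c + A - Finsupp.single s 1)) : ℤ) = 0 := by
      push_cast at h; linarith
    haveI := R.finL (Z c + A - Finsupp.single s 1)
    exact Submodule.finrank_eq_zero.1 (by exact_mod_cast h0)

/-- **`ffgn_main`** in the announced spelling (`Set.univ.Infinite`). -/
theorem ffgn_main (R : V27RR K F g) (hdeg1 : ∀ v : Place K F, v.deg = 1)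
    (hinf : (Set.univ : Set (Place K F)).Infinite) {ι : Type*} [Finite ι]
    (Z : ι → Divisor K F) (hZ : ∀ c, Divisor.degree (Z c) = 0) (Sig : Finset (Place K F)) :
    ∃ D₀ : Divisor K F, 0 ≤ D₀ ∧ Divisor.degree D₀ = g ∧ (∀ s ∈ Sig, D₀ s = 0) ∧
      ∀ c, finrank K (riemannRochSpace (Z c + D₀)) = 1 ∧
        ∀ s ∈ Sig, riemannRochSpace (Z c + D₀ - Finsupp.single s 1) = ⊥ := by
  haveI : Infinite (Place K F) := Set.infinite_univ_iff.1 hinf
  obtain ⟨D₀, h0, hd, hS, -, h⟩ := ffgn_main' R hdeg1 Z hZ Sig
  exact ⟨D₀, h0, hd, hS, h⟩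

/-- **the effective representatives**: with `D₀` from `ffgn_main`, the unique effective divisor
`E c = div f + Z c + D₀` of the class `Z c + D₀` exists, has degree `g`, `l(E c) = 1`, and avoids
`Sig`. -/
theorem ffgn_effective (R : V27RR K F g) {Z D₀ : Divisor K F} (Sig : Finset (Place K F))
    (h1 : finrank K (riemannRochSpace (Z + D₀)) = 1)
    (hS : ∀ s ∈ Sig, riemannRochSpace (Z + D₀ - Finsupp.single s 1) = ⊥) :
    ∃ (f : F) (E : Divisor K F), f ≠ 0 ∧ (∀ v : Place K F, E v = v.ord f + Z v + D₀ v) ∧
      0 ≤ E ∧ (∀ s ∈ Sig, E s = 0) ∧ Divisor.degree E = Divisor.degree (Z + D₀) ∧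
      (∀ f' ∈ riemannRochSpace (Z + D₀), ∃ a : K, f' = a • f) := by
  classical
  haveI := R.hasDiv
  haveI := R.finL (Z + D₀)
  have hne : riemannRochSpace (Z + D₀) ≠ ⊥ := by
    intro h
    rw [h, finrank_bot] at h1
    exact zero_ne_one h1
  obtain ⟨f, hf, hf0⟩ := Submodule.exists_mem_ne_zero_of_ne_bot hne
  obtain ⟨Df, hDf, hDfdeg⟩ := HasPrincipalDivisors.exists_divisor (K := K) f hf0
  have hfm := mem_riemannRochSpace_iff.1 hf
  have hE : ∀ v : Place K F, (Df + (Z + D₀)) v = v.ord f + Z v + D₀ v := fun v => by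
    rw [Finsupp.add_apply, Finsupp.add_apply, hDf]; ring
  refine ⟨f, Df + (Z + D₀), hf0, hE, ?_, ?_, ?_, ?_⟩
  · intro v
    rw [hE]
    have := (hfm v).resolve_left hf0
    rw [Finsupp.add_apply] at this
    show (0 : ℤ) ≤ _
    linarith
  · intro s hs
    have hge : 0 ≤ (Df + (Z + D₀)) s := by
      rw [hE]
      have := (hfm s).resolve_left hf0
      rw [Finsupp.add_apply] at this
      linarith
    by_contra hne0
    have hpos : 1 ≤ (Df + (Z + D₀)) s := by
      rcases hge.lt_or_eq with h | h
      · exact h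
      · exact absurd h.symm hne0
    have hmem : f ∈ riemannRochSpace (Z + D₀ - Finsupp.single s 1) := by
      rw [mem_riemannRochSpace_iff]
      intro v
      right
      have hv := (hfm v).resolve_left hf0
      rw [Finsupp.sub_apply]
      by_cases hvs : v = s
      · subst hvs
        rw [Finsupp.single_eq_same]
        rw [hE] at hpos
        rw [Finsupp.add_apply]
        linarith
      · rw [Finsupp.single_eq_of_ne hvs]
        linarith
    rw [hS s hs, Submodule.mem_bot] at hmem
    exact hf0 hmem
  · rw [map_add, hDfdeg, zero_add]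
  · intro f' hf'
    have h1' : finrank K (riemannRochSpace (Z + D₀)) = 1 := h1
    obtain ⟨a, ha⟩ := (finrank_eq_one_iff_of_nonzero' (⟨f, hf⟩ : riemannRochSpace (Z + D₀))
      (fun h => hf0 (congrArg Subtype.val h))).1 h1' ⟨f', hf'⟩
    exact ⟨a, by simpa using (congrArg Subtype.val ha).symm⟩

/-- `dim L` only depends on the linear equivalence class. -/
theorem ffgn_finrank_of_sub_eq_ord {D D' : Divisor K F} {u : F}
    (hu : u ≠ 0) (hd : ∀ v : Place K F, (D' - D) v = v.ord u) :
    finrank K (riemannRochSpace D') = finrank K (riemannRochSpace D) := by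
  refine LinearEquiv.finrank_eq
    { toFun := fun s => ⟨(s : F) * u, ?_⟩
      invFun := fun s => ⟨(s : F) * u⁻¹, ?_⟩
      left_inv := fun s => Subtype.ext (by
        show (s : F) * u * u⁻¹ = (s : F)
        rw [mul_assoc, mul_inv_cancel₀ hu, mul_one])
      right_inv := fun s => Subtype.ext (by
        show (s : F) * u⁻¹ * u = (s : F)
        rw [mul_assoc, inv_mul_cancel₀ hu, mul_one])
      map_add' := fun a b => Subtype.ext (add_mul (a : F) (b : F) u)
      map_smul' := fun c a => Subtype.ext (smul_mul_assoc c (a : F) u) }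
  · have hs := mem_riemannRochSpace_iff.mp s.2
    rw [mem_riemannRochSpace_iff]
    intro v
    rcases eq_or_ne (s : F) 0 with h0 | h0
    · left; rw [h0, zero_mul]
    · right
      rw [v.ord_mul h0 hu, ← hd, Finsupp.sub_apply]
      have := (hs v).resolve_left h0
      linarith
  · have hs := mem_riemannRochSpace_iff.mp s.2
    rw [mem_riemannRochSpace_iff]
    intro v
    rcases eq_or_ne (s : F) 0 with h0 | h0
    · left; rw [h0, zero_mul]
    · right
      rw [v.ord_mul h0 (inv_ne_zero hu), v.ord_inv, ← hd, Finsupp.sub_apply]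
      have := (hs v).resolve_left h0
      linarith

/-- **`ffgn_main` with the effective representatives**: `D₀` generic of degree `g` off `Sig`, and
for every class `c` the unique effective `E c = div (f c) + Z c + D₀` of degree `g` with
`l(E c) = 1`, disjoint from `Sig`. -/
theorem ffgn_main_eff (R : V27RR K F g) (hdeg1 : ∀ v : Place K F, v.deg = 1)
    [Infinite (Place K F)] {ι : Type*} [Finite ι]
    (Z : ι → Divisor K F) (hZ : ∀ c, Divisor.degree (Z c) = 0) (Sig : Finset (Place K F)) :
    ∃ (D₀ : Divisor K F) (f : ι → F) (E : ι → Divisor K F),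
      0 ≤ D₀ ∧ Divisor.degree D₀ = g ∧ (∀ s ∈ Sig, D₀ s = 0) ∧
      ∀ c, f c ≠ 0 ∧ (∀ v : Place K F, E c v = v.ord (f c) + Z c v + D₀ v) ∧ 0 ≤ E c ∧
        Divisor.degree (E c) = g ∧ (∀ s ∈ Sig, E c s = 0) ∧
        finrank K (riemannRochSpace (E c)) = 1 ∧
        finrank K (riemannRochSpace (Z c + D₀)) = 1 ∧
        (∀ f' ∈ riemannRochSpace (Z c + D₀), ∃ a : K, f' = a • f c) := by
  classical
  obtain ⟨D₀, h0, hd, hS, -, h⟩ := ffgn_main' R hdeg1 Z hZ Sig
  have hex : ∀ c, ∃ (f : F) (E : Divisor K F), f ≠ 0 ∧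
      (∀ v : Place K F, E v = v.ord f + Z c v + D₀ v) ∧
      0 ≤ E ∧ (∀ s ∈ Sig, E s = 0) ∧ Divisor.degree E = Divisor.degree (Z c + D₀) ∧
      (∀ f' ∈ riemannRochSpace (Z c + D₀), ∃ a : K, f' = a • f) :=
    fun c => ffgn_effective R Sig (h c).1 (h c).2
  choose f E hf hE hE0 hES hEd hspan using hex
  refine ⟨D₀, f, E, h0, hd, hS, fun c => ⟨hf c, hE c, hE0 c, ?_, hES c, ?_, (h c).1, hspan c⟩⟩
  · rw [hEd c, map_add, hZ c, hd, zero_add]
  · refine ((ffgn_finrank_of_sub_eq_ord (D := Z c + D₀) (D' := E c) (u := f c) (hf c) (fun v => ?_)).trans (h c).1)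
    rw [Finsupp.sub_apply, hE c v, Finsupp.add_apply]
    ring

end Fermat.Agent.FF
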