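import Mathlib
import Fermat.Agent.V.RRCor.Avoid
import Fermat.Agent.MW17.ProjNormalGen

/-!
# Program FF (S19): the field-level Khuri-Makdisi identities on `V27RR`

Owner: helper28.  Namespace `Fermat.Agent.FF`, prefix `ffkm`.

`F / K` a function field with the Riemann-Roch package `R : V27RR K F g`, all places of degree one,
`K` infinite (e.g. algebraically closed).  The group law on divisor classes is computed by linear
algebra on the spaces `L(A)` (K. Khuri-Makdisi, *Linear algebra algorithms for divisors on an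
algebraic curve*): products, colons, principal multiples, intersections, sums.

* `ffkm_exists_ord_eq`  : `L(B)` is base-point-free for `deg B ≥ 2g` (exact order at a place);
* `ffkm_le_iff`         : `L(X) ≤ L(Y) ↔ X ≤ Y` for `deg X ≥ 2g` (base locus; `ffkm_injective`);
* `ffkm_mul_eq`         : `L(A) * L(B) = L(A + B)` (`deg A ≥ 4g`, `deg B ≥ 2g`);
* `ffkm_colon`          : `(∀ b ∈ L(B), f * b ∈ L(C)) ↔ f ∈ L(C - B)` (`deg B ≥ 2g`);
* `ffkm_map_mul_eq`     : `s • L(A) = L(A - div s)`;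
* `ffkm_inf`            : `L(X) ⊓ L(Y) = L(X ⊓ Y)`;
* `ffkm_sup`            : `L(X) ⊔ L(Y) = L(X ⊔ Y)` (`deg (X ⊓ Y) ≥ 2g - 1`);
* `ffkm_finrank`        : `l(A) = deg A + 1 - g` (`deg A ≥ 2g - 1`).
-/

set_option autoImplicit false
set_option linter.unusedSectionVars false
set_option linter.unusedVariables false

noncomputable section

namespace Fermat.Agent.FF

open AlgebraicCurve Module Fermat.Agent.V.RR Fermat.Agent.V Fermat.Agent.MW17

variable {K F : Type*} [Field K] [Field F] [Algebra K F] {g : ℕ}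

/-! ### membership -/

theorem ffkm_mem_iff {A : Divisor K F} {f : F} (hf : f ≠ 0) :
    f ∈ riemannRochSpace A ↔ ∀ v : Place K F, -A v ≤ v.ord f := by
  rw [mem_riemannRochSpace_iff]
  exact forall_congr' fun v => ⟨fun h => h.resolve_left hf, Or.inr⟩

theorem ffkm_mono {X Y : Divisor K F} (h : X ≤ Y) : riemannRochSpace X ≤ riemannRochSpace Y :=
  v27rr_rrSpace_mono h

/-! ### dimension -/

/-- `l(A) = deg A + 1 - g` for `deg A ≥ 2g - 1` -/
theorem ffkm_finrank (R : V27RR K F g) {A : Divisor K F}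
    (hA : 2 * (g : ℤ) - 1 ≤ Divisor.degree A) :
    (finrank K (riemannRochSpace A) : ℤ) = Divisor.degree A + 1 - g :=
  (R.finrank_of_lt (by linarith)).1

/-! ### base-point-freeness -/

/-- `L(B)` is base-point-free for `deg B ≥ 2g`: exact order `-B P` on any finite set of places -/
theorem ffkm_exists_ord_eq [Infinite K] (R : V27RR K F g) (hdeg1 : ∀ v : Place K F, v.deg = 1)
    {B : Divisor K F} (hB : 2 * (g : ℤ) ≤ Divisor.degree B) (T : Finset (Place K F)) :
    ∃ b : F, b ≠ 0 ∧ b ∈ riemannRochSpace B ∧ ∀ P ∈ T, P.ord b = -B P :=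
  v27rc_exists_ord_eq_on' R hdeg1 B T (by linarith)

/-- **the colon lemma**: `f • L(B) ⊆ L(C) ↔ f ∈ L(C - B)` for `deg B ≥ 2g` -/
theorem ffkm_colon [Infinite K] (R : V27RR K F g) (hdeg1 : ∀ v : Place K F, v.deg = 1)
    {B : Divisor K F} (hB : 2 * (g : ℤ) ≤ Divisor.degree B) (C : Divisor K F) (f : F) :
    (∀ b ∈ riemannRochSpace B, f * b ∈ riemannRochSpace C) ↔ f ∈ riemannRochSpace (C - B) := by
  classical
  constructor
  · intro h
    by_cases hf : f = 0
    · rw [hf]
      exact Submodule.zero_mem _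
    rw [ffkm_mem_iff hf]
    intro v
    obtain ⟨b, hb0, hb, hord⟩ := ffkm_exists_ord_eq R hdeg1 hB {v}
    have h1 := (ffkm_mem_iff (mul_ne_zero hf hb0)).mp (h b hb) v
    rw [v.ord_mul hf hb0, hord v (Finset.mem_singleton_self v)] at h1
    rw [Finsupp.sub_apply]
    linarith
  · intro h b hb
    have := mw17pg_mul_mem h hb
    rwa [sub_add_cancel] at this

/-- the colon as a submodule -/
theorem ffkm_colon_eq [Infinite K] (R : V27RR K F g) (hdeg1 : ∀ v : Place K F, v.deg = 1)
    {B : Divisor K F} (hB : 2 * (g : ℤ) ≤ Divisor.degree B) (A C : Divisor K F) (f : F) :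
    (f ∈ riemannRochSpace A ∧ ∀ b ∈ riemannRochSpace B, f * b ∈ riemannRochSpace C) ↔
      f ∈ riemannRochSpace (A ⊓ (C - B)) := by
  classical
  rw [ffkm_colon R hdeg1 hB C f]
  by_cases hf : f = 0
  · rw [hf]
    simp only [Submodule.zero_mem, and_self]
  rw [ffkm_mem_iff hf, ffkm_mem_iff hf, ffkm_mem_iff hf]
  constructor
  · rintro ⟨h1, h2⟩ v
    rw [Finsupp.inf_apply]
    rcases min_cases (A v) ((C - B) v) with ⟨h, _⟩ | ⟨h, _⟩
    · rw [h]; exact h1 v
    · rw [h]; exact h2 v
  · intro h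
    refine ⟨fun v => ?_, fun v => ?_⟩
    · have := h v
      rw [Finsupp.inf_apply] at this
      have h3 := min_le_left (A v) ((C - B) v)
      linarith
    · have := h v
      rw [Finsupp.inf_apply] at this
      have h3 := min_le_right (A v) ((C - B) v)
      linarith

/-- **base locus**: `L(X) ≤ L(Y) ↔ X ≤ Y` for `deg X ≥ 2g` -/
theorem ffkm_le_iff [Infinite K] (R : V27RR K F g) (hdeg1 : ∀ v : Place K F, v.deg = 1)
    {X : Divisor K F} (hX : 2 * (g : ℤ) ≤ Divisor.degree X) (Y : Divisor K F) :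
    riemannRochSpace X ≤ riemannRochSpace Y ↔ X ≤ Y := by
  classical
  refine ⟨fun h => ?_, ffkm_mono⟩
  rw [Finsupp.le_def]
  intro v
  obtain ⟨b, hb0, hb, hord⟩ := ffkm_exists_ord_eq R hdeg1 hX {v}
  have h1 := (ffkm_mem_iff hb0).mp (h hb) v
  rw [hord v (Finset.mem_singleton_self v)] at h1
  linarith

/-- `A ↦ L(A)` is injective on divisors of degree `≥ 2g` -/
theorem ffkm_injective [Infinite K] (R : V27RR K F g) (hdeg1 : ∀ v : Place K F, v.deg = 1)
    {X Y : Divisor K F} (hX : 2 * (g : ℤ) ≤ Divisor.degree X)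
    (hY : 2 * (g : ℤ) ≤ Divisor.degree Y)
    (h : riemannRochSpace X = riemannRochSpace Y) : X = Y :=
  le_antisymm ((ffkm_le_iff R hdeg1 hX Y).mp h.le) ((ffkm_le_iff R hdeg1 hY X).mp h.ge)

/-! ### products -/

/-- `L(A) * L(B) = L(A + B)` for `deg A ≥ 4g`, `deg B ≥ 2g` -/
theorem ffkm_mul_eq [Infinite K] (R : V27RR K F g) (hdeg1 : ∀ v : Place K F, v.deg = 1)
    {A B : Divisor K F} (hA : 4 * (g : ℤ) ≤ Divisor.degree A)
    (hB : 2 * (g : ℤ) ≤ Divisor.degree B) :
    riemannRochSpace A * riemannRochSpace B = riemannRochSpace (A + B) :=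
  mw17pg_mul_eq R hdeg1 A B hA hB

/-! ### principal multiples -/

/-- `s • L(A) = L(A - div s)` -/
theorem ffkm_map_mul_eq {s : F} (hs : s ≠ 0) {Ds : Divisor K F}
    (hDs : ∀ v : Place K F, Ds v = v.ord s) (A : Divisor K F) :
    (riemannRochSpace A).map (LinearMap.mulLeft K s) = riemannRochSpace (A - Ds) := by
  ext f
  rw [Submodule.mem_map]
  constructor
  · rintro ⟨h, hh, rfl⟩
    rw [LinearMap.mulLeft_apply]
    by_cases h0 : h = 0
    · rw [h0, mul_zero]
      exact Submodule.zero_mem _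
    rw [ffkm_mem_iff (mul_ne_zero hs h0)]
    intro v
    have := (ffkm_mem_iff h0).mp hh v
    rw [v.ord_mul hs h0, Finsupp.sub_apply, hDs v]
    linarith
  · intro hf
    refine ⟨s⁻¹ * f, ?_, ?_⟩
    · by_cases h0 : f = 0
      · rw [h0, mul_zero]
        exact Submodule.zero_mem _
      rw [ffkm_mem_iff (mul_ne_zero (inv_ne_zero hs) h0)]
      intro v
      have := (ffkm_mem_iff h0).mp hf v
      rw [Finsupp.sub_apply, hDs v] at this
      rw [v.ord_mul (inv_ne_zero hs) h0, v.ord_inv]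
      linarith
    · rw [LinearMap.mulLeft_apply, mul_inv_cancel_left₀ hs]

/-! ### intersections and sums -/

/-- `L(X) ⊓ L(Y) = L(X ⊓ Y)` -/
theorem ffkm_inf (X Y : Divisor K F) :
    riemannRochSpace X ⊓ riemannRochSpace Y = riemannRochSpace (X ⊓ Y) := by
  ext f
  rw [Submodule.mem_inf]
  by_cases hf : f = 0
  · rw [hf]
    simp only [Submodule.zero_mem, and_self]
  rw [ffkm_mem_iff hf, ffkm_mem_iff hf, ffkm_mem_iff hf]
  constructor
  · rintro ⟨h1, h2⟩ v
    rw [Finsupp.inf_apply]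
    rcases min_cases (X v) (Y v) with ⟨h, _⟩ | ⟨h, _⟩
    · rw [h]; exact h1 v
    · rw [h]; exact h2 v
  · intro h
    refine ⟨fun v => ?_, fun v => ?_⟩
    · have := h v
      rw [Finsupp.inf_apply] at this
      have h3 := min_le_left (X v) (Y v)
      linarith
    · have := h v
      rw [Finsupp.inf_apply] at this
      have h3 := min_le_right (X v) (Y v)
      linarith

theorem ffkm_degree_sup_add_inf (X Y : Divisor K F) :
    Divisor.degree (X ⊔ Y) + Divisor.degree (X ⊓ Y) = Divisor.degree X + Divisor.degree Y := by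
  rw [← map_add, ← map_add]
  congr 1
  ext v
  simp only [Finsupp.add_apply, Finsupp.sup_apply, Finsupp.inf_apply]
  exact max_add_min (X v) (Y v)

/-- `L(X) ⊔ L(Y) = L(X ⊔ Y)` for `deg (X ⊓ Y) ≥ 2g - 1` -/
theorem ffkm_sup (R : V27RR K F g) {X Y : Divisor K F}
    (h : 2 * (g : ℤ) - 1 ≤ Divisor.degree (X ⊓ Y)) :
    riemannRochSpace X ⊔ riemannRochSpace Y = riemannRochSpace (X ⊔ Y) := by
  have hfinX : Module.Finite K (riemannRochSpace X) := R.finL X
  have hfinY : Module.Finite K (riemannRochSpace Y) := R.finL Y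
  have hfinS : Module.Finite K (riemannRochSpace (X ⊔ Y)) := R.finL _
  have hle : riemannRochSpace X ⊔ riemannRochSpace Y ≤ riemannRochSpace (X ⊔ Y) :=
    sup_le (ffkm_mono le_sup_left) (ffkm_mono le_sup_right)
  have hmonoX : Divisor.degree (X ⊓ Y) ≤ Divisor.degree X := by
    have h0 : (0 : Divisor K F) ≤ X - X ⊓ Y := sub_nonneg.mpr inf_le_left
    have h1 : 0 ≤ Divisor.degree (X - X ⊓ Y) := by
      rw [Divisor.degree, Finsupp.liftAddHom_apply, Finsupp.sum]
      refine Finset.sum_nonneg fun v _ => ?_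
      simp only [AddMonoidHom.mulRight_apply]
      exact mul_nonneg (Finsupp.le_def.mp h0 v) (Int.natCast_nonneg _)
    rw [map_sub] at h1
    linarith
  have hmonoY : Divisor.degree (X ⊓ Y) ≤ Divisor.degree Y := by
    have h0 : (0 : Divisor K F) ≤ Y - X ⊓ Y := sub_nonneg.mpr inf_le_right
    have h1 : 0 ≤ Divisor.degree (Y - X ⊓ Y) := by
      rw [Divisor.degree, Finsupp.liftAddHom_apply, Finsupp.sum]
      refine Finset.sum_nonneg fun v _ => ?_
      simp only [AddMonoidHom.mulRight_apply]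
      exact mul_nonneg (Finsupp.le_def.mp h0 v) (Int.natCast_nonneg _)
    rw [map_sub] at h1
    linarith
  have hdeg := ffkm_degree_sup_add_inf X Y
  have hS : 2 * (g : ℤ) - 1 ≤ Divisor.degree (X ⊔ Y) := by linarith
  have e1 := ffkm_finrank R (A := X) (by linarith)
  have e2 := ffkm_finrank R (A := Y) (by linarith)
  have e3 := ffkm_finrank R (A := X ⊓ Y) h
  have e4 := ffkm_finrank R (A := X ⊔ Y) hS
  have hdim := Submodule.finrank_sup_add_finrank_inf_eq (riemannRochSpace X) (riemannRochSpace Y)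
  rw [ffkm_inf] at hdim
  refine Submodule.eq_of_le_of_finrank_le hle ?_
  have : (finrank K (riemannRochSpace (X ⊔ Y)) : ℤ) ≤
      finrank K ↥(riemannRochSpace X ⊔ riemannRochSpace Y) := by
    have hdim' : (finrank K ↥(riemannRochSpace X ⊔ riemannRochSpace Y) : ℤ) +
        finrank K (riemannRochSpace (X ⊓ Y)) =
        finrank K (riemannRochSpace X) + finrank K (riemannRochSpace Y) := by
      exact_mod_cast hdim
    linarith
  exact_mod_cast this

/-- `L(X - D) ⊓ L(X - E) = L(X - D - E)` for `D`, `E` with disjoint supports (`D ⊓ E = 0`) -/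
theorem ffkm_inf_disjoint (X D E : Divisor K F) (h : D ⊓ E = 0) :
    riemannRochSpace (X - D) ⊓ riemannRochSpace (X - E) = riemannRochSpace (X - D - E) := by
  rw [ffkm_inf]
  congr 1
  ext v
  have h1 : min (D v) (E v) = 0 := by
    have := congrArg (fun Z : Divisor K F => Z v) h
    simpa only [Finsupp.inf_apply, Finsupp.zero_apply] using this
  simp only [Finsupp.inf_apply, Finsupp.sub_apply]
  rcases min_cases (D v) (E v) with ⟨h2, h3⟩ | ⟨h2, h3⟩
  · rw [h2] at h1
    rw [h1] at h3 ⊢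
    rw [min_eq_right (by linarith)]
    ring
  · rw [h2] at h1
    rw [h1] at h3 ⊢
    rw [min_eq_left (by linarith)]
    ring

/-! ### the flip -/

/-- the residual divisor of a section: `s ∈ L(X)`, `s ≠ 0` ⟹ `X + div s` is effective of degree
`deg X` -/
theorem ffkm_residual (R : V27RR K F g) {X : Divisor K F} {s : F} (hs : s ≠ 0)
    (hmem : s ∈ riemannRochSpace X) {Ds : Divisor K F} (hDs : ∀ v : Place K F, Ds v = v.ord s) :
    0 ≤ X + Ds ∧ Divisor.degree (X + Ds) = Divisor.degree X := by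
  have := R.hasDiv
  refine ⟨?_, ?_⟩
  · rw [Finsupp.le_def]
    intro v
    have := (ffkm_mem_iff hs).mp hmem v
    rw [Finsupp.zero_apply, Finsupp.add_apply, hDs v]
    linarith
  · have h0 : Divisor.degree Ds = 0 := v27rc_degree_of_isPrincipal ⟨s, hs, hDs⟩
    rw [map_add, h0, add_zero]

/-- a non-zero element of a one-dimensional `L(X)` spans it -/
theorem ffkm_span_of_finrank_one (R : V27RR K F g) {X : Divisor K F}
    (h1 : finrank K (riemannRochSpace X) = 1) {s : F} (hs : s ≠ 0)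
    (hmem : s ∈ riemannRochSpace X) : riemannRochSpace X = Submodule.span K {s} := by
  have hfin : Module.Finite K (riemannRochSpace X) := R.finL X
  symm
  refine Submodule.eq_of_le_of_finrank_le ?_ ?_
  · rw [Submodule.span_le]
    intro x hx
    rw [Set.mem_singleton_iff] at hx
    rw [hx]
    exact hmem
  · rw [h1, finrank_span_singleton hs]

/-- **the colon by a principal multiple** (the division step of the flip):
`f • L(B) ⊆ s • L(Y) ↔ f ∈ L(Y - div s - B)` for `deg B ≥ 2g` -/
theorem ffkm_colon_smul [Infinite K] (R : V27RR K F g) (hdeg1 : ∀ v : Place K F, v.deg = 1)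
    {B : Divisor K F} (hB : 2 * (g : ℤ) ≤ Divisor.degree B) {s : F} (hs : s ≠ 0)
    {Ds : Divisor K F} (hDs : ∀ v : Place K F, Ds v = v.ord s) (Y : Divisor K F) (f : F) :
    (∀ b ∈ riemannRochSpace B, f * b ∈ (riemannRochSpace Y).map (LinearMap.mulLeft K s)) ↔
      f ∈ riemannRochSpace (Y - Ds - B) := by
  rw [ffkm_map_mul_eq hs hDs Y]
  exact ffkm_colon R hdeg1 hB (Y - Ds) f

/-- **the flip**: `s ≠ 0` in `L(M - T)`; the residual divisor `Z := M - T + div s`; then
`L(A - Z) = {f : f • L(B - T) ⊆ s • L(A + B - M)}` (`deg (B - T) ≥ 2g`). -/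
theorem ffkm_flip [Infinite K] (R : V27RR K F g) (hdeg1 : ∀ v : Place K F, v.deg = 1)
    (M T A B : Divisor K F) (hB : 2 * (g : ℤ) ≤ Divisor.degree (B - T)) {s : F} (hs : s ≠ 0)
    {Ds : Divisor K F} (hDs : ∀ v : Place K F, Ds v = v.ord s) (f : F) :
    (∀ b ∈ riemannRochSpace (B - T),
      f * b ∈ (riemannRochSpace (A + B - M)).map (LinearMap.mulLeft K s)) ↔
      f ∈ riemannRochSpace (A - (M - T + Ds)) := by
  rw [ffkm_colon_smul R hdeg1 hB hs hDs]
  have : A + B - M - Ds - (B - T) = A - (M - T + Ds) := by abel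
  rw [this]

/-- two flips compute the sum: with `Z₁ = M - T - E + div s` and
`Z₂ = M - Z₁ - E - D₀ + div s'` one has `Z₂ = T - D₀ + div s' - div s`. -/
theorem ffkm_two_flips (M T E D₀ Ds Ds' : Divisor K F) :
    M - (M - T - E + Ds) - E - D₀ + Ds' = T - D₀ + Ds' - Ds := by
  abel

end Fermat.Agent.FF
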