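import Mathlib
import Fermat.Agent.FF.KMField

/-!
# Program FF (S19): general position on `V27RR`

Owner: helper28.  Namespace `Fermat.Agent.FF`, prefix `ffkg`.

`F / K` with `R : V27RR K F g`, all places of degree one, `K` infinite.

* `ffkg_exists_place_not_mem` : there are infinitely many places;
* `ffkg_finrank_sub_single`   : `l(X - P) = l(X) - 1` when some `f ∈ L(X)` has exact order `-X P`;
* `ffkg_general_position`     : for finitely many divisors `X i` with `l(X i) ≥ r` there is a
  reduced effective divisor `E` of degree `r`, off a given finite set, with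
  `l(X i - E) = l(X i) - r` for all `i`.
-/

set_option autoImplicit false
set_option linter.unusedSectionVars false
set_option linter.unusedVariables false

noncomputable section

namespace Fermat.Agent.FF

open AlgebraicCurve Module Fermat.Agent.V.RR Fermat.Agent.V Fermat.Agent.MW17

variable {K F : Type*} [Field K] [Field F] [Algebra K F] {g : ℕ}

/-- there are infinitely many places -/
theorem ffkg_exists_place_not_mem [Infinite K] (R : V27RR K F g)
    (hdeg1 : ∀ v : Place K F, v.deg = 1) (T : Finset (Place K F)) : ∃ P : Place K F, P ∉ T := by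
  classical
  by_contra hcon
  push Not at hcon
  obtain ⟨P₀⟩ := R.place
  set D : Divisor K F := Finsupp.single P₀ (2 * (g : ℤ) + 1) with hD
  have hdegD : Divisor.degree D = 2 * (g : ℤ) + 1 := by
    rw [hD, Divisor.degree_single, hdeg1 P₀]
    simp
  obtain ⟨f, hf0, hf, hord⟩ := ffkm_exists_ord_eq R hdeg1 (B := D) (by rw [hdegD]; linarith) T
  have := R.hasDiv
  obtain ⟨Df, hDf, hdeg0⟩ := HasPrincipalDivisors.exists_divisor (K := K) f hf0
  have hDfD : Df = -D := by
    ext v
    rw [hDf v, hord v (hcon v), Finsupp.neg_apply]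
  rw [hDfD, map_neg, hdegD] at hdeg0
  have : (0 : ℤ) ≤ g := Int.natCast_nonneg _
  linarith

/-- `l(X) ≤ l(X - P) + 1` -/
theorem ffkg_finrank_le_succ (R : V27RR K F g) (hdeg1 : ∀ v : Place K F, v.deg = 1)
    (X : Divisor K F) (P : Place K F) :
    finrank K (riemannRochSpace X) ≤ finrank K (riemannRochSpace (X - Finsupp.single P 1)) + 1 := by
  obtain ⟨W, -, -, -, hRR⟩ := R.can
  have h1 := hRR X
  have h2 := hRR (X - Finsupp.single P 1)
  rw [map_sub, Divisor.degree_single, hdeg1 P] at h2
  have hfin : Module.Finite K (riemannRochSpace (W - (X - Finsupp.single P 1))) := R.finL _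
  have hmono : finrank K (riemannRochSpace (W - X)) ≤
      finrank K (riemannRochSpace (W - (X - Finsupp.single P 1))) := by
    apply Submodule.finrank_mono
    apply ffkm_mono
    rw [sub_le_sub_iff_left, sub_le_self_iff]
    exact Finsupp.single_nonneg.mpr zero_le_one
  have hmono' : (finrank K (riemannRochSpace (W - X)) : ℤ) ≤
      finrank K (riemannRochSpace (W - (X - Finsupp.single P 1))) := by exact_mod_cast hmono
  have : (finrank K (riemannRochSpace X) : ℤ) ≤
      finrank K (riemannRochSpace (X - Finsupp.single P 1)) + 1 := by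
    push_cast at h2
    linarith
  exact_mod_cast this

/-- `l(X - P) + 1 = l(X)` when some `f ∈ L(X)` has exact order `-X P` at `P` -/
theorem ffkg_finrank_sub_single (R : V27RR K F g) (hdeg1 : ∀ v : Place K F, v.deg = 1)
    (X : Divisor K F) (P : Place K F) {f : F} (hf : f ≠ 0) (hmem : f ∈ riemannRochSpace X)
    (hord : P.ord f = -X P) :
    finrank K (riemannRochSpace (X - Finsupp.single P 1)) + 1 = finrank K (riemannRochSpace X) := by
  classical
  have hfin : Module.Finite K (riemannRochSpace X) := R.finL X
  have hle : riemannRochSpace (X - Finsupp.single P 1) ≤ riemannRochSpace X :=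
    ffkm_mono (by rw [sub_le_self_iff]; exact Finsupp.single_nonneg.mpr zero_le_one)
  have hnot : f ∉ riemannRochSpace (X - Finsupp.single P 1) := by
    intro h
    have := (ffkm_mem_iff hf).mp h P
    rw [Finsupp.sub_apply, Finsupp.single_eq_same, hord] at this
    linarith
  have hlt : riemannRochSpace (X - Finsupp.single P 1) < riemannRochSpace X :=
    lt_of_le_of_ne hle fun h => hnot (h ▸ hmem)
  have h1 := Submodule.finrank_lt_finrank_of_lt hlt
  have h2 := ffkg_finrank_le_succ R hdeg1 X P
  omega

/-- for a non-zero `L(X)`, all but finitely many places `P` have `l(X - P) = l(X) - 1` -/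
theorem ffkg_exists_finset_good (R : V27RR K F g) (hdeg1 : ∀ v : Place K F, v.deg = 1)
    (X : Divisor K F) (hX : 0 < finrank K (riemannRochSpace X)) :
    ∃ S : Finset (Place K F), ∀ P : Place K F, P ∉ S →
      finrank K (riemannRochSpace (X - Finsupp.single P 1)) + 1 =
        finrank K (riemannRochSpace X) := by
  classical
  have hne : riemannRochSpace X ≠ ⊥ := by
    intro h0
    rw [h0, finrank_bot] at hX
    exact lt_irrefl _ hX
  obtain ⟨f, hf, hf0⟩ := Submodule.exists_mem_ne_zero_of_ne_bot hne
  have := R.hasDiv
  obtain ⟨Df, hDf, -⟩ := HasPrincipalDivisors.exists_divisor (K := K) f hf0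
  refine ⟨(X + Df).support, fun P hP => ?_⟩
  refine ffkg_finrank_sub_single R hdeg1 X P hf0 hf ?_
  have h0 : (X + Df) P = 0 := Finsupp.notMem_support_iff.mp hP
  rw [Finsupp.add_apply, hDf P] at h0
  linarith

/-- **general position**: finitely many divisors `X i` with `l(X i) ≥ r`; a reduced effective
divisor `E` of degree `r` off a given finite set `T` with `l(X i - E) = l(X i) - r` for all `i`. -/
theorem ffkg_general_position [Infinite K] (R : V27RR K F g)
    (hdeg1 : ∀ v : Place K F, v.deg = 1) {ι : Type*} [Finite ι] (X : ι → Divisor K F)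
    (T : Finset (Place K F)) (r : ℕ) (hr : ∀ i, r ≤ finrank K (riemannRochSpace (X i))) :
    ∃ E : Divisor K F, 0 ≤ E ∧ Divisor.degree E = r ∧ (∀ P ∈ T, E P = 0) ∧ (∀ P, E P ≤ 1) ∧
      ∀ i, finrank K (riemannRochSpace (X i - E)) + r = finrank K (riemannRochSpace (X i)) := by
  classical
  cases nonempty_fintype ι
  induction r with
  | zero =>
    refine ⟨0, le_rfl, by simp, fun P _ => rfl, fun P => by simp, fun i => ?_⟩
    rw [sub_zero, add_zero]
  | succ r ih =>
    obtain ⟨E, hE0, hEdeg, hET, hE1, hEl⟩ := ih fun i => (Nat.le_succ r).trans (hr i)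
    have hpos : ∀ i, 0 < finrank K (riemannRochSpace (X i - E)) := by
      intro i
      have := hEl i
      have := hr i
      omega
    choose S hS using fun i => ffkg_exists_finset_good R hdeg1 (X i - E) (hpos i)
    obtain ⟨P, hP⟩ := ffkg_exists_place_not_mem R hdeg1
      (T ∪ E.support ∪ Finset.univ.biUnion S)
    rw [Finset.mem_union, Finset.mem_union, not_or, not_or] at hP
    obtain ⟨⟨hPT, hPE⟩, hPS⟩ := hP
    have hEP : E P = 0 := Finsupp.notMem_support_iff.mp hPE
    refine ⟨E + Finsupp.single P 1, ?_, ?_, ?_, ?_, ?_⟩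
    · exact add_nonneg hE0 (Finsupp.single_nonneg.mpr zero_le_one)
    · rw [map_add, hEdeg, Divisor.degree_single, hdeg1 P]
      push_cast
      ring
    · intro Q hQ
      have hQP : Q ≠ P := fun h => hPT (h ▸ hQ)
      rw [Finsupp.add_apply, hET Q hQ, Finsupp.single_eq_of_ne hQP, add_zero]
    · intro Q
      by_cases hQP : Q = P
      · rw [hQP, Finsupp.add_apply, hEP, Finsupp.single_eq_same, zero_add]
      · rw [Finsupp.add_apply, Finsupp.single_eq_of_ne hQP, add_zero]
        exact hE1 Q
    · intro i
      have h1 := hS i P (fun h => hPS (Finset.mem_biUnion.mpr ⟨i, Finset.mem_univ i, h⟩))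
      have h2 := hEl i
      have e : X i - (E + Finsupp.single P 1) = X i - E - Finsupp.single P 1 := by abel
      rw [e]
      omega

end Fermat.Agent.FF
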