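import Mathlib
import Fermat.Agent.V.RR.Pack
import Fermat.Prelude.Def_AlgebraicCurve_BaseChangeGalois

/-!
# Program FF, leaf B2 (abstract part): integral lattices in Riemann-Roch spaces

Abstract setting (no modular curves): `K` a field with a valuation subring `A`, residue field
`k`; `F / K` and `Fk / k` function fields; `O` a subring of `F` (the Gauss ring) with a ring
homomorphism `red : O → Fk`.

`FfirRed A O red` : the reduction axioms
* constants of `A` lie in `O` and reduce to their residue classes;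
* the kernel of `red` is `𝔪_A · O`;
* every nonzero `f` can be scaled into `O` with nonzero reduction.

Main results of this file, all obtained by the "divide by the largest coefficient and reduce"
trick over the valuation ring `A` (no noetherian hypothesis, no finite level):
* `ffir_coeff_mem` : if the reductions of `x i ∈ O` are `k`-independent and `∑ c i • x i ∈ O`
  then all `c i ∈ A`;
* `ffir_linearIndependent` : such a family is `K`-independent;
* `ffir_exists_basis` : a lattice `V ∩ O` reducing ONTO a `k`-space of the same dimension has a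
  basis reducing to a basis;
* `ffir_finrank_redSub` : for every `K`-subspace `W ≤ V` the reduction of `W ∩ O` is a `k`-space of
  dimension `dim W`.
-/

set_option autoImplicit false
set_option linter.unusedSectionVars false
set_option linter.unusedVariables false
set_option linter.style.haveILetI false

noncomputable section

namespace Fermat.Agent.FF

open AlgebraicCurve IsLocalRing Module

variable {K : Type*} [Field K] (A : ValuationSubring K)
variable {F : Type*} [Field F] [Algebra K F]
variable {Fk : Type*} [Field Fk] [Algebra (ResidueField A) Fk]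

/-- the reduction axioms (O1)-(O3) for a subring `O ⊂ F` and `red : O → Fk`. -/
structure FfirRed (O : Subring F) (red : O →+* Fk) : Prop where
  const_mem : ∀ a : A, algebraMap K F (a : K) ∈ O
  red_const : ∀ a : A, red ⟨algebraMap K F (a : K), const_mem a⟩ =
    algebraMap (ResidueField A) Fk (residue A a)
  ker : ∀ x : O, red x = 0 → ∃ π : A, π ∈ maximalIdeal A ∧ ∃ y : O,
    (x : F) = algebraMap K F (π : K) * (y : F)
  scale : ∀ f : F, f ≠ 0 → ∃ c : K, c ≠ 0 ∧ ∃ h : algebraMap K F c * f ∈ O,
    red ⟨algebraMap K F c * f, h⟩ ≠ 0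

variable {A} {O : Subring F} {red : O →+* Fk}

/-- the constant `a ∈ A` as an element of `O`. -/
def ffirC (h : FfirRed A O red) (a : A) : O := ⟨algebraMap K F (a : K), h.const_mem a⟩

theorem ffirC_coe (h : FfirRed A O red) (a : A) : ((ffirC h a : O) : F) = algebraMap K F (a : K) :=
  rfl

theorem ffir_red_C (h : FfirRed A O red) (a : A) :
    red (ffirC h a) = algebraMap (ResidueField A) Fk (residue A a) := h.red_const a

theorem ffir_red_C_mul (h : FfirRed A O red) (a : A) (x : O) :
    red (ffirC h a * x) = residue A a • red x := by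
  rw [map_mul, ffir_red_C, Algebra.smul_def]

theorem ffir_red_sum (h : FfirRed A O red) {ι : Type*} (s : Finset ι) (c : ι → A) (x : ι → O) :
    red (∑ i ∈ s, ffirC h (c i) * x i) = ∑ i ∈ s, residue A (c i) • red (x i) := by
  rw [map_sum]
  exact Finset.sum_congr rfl fun i _ => ffir_red_C_mul h (c i) (x i)

/-- **the largest-coefficient trick**: if the reductions of the `x i` are `k`-independent and
`∑ c i • x i ∈ O`, then all `c i ∈ A`. -/
theorem ffir_coeff_mem (h : FfirRed A O red) {ι : Type*} [Fintype ι] (x : ι → O)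
    (hx : LinearIndependent (ResidueField A) fun i => red (x i)) (c : ι → K)
    (hc : ∑ i, c i • ((x i : O) : F) ∈ O) : ∀ i, c i ∈ A := by
  classical
  by_contra hne
  push Not at hne
  obtain ⟨i₀, hi₀⟩ := hne
  obtain ⟨j, -, hj⟩ := Finset.exists_max_image Finset.univ (fun i => A.valuation (c i))
    ⟨i₀, Finset.mem_univ _⟩
  have hj1 : ¬ A.valuation (c j) ≤ 1 := fun hle =>
    hi₀ ((A.valuation_le_one_iff _).mp ((hj i₀ (Finset.mem_univ _)).trans hle))
  have hcj0 : c j ≠ 0 := by
    intro h0
    apply hj1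
    rw [h0, map_zero]
    exact zero_le_one
  have hinv : A.valuation (c j)⁻¹ < 1 := by
    rw [map_inv₀]
    have hlt : 1 < A.valuation (c j) := not_le.mp hj1
    exact inv_lt_one_of_one_lt₀ hlt
  have hinvA : (c j)⁻¹ ∈ A := (A.valuation_le_one_iff _).mp hinv.le
  have hd : ∀ i, c i * (c j)⁻¹ ∈ A := by
    intro i
    rw [← A.valuation_le_one_iff, map_mul, map_inv₀]
    have hv0 : A.valuation (c j) ≠ 0 := (Valuation.ne_zero_iff _).mpr hcj0
    rw [← div_eq_mul_inv, div_le_one₀ (lt_of_le_of_ne zero_le hv0.symm)]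
    exact hj i (Finset.mem_univ _)
  -- the identity in `O`
  have hid : ∑ i, ffirC h ⟨c i * (c j)⁻¹, hd i⟩ * x i =
      ffirC h ⟨(c j)⁻¹, hinvA⟩ * ⟨∑ i, c i • ((x i : O) : F), hc⟩ := by
    apply Subtype.ext
    push_cast
    simp only [ffirC_coe]
    rw [Finset.mul_sum]
    refine Finset.sum_congr rfl fun i _ => ?_
    rw [Algebra.smul_def, map_mul]
    ring
  have hred := congrArg red hid
  rw [ffir_red_sum, ffir_red_C_mul] at hred
  have hres0 : residue A ⟨(c j)⁻¹, hinvA⟩ = 0 := by
    rw [residue_eq_zero_iff, A.valuation_lt_one_iff]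
    exact hinv
  rw [hres0, zero_smul] at hred
  have := Fintype.linearIndependent_iff.mp hx _ hred j
  have h1 : (⟨c j * (c j)⁻¹, hd j⟩ : A) = 1 := Subtype.ext (mul_inv_cancel₀ hcj0)
  rw [h1, map_one] at this
  exact one_ne_zero this

/-- scaling by the largest coefficient. -/
theorem ffir_exists_scale {ι : Type*} [Fintype ι] (c : ι → K) (hc : c ≠ 0) :
    ∃ j, c j ≠ 0 ∧ ∀ i, c i * (c j)⁻¹ ∈ A := by
  classical
  obtain ⟨i₀, hi₀⟩ := Function.ne_iff.mp hc
  obtain ⟨j, -, hj⟩ := Finset.exists_max_image Finset.univ (fun i => A.valuation (c i))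
    ⟨i₀, Finset.mem_univ _⟩
  have hcj0 : c j ≠ 0 := by
    intro h0
    have := hj i₀ (Finset.mem_univ _)
    rw [h0, map_zero] at this
    exact hi₀ ((Valuation.zero_iff _).mp (le_antisymm this zero_le))
  refine ⟨j, hcj0, fun i => ?_⟩
  rw [← A.valuation_le_one_iff, map_mul, map_inv₀]
  have hv0 : A.valuation (c j) ≠ 0 := (Valuation.ne_zero_iff _).mpr hcj0
  rw [← div_eq_mul_inv, div_le_one₀ (lt_of_le_of_ne zero_le hv0.symm)]
  exact hj i (Finset.mem_univ _)

/-- a family of `O` with `k`-independent reductions is `K`-independent. -/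
theorem ffir_linearIndependent (h : FfirRed A O red) {ι : Type*} [Fintype ι] (x : ι → O)
    (hx : LinearIndependent (ResidueField A) fun i => red (x i)) :
    LinearIndependent K fun i => ((x i : O) : F) := by
  classical
  rw [Fintype.linearIndependent_iff]
  intro c hc
  by_contra hne
  have hc0 : c ≠ 0 := fun h0 => hne fun i => by rw [h0]; rfl
  obtain ⟨j, hcj0, hd⟩ := ffir_exists_scale (A := A) c hc0
  have hid : ∑ i, ffirC h ⟨c i * (c j)⁻¹, hd i⟩ * x i = 0 := by
    apply Subtype.ext
    push_cast
    simp only [ffirC_coe]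
    have : ∑ i, algebraMap K F (c i * (c j)⁻¹) * ((x i : O) : F) =
        algebraMap K F (c j)⁻¹ * ∑ i, c i • ((x i : O) : F) := by
      rw [Finset.mul_sum]
      refine Finset.sum_congr rfl fun i _ => ?_
      rw [Algebra.smul_def, map_mul]
      ring
    rw [this, hc, mul_zero]
  have hred := congrArg red hid
  rw [ffir_red_sum, map_zero] at hred
  have := Fintype.linearIndependent_iff.mp hx _ hred j
  have h1 : (⟨c j * (c j)⁻¹, hd j⟩ : A) = 1 := Subtype.ext (mul_inv_cancel₀ hcj0)
  rw [h1, map_one] at this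
  exact one_ne_zero this

/-! ### The reduction of `V ∩ O` -/

/-- the reduction of `V ∩ O`, a `k`-subspace of `Fk`. -/
def ffirRedSub (h : FfirRed A O red) (V : Submodule K F) : Submodule (ResidueField A) Fk where
  carrier := {c | ∃ x : O, (x : F) ∈ V ∧ red x = c}
  zero_mem' := ⟨0, by simp, map_zero _⟩
  add_mem' := by
    rintro c c' ⟨x, hx, rfl⟩ ⟨x', hx', rfl⟩
    exact ⟨x + x', by push_cast; exact V.add_mem hx hx', map_add _ _ _⟩
  smul_mem' := by
    rintro a c ⟨x, hx, rfl⟩
    obtain ⟨a', rfl⟩ := residue_surjective a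
    refine ⟨ffirC h a' * x, ?_, ffir_red_C_mul h a' x⟩
    push_cast
    rw [ffirC_coe, ← Algebra.smul_def]
    exact V.smul_mem _ hx

theorem mem_ffirRedSub (h : FfirRed A O red) (V : Submodule K F) (c : Fk) :
    c ∈ ffirRedSub h V ↔ ∃ x : O, (x : F) ∈ V ∧ red x = c := Iff.rfl

theorem ffirRedSub_mono (h : FfirRed A O red) {V W : Submodule K F} (hWV : W ≤ V) :
    ffirRedSub h W ≤ ffirRedSub h V := by
  rintro c ⟨x, hx, rfl⟩
  exact ⟨x, hWV hx, rfl⟩

/-- lifting a finite family of `ffirRedSub h V`. -/
theorem ffir_exists_lift (h : FfirRed A O red) (V : Submodule K F) {ι : Type*}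
    (e : ι → Fk) (he : ∀ i, e i ∈ ffirRedSub h V) :
    ∃ x : ι → O, (∀ i, ((x i : O) : F) ∈ V) ∧ ∀ i, red (x i) = e i := by
  choose x hx using he
  exact ⟨x, fun i => (hx i).1, fun i => (hx i).2⟩

/-- upper bound : `dim_k red(V ∩ O) ≤ dim_K V`. -/
theorem ffir_redSub_finite (h : FfirRed A O red) (V : Submodule K F) [FiniteDimensional K V] :
    FiniteDimensional (ResidueField A) (ffirRedSub h V) ∧
      finrank (ResidueField A) (ffirRedSub h V) ≤ finrank K V := by
  classical
  have hrank : Module.rank (ResidueField A) (ffirRedSub h V) ≤ (finrank K V : ℕ) := by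
    apply rank_le
    intro s hs
    -- lift the elements of `s`
    obtain ⟨x, hxV, hxr⟩ := ffir_exists_lift h V (fun i : s => ((i : ffirRedSub h V) : Fk))
      (fun i => (i : ffirRedSub h V).2)
    have hind : LinearIndependent (ResidueField A) fun i : s => red (x i) := by
      have h1 : LinearIndependent (ResidueField A)
          fun i : s => ((i : ffirRedSub h V) : Fk) :=
        hs.map' (ffirRedSub h V).subtype (Submodule.ker_subtype _)
      have h2 : (fun i : s => red (x i)) = fun i : s => ((i : ffirRedSub h V) : Fk) :=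
        funext hxr
      rw [h2]; exact h1
    have hK := ffir_linearIndependent h x hind
    have hK' : LinearIndependent K fun i : s => (⟨((x i : O) : F), hxV i⟩ : V) := by
      apply LinearIndependent.of_comp V.subtype
      exact hK
    have := hK'.fintype_card_le_finrank
    simpa using this
  have hfin : FiniteDimensional (ResidueField A) (ffirRedSub h V) := by
    rw [FiniteDimensional, ← Module.rank_lt_aleph0_iff]
    exact lt_of_le_of_lt hrank (Cardinal.natCast_lt_aleph0)
  refine ⟨hfin, ?_⟩
  rw [← finrank_eq_rank (ResidueField A) (ffirRedSub h V)] at hrank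
  exact_mod_cast hrank

/-! ### Coordinates w.r.t. a family with independent reductions -/

/-- `∑ c i • b i ∈ O ↔ all c i ∈ A`. -/
theorem ffir_coord_mem_iff (h : FfirRed A O red) {ι : Type*} [Fintype ι] (b : ι → O)
    (hb : LinearIndependent (ResidueField A) fun i => red (b i)) (c : ι → K) :
    ∑ i, c i • ((b i : O) : F) ∈ O ↔ ∀ i, c i ∈ A := by
  refine ⟨ffir_coeff_mem h b hb c, fun hc => ?_⟩
  refine O.sum_mem fun i _ => ?_
  rw [Algebra.smul_def]
  exact O.mul_mem (h.const_mem ⟨c i, hc i⟩) (b i).2

/-- the reduction in coordinates. -/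
theorem ffir_coord_red (h : FfirRed A O red) {ι : Type*} [Fintype ι] (b : ι → O) (c : ι → A)
    (hmem : ∑ i, ((c i : A) : K) • ((b i : O) : F) ∈ O) :
    red ⟨∑ i, ((c i : A) : K) • ((b i : O) : F), hmem⟩ = ∑ i, residue A (c i) • red (b i) := by
  rw [← ffir_red_sum h Finset.univ c b]
  congr 1
  apply Subtype.ext
  rw [AddSubmonoidClass.coe_finsetSum]
  refine Finset.sum_congr rfl fun i _ => ?_
  rw [Subring.coe_mul, ffirC_coe, Algebra.smul_def]

/-- the reduction of `W ∩ O` in coordinates: `W ≤ span b`. -/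
theorem ffir_mem_redSub_iff (h : FfirRed A O red) {ι : Type*} [Fintype ι] (b : ι → O)
    (hb : LinearIndependent (ResidueField A) fun i => red (b i)) (W : Submodule K F)
    (hW : W ≤ Submodule.span K (Set.range fun i => ((b i : O) : F))) (y : Fk) :
    y ∈ ffirRedSub h W ↔ ∃ c : ι → A, ∑ i, ((c i : A) : K) • ((b i : O) : F) ∈ W ∧
      y = ∑ i, residue A (c i) • red (b i) := by
  constructor
  · rintro ⟨x, hxW, rfl⟩
    obtain ⟨c, hc⟩ := (Submodule.mem_span_range_iff_exists_fun K).mp (hW hxW)
    have hmem := ffir_coeff_mem h b hb c (by rw [hc]; exact x.2)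
    refine ⟨fun i => ⟨c i, hmem i⟩, by rw [hc]; exact hxW, ?_⟩
    have hO : ∑ i, c i • ((b i : O) : F) ∈ O := by rw [hc]; exact x.2
    have : x = ⟨∑ i, c i • ((b i : O) : F), hO⟩ := Subtype.ext hc.symm
    rw [this]
    exact ffir_coord_red h b (fun i => ⟨c i, hmem i⟩) hO
  · rintro ⟨c, hcW, rfl⟩
    have hO : ∑ i, ((c i : A) : K) • ((b i : O) : F) ∈ O :=
      (ffir_coord_mem_iff h b hb _).mpr fun i => (c i).2
    exact ⟨⟨_, hO⟩, hcW, ffir_coord_red h b c hO⟩

/-! ### Full lattices -/

/-- `V ∩ O` reduces onto a `k`-space of full dimension `dim_K V`. -/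
def FfirFull (h : FfirRed A O red) (V : Submodule K F) : Prop :=
  FiniteDimensional K V ∧ finrank K V ≤ finrank (ResidueField A) (ffirRedSub h V)

theorem ffir_full_finrank (h : FfirRed A O red) {V : Submodule K F} (hV : FfirFull h V) :
    finrank (ResidueField A) (ffirRedSub h V) = finrank K V := by
  haveI := hV.1
  exact le_antisymm (ffir_redSub_finite h V).2 hV.2

/-- **Theorem B** : fullness is inherited by every `K`-subspace: for `W ≤ V` the reduction of
`W ∩ O` has dimension `dim_K W`. -/
theorem ffir_full_of_le (h : FfirRed A O red) {V W : Submodule K F} (hV : FfirFull h V)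
    (hWV : W ≤ V) : FfirFull h W := by
  classical
  obtain ⟨hfV, hle⟩ := hV
  haveI := hfV
  haveI hfW : FiniteDimensional K W := Submodule.finiteDimensional_of_le hWV
  refine ⟨hfW, ?_⟩
  obtain ⟨hfR, hRle⟩ := ffir_redSub_finite h V
  obtain ⟨hfRW, hRWle⟩ := ffir_redSub_finite h W
  haveI := hfR
  haveI := hfRW
  by_contra hlt
  push Not at hlt
  have hRWR : ffirRedSub h W ≤ ffirRedSub h V := ffirRedSub_mono h hWV
  -- a complement of `red(W ∩ O)` in `red(V ∩ O)`
  obtain ⟨C', hC'⟩ := Submodule.exists_isCompl (ffirRedSub h W)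
  set Cc : Submodule (ResidueField A) Fk := C' ⊓ ffirRedSub h V with hCc
  have hCcR : Cc ≤ ffirRedSub h V := inf_le_right
  haveI hfC : FiniteDimensional (ResidueField A) Cc := Submodule.finiteDimensional_of_le hCcR
  have hdisj : Cc ⊓ ffirRedSub h W = ⊥ := by
    rw [eq_bot_iff]
    calc Cc ⊓ ffirRedSub h W ≤ C' ⊓ ffirRedSub h W := inf_le_inf_right _ inf_le_left
      _ = ⊥ := by rw [inf_comm]; exact hC'.inf_eq_bot
  have hsup : Cc ⊔ ffirRedSub h W = ffirRedSub h V := by
    rw [hCc, sup_comm, ← sup_inf_assoc_of_le C' hRWR, hC'.sup_eq_top, top_inf_eq]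
  have hdim : finrank (ResidueField A) Cc + finrank (ResidueField A) (ffirRedSub h W) =
      finrank (ResidueField A) (ffirRedSub h V) := by
    have := Submodule.finrank_sup_add_finrank_inf_eq Cc (ffirRedSub h W)
    rw [hsup, hdisj, finrank_bot, add_zero] at this
    exact this.symm
  -- lift a basis of the complement
  let bC := Module.finBasis (ResidueField A) Cc
  obtain ⟨x, hxV, hxr⟩ := ffir_exists_lift h V (fun i => ((bC i : Cc) : Fk))
    (fun i => hCcR (bC i).2)
  have hind : LinearIndependent (ResidueField A) fun i => red (x i) := by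
    have h1 : LinearIndependent (ResidueField A) fun i => ((bC i : Cc) : Fk) :=
      bC.linearIndependent.map' Cc.subtype (Submodule.ker_subtype _)
    have h2 : (fun i => red (x i)) = fun i => ((bC i : Cc) : Fk) := funext hxr
    rw [h2]; exact h1
  have hK := ffir_linearIndependent h x hind
  set U : Submodule K F := Submodule.span K (Set.range fun i => ((x i : O) : F)) with hU
  have hUV : U ≤ V := Submodule.span_le.mpr (by rintro _ ⟨i, rfl⟩; exact hxV i)
  haveI hfU : FiniteDimensional K U := Submodule.finiteDimensional_of_le hUV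
  have hdimU : finrank K U = finrank (ResidueField A) Cc := by
    rw [hU, finrank_span_eq_card hK, Fintype.card_fin]
  have hcount := Submodule.finrank_sup_add_finrank_inf_eq W U
  have hsupV : finrank K (W ⊔ U : Submodule K F) ≤ finrank K V :=
    Submodule.finrank_mono (sup_le hWV hUV)
  have hpos : 0 < finrank K (W ⊓ U : Submodule K F) := by omega
  have hne : (W ⊓ U : Submodule K F) ≠ ⊥ := by
    intro h0
    rw [h0, finrank_bot] at hpos
    exact lt_irrefl _ hpos
  obtain ⟨w, hw, hw0⟩ := Submodule.exists_mem_ne_zero_of_ne_bot hne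
  obtain ⟨hwW, hwU⟩ := Submodule.mem_inf.mp hw
  obtain ⟨c, hc⟩ := (Submodule.mem_span_range_iff_exists_fun K).mp hwU
  have hc0 : c ≠ 0 := by
    rintro rfl
    apply hw0
    rw [← hc]
    simp
  obtain ⟨j, hcj0, hd⟩ := ffir_exists_scale (A := A) c hc0
  set w' : O := ∑ i, ffirC h ⟨c i * (c j)⁻¹, hd i⟩ * x i with hw'
  have hw'F : ((w' : O) : F) = algebraMap K F (c j)⁻¹ * w := by
    rw [hw', ← hc, Finset.mul_sum, AddSubmonoidClass.coe_finsetSum]
    refine Finset.sum_congr rfl fun i _ => ?_
    rw [Subring.coe_mul, ffirC_coe, Algebra.smul_def, map_mul]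
    ring
  have hw'W : ((w' : O) : F) ∈ W := by
    rw [hw'F, ← Algebra.smul_def]
    exact W.smul_mem _ hwW
  have hredw' : red w' = ∑ i, residue A ⟨c i * (c j)⁻¹, hd i⟩ • red (x i) := by
    rw [hw', ffir_red_sum]
  have hmemC : red w' ∈ Cc := by
    rw [hredw']
    refine Submodule.sum_mem _ fun i _ => Submodule.smul_mem _ _ ?_
    rw [hxr i]
    exact (bC i).2
  have hmemW : red w' ∈ ffirRedSub h W := ⟨w', hw'W, rfl⟩
  have hzero : red w' = 0 := by
    have : red w' ∈ Cc ⊓ ffirRedSub h W := Submodule.mem_inf.mpr ⟨hmemC, hmemW⟩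
    rw [hdisj] at this
    exact (Submodule.mem_bot _).mp this
  rw [hredw'] at hzero
  have := Fintype.linearIndependent_iff.mp hind _ hzero j
  have h1 : (⟨c j * (c j)⁻¹, hd j⟩ : A) = 1 := Subtype.ext (mul_inv_cancel₀ hcj0)
  rw [h1, map_one] at this
  exact one_ne_zero this

/-- a full lattice has a basis reducing to a basis; the lifts may be chosen inside any class `P`
of elements in which every element of the reduction has a lift. -/
theorem ffir_exists_basis' (h : FfirRed A O red) {V : Submodule K F} (hV : FfirFull h V)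
    (P : O → Prop)
    (hP : ∀ c ∈ ffirRedSub h V, ∃ x : O, (x : F) ∈ V ∧ red x = c ∧ P x) :
    ∃ b : Fin (finrank K V) → O, (∀ i, ((b i : O) : F) ∈ V) ∧ (∀ i, P (b i)) ∧
      LinearIndependent (ResidueField A) (fun i => red (b i)) ∧
      Submodule.span (ResidueField A) (Set.range fun i => red (b i)) = ffirRedSub h V ∧
      LinearIndependent K (fun i => ((b i : O) : F)) ∧
      Submodule.span K (Set.range fun i => ((b i : O) : F)) = V := by
  classical
  haveI := hV.1
  obtain ⟨hfR, -⟩ := ffir_redSub_finite h V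
  haveI := hfR
  have heq := ffir_full_finrank h hV
  let bR := (Module.finBasis (ResidueField A) (ffirRedSub h V)).reindex (finCongr heq)
  choose x hxV hxr hxP using fun i => hP ((bR i : ffirRedSub h V) : Fk) (bR i).2
  have h2 : (fun i => red (x i)) = fun i => ((bR i : ffirRedSub h V) : Fk) := funext hxr
  have hind : LinearIndependent (ResidueField A) fun i => red (x i) := by
    rw [h2]
    exact bR.linearIndependent.map' (ffirRedSub h V).subtype (Submodule.ker_subtype _)
  have hK := ffir_linearIndependent h x hind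
  refine ⟨x, hxV, hxP, hind, ?_, hK, ?_⟩
  · rw [h2]
    have : (fun i => ((bR i : ffirRedSub h V) : Fk)) = (ffirRedSub h V).subtype ∘ bR := rfl
    rw [this, Set.range_comp, ← Submodule.map_span, bR.span_eq, Submodule.map_subtype_top]
  · have hle : Submodule.span K (Set.range fun i => ((x i : O) : F)) ≤ V :=
      Submodule.span_le.mpr (by rintro _ ⟨i, rfl⟩; exact hxV i)
    apply Submodule.eq_of_le_of_finrank_eq hle
    rw [finrank_span_eq_card hK, Fintype.card_fin]

/-- a full lattice has a basis reducing to a basis. -/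
theorem ffir_exists_basis (h : FfirRed A O red) {V : Submodule K F} (hV : FfirFull h V) :
    ∃ b : Fin (finrank K V) → O, (∀ i, ((b i : O) : F) ∈ V) ∧
      LinearIndependent (ResidueField A) (fun i => red (b i)) ∧
      Submodule.span (ResidueField A) (Set.range fun i => red (b i)) = ffirRedSub h V ∧
      LinearIndependent K (fun i => ((b i : O) : F)) ∧
      Submodule.span K (Set.range fun i => ((b i : O) : F)) = V := by
  obtain ⟨b, h1, -, h2, h3, h4, h5⟩ := ffir_exists_basis' h hV (fun _ => True)
    (fun c ⟨x, hx, hxc⟩ => ⟨x, hx, hxc, trivial⟩)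
  exact ⟨b, h1, h2, h3, h4, h5⟩

/-- integrality of the coordinates w.r.t. a family with independent reductions. -/
theorem ffir_basis_coeff (h : FfirRed A O red) {ι : Type*} [Fintype ι] (b : ι → O)
    (hb : LinearIndependent (ResidueField A) fun i => red (b i)) (x : O)
    (hx : (x : F) ∈ Submodule.span K (Set.range fun i => ((b i : O) : F))) :
    ∃ c : ι → A, x = ∑ i, ffirC h (c i) * b i := by
  obtain ⟨c, hc⟩ := (Submodule.mem_span_range_iff_exists_fun K).mp hx
  have hmem := ffir_coeff_mem h b hb c (by rw [hc]; exact x.2)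
  refine ⟨fun i => ⟨c i, hmem i⟩, Subtype.ext ?_⟩
  push_cast
  simp only [ffirC_coe]
  rw [← hc]
  exact Finset.sum_congr rfl fun i _ => Algebra.smul_def _ _

/-! ### Reduced echelon form over a valuation ring (pure linear algebra) -/

/-- **reduced echelon form with pivots of largest absolute value** : every subspace `W` of `K^n`
is spanned by vectors `w i` with entries in `A` and `w i (J a) = δ_{a i}`. -/
theorem ffir_echelon (A : ValuationSubring K) (n : ℕ) :
    ∀ (d : ℕ) (W : Submodule K (Fin n → K)), finrank K W = d →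
      ∃ (s : ℕ) (J : Fin s → Fin n) (w : Fin s → Fin n → K),
        (∀ i j, w i j ∈ A) ∧ (∀ i a, w i (J a) = if a = i then 1 else 0) ∧
        Submodule.span K (Set.range w) = W := by
  classical
  intro d
  induction d using Nat.strong_induction_on with
  | _ d ih =>
    intro W hW
    by_cases hbot : W = ⊥
    · refine ⟨0, Fin.elim0, Fin.elim0, fun i => i.elim0, fun i => i.elim0, ?_⟩
      rw [hbot, Submodule.span_eq_bot]
      rintro _ ⟨i, -⟩
      exact i.elim0
    · obtain ⟨v, hvW, hv0⟩ := Submodule.exists_mem_ne_zero_of_ne_bot hbot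
      obtain ⟨j, hvj, hvA⟩ := ffir_exists_scale (A := A) v hv0
      set u : Fin n → K := (v j)⁻¹ • v with hu
      have huW : u ∈ W := W.smul_mem _ hvW
      have huj : u j = 1 := by
        rw [hu, Pi.smul_apply, smul_eq_mul, inv_mul_cancel₀ hvj]
      have huA : ∀ i, u i ∈ A := fun i => by
        rw [hu, Pi.smul_apply, smul_eq_mul, mul_comm]
        exact hvA i
      set W₁ : Submodule K (Fin n → K) := W ⊓ LinearMap.ker (LinearMap.proj j) with hW₁
      have hW₁W : W₁ ≤ W := inf_le_left
      have hW₁j : ∀ x ∈ W₁, x j = 0 := fun x hx => by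
        have := (Submodule.mem_inf.mp hx).2
        simpa using this
      have hlt : W₁ < W := by
        refine lt_of_le_of_ne hW₁W fun heq => ?_
        have := hW₁j u (heq ▸ huW)
        rw [huj] at this
        exact one_ne_zero this
      have hdlt : finrank K W₁ < d := hW ▸ Submodule.finrank_lt_finrank_of_lt hlt
      obtain ⟨s, J₁, w', hwA, hδ, hspan⟩ := ih _ hdlt W₁ rfl
      have hw'W₁ : ∀ a, w' a ∈ W₁ := fun a => hspan ▸ Submodule.subset_span ⟨a, rfl⟩
      set w₀ : Fin n → K := u - ∑ a, u (J₁ a) • w' a with hw₀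
      have hw₀W : w₀ ∈ W :=
        W.sub_mem huW (W.sum_mem fun a _ => W.smul_mem _ (hW₁W (hw'W₁ a)))
      refine ⟨s + 1, Fin.cons j J₁, Fin.cons w₀ w', ?_, ?_, ?_⟩
      · intro i l
        refine Fin.cases ?_ (fun i' => ?_) i
        · rw [Fin.cons_zero, hw₀, Pi.sub_apply, Finset.sum_apply]
          refine A.toSubring.sub_mem (huA l) (A.toSubring.sum_mem fun a _ => ?_)
          rw [Pi.smul_apply, smul_eq_mul]
          exact A.toSubring.mul_mem (huA _) (hwA a l)
        · rw [Fin.cons_succ]
          exact hwA i' l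
      · intro i a
        refine Fin.cases ?_ (fun i' => ?_) i
        · refine Fin.cases ?_ (fun a' => ?_) a
          · rw [Fin.cons_zero, Fin.cons_zero, if_pos rfl, hw₀, Pi.sub_apply, Finset.sum_apply, huj]
            have : ∑ a, (u (J₁ a) • w' a) j = 0 :=
              Finset.sum_eq_zero fun a _ => by
                rw [Pi.smul_apply, hW₁j _ (hw'W₁ a), smul_zero]
            rw [this, sub_zero]
          · rw [Fin.cons_zero, Fin.cons_succ, if_neg (Fin.succ_ne_zero a'), hw₀, Pi.sub_apply,
              Finset.sum_apply]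
            have : ∑ b, (u (J₁ b) • w' b) (J₁ a') = u (J₁ a') := by
              rw [Finset.sum_eq_single a']
              · rw [Pi.smul_apply, hδ a' a', if_pos rfl, smul_eq_mul, mul_one]
              · intro b _ hb
                rw [Pi.smul_apply, hδ b a', if_neg (Ne.symm hb), smul_zero]
              · intro hnot
                exact absurd (Finset.mem_univ _) hnot
            rw [this, sub_self]
        · refine Fin.cases ?_ (fun a' => ?_) a
          · rw [Fin.cons_succ, Fin.cons_zero, if_neg (Fin.succ_ne_zero i').symm]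
            exact hW₁j _ (hw'W₁ i')
          · rw [Fin.cons_succ, Fin.cons_succ, hδ i' a']
            simp only [Fin.succ_inj]
      · apply le_antisymm
        · rw [Submodule.span_le]
          rintro _ ⟨i, rfl⟩
          refine Fin.cases ?_ (fun i' => ?_) i
          · rw [Fin.cons_zero]; exact hw₀W
          · rw [Fin.cons_succ]; exact hW₁W (hw'W₁ i')
        · intro x hx
          have hw'span : ∀ a, w' a ∈ Submodule.span K (Set.range (Fin.cons w₀ w' :
              Fin (s + 1) → Fin n → K)) := fun a =>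
            Submodule.subset_span ⟨a.succ, by rw [Fin.cons_succ]⟩
          have hw₀span : w₀ ∈ Submodule.span K (Set.range (Fin.cons w₀ w' :
              Fin (s + 1) → Fin n → K)) :=
            Submodule.subset_span ⟨0, by rw [Fin.cons_zero]⟩
          have huspan : u ∈ Submodule.span K (Set.range (Fin.cons w₀ w' :
              Fin (s + 1) → Fin n → K)) := by
            have : u = w₀ + ∑ a, u (J₁ a) • w' a := by rw [hw₀]; abel
            rw [this]
            exact Submodule.add_mem _ hw₀span
              (Submodule.sum_mem _ fun a _ => Submodule.smul_mem _ _ (hw'span a))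
          have hx₁ : x - x j • u ∈ W₁ := by
            refine Submodule.mem_inf.mpr ⟨W.sub_mem hx (W.smul_mem _ huW), ?_⟩
            rw [LinearMap.mem_ker, LinearMap.proj_apply, Pi.sub_apply, Pi.smul_apply, huj,
              smul_eq_mul, mul_one, sub_self]
          have hx₁span : x - x j • u ∈ Submodule.span K (Set.range (Fin.cons w₀ w' :
              Fin (s + 1) → Fin n → K)) := by
            rw [← hspan] at hx₁
            refine Submodule.span_le.mpr ?_ hx₁
            rintro _ ⟨a, rfl⟩
            exact hw'span a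
          have : x = (x - x j • u) + x j • u := by abel
          rw [this]
          exact Submodule.add_mem _ hx₁span (Submodule.smul_mem _ _ huspan)

/-- uniqueness of coordinates in a reduced echelon basis. -/
theorem ffir_echelon_unique {n s : ℕ} (J : Fin s → Fin n) (w : Fin s → Fin n → K)
    (hδ : ∀ i a, w i (J a) = if a = i then 1 else 0) (x : Fin n → K)
    (hx : x ∈ Submodule.span K (Set.range w)) : x = ∑ a, x (J a) • w a := by
  classical
  obtain ⟨c, rfl⟩ := (Submodule.mem_span_range_iff_exists_fun K).mp hx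
  refine Finset.sum_congr rfl fun a _ => ?_
  congr 1
  rw [Finset.sum_apply, Finset.sum_eq_single a]
  · rw [Pi.smul_apply, hδ a a, if_pos rfl, smul_eq_mul, mul_one]
  · intro b _ hb
    rw [Pi.smul_apply, hδ b a, if_neg (Ne.symm hb), smul_zero]
  · intro hnot
    exact absurd (Finset.mem_univ _) hnot

/-! ### Semilinear automorphisms and fixed coefficients -/

/-- if `σ` fixes the `K`-independent family `b` and the combination `∑ c i • b i`, it fixes the
coefficients. -/
theorem ffir_coeff_fixed {ι : Type*} [Fintype ι] (b : ι → F)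
    (hb : LinearIndependent K b) (σ : SemilinearAut K F) (hσb : ∀ i, σ • b i = b i) (c : ι → K)
    (hx : σ • (∑ i, c i • b i) = ∑ i, c i • b i) (i : ι) :
    SemilinearAut.baseAut σ (c i) = c i := by
  have h1 : σ • (∑ i, c i • b i) = ∑ i, SemilinearAut.baseAut σ (c i) • b i := by
    rw [Finset.smul_sum]
    refine Finset.sum_congr rfl fun i _ => ?_
    rw [Algebra.smul_def, smul_mul', SemilinearAut.smul_algebraMap, hσb i, ← Algebra.smul_def]
  rw [h1] at hx
  have h2 : ∑ i, (SemilinearAut.baseAut σ (c i) - c i) • b i = 0 := by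
    simp only [sub_smul, Finset.sum_sub_distrib]
    rw [hx, sub_self]
  exact sub_eq_zero.mp (Fintype.linearIndependent_iff.mp hb _ h2 i)

/-! ### The divisor formula and Riemann-Roch spaces -/

section Div

variable {r : Place K F → Place (ResidueField A) Fk}

theorem ffir_mapDomain_nonneg (r : Place K F → Place (ResidueField A) Fk) {D : Divisor K F}
    (hD : 0 ≤ D) : 0 ≤ Finsupp.mapDomain r D := by
  classical
  intro Q
  rw [Finsupp.coe_zero, Pi.zero_apply, Finsupp.mapDomain, Finsupp.sum_apply]
  refine Finset.sum_nonneg fun P _ => ?_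
  beta_reduce
  rw [Finsupp.single_apply]
  split_ifs
  · exact hD P
  · exact le_rfl

theorem ffir_mapDomain_nsmul (r : Place K F → Place (ResidueField A) Fk) (m : ℕ)
    (D : Divisor K F) : Finsupp.mapDomain r (m • D) = m • Finsupp.mapDomain r D :=
  map_nsmul (Finsupp.mapDomain.addMonoidHom r) m D

theorem ffir_mapDomain_sub (r : Place K F → Place (ResidueField A) Fk)
    (D D' : Divisor K F) :
    Finsupp.mapDomain r (D - D') = Finsupp.mapDomain r D - Finsupp.mapDomain r D' :=
  map_sub (Finsupp.mapDomain.addMonoidHom r) D D'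

theorem ffir_degree_mapDomain (r : Place K F → Place (ResidueField A) Fk)
    (hdeg : ∀ P : Place K F, P.deg = 1) (hdegk : ∀ Q : Place (ResidueField A) Fk, Q.deg = 1)
    (D : Divisor K F) : Divisor.degree (Finsupp.mapDomain r D) = Divisor.degree D := by
  induction D using Finsupp.induction with
  | zero => simp
  | single_add P n D _ _ ih =>
    rw [Finsupp.mapDomain_add, map_add, map_add, ih, Finsupp.mapDomain_single,
      Divisor.degree_single, Divisor.degree_single, hdeg, hdegk]

/-- the divisor formula (O4), in the `mapDomain` form of the Prelude's `IsPlaceReductionAlong`. -/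
def FfirDiv (red : O →+* Fk) (r : Place K F → Place (ResidueField A) Fk) : Prop :=
  ∀ x : O, red x ≠ 0 → ∀ D : Divisor K F, (∀ P, D P = P.ord ((x : O) : F)) →
    ∀ Q, Finsupp.mapDomain r D Q = Q.ord (red x)

/-- **reduction of sections** (E4) : `x ∈ L(D) ∩ O ⟹ red x ∈ L(r_* D)`. -/
theorem ffir_red_mem_rrSpace [HasPrincipalDivisors K F] (hdiv : FfirDiv (A := A) red r)
    (D : Divisor K F) (x : O) (hx : ((x : O) : F) ∈ riemannRochSpace D) :
    red x ∈ riemannRochSpace (Finsupp.mapDomain r D) := by
  by_cases h0 : red x = 0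
  · rw [h0]; exact Submodule.zero_mem _
  have hx0 : ((x : O) : F) ≠ 0 := by
    intro hz
    apply h0
    have : x = 0 := Subtype.ext hz
    rw [this, map_zero]
  obtain ⟨Dx, hDx, -⟩ := HasPrincipalDivisors.exists_divisor (K := K) ((x : O) : F) hx0
  rw [mem_riemannRochSpace_iff]
  intro Q
  right
  rw [← hdiv x h0 Dx hDx Q]
  have hnn : 0 ≤ Dx + D := by
    intro P
    rw [Finsupp.coe_zero, Pi.zero_apply, Finsupp.add_apply, hDx P]
    have := ((mem_riemannRochSpace_iff.mp hx) P).resolve_left hx0
    linarith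
  have := ffir_mapDomain_nonneg (A := A) r hnn Q
  rw [Finsupp.coe_zero, Pi.zero_apply, Finsupp.mapDomain_add, Finsupp.add_apply] at this
  linarith

theorem ffir_redSub_le_rrSpace [HasPrincipalDivisors K F] (h : FfirRed A O red)
    (hdiv : FfirDiv (A := A) red r) (D : Divisor K F) :
    ffirRedSub h (riemannRochSpace D) ≤ riemannRochSpace (Finsupp.mapDomain r D) := by
  rintro c ⟨x, hx, rfl⟩
  exact ffir_red_mem_rrSpace hdiv D x hx

end Div

/-! ### The abstract integral model (interface (INT) of the blueprint) -/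

section Model

open Fermat.Agent.V.RR

variable {G : Type*} [Group G]

variable (A O red) in
/-- **THE ABSTRACT INTEGRAL MODEL.**  `A ⊂ K` a valuation ring with residue field `k`,
`O ⊂ F` the Gauss ring with `red : O → Fk`, `r` the reduction of places, `ρ` a group of semilinear
automorphisms (the inertia group), `Dinf` the base divisor, `m0` the level from which the lattices
`L(m Dinf) ∩ O` reduce ONTO `L(m r_*Dinf)` with `G`-fixed lifts. -/
structure FfirModel (r : Place K F → Place (ResidueField A) Fk) (ρ : G →* SemilinearAut K F)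
    (Dinf : Divisor K F) (m0 : ℕ) : Prop where
  toRed : FfirRed A O red
  div : FfirDiv (A := A) red r
  onto : ∀ m : ℕ, m0 ≤ m → ∀ c ∈ riemannRochSpace (m • Finsupp.mapDomain r Dinf),
    ∃ x : O, ((x : O) : F) ∈ riemannRochSpace (m • Dinf) ∧ red x = c ∧
      ∀ σ : G, ρ σ • ((x : O) : F) = x
  base_mem : ∀ (σ : G) (a : K), a ∈ A → SemilinearAut.baseAut (ρ σ) a ∈ A
  base_res : ∀ (σ : G) (a : A),
    residue A ⟨SemilinearAut.baseAut (ρ σ) (a : K), base_mem σ a a.2⟩ = residue A a
  smul_mem : ∀ (σ : G) (x : F), x ∈ O → ρ σ • x ∈ O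
  red_smul : ∀ (σ : G) (x : O), red ⟨ρ σ • ((x : O) : F), smul_mem σ x x.2⟩ = red x
  r_smul : ∀ (σ : G) (P : Place K F), r (ρ σ • P) = r P
  Dinf_nonneg : 0 ≤ Dinf
  Dinf_fixed : ∀ σ : G, ρ σ • Dinf = Dinf
  lift_place : ∀ Q : Place (ResidueField A) Fk, ∃ P : Place K F, r P = Q ∧ ∀ σ : G, ρ σ • P = P

variable {r : Place K F → Place (ResidueField A) Fk} {ρ : G →* SemilinearAut K F}
  {Dinf : Divisor K F} {m0 : ℕ} {g : ℕ}

/-- the ring of `G`-fixed elements of `A` (the base ring `W` of the core). -/
def ffirFix (A : ValuationSubring K) (ρ : G →* SemilinearAut K F) : Subring K where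
  carrier := {a | a ∈ A ∧ ∀ σ : G, SemilinearAut.baseAut (ρ σ) a = a}
  mul_mem' := by
    rintro a b ⟨ha, ha'⟩ ⟨hb, hb'⟩
    exact ⟨A.mul_mem _ _ ha hb, fun σ => by rw [map_mul, ha' σ, hb' σ]⟩
  one_mem' := ⟨A.one_mem, fun σ => map_one _⟩
  add_mem' := by
    rintro a b ⟨ha, ha'⟩ ⟨hb, hb'⟩
    exact ⟨A.add_mem _ _ ha hb, fun σ => by rw [map_add, ha' σ, hb' σ]⟩
  zero_mem' := ⟨A.zero_mem, fun σ => map_zero _⟩
  neg_mem' := by
    rintro a ⟨ha, ha'⟩
    exact ⟨A.neg_mem _ ha, fun σ => by rw [map_neg, ha' σ]⟩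

theorem mem_ffirFix {a : K} :
    a ∈ ffirFix A ρ ↔ a ∈ A ∧ ∀ σ : G, SemilinearAut.baseAut (ρ σ) a = a := Iff.rfl

/-- the base lattices are full : `L(m Dinf) ∩ O` reduces onto `L(m r_*Dinf)`, of the same
dimension. -/
theorem ffir_base_full (M : FfirModel A O red r ρ Dinf m0) (RR : V27RR K F g)
    (RRk : V27RR (ResidueField A) Fk g) (hdeg : ∀ P : Place K F, P.deg = 1)
    (hdegk : ∀ Q : Place (ResidueField A) Fk, Q.deg = 1) {m : ℕ} (hm : m0 ≤ m)
    (hmd : 2 * (g : ℤ) - 2 < m * Divisor.degree Dinf) :
    FfirFull M.toRed (riemannRochSpace (m • Dinf)) ∧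
      ffirRedSub M.toRed (riemannRochSpace (m • Dinf)) =
        riemannRochSpace (m • Finsupp.mapDomain r Dinf) := by
  haveI := RR.hasDiv
  have heq : ffirRedSub M.toRed (riemannRochSpace (m • Dinf)) =
      riemannRochSpace (m • Finsupp.mapDomain r Dinf) := by
    apply le_antisymm
    · rw [← ffir_mapDomain_nsmul]
      exact ffir_redSub_le_rrSpace M.toRed M.div _
    · intro c hc
      obtain ⟨x, hx, hxc, -⟩ := M.onto m hm c hc
      exact ⟨x, hx, hxc⟩
  refine ⟨⟨RR.finL _, ?_⟩, heq⟩
  rw [heq]
  have h1 := (RR.finrank_of_lt (D := m • Dinf) (by rw [map_nsmul, nsmul_eq_mul]; exact hmd)).1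
  have h2 := (RRk.finrank_of_lt (D := m • Finsupp.mapDomain r Dinf) (by
    rw [map_nsmul, nsmul_eq_mul, ffir_degree_mapDomain r hdeg hdegk]; exact hmd)).1
  rw [map_nsmul, nsmul_eq_mul] at h1
  rw [map_nsmul, nsmul_eq_mul, ffir_degree_mapDomain r hdeg hdegk] at h2
  have : (finrank K (riemannRochSpace (m • Dinf)) : ℤ) =
      finrank (ResidueField A) (riemannRochSpace (m • Finsupp.mapDomain r Dinf)) := by
    rw [h1, h2]
  exact_mod_cast this.le

/-- **(E1)** the `G`-fixed integral basis of `L(m Dinf)`: a `K`-basis of `L(m Dinf)`, an `A`-basis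
of `L(m Dinf) ∩ O` (`ffir_basis_coeff`), reducing to a `k`-basis of `L(m r_*Dinf)`. -/
theorem ffir_basis (M : FfirModel A O red r ρ Dinf m0) (RR : V27RR K F g)
    (RRk : V27RR (ResidueField A) Fk g) (hdeg : ∀ P : Place K F, P.deg = 1)
    (hdegk : ∀ Q : Place (ResidueField A) Fk, Q.deg = 1) {m : ℕ} (hm : m0 ≤ m)
    (hmd : 2 * (g : ℤ) - 2 < m * Divisor.degree Dinf) :
    ∃ b : Fin (finrank K (riemannRochSpace (m • Dinf))) → O,
      (∀ i, ((b i : O) : F) ∈ riemannRochSpace (m • Dinf)) ∧
      (∀ i (σ : G), ρ σ • ((b i : O) : F) = b i) ∧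
      LinearIndependent (ResidueField A) (fun i => red (b i)) ∧
      Submodule.span (ResidueField A) (Set.range fun i => red (b i)) =
        riemannRochSpace (m • Finsupp.mapDomain r Dinf) ∧
      LinearIndependent K (fun i => ((b i : O) : F)) ∧
      Submodule.span K (Set.range fun i => ((b i : O) : F)) = riemannRochSpace (m • Dinf) := by
  obtain ⟨hfull, heq⟩ := ffir_base_full M RR RRk hdeg hdegk hm hmd
  obtain ⟨b, h1, h2, h3, h4, h5, h6⟩ := ffir_exists_basis' M.toRed hfull
    (fun x => ∀ σ : G, ρ σ • ((x : O) : F) = x) (fun c hc => by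
      rw [heq] at hc
      exact M.onto m hm c hc)
  exact ⟨b, h1, h2, h3, heq ▸ h4, h5, h6⟩

/-- **(E2)** for every `D ≤ m Dinf` with `deg D > 2g - 2` the lattice `L(D) ∩ O` reduces ONTO
`L(r_* D)`; in particular for `D = m Dinf - D'`, `D'` effective. -/
theorem ffir_redSub_rr (M : FfirModel A O red r ρ Dinf m0) (RR : V27RR K F g)
    (RRk : V27RR (ResidueField A) Fk g) (hdeg : ∀ P : Place K F, P.deg = 1)
    (hdegk : ∀ Q : Place (ResidueField A) Fk, Q.deg = 1) {m : ℕ} (hm : m0 ≤ m)
    (hmd : 2 * (g : ℤ) - 2 < m * Divisor.degree Dinf) {D : Divisor K F} (hD : D ≤ m • Dinf)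
    (hdD : 2 * (g : ℤ) - 2 < Divisor.degree D) :
    FfirFull M.toRed (riemannRochSpace D) ∧
      ffirRedSub M.toRed (riemannRochSpace D) = riemannRochSpace (Finsupp.mapDomain r D) := by
  haveI := RR.hasDiv
  obtain ⟨hfull, -⟩ := ffir_base_full M RR RRk hdeg hdegk hm hmd
  have hfullD : FfirFull M.toRed (riemannRochSpace D) :=
    ffir_full_of_le M.toRed hfull (v27rr_rrSpace_mono hD)
  refine ⟨hfullD, ?_⟩
  haveI := RRk.finL (Finsupp.mapDomain r D)
  apply Submodule.eq_of_le_of_finrank_eq (ffir_redSub_le_rrSpace M.toRed M.div D)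
  rw [ffir_full_finrank M.toRed hfullD]
  have h1 := (RR.finrank_of_lt hdD).1
  have h2 := (RRk.finrank_of_lt (D := Finsupp.mapDomain r D) (by
    rw [ffir_degree_mapDomain r hdeg hdegk]; exact hdD)).1
  rw [ffir_degree_mapDomain r hdeg hdegk] at h2
  have : (finrank K (riemannRochSpace D) : ℤ) =
      finrank (ResidueField A) (riemannRochSpace (Finsupp.mapDomain r D)) := by
    rw [h1, h2]
  exact_mod_cast this

/-- **(E3)**, first form : upper semicontinuity `l(D) ≤ l(r_* D)` for `D ≤ m Dinf`. -/
theorem ffir_semicont_le (M : FfirModel A O red r ρ Dinf m0) (RR : V27RR K F g)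
    (RRk : V27RR (ResidueField A) Fk g) (hdeg : ∀ P : Place K F, P.deg = 1)
    (hdegk : ∀ Q : Place (ResidueField A) Fk, Q.deg = 1) {m : ℕ} (hm : m0 ≤ m)
    (hmd : 2 * (g : ℤ) - 2 < m * Divisor.degree Dinf) {D : Divisor K F} (hD : D ≤ m • Dinf) :
    finrank K (riemannRochSpace D) ≤
      finrank (ResidueField A) (riemannRochSpace (Finsupp.mapDomain r D)) := by
  haveI := RR.hasDiv
  obtain ⟨hfull, -⟩ := ffir_base_full M RR RRk hdeg hdegk hm hmd
  have hfullD : FfirFull M.toRed (riemannRochSpace D) :=
    ffir_full_of_le M.toRed hfull (v27rr_rrSpace_mono hD)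
  rw [← ffir_full_finrank M.toRed hfullD]
  haveI := RRk.finL (Finsupp.mapDomain r D)
  exact Submodule.finrank_mono (ffir_redSub_le_rrSpace M.toRed M.div D)

/-! ### Fixed elements have fixed integral coordinates; structure constants -/

/-- a `G`-fixed element of `O` in the span of a `G`-fixed family with independent reductions has
its coordinates in the fixed ring `ffirFix A ρ`. -/
theorem ffir_fixed_coeff (M : FfirModel A O red r ρ Dinf m0) {ι : Type*} [Fintype ι]
    (b : ι → O) (hbk : LinearIndependent (ResidueField A) fun i => red (b i))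
    (hbfix : ∀ i (σ : G), ρ σ • ((b i : O) : F) = b i) (x : O)
    (hx : ((x : O) : F) ∈ Submodule.span K (Set.range fun i => ((b i : O) : F)))
    (hxfix : ∀ σ : G, ρ σ • ((x : O) : F) = x) :
    ∃ c : ι → ffirFix A ρ, ((x : O) : F) = ∑ i, ((c i : ffirFix A ρ) : K) • ((b i : O) : F) := by
  obtain ⟨c, hc⟩ := (Submodule.mem_span_range_iff_exists_fun K).mp hx
  have hmem := ffir_coeff_mem M.toRed b hbk c (by rw [hc]; exact x.2)
  have hK := ffir_linearIndependent M.toRed b hbk
  refine ⟨fun i => ⟨c i, hmem i, fun σ => ?_⟩, hc.symm⟩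
  exact ffir_coeff_fixed (fun i => ((b i : O) : F)) hK (ρ σ) (fun i => hbfix i σ) c
    (by rw [hc]; exact hxfix σ) i

theorem ffir_mul_mem_rrSpace {D D' : Divisor K F} {f f' : F} (hf : f ∈ riemannRochSpace D)
    (hf' : f' ∈ riemannRochSpace D') : f * f' ∈ riemannRochSpace (D + D') := by
  rw [mem_riemannRochSpace_iff] at hf hf' ⊢
  intro v
  by_cases h0 : f * f' = 0
  · exact Or.inl h0
  right
  have hf0 : f ≠ 0 := left_ne_zero_of_mul h0
  have hf'0 : f' ≠ 0 := right_ne_zero_of_mul h0
  rw [v.ord_mul hf0 hf'0, Finsupp.add_apply]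
  have h1 := (hf v).resolve_left hf0
  have h2 := (hf' v).resolve_left hf'0
  linarith

/-- **structure constants** : the product of `G`-fixed elements `x ∈ L(D) ∩ O`, `x' ∈ L(D') ∩ O`
has coordinates in `ffirFix A ρ` w.r.t. every `G`-fixed integral basis of a space containing
`L(D + D')`. -/
theorem ffir_struct_const (M : FfirModel A O red r ρ Dinf m0) {ι : Type*} [Fintype ι]
    (b : ι → O) (hbk : LinearIndependent (ResidueField A) fun i => red (b i))
    (hbfix : ∀ i (σ : G), ρ σ • ((b i : O) : F) = b i) {D D' : Divisor K F}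
    (hspan : riemannRochSpace (D + D') ≤ Submodule.span K (Set.range fun i => ((b i : O) : F)))
    (x x' : O) (hx : ((x : O) : F) ∈ riemannRochSpace D)
    (hx' : ((x' : O) : F) ∈ riemannRochSpace D')
    (hxfix : ∀ σ : G, ρ σ • ((x : O) : F) = x) (hx'fix : ∀ σ : G, ρ σ • ((x' : O) : F) = x') :
    ∃ c : ι → ffirFix A ρ,
      ((x : O) : F) * ((x' : O) : F) = ∑ i, ((c i : ffirFix A ρ) : K) • ((b i : O) : F) := by
  have := ffir_fixed_coeff M b hbk hbfix (x * x') (hspan (ffir_mul_mem_rrSpace hx hx'))
    (fun σ => by push_cast; rw [smul_mul', hxfix σ, hx'fix σ])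
  simpa using this

/-! ### `G`-fixed reduced echelon bases of `G`-stable subspaces (matrices over the fixed ring) -/

/-- **chart with fixed entries** : let `b` be a `G`-fixed family of `O` with `k`-independent
reductions and `W` a `G`-stable `K`-subspace of its span.  Then `W` is spanned by the rows
`∑ j, Z i j • b j` of a matrix `Z` in reduced echelon form with entries in the fixed ring. -/
theorem ffir_fixed_echelon (M : FfirModel A O red r ρ Dinf m0) {n : ℕ} (b : Fin n → O)
    (hbk : LinearIndependent (ResidueField A) fun i => red (b i))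
    (hbfix : ∀ i (σ : G), ρ σ • ((b i : O) : F) = b i) (W : Submodule K F)
    (hW : W ≤ Submodule.span K (Set.range fun i => ((b i : O) : F)))
    (hWfix : ∀ (σ : G) (w : F), w ∈ W → ρ σ • w ∈ W) :
    ∃ (s : ℕ) (J : Fin s → Fin n) (Z : Fin s → Fin n → ffirFix A ρ),
      (∀ i a, ((Z i (J a) : ffirFix A ρ) : K) = if a = i then 1 else 0) ∧
      Submodule.span K (Set.range fun i => ∑ j, ((Z i j : ffirFix A ρ) : K) • ((b j : O) : F)) =
        W := by
  classical
  have hK := ffir_linearIndependent M.toRed b hbk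
  -- the coordinate map
  let φ : (Fin n → K) →ₗ[K] F := Fintype.linearCombination K fun i => ((b i : O) : F)
  have hφ : ∀ c : Fin n → K, φ c = ∑ i, c i • ((b i : O) : F) := fun c =>
    Fintype.linearCombination_apply K _ c
  have hφinj : Function.Injective φ := by
    rw [← LinearMap.ker_eq_bot, LinearMap.ker_eq_bot']
    intro c hc
    rw [hφ] at hc
    exact funext (Fintype.linearIndependent_iff.mp hK c hc)
  obtain ⟨s, J, w, hwA, hδ, hspan⟩ := ffir_echelon A n _ (W.comap φ) rfl
  have hwW : ∀ i, w i ∈ W.comap φ := fun i => hspan ▸ Submodule.subset_span ⟨i, rfl⟩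
  -- the entries are fixed
  have hfix : ∀ (σ : G) i j, SemilinearAut.baseAut (ρ σ) (w i j) = w i j := by
    intro σ i
    have h1 : φ (fun j => SemilinearAut.baseAut (ρ σ) (w i j)) = ρ σ • φ (w i) := by
      rw [hφ, hφ, Finset.smul_sum]
      refine Finset.sum_congr rfl fun j _ => ?_
      rw [Algebra.smul_def, Algebra.smul_def, smul_mul', SemilinearAut.smul_algebraMap,
        hbfix j σ]
    have h2 : (fun j => SemilinearAut.baseAut (ρ σ) (w i j)) ∈ W.comap φ := by
      rw [Submodule.mem_comap, h1]
      exact hWfix σ _ (hwW i)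
    rw [← hspan] at h2
    have h3 := ffir_echelon_unique J w hδ _ h2
    have h4 : ∑ a, SemilinearAut.baseAut (ρ σ) (w i (J a)) • w a = w i := by
      rw [Finset.sum_eq_single i]
      · rw [hδ i i, if_pos rfl, map_one, one_smul]
      · intro a _ ha
        rw [hδ i a, if_neg ha, map_zero, zero_smul]
      · intro hnot
        exact absurd (Finset.mem_univ _) hnot
    intro j
    have := congrFun (h3.trans h4) j
    exact this
  refine ⟨s, J, fun i j => ⟨w i j, hwA i j, fun σ => hfix σ i j⟩, fun i a => hδ i a, ?_⟩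
  have hrange : (Set.range fun i => ∑ j, w i j • ((b j : O) : F)) = φ '' Set.range w := by
    ext y
    constructor
    · rintro ⟨i, rfl⟩
      exact ⟨w i, ⟨i, rfl⟩, hφ _⟩
    · rintro ⟨_, ⟨i, rfl⟩, rfl⟩
      exact ⟨i, (hφ _).symm⟩
  show Submodule.span K (Set.range fun i => ∑ j, w i j • ((b j : O) : F)) = W
  rw [hrange, ← Submodule.map_span, hspan, Submodule.map_comap_eq, inf_eq_right]
  rw [LinearMap.range_eq_map, ← Submodule.span_univ (R := K)]
  intro y hy
  obtain ⟨c, hc⟩ := (Submodule.mem_span_range_iff_exists_fun K).mp (hW hy)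
  exact ⟨c, by rw [Submodule.span_univ]; trivial, by rw [hφ]; exact hc⟩

/-- the rows of an integral matrix in reduced echelon form w.r.t. a family with independent
reductions: elements of `O` with `k`-independent reductions, which span the reduction of the
subspace they span. -/
theorem ffir_rows (h : FfirRed A O red) {n s : ℕ} (b : Fin n → O)
    (hbk : LinearIndependent (ResidueField A) fun i => red (b i)) (J : Fin s → Fin n)
    (Z : Fin s → Fin n → A)
    (hδ : ∀ i a, ((Z i (J a) : A) : K) = if a = i then 1 else 0) :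
    ∃ x : Fin s → O, (∀ i, ((x i : O) : F) = ∑ j, ((Z i j : A) : K) • ((b j : O) : F)) ∧
      (∀ i, red (x i) = ∑ j, residue A (Z i j) • red (b j)) ∧
      LinearIndependent (ResidueField A) (fun i => red (x i)) ∧
      Submodule.span (ResidueField A) (Set.range fun i => red (x i)) =
        ffirRedSub h (Submodule.span K (Set.range fun i => ((x i : O) : F))) := by
  classical
  refine ⟨fun i => ∑ j, ffirC h (Z i j) * b j, fun i => ?_, fun i => ffir_red_sum h _ _ _, ?_, ?_⟩
  · rw [AddSubmonoidClass.coe_finsetSum]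
    refine Finset.sum_congr rfl fun j _ => ?_
    rw [Subring.coe_mul, ffirC_coe, Algebra.smul_def]
  · have hind : LinearIndependent (ResidueField A)
        (fun i => ∑ j, residue A (Z i j) • red (b j)) := by
      rw [Fintype.linearIndependent_iff]
      intro a ha i
      have h1 : ∑ j, (∑ i, a i * residue A (Z i j)) • red (b j) = 0 := by
        rw [← ha]
        simp only [Finset.sum_smul, Finset.smul_sum, smul_smul]
        exact Finset.sum_comm
      have h2 := Fintype.linearIndependent_iff.mp hbk _ h1 (J i)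
      rw [Finset.sum_eq_single i] at h2
      · have : residue A (Z i (J i)) = 1 := by
          have : Z i (J i) = 1 := Subtype.ext (by rw [hδ i i, if_pos rfl]; rfl)
          rw [this, map_one]
        rwa [this, mul_one] at h2
      · intro i' _ hi'
        have : Z i' (J i) = 0 := Subtype.ext (by rw [hδ i' i, if_neg (Ne.symm hi')]; rfl)
        rw [this, map_zero, mul_zero]
      · intro hnot
        exact absurd (Finset.mem_univ _) hnot
    have : (fun i => red (∑ j, ffirC h (Z i j) * b j)) =
        fun i => ∑ j, residue A (Z i j) • red (b j) := funext fun i => ffir_red_sum h _ _ _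
    rw [this]
    exact hind
  · set x : Fin s → O := fun i => ∑ j, ffirC h (Z i j) * b j with hx
    have hind : LinearIndependent (ResidueField A) (fun i => red (x i)) := by
      have hind' : LinearIndependent (ResidueField A)
          (fun i => ∑ j, residue A (Z i j) • red (b j)) := by
        rw [Fintype.linearIndependent_iff]
        intro a ha i
        have h1 : ∑ j, (∑ i, a i * residue A (Z i j)) • red (b j) = 0 := by
          rw [← ha]
          simp only [Finset.sum_smul, Finset.smul_sum, smul_smul]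
          exact Finset.sum_comm
        have h2 := Fintype.linearIndependent_iff.mp hbk _ h1 (J i)
        rw [Finset.sum_eq_single i] at h2
        · have : residue A (Z i (J i)) = 1 := by
            have : Z i (J i) = 1 := Subtype.ext (by rw [hδ i i, if_pos rfl]; rfl)
            rw [this, map_one]
          rwa [this, mul_one] at h2
        · intro i' _ hi'
          have : Z i' (J i) = 0 := Subtype.ext (by rw [hδ i' i, if_neg (Ne.symm hi')]; rfl)
          rw [this, map_zero, mul_zero]
        · intro hnot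
          exact absurd (Finset.mem_univ _) hnot
      have : (fun i => red (x i)) = fun i => ∑ j, residue A (Z i j) • red (b j) :=
        funext fun i => ffir_red_sum h _ _ _
      rw [this]
      exact hind'
    set W : Submodule K F := Submodule.span K (Set.range fun i => ((x i : O) : F)) with hW
    have hK := ffir_linearIndependent h x hind
    haveI : FiniteDimensional K W := FiniteDimensional.span_of_finite K (Set.finite_range _)
    obtain ⟨hfR, hRle⟩ := ffir_redSub_finite h W
    haveI := hfR
    have hle : Submodule.span (ResidueField A) (Set.range fun i => red (x i)) ≤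
        ffirRedSub h W := by
      rw [Submodule.span_le]
      rintro _ ⟨i, rfl⟩
      exact ⟨x i, Submodule.subset_span ⟨i, rfl⟩, rfl⟩
    apply Submodule.eq_of_le_of_finrank_le hle
    rw [finrank_span_eq_card hind, Fintype.card_fin]
    have : finrank K W = s := by rw [hW, finrank_span_eq_card hK, Fintype.card_fin]
    rw [this] at hRle
    exact hRle

/-! ### Lifting effective divisors; principal divisors -/

/-- **lifting of effective divisors** to `G`-stable effective divisors. -/
theorem ffir_lift_eff (M : FfirModel A O red r ρ Dinf m0)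
    (Dk : Divisor (ResidueField A) Fk) (hDk : 0 ≤ Dk) :
    ∃ D : Divisor K F, 0 ≤ D ∧ Finsupp.mapDomain r D = Dk ∧ ∀ σ : G, ρ σ • D = D := by
  classical
  choose s hs hsfix using M.lift_place
  refine ⟨Finsupp.mapDomain s Dk, ?_, ?_, fun σ => ?_⟩
  · intro P
    rw [Finsupp.coe_zero, Pi.zero_apply, Finsupp.mapDomain, Finsupp.sum_apply]
    refine Finset.sum_nonneg fun Q _ => ?_
    beta_reduce
    rw [Finsupp.single_apply]
    split_ifs
    · exact hDk Q
    · exact le_rfl
  · rw [← Finsupp.mapDomain_comp]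
    have : r ∘ s = id := funext hs
    rw [this, Finsupp.mapDomain_id]
  · rw [SemilinearAut.divisor_smul_def, ← Finsupp.mapDomain_comp]
    have : (fun P => ρ σ • P) ∘ s = s := funext fun Q => hsfix Q σ
    rw [this]

/-- **principal divisors reduce to principal divisors.** -/
theorem ffir_mapDomain_principal (M : FfirModel A O red r ρ Dinf m0) {D : Divisor K F}
    (hD : D ∈ Divisor.principal (K := K) (F := F)) :
    Finsupp.mapDomain r D ∈ Divisor.principal (K := ResidueField A) (F := Fk) := by
  obtain ⟨f, hf, hDf⟩ := hD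
  obtain ⟨c, hc, hmem, hred⟩ := M.toRed.scale f hf
  refine ⟨red ⟨algebraMap K F c * f, hmem⟩, hred, fun Q => ?_⟩
  refine M.div ⟨algebraMap K F c * f, hmem⟩ hred D (fun P => ?_) Q
  have hc0 : algebraMap K F c ≠ 0 := by simpa using hc
  rw [hDf P, P.ord_mul hc0 hf, Fermat.Agent.S24.PlaceOrd.ord_algebraMap, zero_add]

/-! ### Units of `O`; fullness and semicontinuity for every divisor -/

/-- `K ∩ O = A`. -/
theorem ffir_const_mem_iff (h : FfirRed A O red) (c : K) : algebraMap K F c ∈ O ↔ c ∈ A := by
  refine ⟨fun hc => ?_, fun hc => h.const_mem ⟨c, hc⟩⟩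
  by_contra hcA
  have hc0 : c ≠ 0 := fun h0 => hcA (h0 ▸ A.zero_mem)
  have hlt : A.valuation c⁻¹ < 1 := by
    rw [map_inv₀]
    have : 1 < A.valuation c := not_le.mp fun hle => hcA ((A.valuation_le_one_iff _).mp hle)
    exact inv_lt_one_of_one_lt₀ this
  have hinvA : c⁻¹ ∈ A := (A.valuation_le_one_iff _).mp hlt.le
  have hid : ffirC h ⟨c⁻¹, hinvA⟩ * ⟨algebraMap K F c, hc⟩ = 1 := by
    apply Subtype.ext
    push_cast
    rw [ffirC_coe, ← map_mul, inv_mul_cancel₀ hc0, map_one]
  have hred := congrArg red hid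
  rw [ffir_red_C_mul, map_one] at hred
  have hres0 : residue A ⟨c⁻¹, hinvA⟩ = 0 := by
    rw [residue_eq_zero_iff, A.valuation_lt_one_iff]
    exact hlt
  rw [hres0, zero_smul] at hred
  exact zero_ne_one hred

/-- the units of `O` are the elements with nonzero reduction. -/
theorem ffir_inv_mem (h : FfirRed A O red) (x : O) (hx : red x ≠ 0) : ((x : O) : F)⁻¹ ∈ O := by
  have hx0 : ((x : O) : F) ≠ 0 := by
    intro hz
    apply hx
    have : x = 0 := Subtype.ext hz
    rw [this, map_zero]
  obtain ⟨c, hc, hmem, hred⟩ := h.scale ((x : O) : F)⁻¹ (inv_ne_zero hx0)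
  set y : O := ⟨algebraMap K F c * ((x : O) : F)⁻¹, hmem⟩ with hy
  have hyx : ((y * x : O) : F) = algebraMap K F c := by
    push_cast
    rw [hy]
    show algebraMap K F c * ((x : O) : F)⁻¹ * ((x : O) : F) = algebraMap K F c
    rw [mul_assoc, inv_mul_cancel₀ hx0, mul_one]
  have hcO : algebraMap K F c ∈ O := hyx ▸ (y * x).2
  have hcA : c ∈ A := (ffir_const_mem_iff h c).mp hcO
  have hredc : red (ffirC h ⟨c, hcA⟩) ≠ 0 := by
    have : ffirC h ⟨c, hcA⟩ = y * x := Subtype.ext hyx.symm
    rw [this, map_mul]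
    exact mul_ne_zero hred hx
  rw [ffir_red_C] at hredc
  have hresc : residue A ⟨c, hcA⟩ ≠ 0 := fun h0 => hredc (by rw [h0, map_zero])
  have hunit : IsUnit (⟨c, hcA⟩ : A) := by
    by_contra hnu
    exact hresc ((residue_eq_zero_iff _).mpr hnu)
  have hv1 : A.valuation c = 1 := (A.valuation_eq_one_iff ⟨c, hcA⟩).mp hunit
  have hinvA : c⁻¹ ∈ A := by
    rw [← A.valuation_le_one_iff, map_inv₀, hv1, inv_one]
  have : ((x : O) : F)⁻¹ = ((ffirC h ⟨c⁻¹, hinvA⟩ * y : O) : F) := by
    push_cast
    rw [ffirC_coe, hy]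
    show ((x : O) : F)⁻¹ = algebraMap K F c⁻¹ * (algebraMap K F c * ((x : O) : F)⁻¹)
    rw [← mul_assoc, ← map_mul, inv_mul_cancel₀ hc, map_one, one_mul]
  rw [this]
  exact (ffirC h ⟨c⁻¹, hinvA⟩ * y).2

/-- **every Riemann-Roch space is full** : `dim_k red(L(Z) ∩ O) = l(Z)` for every divisor `Z`. -/
theorem ffir_full_rrSpace (M : FfirModel A O red r ρ Dinf m0) (RR : V27RR K F g)
    (RRk : V27RR (ResidueField A) Fk g) (hdeg : ∀ P : Place K F, P.deg = 1)
    (hdegk : ∀ Q : Place (ResidueField A) Fk, Q.deg = 1) (hd : 0 < Divisor.degree Dinf)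
    (Z : Divisor K F) : FfirFull M.toRed (riemannRochSpace Z) := by
  classical
  haveI := RR.hasDiv
  haveI hfZ := RR.finL Z
  -- the level
  set m : ℕ := m0 + (3 * g + (Divisor.degree Z).toNat + 1) with hm
  have hm0 : m0 ≤ m := Nat.le_add_right _ _
  have hmd' : (m : ℤ) ≤ m * Divisor.degree Dinf := by nlinarith
  have hZle : Divisor.degree Z ≤ (Divisor.degree Z).toNat := Int.self_le_toNat _
  have hmge : (3 * (g : ℤ) + (Divisor.degree Z).toNat + 1) ≤ m := by
    rw [hm]; push_cast; linarith
  have hmd : 2 * (g : ℤ) - 2 < m * Divisor.degree Dinf := by linarith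
  obtain ⟨hfull, -⟩ := ffir_base_full M RR RRk hdeg hdegk hm0 hmd
  -- a multiplier
  have hdegsub : (g : ℤ) ≤ Divisor.degree (m • Dinf - Z) := by
    rw [map_sub, map_nsmul, nsmul_eq_mul]; linarith
  obtain ⟨f, hf0, hf⟩ := RR.exists_ne_zero_mem hdegsub
  obtain ⟨c, hc, hmem, hred⟩ := M.toRed.scale f hf0
  set u : O := ⟨algebraMap K F c * f, hmem⟩ with hu
  have huL : ((u : O) : F) ∈ riemannRochSpace (m • Dinf - Z) := by
    show algebraMap K F c * f ∈ _
    rw [← Algebra.smul_def]
    exact Submodule.smul_mem _ _ hf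
  have hu0 : ((u : O) : F) ≠ 0 := by
    intro hz
    apply hred
    have : u = 0 := Subtype.ext hz
    rw [this, map_zero]
  have huinv := ffir_inv_mem M.toRed u hred
  -- the image of `L(Z)` under multiplication by `u`
  set W : Submodule K F := (riemannRochSpace Z).map (LinearMap.mulLeft K ((u : O) : F)) with hW
  have hWle : W ≤ riemannRochSpace (m • Dinf) := by
    rintro _ ⟨x, hx, rfl⟩
    have := ffir_mul_mem_rrSpace huL hx
    rwa [sub_add_cancel] at this
  have hWfull : FfirFull M.toRed W := ffir_full_of_le M.toRed hfull hWle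
  have hinj : Function.Injective (LinearMap.mulLeft K ((u : O) : F)) := fun a b hab =>
    mul_left_cancel₀ hu0 hab
  have hdimW : finrank K W = finrank K (riemannRochSpace Z) :=
    (Submodule.equivMapOfInjective _ hinj (riemannRochSpace Z)).finrank_eq.symm
  obtain ⟨w, hwW, hwk, -, -, -⟩ := ffir_exists_basis M.toRed hWfull
  -- divide by `u`
  have hxmem : ∀ i, ((u : O) : F)⁻¹ * ((w i : O) : F) ∈ riemannRochSpace Z := by
    intro i
    obtain ⟨x, hx, hxw⟩ := hwW i
    rw [← hxw, LinearMap.mulLeft_apply, ← mul_assoc, inv_mul_cancel₀ hu0, one_mul]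
    exact hx
  set x : Fin (finrank K W) → O := fun i => ⟨((u : O) : F)⁻¹, huinv⟩ * w i with hxdef
  have hxw : ∀ i, u * x i = w i := by
    intro i
    apply Subtype.ext
    push_cast
    rw [hxdef]
    show ((u : O) : F) * (((u : O) : F)⁻¹ * ((w i : O) : F)) = _
    rw [← mul_assoc, mul_inv_cancel₀ hu0, one_mul]
  have hxk : LinearIndependent (ResidueField A) (fun i => red (x i)) := by
    rw [Fintype.linearIndependent_iff]
    intro a ha
    have h1 : ∑ i, a i • red (w i) = 0 := by
      have : ∀ i, red (w i) = red u * red (x i) := fun i => by rw [← hxw i, map_mul]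
      have h2 : ∑ i, a i • red (w i) = red u * ∑ i, a i • red (x i) := by
        rw [Finset.mul_sum]
        refine Finset.sum_congr rfl fun i _ => ?_
        rw [this i, mul_smul_comm]
      rw [h2, ha, mul_zero]
    exact Fintype.linearIndependent_iff.mp hwk a h1
  refine ⟨hfZ, ?_⟩
  obtain ⟨hfR, -⟩ := ffir_redSub_finite M.toRed (riemannRochSpace Z)
  haveI := hfR
  have hxR : ∀ i, red (x i) ∈ ffirRedSub M.toRed (riemannRochSpace Z) := fun i =>
    ⟨x i, hxmem i, rfl⟩
  have hind' : LinearIndependent (ResidueField A)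
      (fun i => (⟨red (x i), hxR i⟩ : ffirRedSub M.toRed (riemannRochSpace Z))) := by
    apply LinearIndependent.of_comp (ffirRedSub M.toRed (riemannRochSpace Z)).subtype
    exact hxk
  have := hind'.fintype_card_le_finrank
  rw [Fintype.card_fin, hdimW] at this
  exact this

/-- **(E2), general form** : for EVERY divisor `Z` with `deg Z > 2g - 2` the lattice `L(Z) ∩ O`
reduces ONTO `L(r_* Z)`. -/
theorem ffir_redSub_rr' (M : FfirModel A O red r ρ Dinf m0) (RR : V27RR K F g)
    (RRk : V27RR (ResidueField A) Fk g) (hdeg : ∀ P : Place K F, P.deg = 1)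
    (hdegk : ∀ Q : Place (ResidueField A) Fk, Q.deg = 1) (hd : 0 < Divisor.degree Dinf)
    {Z : Divisor K F} (hdZ : 2 * (g : ℤ) - 2 < Divisor.degree Z) :
    ffirRedSub M.toRed (riemannRochSpace Z) = riemannRochSpace (Finsupp.mapDomain r Z) := by
  haveI := RR.hasDiv
  have hfullZ := ffir_full_rrSpace M RR RRk hdeg hdegk hd Z
  haveI := RRk.finL (Finsupp.mapDomain r Z)
  apply Submodule.eq_of_le_of_finrank_eq (ffir_redSub_le_rrSpace M.toRed M.div Z)
  rw [ffir_full_finrank M.toRed hfullZ]
  have h1 := (RR.finrank_of_lt hdZ).1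
  have h2 := (RRk.finrank_of_lt (D := Finsupp.mapDomain r Z) (by
    rw [ffir_degree_mapDomain r hdeg hdegk]; exact hdZ)).1
  rw [ffir_degree_mapDomain r hdeg hdegk] at h2
  have : (finrank K (riemannRochSpace Z) : ℤ) =
      finrank (ResidueField A) (riemannRochSpace (Finsupp.mapDomain r Z)) := by
    rw [h1, h2]
  exact_mod_cast this

/-- **(E3)** upper semicontinuity `l(Z) ≤ l(r_* Z)` for EVERY divisor `Z`. -/
theorem ffir_semicont (M : FfirModel A O red r ρ Dinf m0) (RR : V27RR K F g)
    (RRk : V27RR (ResidueField A) Fk g) (hdeg : ∀ P : Place K F, P.deg = 1)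
    (hdegk : ∀ Q : Place (ResidueField A) Fk, Q.deg = 1) (hd : 0 < Divisor.degree Dinf)
    (Z : Divisor K F) :
    finrank K (riemannRochSpace Z) ≤
      finrank (ResidueField A) (riemannRochSpace (Finsupp.mapDomain r Z)) := by
  haveI := RR.hasDiv
  have hfullZ := ffir_full_rrSpace M RR RRk hdeg hdegk hd Z
  rw [← ffir_full_finrank M.toRed hfullZ]
  haveI := RRk.finL (Finsupp.mapDomain r Z)
  exact Submodule.finrank_mono (ffir_redSub_le_rrSpace M.toRed M.div Z)

end Model

end Fermat.Agent.FF

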