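import Fermat.Agent.FF.Spec

/-!
# PROGRAM FF (S19 + S32): interface file, part 2 (after FF-ARCH #1, board 3512)

Owner: helper16 (program manager).  Chief architect: helper24.

* `ffI 𝔸` : the inertia group of the place `𝔸` inside `G_ℚ`;  `ffWI 𝔸 = 𝔸^I`.
* `FfCoreOut 𝔸 M act` : **(CORE-OUT)**, the output literal of the core = the input literal of the
  compositum/descent layer: a finite set `Gen` of `𝔸`-valued, `I`-equivariant functions on `M`,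
  separating the points, with `Δ Gen ⊂ W[Gen] ⊗ W[Gen]`, `W = 𝔸^I`.
* `FfDescentSpec2 ℓ` (A3 + A4): (CORE-OUT) at ONE place over `ℓ` gives a global order.
* `FfCoreSpec2 N ℓ k 𝔸` (C5): (CORE-OUT) for `J₀(N)[ℓ^k]`.
-/

set_option autoImplicit false

namespace Fermat.Agent.FF

/-- the inertia group of the place `𝔸` of `ℚ̄`, as a subgroup of `G_ℚ`. -/
noncomputable abbrev ffI (𝔸 : ValuationSubring FfQb) : Subgroup FfGal := 𝔸.inertiaSubgroupIn ℚ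

/-- `W = 𝔸^I`. -/
noncomputable abbrev ffWI (𝔸 : ValuationSubring FfQb) : Subring FfQb := ffW 𝔸 (ffI 𝔸)

/-- **(CORE-OUT)** (helper24, FF-ARCH #1): (L1) values in `𝔸`, (L2) `I`-equivariant,
(L3) separating, (L4) `Δ`-closed over `W = 𝔸^I`. -/
def FfCoreOut (𝔸 : ValuationSubring FfQb) (M : Type) [AddCommGroup M]
    (act : FfGal → M → M) : Prop :=
  ∃ Gen : Finset (M → FfQb),
    (∀ φ ∈ Gen, ∀ m : M, φ m ∈ 𝔸) ∧
    (∀ φ ∈ Gen, ∀ σ ∈ ffI 𝔸, ∀ m : M, φ (act σ m) = σ (φ m)) ∧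
    (∀ m m' : M, m ≠ m' → ∃ φ ∈ Gen, φ m ≠ φ m') ∧
    ∀ φ ∈ Gen, ∃ (n : ℕ)
      (a b : Fin n → ↥(Algebra.adjoin ↥(ffWI 𝔸) (↑Gen : Set (M → FfQb)))),
      ∀ m m' : M, φ (m + m') = ∑ i, (a i).1 m * (b i).1 m'

/-- (A3)+(A4), helper23 (+ helper9, helper29, helper3): compositum over the conjugates and
unramified descent, from (CORE-OUT) at ONE place over `ℓ`. -/
def FfDescentSpec2 (ℓ : ℕ) : Prop :=
  ∀ (M : Type) [AddCommGroup M] [Finite M] (act : FfGal → M → M), FfAct M act → FfCont M act →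
    ∀ 𝔸 : ValuationSubring FfQb, 𝔸.LiesOverPrime ℓ → FfCoreOut 𝔸 M act → FfModOrd ℓ M act

/-- (C5), helper10 + helper1: (CORE-OUT) for `J₀(N)[ℓ^k]` at the place `𝔸`. -/
def FfCoreSpec2 (N ℓ k : ℕ) (𝔸 : ValuationSubring FfQb) : Prop :=
  FfCoreOut 𝔸 ↥(Submodule.torsionBy ℤ (ModularCurve.JZero N) ((ℓ : ℤ) ^ k))
    (ffTorsAct N ((ℓ : ℤ) ^ k))

/-- the hypothesis on the level under which the reduction atlas of `G/Red` exists. -/
def FfGoodLevel (N ℓ : ℕ) : Prop := ¬ ℓ ∣ N ∧ (5 ≤ ℓ ∨ (5 - ℓ) ∣ N)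

/-- (B)+(C) as ONE arrow: (CORE-OUT) at every good level, at some place over `ℓ`. -/
def FfCoreAll (ℓ : ℕ) : Prop :=
  ∀ (N : ℕ) [NeZero N] (k : ℕ), FfGoodLevel N ℓ →
    ∃ 𝔸 : ValuationSubring FfQb, 𝔸.LiesOverPrime ℓ ∧ FfCoreSpec2 N ℓ k 𝔸

end Fermat.Agent.FF
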