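import Mathlib
import Fermat.Prelude.Def_FLTPrelim_Ramification
import Fermat.Agent.S05.Inertia
import Fermat.Agent.G.Unr.Cyc
import Fermat.Agent.SS.Germ.FrobLift

/-!
# Program FF (S19): the base ring `W := 𝔸^I` (prefix `ffiw`)

Owner: helper19.  Namespace `Fermat.Agent.FF`.

`𝔸 = A : ValuationSubring ℚ̄` lying over the prime `ℓ`, `I := A.inertiaSubgroupIn ℚ` (the Prelude's
inertia group, a subgroup of `Gal(ℚ̄/ℚ)`), `W := {x ∈ A | ∀ σ ∈ I, σ x = x}`.

* `ffiwRing A`                : `W` as a `Subring ℚ̄`; `ffiw_le`, `ffiw_mem_iff`;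
* `ffiw_ratCast_mem`, `ffiw_intCast_mem`, `ffiw_algebraMap_mem` : the rational numbers of `A` are in `W`
  (`ℤ_(ℓ) ⊂ W`);
* `ffiw_rootOfUnity_mem`     : the roots of unity of order prime to `ℓ` are in `W`;
* `ffiw_inv_mem`             : a unit of `A` lying in `W` is a unit of `W`;
* `ffiw_residue_surjective`  : `W → A/𝔪` is onto (Teichmüller lifts): the residue field of `W` is
  the residue field `k` of `A`;  `ffiwRes`, `ffiwRes_surjective` : the same as a ring hom;
* `ffiw_coeff_mem`           : for an `I`-equivariant `A`-valued function `φ` on a finite `I`-set,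
  `∏_x (T - φ x)` has coefficients in `W`;  `ffiw_exists_monic`, `ffiw_isIntegral_pi` : such a
  function is integral over `W`;  `ffiw_coeff_mem_finset` : the `Finset` form;
* `ffiw_isIntegral`          : `A` is integral over `W`;
* `ffiw_map_mem`             : `W` is stable under the decomposition group of `A`.
-/

set_option autoImplicit false
set_option linter.style.haveILetI false

noncomputable section

namespace Fermat.Agent.FF

open IsLocalRing Polynomial
open scoped Pointwise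

local notation "Qb" => AlgebraicClosure ℚ
local notation "GQ" => (AlgebraicClosure ℚ ≃ₐ[ℚ] AlgebraicClosure ℚ)

variable (A : ValuationSubring Qb)

/-- **the base ring** `W = 𝔸^I`: the elements of `A` fixed by the inertia group of `A`. -/
def ffiwRing : Subring Qb where
  carrier := {x | x ∈ A ∧ ∀ σ ∈ A.inertiaSubgroupIn ℚ, σ x = x}
  mul_mem' := fun {x y} hx hy => ⟨A.mul_mem x y hx.1 hy.1, fun σ hσ => by
    rw [map_mul, hx.2 σ hσ, hy.2 σ hσ]⟩
  one_mem' := ⟨A.one_mem, fun σ _ => map_one σ⟩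
  add_mem' := fun {x y} hx hy => ⟨A.add_mem x y hx.1 hy.1, fun σ hσ => by
    rw [map_add, hx.2 σ hσ, hy.2 σ hσ]⟩
  zero_mem' := ⟨A.zero_mem, fun σ _ => map_zero σ⟩
  neg_mem' := fun {x} hx => ⟨A.neg_mem x hx.1, fun σ hσ => by rw [map_neg, hx.2 σ hσ]⟩

variable {A}

theorem ffiw_mem_iff {x : Qb} :
    x ∈ ffiwRing A ↔ x ∈ A ∧ ∀ σ ∈ A.inertiaSubgroupIn ℚ, σ x = x := Iff.rfl

theorem ffiw_mem_A {x : Qb} (hx : x ∈ ffiwRing A) : x ∈ A := hx.1

theorem ffiw_fixed {x : Qb} (hx : x ∈ ffiwRing A) {σ : GQ} (hσ : σ ∈ A.inertiaSubgroupIn ℚ) :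
    σ x = x := hx.2 σ hσ

variable (A)

theorem ffiw_le : ffiwRing A ≤ A.toSubring := fun _ hx => hx.1

/-- the rational numbers of `A` are in `W`. -/
theorem ffiw_algebraMap_mem (q : ℚ) (hq : algebraMap ℚ Qb q ∈ A) :
    algebraMap ℚ Qb q ∈ ffiwRing A :=
  ⟨hq, fun σ _ => σ.commutes q⟩

theorem ffiw_ratCast_mem (q : ℚ) (hq : (q : Qb) ∈ A) : (q : Qb) ∈ ffiwRing A := by
  rw [← eq_ratCast (algebraMap ℚ Qb) q] at hq ⊢
  exact ffiw_algebraMap_mem A q hq

theorem ffiw_intCast_mem (n : ℤ) : (n : Qb) ∈ ffiwRing A := intCast_mem _ n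

theorem ffiw_natCast_mem (n : ℕ) : (n : Qb) ∈ ffiwRing A := natCast_mem _ n

/-- a unit of `A` lying in `W` is a unit of `W`. -/
theorem ffiw_inv_mem {w : Qb} (hw : w ∈ ffiwRing A) (hu : w ∉ A.nonunits) :
    w⁻¹ ∈ ffiwRing A := by
  refine ⟨?_, fun σ hσ => by rw [map_inv₀, hw.2 σ hσ]⟩
  rw [ValuationSubring.mem_nonunits_iff, not_lt] at hu
  have h1 : A.valuation w = 1 := le_antisymm ((A.valuation_le_one_iff w).2 hw.1) hu
  rw [← A.valuation_le_one_iff, map_inv₀, h1, inv_one]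

section Lies

variable {ℓ : ℕ} [Fact ℓ.Prime] (hA : A.LiesOverPrime ℓ)
include hA

/-- **the roots of unity of order prime to `ℓ` are in `W`.** -/
theorem ffiw_rootOfUnity_mem {ζ : Qb} {n : ℕ} (hn : ¬ ℓ ∣ n) (hζ : ζ ^ n = 1) :
    ζ ∈ ffiwRing A := by
  have hn0 : n ≠ 0 := fun h => hn (h ▸ dvd_zero ℓ)
  have hv : A.valuation ζ = 1 := Fermat.Agent.G.guny_valuation_eq_one A hn0 hζ
  exact ⟨(A.valuation_le_one_iff ζ).1 hv.le, fun σ hσ =>
    Fermat.Agent.G.gun_cyc_inertia (Fact.out : ℓ.Prime) hn A hA σ hσ ζ hζ⟩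

/-- the residue field of `A` has characteristic `ℓ`. -/
theorem ffiw_charP : CharP (ResidueField A) ℓ := by
  rw [CharP.charP_iff_prime_eq_zero (Fact.out : ℓ.Prime)]
  have hmem : ((ℓ : ℕ) : Qb) ∈ A := ValuationSubring.nonunits_le hA
  have h1 : (⟨((ℓ : ℕ) : Qb), hmem⟩ : A) ∈ maximalIdeal A := by
    rw [← ValuationSubring.coe_mem_nonunits_iff]
    exact hA
  have h2 : ((ℓ : ℕ) : A) = ⟨((ℓ : ℕ) : Qb), hmem⟩ := Subtype.ext (by simp)
  have h3 : residue A ((ℓ : ℕ) : A) = 0 := by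
    rw [h2]
    exact (residue_eq_zero_iff _).mpr h1
  simpa using h3

/-- every nonzero element of the residue field is a root of unity of order prime to `ℓ`. -/
theorem ffiw_residue_pow_eq_one (c : ResidueField A) (hc : c ≠ 0) :
    ∃ n : ℕ, ¬ ℓ ∣ n ∧ c ^ n = 1 := by
  haveI : CharP (ResidueField A) ℓ := ffiw_charP A hA
  letI : Algebra (ZMod ℓ) (ResidueField A) := ZMod.algebra _ ℓ
  haveI : Algebra.IsAlgebraic ℚ Qb := AlgebraicClosure.isAlgebraic ℚ
  haveI : Algebra.IsAlgebraic (ZMod ℓ) (ResidueField A) :=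
    Fermat.Agent.SS.ssgfl_residue_isAlgebraic A ℓ
  have hint : IsIntegral (ZMod ℓ) c := (Algebra.IsAlgebraic.isAlgebraic c).isIntegral
  set E : IntermediateField (ZMod ℓ) (ResidueField A) := IntermediateField.adjoin (ZMod ℓ) {c}
    with hE
  haveI : FiniteDimensional (ZMod ℓ) E := IntermediateField.adjoin.finiteDimensional hint
  haveI : Finite E := Module.finite_of_finite (ZMod ℓ)
  letI : Fintype E := Fintype.ofFinite E
  have hcE : c ∈ E := IntermediateField.mem_adjoin_simple_self (ZMod ℓ) c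
  set c' : E := ⟨c, hcE⟩ with hc'
  have hc'0 : c' ≠ 0 := fun h => hc (congrArg Subtype.val h)
  have hpow : c' ^ (Fintype.card E - 1) = 1 := FiniteField.pow_card_sub_one_eq_one c' hc'0
  haveI : CharP E ℓ := by
    haveI : Algebra (ZMod ℓ) E := inferInstance
    exact charP_of_injective_algebraMap (algebraMap (ZMod ℓ) E).injective ℓ
  obtain ⟨k, hk⟩ := FiniteField.card E ℓ
  refine ⟨Fintype.card E - 1, ?_, ?_⟩
  · rw [hk.2]
    intro hdvd
    have h1 : ℓ ∣ ℓ ^ (k : ℕ) := dvd_pow_self ℓ k.ne_zero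
    have hpos : 1 ≤ ℓ ^ (k : ℕ) := Nat.one_le_pow _ _ (Fact.out : ℓ.Prime).pos
    have h2 : ℓ ∣ ℓ ^ (k : ℕ) - (ℓ ^ (k : ℕ) - 1) := Nat.dvd_sub h1 hdvd
    have h3 : ℓ ^ (k : ℕ) - (ℓ ^ (k : ℕ) - 1) = 1 := by omega
    rw [h3] at h2
    exact (Fact.out : ℓ.Prime).one_lt.ne' (Nat.dvd_one.mp h2)
  · have := congrArg (Subtype.val : E → ResidueField A) hpow
    simpa using this

/-- **`W → A/𝔪` is onto** (Teichmüller lifts): every `a ∈ A` is congruent modulo `𝔪_A` to an
element of `W` (`0` or a root of unity of order prime to `ℓ`). -/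
theorem ffiw_residue_surjective {a : Qb} (ha : a ∈ A) :
    ∃ w ∈ ffiwRing A, a - w ∈ A.nonunits := by
  by_cases ha0 : a ∈ A.nonunits
  · exact ⟨0, (ffiwRing A).zero_mem, by rwa [sub_zero]⟩
  -- the residue of `a` is a root of unity
  have hres : residue A ⟨a, ha⟩ ≠ 0 := by
    intro h0
    apply ha0
    have := (residue_eq_zero_iff _).mp h0
    rwa [← ValuationSubring.coe_mem_nonunits_iff] at this
  obtain ⟨n, hn, hpow⟩ := ffiw_residue_pow_eq_one A hA _ hres
  have hn0 : n ≠ 0 := fun h => hn (h ▸ dvd_zero ℓ)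
  -- `a ^ n - 1 ∈ 𝔪`
  have han : a ^ n - 1 ∈ A.nonunits := by
    have h1 : residue A (⟨a, ha⟩ ^ n - 1) = 0 := by rw [map_sub, map_pow, hpow, map_one, sub_self]
    have h2 := (residue_eq_zero_iff _).mp h1
    rw [← ValuationSubring.coe_mem_nonunits_iff] at h2
    simpa using h2
  -- factor `X ^ n - 1` over `ℚ̄`
  set p : Qb[X] := X ^ n - 1 with hp
  have hmonic : p.Monic := monic_X_pow_sub_C (1 : Qb) hn0
  have hsplit : p.Splits := IsAlgClosed.splits p
  have hroot : ∀ r ∈ p.roots, r ^ n = 1 := by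
    intro r hr
    have := (Polynomial.mem_roots hmonic.ne_zero).mp hr
    rw [hp, IsRoot.def, eval_sub, eval_pow, eval_X, eval_one, sub_eq_zero] at this
    exact this
  have heval : a ^ n - 1 = (p.roots.map fun r => a - r).prod := by
    have h1 : eval a p = a ^ n - 1 := by rw [hp, eval_sub, eval_pow, eval_X, eval_one]
    rw [← h1]
    exact hsplit.eval_eq_prod_roots_of_monic hmonic a
  -- some factor lies in `𝔪`
  by_contra hcon
  push Not at hcon
  have hall : ∀ r ∈ p.roots, A.valuation (a - r) = 1 := by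
    intro r hr
    have hrW : r ∈ ffiwRing A := ffiw_rootOfUnity_mem A hA hn (hroot r hr)
    have h1 : a - r ∉ A.nonunits := hcon r hrW
    rw [ValuationSubring.mem_nonunits_iff, not_lt] at h1
    exact le_antisymm ((A.valuation_le_one_iff _).2 (sub_mem ha hrW.1)) h1
  have hval : A.valuation (a ^ n - 1) = 1 := by
    rw [heval, map_multiset_prod, Multiset.map_map]
    refine Multiset.prod_eq_one fun x hx => ?_
    obtain ⟨r, hr, rfl⟩ := Multiset.mem_map.mp hx
    exact hall r hr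
  rw [ValuationSubring.mem_nonunits_iff, hval] at han
  exact lt_irrefl _ han

end Lies

/-- the ring hom `W → A/𝔪`. -/
def ffiwRes : ffiwRing A →+* ResidueField A :=
  (residue A).comp
    { toFun := fun w => (⟨w.1, w.2.1⟩ : A)
      map_one' := rfl
      map_mul' := fun _ _ => rfl
      map_zero' := rfl
      map_add' := fun _ _ => rfl }

theorem ffiwRes_apply (w : ffiwRing A) : ffiwRes A w = residue A ⟨w.1, w.2.1⟩ := rfl

theorem ffiwRes_surjective {ℓ : ℕ} [Fact ℓ.Prime] (hA : A.LiesOverPrime ℓ) :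
    Function.Surjective (ffiwRes A) := by
  intro c
  obtain ⟨a, rfl⟩ := residue_surjective c
  obtain ⟨w, hw, hsub⟩ := ffiw_residue_surjective A hA a.2
  refine ⟨⟨w, hw⟩, ?_⟩
  rw [ffiwRes_apply, eq_comm, ← sub_eq_zero, ← map_sub, residue_eq_zero_iff,
    ← ValuationSubring.coe_mem_nonunits_iff]
  exact hsub

/-! ### integrality of the `I`-equivariant functions -/

/-- **the characteristic polynomial of an `I`-equivariant `A`-valued function on a finite `I`-set
has coefficients in `W`.** -/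
theorem ffiw_coeff_mem {X : Type*} [Fintype X] (φ : X → Qb) (hφ : ∀ x, φ x ∈ A)
    (hperm : ∀ σ ∈ A.inertiaSubgroupIn ℚ, ∃ π : X → X, Function.Bijective π ∧
      ∀ x, φ (π x) = σ (φ x)) (n : ℕ) :
    (∏ x, (Polynomial.X - C (φ x)) : Qb[X]).coeff n ∈ ffiwRing A := by
  set p : Qb[X] := ∏ x, (Polynomial.X - C (φ x)) with hp
  refine ⟨?_, fun σ hσ => ?_⟩
  · -- coefficients in `A`
    have hlift : p ∈ Polynomial.lifts (A.subtype : A →+* Qb) := by
      rw [hp]
      refine prod_mem fun x _ => ?_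
      rw [Polynomial.mem_lifts]
      exact ⟨Polynomial.X - C (⟨φ x, hφ x⟩ : A), by simp⟩
    rw [Polynomial.lifts_iff_coeff_lifts] at hlift
    obtain ⟨y, hy⟩ := hlift n
    rw [← hy]
    exact y.2
  · -- coefficients fixed by `I`
    obtain ⟨π, hπ, hπφ⟩ := hperm σ hσ
    have hmap : p.map (σ : Qb →+* Qb) = p := by
      rw [hp, Polynomial.map_prod]
      have h1 : ∀ x, ((Polynomial.X - C (φ x) : Qb[X]).map (σ : Qb →+* Qb)) =
          Polynomial.X - C (φ (π x)) := by
        intro x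
        rw [Polynomial.map_sub, Polynomial.map_X, Polynomial.map_C, hπφ x]
        rfl
      rw [Finset.prod_congr rfl fun x _ => h1 x]
      exact Function.Bijective.prod_comp hπ fun x => (Polynomial.X - C (φ x) : Qb[X])
    have := congrArg (fun q : Qb[X] => q.coeff n) hmap
    simp only [Polynomial.coeff_map] at this
    exact this

/-- the same polynomial over `W`: monic, and it kills every value of `φ`. -/
theorem ffiw_exists_monic {X : Type*} [Fintype X] (φ : X → Qb) (hφ : ∀ x, φ x ∈ A)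
    (hperm : ∀ σ ∈ A.inertiaSubgroupIn ℚ, ∃ π : X → X, Function.Bijective π ∧
      ∀ x, φ (π x) = σ (φ x)) :
    ∃ p : (ffiwRing A)[X], p.Monic ∧ p.map (ffiwRing A).subtype = ∏ x, (Polynomial.X - C (φ x)) ∧
      ∀ x, Polynomial.aeval (φ x) p = 0 := by
  classical
  set q : Qb[X] := ∏ x, (Polynomial.X - C (φ x)) with hq
  have hcoef : (↑q.coeffs : Set Qb) ⊆ (ffiwRing A : Set Qb) := by
    intro c hc
    rw [Finset.mem_coe, Polynomial.mem_coeffs_iff] at hc
    obtain ⟨n, -, rfl⟩ := hc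
    exact ffiw_coeff_mem A φ hφ hperm n
  have hqm : q.Monic := Polynomial.monic_prod_of_monic _ _ fun x _ => Polynomial.monic_X_sub_C _
  refine ⟨q.toSubring (ffiwRing A) hcoef, ?_, Polynomial.map_toSubring q (ffiwRing A) hcoef, ?_⟩
  · exact (Polynomial.monic_toSubring q (ffiwRing A) hcoef).mpr hqm
  · intro x
    have h1 : Polynomial.aeval (φ x) (q.toSubring (ffiwRing A) hcoef) =
        Polynomial.eval (φ x) ((q.toSubring (ffiwRing A) hcoef).map (ffiwRing A).subtype) := by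
      rw [Polynomial.eval_map]
      rfl
    rw [h1, Polynomial.map_toSubring, hq, Polynomial.eval_prod]
    exact Finset.prod_eq_zero (Finset.mem_univ x) (by simp)

/-- **the `I`-equivariant `A`-valued functions on a finite `I`-set are integral over `W`.** -/
theorem ffiw_isIntegral_pi {X : Type*} [Finite X] (φ : X → Qb) (hφ : ∀ x, φ x ∈ A)
    (hperm : ∀ σ ∈ A.inertiaSubgroupIn ℚ, ∃ π : X → X, Function.Bijective π ∧
      ∀ x, φ (π x) = σ (φ x)) :
    IsIntegral (ffiwRing A) (φ : X → Qb) := by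
  haveI := Fintype.ofFinite X
  obtain ⟨p, hpm, -, hp⟩ := ffiw_exists_monic A φ hφ hperm
  refine ⟨p, hpm, ?_⟩
  funext x
  have h1 := Polynomial.aeval_algHom_apply (Pi.evalAlgHom (ffiwRing A) (fun _ : X => Qb) x) φ p
  rw [← Polynomial.aeval_def]
  exact h1.symm.trans (hp x)

/-- the `Finset` form: an `I`-stable finite subset of `A`. -/
theorem ffiw_coeff_mem_finset (S : Finset Qb) (hS : ∀ s ∈ S, s ∈ A)
    (hstab : ∀ σ ∈ A.inertiaSubgroupIn ℚ, ∀ s ∈ S, σ s ∈ S) (n : ℕ) :
    (∏ s ∈ S, (Polynomial.X - C s) : Qb[X]).coeff n ∈ ffiwRing A := by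
  have key := ffiw_coeff_mem A (X := S) (fun s => (s : Qb)) (fun s => hS s s.2) (fun σ hσ => by
    refine ⟨fun s => ⟨σ s, hstab σ hσ s s.2⟩, ?_, fun _ => rfl⟩
    refine Finite.injective_iff_bijective.mp fun s t hst => ?_
    exact Subtype.ext (σ.injective (congrArg Subtype.val hst))) n
  have h1 : (∏ s : S, (Polynomial.X - C (s : Qb)) : Qb[X]) = ∏ s ∈ S, (Polynomial.X - C s) :=
    Finset.prod_coe_sort S fun s => (Polynomial.X - C s : Qb[X])
  rw [← h1]
  exact key

/-- **`A` is integral over `W`.** -/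
theorem ffiw_isIntegral {a : Qb} (ha : a ∈ A) : IsIntegral (ffiwRing A) a := by
  classical
  have hint : IsIntegral ℚ a := (AlgebraicClosure.isAlgebraic ℚ).isAlgebraic a |>.isIntegral
  have hne : minpoly ℚ a ≠ 0 := minpoly.ne_zero hint
  set S : Finset Qb := ((minpoly ℚ a).rootSet Qb).toFinset.filter (· ∈ A) with hS
  have hmemS : ∀ s, s ∈ S ↔ Polynomial.aeval s (minpoly ℚ a) = 0 ∧ s ∈ A := by
    intro s
    rw [hS, Finset.mem_filter, Set.mem_toFinset, Polynomial.mem_rootSet]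
    constructor
    · rintro ⟨⟨-, h⟩, h'⟩
      exact ⟨h, h'⟩
    · rintro ⟨h, h'⟩
      exact ⟨⟨hne, h⟩, h'⟩
  have haS : a ∈ S := (hmemS a).2 ⟨minpoly.aeval ℚ a, ha⟩
  have hstab : ∀ σ ∈ A.inertiaSubgroupIn ℚ, ∀ s ∈ S, σ s ∈ S := by
    intro σ hσ s hs
    obtain ⟨h1, h2⟩ := (hmemS s).1 hs
    refine (hmemS _).2 ⟨?_, ?_⟩
    · have := Polynomial.aeval_algHom_apply (σ : Qb →ₐ[ℚ] Qb) s (minpoly ℚ a)
      rw [h1, map_zero] at this
      exact this
    · exact ((Fermat.Agent.S05.isInertial_of_mem_inertiaSubgroupIn A σ hσ).mem_iff s).2 h2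
  set q : Qb[X] := ∏ s ∈ S, (Polynomial.X - C s) with hq
  have hcoef : (↑q.coeffs : Set Qb) ⊆ (ffiwRing A : Set Qb) := by
    intro c hc
    rw [Finset.mem_coe, Polynomial.mem_coeffs_iff] at hc
    obtain ⟨n, -, rfl⟩ := hc
    exact ffiw_coeff_mem_finset A S (fun s hs => ((hmemS s).1 hs).2) hstab n
  have hqm : q.Monic := Polynomial.monic_prod_of_monic _ _ fun x _ => Polynomial.monic_X_sub_C _
  refine ⟨q.toSubring (ffiwRing A) hcoef,
    (Polynomial.monic_toSubring q (ffiwRing A) hcoef).mpr hqm, ?_⟩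
  have h1 : Polynomial.eval₂ (algebraMap (ffiwRing A) Qb) a (q.toSubring (ffiwRing A) hcoef) =
      Polynomial.eval a ((q.toSubring (ffiwRing A) hcoef).map (ffiwRing A).subtype) := by
    rw [Polynomial.eval_map]
    rfl
  rw [h1, Polynomial.map_toSubring, hq, Polynomial.eval_prod]
  exact Finset.prod_eq_zero haS (by simp)

/-! ### stability under the decomposition group -/

/-- **`W` is stable under the decomposition group of `A`** (`I` is normal in it). -/
theorem ffiw_map_mem {σ : GQ} (hσ : σ ∈ A.decompositionSubgroup ℚ) {x : Qb}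
    (hx : x ∈ ffiwRing A) : σ x ∈ ffiwRing A := by
  have hstab : σ • A = A := hσ
  refine ⟨?_, fun τ hτ => ?_⟩
  · have h1 : σ • x ∈ σ • A := ValuationSubring.smul_mem_pointwise_smul σ x A hx.1
    rw [hstab] at h1
    exact h1
  · obtain ⟨τ', hτ', rfl⟩ := hτ
    set σ' : A.decompositionSubgroup ℚ := ⟨σ, hσ⟩ with hσ'
    haveI : (A.inertiaSubgroup ℚ).Normal := by
      unfold ValuationSubring.inertiaSubgroup
      exact MonoidHom.normal_ker _
    have hconj : σ'⁻¹ * τ' * σ' ∈ A.inertiaSubgroup ℚ := by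
      have := (inferInstance : (A.inertiaSubgroup ℚ).Normal).conj_mem τ' hτ' σ'⁻¹
      simpa using this
    have hmem : ((σ'⁻¹ * τ' * σ' : A.decompositionSubgroup ℚ) : GQ) ∈ A.inertiaSubgroupIn ℚ :=
      ⟨_, hconj, rfl⟩
    have h2 := hx.2 _ hmem
    have h3 : ((σ'⁻¹ * τ' * σ' : A.decompositionSubgroup ℚ) : GQ) x = σ⁻¹ ((τ' : GQ) (σ x)) := by
      simp [hσ', AlgEquiv.mul_apply]
    rw [h3] at h2
    have h4 := congrArg σ h2
    rw [show σ (σ⁻¹ ((τ' : GQ) (σ x))) = (τ' : GQ) (σ x) from by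
      rw [← AlgEquiv.mul_apply, mul_inv_cancel, AlgEquiv.one_apply]] at h4
    exact h4

end Fermat.Agent.FF
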