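import Fermat.Agent.FF.Spec
import Fermat.Agent.FF.InertiaRing

/-!
# Program FF (S19): the base ring `W = ffW 𝔸 I` in the spelling of `FF/Spec.lean` (prefix `ffiw`)

Owner: helper19.  `ffiwRing 𝔸 = ffW 𝔸 (𝔸.inertiaSubgroupIn ℚ)` by `rfl`; this file restates the
exports of `FF/InertiaRing.lean` for `ffW` and provides the algebra structure
`Algebra ↥(ffW 𝔸 Gs) ↥𝔸` (any `Gs`) with `Algebra.IsIntegral ↥(ffW 𝔸 I) ↥𝔸` for the inertia group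
`I` - the spelling taken by helper13's `fflo_isLocalRing` / helper4's `fffr` lemmas
(`[Algebra W A] [Algebra.IsIntegral W A]`, `A := ↥𝔸`).
-/

set_option autoImplicit false

noncomputable section

namespace Fermat.Agent.FF

open IsLocalRing Polynomial

variable (𝔸 : ValuationSubring FfQb)

theorem ffiwRing_eq_ffW : ffiwRing 𝔸 = ffW 𝔸 (𝔸.inertiaSubgroupIn ℚ) := rfl

theorem ffW_le (Gs : Subgroup FfGal) : ffW 𝔸 Gs ≤ 𝔸.toSubring := fun _ hx => hx.1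

/-- `W → 𝔸`, the inclusion as a ring hom. -/
def ffWIncl (Gs : Subgroup FfGal) : ↥(ffW 𝔸 Gs) →+* ↥𝔸 where
  toFun := fun w => (⟨w.1, w.2.1⟩ : 𝔸)
  map_one' := rfl
  map_mul' := fun _ _ => rfl
  map_zero' := rfl
  map_add' := fun _ _ => rfl

theorem ffWIncl_coe (Gs : Subgroup FfGal) (w : ↥(ffW 𝔸 Gs)) :
    ((ffWIncl 𝔸 Gs w : 𝔸) : FfQb) = (w : FfQb) := rfl

theorem ffWIncl_injective (Gs : Subgroup FfGal) : Function.Injective (ffWIncl 𝔸 Gs) :=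
  fun _ _ h => Subtype.ext (congrArg (fun a : 𝔸 => (a : FfQb)) h)

/-- the algebra structure of `𝔸` over `W = ffW 𝔸 Gs`. -/
instance ffWAlgebra (Gs : Subgroup FfGal) : Algebra ↥(ffW 𝔸 Gs) ↥𝔸 := (ffWIncl 𝔸 Gs).toAlgebra

theorem ffW_algebraMap_coe (Gs : Subgroup FfGal) (w : ↥(ffW 𝔸 Gs)) :
    ((algebraMap ↥(ffW 𝔸 Gs) ↥𝔸 w : 𝔸) : FfQb) = (w : FfQb) := rfl

instance ffW_isScalarTower (Gs : Subgroup FfGal) : IsScalarTower ↥(ffW 𝔸 Gs) ↥𝔸 FfQb :=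
  IsScalarTower.of_algebraMap_eq fun _ => rfl

instance ffW_faithfulSMul (Gs : Subgroup FfGal) : FaithfulSMul ↥(ffW 𝔸 Gs) ↥𝔸 :=
  (faithfulSMul_iff_algebraMap_injective _ _).mpr (ffWIncl_injective 𝔸 Gs)

/-- **`𝔸` is integral over `W = ffW 𝔸 I`.** -/
instance ffW_isIntegral : Algebra.IsIntegral ↥(ffW 𝔸 (𝔸.inertiaSubgroupIn ℚ)) ↥𝔸 := by
  refine ⟨fun a => ?_⟩
  obtain ⟨p, hpm, hp⟩ := ffiw_isIntegral 𝔸 a.2
  refine ⟨p, hpm, ?_⟩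
  apply Subtype.ext
  have h1 := Polynomial.hom_eval₂ p (algebraMap ↥(ffW 𝔸 (𝔸.inertiaSubgroupIn ℚ)) ↥𝔸)
    (𝔸.subtype : 𝔸 →+* FfQb) a
  rw [ZeroMemClass.coe_zero]
  exact h1.trans hp

/-- the rational numbers of `𝔸` are in `W` (any `Gs`). -/
theorem ffW_algebraMap_mem (Gs : Subgroup FfGal) (q : ℚ) (hq : algebraMap ℚ FfQb q ∈ 𝔸) :
    algebraMap ℚ FfQb q ∈ ffW 𝔸 Gs :=
  ⟨hq, fun σ _ => σ.commutes q⟩

/-- smaller groups have bigger fixed rings. -/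
theorem ffW_anti {Gs Gs' : Subgroup FfGal} (h : Gs ≤ Gs') : ffW 𝔸 Gs' ≤ ffW 𝔸 Gs :=
  fun _ hx => ⟨hx.1, fun σ hσ => hx.2 σ (h hσ)⟩

section Lies

variable {ℓ : ℕ} [Fact ℓ.Prime] (hA : 𝔸.LiesOverPrime ℓ)
include hA

/-- the roots of unity of order prime to `ℓ` are in `W`. -/
theorem ffW_rootOfUnity_mem {ζ : FfQb} {n : ℕ} (hn : ¬ ℓ ∣ n) (hζ : ζ ^ n = 1) :
    ζ ∈ ffW 𝔸 (𝔸.inertiaSubgroupIn ℚ) :=
  ffiw_rootOfUnity_mem 𝔸 hA hn hζ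

/-- **Teichmüller**: every `a ∈ 𝔸` is congruent modulo `𝔪` to an element of `W`. -/
theorem ffW_residue_surjective {a : FfQb} (ha : a ∈ 𝔸) :
    ∃ w ∈ ffW 𝔸 (𝔸.inertiaSubgroupIn ℚ), a - w ∈ 𝔸.nonunits :=
  ffiw_residue_surjective 𝔸 hA ha

/-- the same with `↥𝔸` and `algebraMap`. -/
theorem ffW_exists_algebraMap_sub_mem (a : 𝔸) :
    ∃ w : ↥(ffW 𝔸 (𝔸.inertiaSubgroupIn ℚ)),
      a - algebraMap ↥(ffW 𝔸 (𝔸.inertiaSubgroupIn ℚ)) ↥𝔸 w ∈ maximalIdeal 𝔸 := by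
  obtain ⟨w, hw, hsub⟩ := ffiw_residue_surjective 𝔸 hA a.2
  refine ⟨⟨w, hw⟩, ?_⟩
  rw [← ValuationSubring.coe_mem_nonunits_iff]
  exact hsub

/-- `W → 𝔸 → k` is onto: the residue field of `W` is `k`. -/
theorem ffW_residue_comp_surjective :
    Function.Surjective
      ((residue 𝔸).comp (algebraMap ↥(ffW 𝔸 (𝔸.inertiaSubgroupIn ℚ)) ↥𝔸)) :=
  ffiwRes_surjective 𝔸 hA

end Lies

end Fermat.Agent.FF
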