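import Mathlib
import Fermat.Agent.S24.Places
import Fermat.Agent.S24.PlacesInt
import Fermat.Agent.S24.PlacesGen
import Fermat.Agent.S24.PlacesDict
import Fermat.Agent.S24.PlaceOrd
import Fermat.Prelude.Def_AlgebraicCurve_Repartitions

/-!
# Program FF (S19): `L(m·(u)_∞) = C_u ∩ u^m C_{1/u}` on a function field (characteristic free)

Owner: helper27.  Prefix `ffil`.

`F / K` a function field with a separating generator `u` (`IsSepGen K u`), `u u' = 1`.
* `ffil_mem_intRing_iff` : the integral closure of `K[u]` in `F` is the ring of functions regular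
  at every place where `u` is regular;
* `ffilPolar hs` : the polar divisor `(u)_∞` of `u`, of degree `[F : K(u)]` (`ffil_degree_polar`);
* `ffil_mem_rr_iff` : `f ∈ L(m·(u)_∞) ↔ f ∈ intRing K u ∧ f * u' ^ m ∈ intRing K u'`.
-/

set_option autoImplicit false
set_option linter.unusedSectionVars false
set_option linter.style.haveILetI false

noncomputable section

namespace Fermat.Agent.FF

open AlgebraicCurve IsDedekindDomain IntermediateField Fermat.Agent.S24

variable {K F : Type*} [Field K] [Field F] [Algebra K F]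

theorem ffil_self_mem_intRing (u : F) : u ∈ intRing K u := by
  have h : u ∈ Algebra.adjoin K {u} := Algebra.subset_adjoin (Set.mem_singleton u)
  have : IsIntegral (Algebra.adjoin K {u}) (algebraMap (Algebra.adjoin K {u}) F ⟨u, h⟩) :=
    isIntegral_algebraMap
  exact this

/-- **the integral closure of `K[u]` is the ring of functions regular wherever `u` is.** -/
theorem ffil_mem_intRing_iff {u : F} (hs : IsSepGen K u) (f : F) :
    f ∈ intRing K u ↔ ∀ v : Place K F, 0 ≤ v.ord u → 0 ≤ v.ord f := by
  constructor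
  · intro hf v hv
    have huv : u ∈ v.toValuationSubring := PlaceOrd.mem_of_ord_nonneg v hv
    exact PlaceOrd.ord_nonneg_of_mem v (intRing_le_place v huv ⟨f, hf⟩)
  · intro hf
    haveI : IsDedekindDomain (intRing K u) := intRing_isDedekindDomain hs
    haveI : IsFractionRing (intRing K u) F := intRing_isFractionRing hs
    have hmem : f ∈ (algebraMap (intRing K u) F).range := by
      apply HeightOneSpectrum.mem_integers_of_valuation_le_one (R := intRing K u) F f
      intro w
      have h1 : u ∈ (Place.ofHeightOneSpectrum (K := K) (F := F) w).toValuationSubring :=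
        algebraMap_mem_ofHeightOneSpectrum (K := K) w ⟨u, ffil_self_mem_intRing u⟩
      have h2 := PlaceOrd.ord_nonneg_of_mem _ h1
      have h3 := PlaceOrd.mem_of_ord_nonneg _ (hf _ h2)
      exact (mem_ofHeightOneSpectrum_iff (K := K) w f).1 h3
    obtain ⟨y, rfl⟩ := hmem
    exact y.2

/-- the set of poles of `u` is finite. -/
theorem ffil_finite_poles {u : F} (hs : IsSepGen K u) :
    {v : Place K F | v.ord u < 0}.Finite := by
  refine hs.inv.finite_ord_pos.subset (fun v hv => ?_)
  simp only [Set.mem_setOf_eq, Place.ord_inv] at hv ⊢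
  omega

/-- **the polar divisor `(u)_∞`**. -/
def ffilPolar {u : F} (hs : IsSepGen K u) : Divisor K F :=
  Finsupp.ofSupportFinite (fun v => max 0 (-(v.ord u))) (by
    refine (ffil_finite_poles hs).subset (fun v hv => ?_)
    simp only [Function.mem_support, ne_eq] at hv
    simp only [Set.mem_setOf_eq]
    by_contra h
    apply hv
    rw [max_eq_left]
    omega)

theorem ffilPolar_apply {u : F} (hs : IsSepGen K u) (v : Place K F) :
    ffilPolar hs v = max 0 (-(v.ord u)) := rfl

theorem ffil_polar_nonneg {u : F} (hs : IsSepGen K u) : 0 ≤ ffilPolar hs := by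
  intro v
  rw [ffilPolar_apply]
  exact le_max_left _ _

theorem ffil_polar_ne_zero_iff {u : F} (hs : IsSepGen K u) (v : Place K F) :
    ffilPolar hs v ≠ 0 ↔ v.ord u < 0 := by
  rw [ffilPolar_apply]
  constructor
  · intro h
    by_contra h'
    apply h
    rw [max_eq_left]
    omega
  · intro h
    have : max 0 (-(v.ord u)) = -(v.ord u) := max_eq_right (by omega)
    omega

theorem ffil_polar_of_neg {u : F} (hs : IsSepGen K u) {v : Place K F} (h : v.ord u ≤ 0) :
    ffilPolar hs v = -(v.ord u) := by
  rw [ffilPolar_apply]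
  exact max_eq_right (by omega)

theorem ffil_polar_of_nonneg {u : F} (hs : IsSepGen K u) {v : Place K F} (h : 0 ≤ v.ord u) :
    ffilPolar hs v = 0 := by
  rw [ffilPolar_apply]
  exact max_eq_left (by omega)

/-- **`deg (u)_∞ = [F : K(u)]`** (the fundamental identity for `1/u`). -/
theorem ffil_degree_polar {u : F} (hs : IsSepGen K u) :
    Divisor.degree (ffilPolar hs) = (Module.finrank K⟮u⟯ F : ℤ) := by
  classical
  have hsupp : (ffilPolar hs).support ⊆ hs.inv.finite_ord_pos.toFinset := by
    intro v hv
    rw [Finsupp.mem_support_iff, ffil_polar_ne_zero_iff] at hv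
    simp only [Set.Finite.mem_toFinset, Set.mem_setOf_eq, Place.ord_inv]
    omega
  have hdeg : Divisor.degree (ffilPolar hs) =
      (ffilPolar hs).sum fun v n => n * (v.deg : ℤ) := by
    simp [Divisor.degree, Finsupp.liftAddHom_apply]
  rw [hdeg, Finsupp.sum_of_support_subset _ hsupp _ (fun i _ => by simp), ← hs.finrank_inv,
    ← hs.inv.sum_ord_mul_deg]
  refine Finset.sum_congr rfl (fun v hv => ?_)
  simp only [Set.Finite.mem_toFinset, Set.mem_setOf_eq, Place.ord_inv] at hv
  rw [ffil_polar_of_neg hs (by omega), Place.ord_inv]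

theorem ffil_ord_pow (v : Place K F) (f : F) (k : ℕ) : v.ord (f ^ k) = (k : ℤ) * v.ord f := by
  rw [← zpow_natCast, v.ord_zpow]

/-- **`L(m·(u)_∞) = C_u ∩ u^m C_{u'}`**. -/
theorem ffil_mem_rr_iff {u u' : F} (hs : IsSepGen K u) (huu' : u * u' = 1) (m : ℕ) (f : F) :
    f ∈ riemannRochSpace ((m : ℤ) • ffilPolar hs) ↔
      f ∈ intRing K u ∧ f * u' ^ m ∈ intRing K u' := by
  have hu0 : u ≠ 0 := left_ne_zero_of_mul_eq_one huu'
  have hu'0 : u' ≠ 0 := right_ne_zero_of_mul_eq_one huu'
  have hu' : u' = u⁻¹ := (eq_inv_of_mul_eq_one_right huu')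
  have hs' : IsSepGen K u' := hu' ▸ hs.inv
  have hord' : ∀ v : Place K F, v.ord u' = -(v.ord u) := fun v => by rw [hu', Place.ord_inv]
  rw [ffil_mem_intRing_iff hs, ffil_mem_intRing_iff hs', mem_riemannRochSpace_iff]
  rcases eq_or_ne f 0 with rfl | hf0
  · simp
  constructor
  · intro h
    refine ⟨fun v hv => ?_, fun v hv => ?_⟩
    · have := (h v).resolve_left hf0
      rw [Finsupp.smul_apply, ffil_polar_of_nonneg hs hv, smul_zero, neg_zero] at this
      exact this
    · have hv' : v.ord u ≤ 0 := by rw [hord'] at hv; omega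
      have := (h v).resolve_left hf0
      rw [Finsupp.smul_apply, ffil_polar_of_neg hs hv', smul_eq_mul] at this
      rw [v.ord_mul hf0 (pow_ne_zero m hu'0), ffil_ord_pow, hord']
      have e : (m : ℤ) * -(v.ord u) = -((m : ℤ) * v.ord u) := by ring
      rw [e] at this ⊢
      linarith
  · rintro ⟨h1, h2⟩ v
    right
    rw [Finsupp.smul_apply, smul_eq_mul]
    rcases le_or_gt 0 (v.ord u) with hv | hv
    · rw [ffil_polar_of_nonneg hs hv, mul_zero, neg_zero]
      exact h1 v hv
    · have hv' : 0 ≤ v.ord u' := by rw [hord']; omega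
      have := h2 v hv'
      rw [v.ord_mul hf0 (pow_ne_zero m hu'0), ffil_ord_pow, hord'] at this
      rw [ffil_polar_of_neg hs hv.le]
      have e : (m : ℤ) * -(v.ord u) = -((m : ℤ) * v.ord u) := by ring
      rw [e] at this ⊢
      linarith

/-- the `Set` form. -/
theorem ffil_rr_eq {u u' : F} (hs : IsSepGen K u) (huu' : u * u' = 1) (m : ℕ) :
    (riemannRochSpace ((m : ℤ) • ffilPolar hs) : Set F) =
      {f | f ∈ intRing K u ∧ f * u' ^ m ∈ intRing K u'} := by
  ext f
  exact ffil_mem_rr_iff hs huu' m f

/-- uniqueness: any divisor with the values of `(u)_∞` is `ffilPolar`. -/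
theorem ffil_polar_eq_of_apply {u : F} (hs : IsSepGen K u) {D : Divisor K F}
    (hD : ∀ v : Place K F, D v = max 0 (-(v.ord u))) : D = ffilPolar hs := by
  ext v
  rw [hD v, ffilPolar_apply]

/-! ### reduction of the polar divisor -/

section Red

variable {k F' : Type*} [Field k] [Field F'] [Algebra k F']

theorem ffil_mapDomain_apply_eq_zero (r : Place K F → Place k F') {X : Divisor K F}
    {Q : Place k F'} (h : ∀ P ∈ X.support, r P ≠ Q) : Finsupp.mapDomain r X Q = 0 := by
  classical
  rw [Finsupp.mapDomain, Finsupp.sum, Finsupp.finset_sum_apply]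
  refine Finset.sum_eq_zero (fun P hP => ?_)
  rw [Finsupp.single_apply, if_neg (h P hP)]

/-- **`r_* (u)_∞ = (ū)_∞`** from the divisor formula for `u`, given that poles of `u` reduce to
poles of `ū` and zeros of `u` do not reduce to poles of `ū`. -/
theorem ffil_mapDomain_polar {u : F} {ub : F'} (hs : IsSepGen K u) (hsb : IsSepGen k ub)
    (r : Place K F → Place k F')
    (hpole : ∀ P : Place K F, P.ord u < 0 → (r P).ord ub < 0)
    (hzero : ∀ P : Place K F, 0 < P.ord u → 0 ≤ (r P).ord ub)
    (Du : Divisor K F) (hDu : ∀ P : Place K F, Du P = P.ord u)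
    (hdiv : ∀ Q : Place k F', Finsupp.mapDomain r Du Q = Q.ord ub) :
    Finsupp.mapDomain r (ffilPolar hs) = ffilPolar hsb := by
  classical
  ext Q
  rcases le_or_gt 0 (Q.ord ub) with hQ | hQ
  · rw [ffil_polar_of_nonneg hsb hQ]
    refine ffil_mapDomain_apply_eq_zero r (fun P hP hPQ => ?_)
    rw [Finsupp.mem_support_iff, ffil_polar_ne_zero_iff] at hP
    have := hpole P hP
    rw [hPQ] at this
    omega
  · rw [ffil_polar_of_neg hsb hQ.le, ← hdiv Q]
    have h0 : Finsupp.mapDomain r (ffilPolar hs + Du) Q = 0 := by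
      refine ffil_mapDomain_apply_eq_zero r (fun P hP hPQ => ?_)
      rw [Finsupp.mem_support_iff, Finsupp.add_apply, hDu] at hP
      have hpos : 0 < P.ord u := by
        by_contra hle
        apply hP
        rw [ffil_polar_of_neg hs (by omega)]
        ring
      have := hzero P hpos
      rw [hPQ] at this
      omega
    rw [Finsupp.mapDomain_add, Finsupp.add_apply] at h0
    linarith

end Red

end Fermat.Agent.FF
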