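import Fermat.Agent.FF.InertiaW

/-!
# Program FF (S19): inertia-fixed lifts of residues (prefix `ffiw`), the `hW` spelling

`ffiw_exists_fixed_lift` : every element of the residue field of `𝔸` (a valuation ring of `ℚ̄` over
`ℓ`) is the residue of an element of `𝔸` fixed by the inertia group - the literal of the hypothesis
`hW` of `ffin_onto_model` (helper26) / `hW` of `ffip_disc_coord_fixed` (helper6).
Corollary of `ffiwRes_surjective` (`FF/InertiaRing.lean`).
-/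

set_option autoImplicit false

noncomputable section

namespace Fermat.Agent.FF

open IsLocalRing

variable (𝔸 : ValuationSubring FfQb) {ℓ : ℕ} [Fact ℓ.Prime] (hA : 𝔸.LiesOverPrime ℓ)

include hA

/-- every residue class has an inertia-fixed representative in `𝔸`. -/
theorem ffiw_exists_fixed_lift (κ : ResidueField 𝔸) :
    ∃ a : 𝔸, residue 𝔸 a = κ ∧ ∀ σ ∈ 𝔸.inertiaSubgroupIn ℚ, σ (a : FfQb) = (a : FfQb) := by
  obtain ⟨w, hw⟩ := ffiwRes_surjective 𝔸 hA κ
  exact ⟨⟨w.1, w.2.1⟩, hw, fun σ hσ => w.2.2 σ hσ⟩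

/-- the same, with the representative given as an element of `W = ffW 𝔸 I`. -/
theorem ffiw_exists_W_lift (κ : ResidueField 𝔸) :
    ∃ w : ↥(ffW 𝔸 (𝔸.inertiaSubgroupIn ℚ)),
      residue 𝔸 (algebraMap ↥(ffW 𝔸 (𝔸.inertiaSubgroupIn ℚ)) ↥𝔸 w) = κ :=
  ffW_residue_comp_surjective 𝔸 hA κ

/-- inertia-fixed lifts of finitely many residues at once. -/
theorem ffiw_exists_fixed_lift_fun {ι : Type*} (κ : ι → ResidueField 𝔸) :
    ∃ a : ι → 𝔸, (∀ i, residue 𝔸 (a i) = κ i) ∧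
      ∀ i, ∀ σ ∈ 𝔸.inertiaSubgroupIn ℚ, σ ((a i : 𝔸) : FfQb) = ((a i : 𝔸) : FfQb) := by
  choose a h1 h2 using fun i => ffiw_exists_fixed_lift 𝔸 hA (κ i)
  exact ⟨a, h1, h2⟩

end Fermat.Agent.FF
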