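import Mathlib

/-!
# Program FF (S19 + S32), leaf B2 (O5)-ONTO, abstract part: two charts on the special fibre

Owner: helper5.  Namespace `Fermat.Agent.FF`, prefix `ffoa`.  Mathlib only.

Pure linear algebra over a field `k`.  `Fk` a commutative `k`-algebra, `u ∈ Fk` a unit with inverse
`ui`, `C ∋ u` and `C' ∋ ui` two `k`-subalgebras (the two chart rings of the special fibre: the
integral closures of `k[u]` and `k[u⁻¹]`).  Put `L_m := C ∩ u^m C'` (`= L(m D_∞)`), and let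
`V_m ⊂ L_m` be an increasing family of subspaces with `u V_m ⊂ V_{m+1}` (the reductions of the
integral lattices `Λ_m`).  If every `c ∈ C` lies in some `V_m`, and for every `c' ∈ C'` we have
`u^j c' ∈ V_j` for `j ≫ 0` (both from the normality of the special fibres of the two charts), then
`V_m = L_m` for `m ≫ 0`.

The proof is RR-free: it only uses that `C`, `C'` are finitely generated modules over `k[u]`,
`k[u⁻¹]`, that `u^{-d} c ∈ C'` for `d ≫ 0` (`c ∈ C`), and that `C ∩ C'` is finite-dimensional.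

* `ffoa_fg`     : `L_m` is finite-dimensional;
* `ffoa_h1`     : the Čech `H¹` vanishes: `C[u⁻¹] = C + u^m C'` for `m ≥ m₁`;
* `ffoa_pencil` : `L_{m+1} = L_m + u L_m` for `m ≥ m₁ + 1`;
* `ffoa_onto`   : `L_m ⊂ V_m` for `m ≥ m₀`.
-/

set_option autoImplicit false
set_option linter.unusedSectionVars false

namespace Fermat.Agent.FF

/-- two charts on the special fibre (abstract form) -/
structure FfoaData (k Fk : Type*) [Field k] [CommRing Fk] [Algebra k Fk] where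
  /-- the chart ring of `u` -/
  C : Subalgebra k Fk
  /-- the chart ring of `u⁻¹` -/
  C' : Subalgebra k Fk
  /-- the chart coordinate and its inverse -/
  u : Fk
  ui : Fk
  hu : u * ui = 1
  hu_mem : u ∈ C
  hui_mem : ui ∈ C'

namespace FfoaData

variable {k Fk : Type*} [Field k] [CommRing Fk] [Algebra k Fk] (D : FfoaData k Fk)

theorem hu' : D.ui * D.u = 1 := by rw [mul_comm, D.hu]

theorem u_pow_mul_ui_pow (m : ℕ) : D.u ^ m * D.ui ^ m = 1 := by
  rw [← mul_pow, D.hu, one_pow]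

theorem ui_pow_mul_u_pow (m : ℕ) : D.ui ^ m * D.u ^ m = 1 := by
  rw [← mul_pow, D.hu', one_pow]

/-- `L_m = C ∩ u^m C'` -/
def L (m : ℕ) : Submodule k Fk where
  carrier := {c | c ∈ D.C ∧ c * D.ui ^ m ∈ D.C'}
  add_mem' := by
    rintro a b ⟨ha, ha'⟩ ⟨hb, hb'⟩
    exact ⟨D.C.add_mem ha hb, by rw [add_mul]; exact D.C'.add_mem ha' hb'⟩
  zero_mem' := ⟨D.C.zero_mem, by rw [zero_mul]; exact D.C'.zero_mem⟩
  smul_mem' := by
    rintro c a ⟨ha, ha'⟩
    exact ⟨D.C.smul_mem ha c, by rw [smul_mul_assoc]; exact D.C'.smul_mem ha' c⟩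

theorem mem_L {m : ℕ} {c : Fk} : c ∈ D.L m ↔ c ∈ D.C ∧ c * D.ui ^ m ∈ D.C' := Iff.rfl

theorem L_mono (m : ℕ) : D.L m ≤ D.L (m + 1) := by
  rintro c ⟨hc, hc'⟩
  refine ⟨hc, ?_⟩
  rw [pow_succ, ← mul_assoc]
  exact D.C'.mul_mem hc' D.hui_mem

theorem L_mono' {m n : ℕ} (h : m ≤ n) : D.L m ≤ D.L n := by
  induction n, h using Nat.le_induction with
  | base => exact le_rfl
  | succ n _ ih => exact ih.trans (D.L_mono n)

theorem u_mul_mem_L {m : ℕ} {c : Fk} (hc : c ∈ D.L m) : D.u * c ∈ D.L (m + 1) := by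
  obtain ⟨hc, hc'⟩ := hc
  refine ⟨D.C.mul_mem D.hu_mem hc, ?_⟩
  have : D.u * c * D.ui ^ (m + 1) = c * D.ui ^ m * (D.u * D.ui) := by ring
  rw [this, D.hu, mul_one]
  exact hc'

theorem u_pow_mul_mem_L {m : ℕ} (j : ℕ) {c : Fk} (hc : c ∈ D.L m) : D.u ^ j * c ∈ D.L (m + j) := by
  induction j with
  | zero => simpa using hc
  | succ j ih =>
    have := D.u_mul_mem_L ih
    rw [← mul_assoc, ← pow_succ'] at this
    exact this

/-- `N_m = C + u^m C'` -/
def N (m : ℕ) : Submodule k Fk where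
  carrier := {w | ∃ a ∈ D.C, ∃ b ∈ D.C', w = a + D.u ^ m * b}
  add_mem' := by
    rintro _ _ ⟨a, ha, b, hb, rfl⟩ ⟨a', ha', b', hb', rfl⟩
    exact ⟨a + a', D.C.add_mem ha ha', b + b', D.C'.add_mem hb hb', by ring⟩
  zero_mem' := ⟨0, D.C.zero_mem, 0, D.C'.zero_mem, by simp⟩
  smul_mem' := by
    rintro c _ ⟨a, ha, b, hb, rfl⟩
    exact ⟨c • a, D.C.smul_mem ha c, c • b, D.C'.smul_mem hb c, by
      rw [smul_add, mul_smul_comm]⟩

theorem mem_N {m : ℕ} {w : Fk} : w ∈ D.N m ↔ ∃ a ∈ D.C, ∃ b ∈ D.C', w = a + D.u ^ m * b := Iff.rfl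

theorem N_mono (m : ℕ) : D.N m ≤ D.N (m + 1) := by
  rintro _ ⟨a, ha, b, hb, rfl⟩
  refine ⟨a, ha, D.ui * b, D.C'.mul_mem D.hui_mem hb, ?_⟩
  rw [pow_succ, mul_assoc, ← mul_assoc D.u, D.hu, one_mul]

theorem N_mono' {m n : ℕ} (h : m ≤ n) : D.N m ≤ D.N n := by
  induction n, h using Nat.le_induction with
  | base => exact le_rfl
  | succ n _ ih => exact ih.trans (D.N_mono n)

theorem C_le_N (m : ℕ) : Subalgebra.toSubmodule D.C ≤ D.N m := fun a ha =>
  ⟨a, ha, 0, D.C'.zero_mem, by simp⟩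

theorem C'_le_N_zero : Subalgebra.toSubmodule D.C' ≤ D.N 0 := fun b hb =>
  ⟨0, D.C.zero_mem, b, hb, by simp⟩

/-- the hypotheses on the special fibre -/
structure Hyp : Prop where
  /-- `u^{-d} c ∈ C'` for `d ≫ 0` -/
  hpow : ∀ c ∈ D.C, ∃ d : ℕ, D.ui ^ d * c ∈ D.C'
  /-- `C` is a finitely generated `k[u]`-module -/
  hfg : ∃ T : Finset Fk, (∀ t ∈ T, t ∈ D.C) ∧
    ∀ c ∈ D.C, c ∈ Submodule.span k {x | ∃ t ∈ T, ∃ j : ℕ, x = D.u ^ j * t}
  /-- `C'` is a finitely generated `k[u⁻¹]`-module -/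
  hfg' : ∃ T : Finset Fk, (∀ t ∈ T, t ∈ D.C') ∧
    ∀ c ∈ D.C', c ∈ Submodule.span k {x | ∃ t ∈ T, ∃ j : ℕ, x = D.ui ^ j * t}
  /-- `C ∩ C'` is finite-dimensional -/
  hfin0 : (D.L 0).FG

/-! ### finite-dimensionality of `L_m` -/

theorem ffoa_fg_of_le {V : Type*} [AddCommGroup V] [Module k V] {S S' : Submodule k V}
    (h : S ≤ S') (hS' : S'.FG) : S.FG := by
  have : FiniteDimensional k S' := Module.Finite.iff_fg.2 hS'
  have := Submodule.finiteDimensional_of_le h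
  exact Module.Finite.iff_fg.1 this

/-- `u⁻¹ C'` as a submodule -/
def uiC' : Submodule k Fk where
  carrier := {w | ∃ b ∈ D.C', w = D.ui * b}
  add_mem' := by
    rintro _ _ ⟨b, hb, rfl⟩ ⟨b', hb', rfl⟩
    exact ⟨b + b', D.C'.add_mem hb hb', by ring⟩
  zero_mem' := ⟨0, D.C'.zero_mem, by simp⟩
  smul_mem' := by
    rintro c _ ⟨b, hb, rfl⟩
    exact ⟨c • b, D.C'.smul_mem hb c, by rw [mul_smul_comm]⟩

theorem ffoa_fg (H : D.Hyp) (m : ℕ) : (D.L m).FG := by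
  classical
  induction m with
  | zero => exact H.hfin0
  | succ m ih =>
    obtain ⟨T, hT, hspan⟩ := H.hfg'
    -- the map `c ↦ [c u^{-(m+1)}] ∈ Fk / u⁻¹C'`
    let f : Fk →ₗ[k] Fk ⧸ D.uiC' :=
      (D.uiC').mkQ.comp (LinearMap.mulRight k (D.ui ^ (m + 1)))
    refine Submodule.fg_of_fg_map_of_fg_inf_ker f ?_ ?_
    · -- the image lies in the span of the classes of `T`
      have hle : (D.L (m + 1)).map f ≤ Submodule.span k ((D.uiC').mkQ '' (T : Set Fk)) := by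
        rintro _ ⟨c, hc, rfl⟩
        have hc' : c * D.ui ^ (m + 1) ∈ D.C' := hc.2
        have h1 := hspan _ hc'
        have h2 : Submodule.span k {x | ∃ t ∈ T, ∃ j : ℕ, x = D.ui ^ j * t} ≤
            (Submodule.span k ((D.uiC').mkQ '' (T : Set Fk))).comap (D.uiC').mkQ := by
          refine Submodule.span_le.2 ?_
          rintro _ ⟨t, ht, j, rfl⟩
          show (D.uiC').mkQ (D.ui ^ j * t) ∈ Submodule.span k ((D.uiC').mkQ '' (T : Set Fk))
          rcases j with _ | j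
          · rw [pow_zero, one_mul]
            exact Submodule.subset_span ⟨t, ht, rfl⟩
          · have : D.ui ^ (j + 1) * t ∈ D.uiC' :=
              ⟨D.ui ^ j * t, D.C'.mul_mem (D.C'.pow_mem D.hui_mem j) (hT t ht), by ring⟩
            have h0 : (D.uiC').mkQ (D.ui ^ (j + 1) * t) = 0 :=
              (Submodule.Quotient.mk_eq_zero _).2 this
            rw [h0]
            exact Submodule.zero_mem _
        exact h2 h1
      have hfin : (Submodule.span k ((D.uiC').mkQ '' (T : Set Fk))).FG :=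
        Submodule.fg_span ((T.finite_toSet).image _)
      exact ffoa_fg_of_le hle hfin
    · -- the kernel is `L_m`
      refine ffoa_fg_of_le ?_ ih
      rintro c ⟨hc, hker⟩
      have hker' : c * D.ui ^ (m + 1) ∈ D.uiC' := by
        have : f c = 0 := hker
        exact (Submodule.Quotient.mk_eq_zero _).1 this
      obtain ⟨b, hb, hcb⟩ := hker'
      refine ⟨hc.1, ?_⟩
      have : c * D.ui ^ m = b := by
        calc c * D.ui ^ m = (c * D.ui ^ (m + 1)) * D.u := by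
              rw [pow_succ, mul_assoc, mul_assoc, D.hu', mul_one]
          _ = b := by rw [hcb, mul_comm D.ui b, mul_assoc, D.hu', mul_one]
      rw [this]
      exact hb

/-! ### the Čech `H¹` of the special fibre vanishes -/

/-- `C[u⁻¹]` as a predicate -/
def InLoc (w : Fk) : Prop := ∃ s : ℕ, ∃ c ∈ D.C, w = D.ui ^ s * c

theorem exists_mem_N (H : D.Hyp) {w : Fk} (hw : D.InLoc w) : ∃ m, w ∈ D.N m := by
  obtain ⟨s, c, hc, rfl⟩ := hw
  obtain ⟨d, hd⟩ := H.hpow c hc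
  refine ⟨d, 0, D.C.zero_mem, D.ui ^ s * (D.ui ^ d * c),
    D.C'.mul_mem (D.C'.pow_mem D.hui_mem s) hd, ?_⟩
  rw [zero_add]
  calc D.ui ^ s * c = (D.u ^ d * D.ui ^ d) * (D.ui ^ s * c) := by
        rw [D.u_pow_mul_ui_pow, one_mul]
    _ = D.u ^ d * (D.ui ^ s * (D.ui ^ d * c)) := by ring

theorem ffoa_h1 (H : D.Hyp) : ∃ m₁ : ℕ, ∀ m ≥ m₁, ∀ w, D.InLoc w → w ∈ D.N m := by
  classical
  obtain ⟨T, hT, hspan⟩ := H.hfg
  -- uniform exponent for the generators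
  choose! d hd using H.hpow
  set Dm : ℕ := T.sup d with hDm
  set S : Finset Fk := (T ×ˢ Finset.range Dm).image fun p => D.ui ^ p.2 * p.1 with hS
  have hSloc : ∀ x ∈ S, D.InLoc x := by
    intro x hx
    obtain ⟨⟨t, i⟩, hti, rfl⟩ := Finset.mem_image.1 hx
    exact ⟨i, t, hT t (Finset.mem_product.1 hti).1, rfl⟩
  choose! mS hmS using fun x (hx : D.InLoc x) => D.exists_mem_N H hx
  refine ⟨S.sup mS, fun m hm w hw => ?_⟩
  have hSN : Submodule.span k (S : Set Fk) ≤ D.N m := by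
    refine Submodule.span_le.2 fun x hx => ?_
    exact D.N_mono' ((Finset.le_sup hx).trans hm) (hmS x (hSloc x hx))
  obtain ⟨s, c, hc, rfl⟩ := hw
  -- `u^{-s} ·` maps the span of the `u^j t` into `span S + N_0`
  have key : Submodule.span k {x | ∃ t ∈ T, ∃ j : ℕ, x = D.u ^ j * t} ≤
      (Submodule.span k (S : Set Fk) ⊔ D.N 0).comap (LinearMap.mulLeft k (D.ui ^ s)) := by
    refine Submodule.span_le.2 ?_
    rintro _ ⟨t, ht, j, rfl⟩
    show D.ui ^ s * (D.u ^ j * t) ∈ Submodule.span k (S : Set Fk) ⊔ D.N 0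
    by_cases hsj : s ≤ j
    · refine Submodule.mem_sup_right (D.C_le_N 0 ?_)
      have : D.ui ^ s * (D.u ^ j * t) = D.u ^ (j - s) * t := by
        have e : D.u ^ j = D.u ^ (j - s) * D.u ^ s := by
          rw [← pow_add, Nat.sub_add_cancel hsj]
        rw [e]
        calc D.ui ^ s * (D.u ^ (j - s) * D.u ^ s * t)
            = (D.ui ^ s * D.u ^ s) * (D.u ^ (j - s) * t) := by ring
          _ = D.u ^ (j - s) * t := by rw [D.ui_pow_mul_u_pow, one_mul]
      rw [this]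
      exact D.C.mul_mem (D.C.pow_mem D.hu_mem _) (hT t ht)
    · have hjs : j ≤ s := (not_le.1 hsj).le
      have e1 : D.ui ^ s * (D.u ^ j * t) = D.ui ^ (s - j) * t := by
        have e : D.ui ^ s = D.ui ^ (s - j) * D.ui ^ j := by
          rw [← pow_add, Nat.sub_add_cancel hjs]
        rw [e]
        calc D.ui ^ (s - j) * D.ui ^ j * (D.u ^ j * t)
            = (D.ui ^ j * D.u ^ j) * (D.ui ^ (s - j) * t) := by ring
          _ = D.ui ^ (s - j) * t := by rw [D.ui_pow_mul_u_pow, one_mul]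
      rw [e1]
      by_cases hi : s - j < Dm
      · refine Submodule.mem_sup_left (Submodule.subset_span ?_)
        exact Finset.mem_coe.2 (Finset.mem_image.2 ⟨(t, s - j),
          Finset.mem_product.2 ⟨ht, Finset.mem_range.2 hi⟩, rfl⟩)
      · refine Submodule.mem_sup_right (D.C'_le_N_zero ?_)
        have hdt : d t ≤ s - j := (Finset.le_sup ht).trans (not_lt.1 hi)
        have e2 : D.ui ^ (s - j) * t = D.ui ^ (s - j - d t) * (D.ui ^ d t * t) := by
          rw [← mul_assoc, ← pow_add, Nat.sub_add_cancel hdt]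
        rw [e2]
        exact D.C'.mul_mem (D.C'.pow_mem D.hui_mem _) (hd t (hT t ht))
  have h1 : D.ui ^ s * c ∈ Submodule.span k (S : Set Fk) ⊔ D.N 0 := key (hspan c hc)
  exact (sup_le hSN (D.N_mono' (Nat.zero_le m))) h1

/-! ### the pencil property -/

theorem ffoa_pencil {m : ℕ} (h1 : ∀ w, D.InLoc w → w ∈ D.N m) {f : Fk}
    (hf : f ∈ D.L (m + 2)) :
    ∃ a ∈ D.L (m + 1), ∃ b ∈ D.L (m + 1), f = a + D.u * b := by
  obtain ⟨hfC, hfC'⟩ := hf
  obtain ⟨s₀, hs₀, s', hs', hw⟩ := h1 (D.ui * f) ⟨1, f, hfC, by rw [pow_one]⟩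
  have hs₀eq : s₀ = D.ui * f - D.u ^ m * s' := by rw [hw]; ring
  have ha : f - D.u * s₀ = D.u ^ (m + 1) * s' := by
    rw [hs₀eq]
    calc f - D.u * (D.ui * f - D.u ^ m * s')
        = f - (D.u * D.ui) * f + D.u ^ (m + 1) * s' := by ring
      _ = D.u ^ (m + 1) * s' := by rw [D.hu]; ring
  refine ⟨f - D.u * s₀, ⟨D.C.sub_mem hfC (D.C.mul_mem D.hu_mem hs₀), ?_⟩, s₀, ⟨hs₀, ?_⟩, by ring⟩
  · rw [ha]
    have : D.u ^ (m + 1) * s' * D.ui ^ (m + 1) = (D.u ^ (m + 1) * D.ui ^ (m + 1)) * s' := by ring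
    rw [this, D.u_pow_mul_ui_pow, one_mul]
    exact hs'
  · rw [hs₀eq]
    have : (D.ui * f - D.u ^ m * s') * D.ui ^ (m + 1) =
        f * D.ui ^ (m + 2) - (D.u ^ m * D.ui ^ m) * (D.ui * s') := by ring
    rw [this, D.u_pow_mul_ui_pow, one_mul]
    exact D.C'.sub_mem hfC' (D.C'.mul_mem D.hui_mem hs')

/-! ### ONTO -/

/-- the auxiliary submodule `V_{m₂+n} + ∑_{j ≤ n} u^j L_{m₂}` -/
def Y (V : ℕ → Submodule k Fk) (m₂ n : ℕ) : Submodule k Fk :=
  V (m₂ + n) ⊔ Submodule.span k {x | ∃ j ≤ n, ∃ e ∈ D.L m₂, x = D.u ^ j * e}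

theorem Y_mono (V : ℕ → Submodule k Fk) (hVmono : ∀ m, V m ≤ V (m + 1)) (m₂ n : ℕ) :
    D.Y V m₂ n ≤ D.Y V m₂ (n + 1) := by
  refine sup_le_sup (hVmono _) (Submodule.span_mono ?_)
  rintro _ ⟨j, hj, e, he, rfl⟩
  exact ⟨j, hj.trans (Nat.le_succ n), e, he, rfl⟩

theorem u_mul_mem_Y (V : ℕ → Submodule k Fk) (hVmul : ∀ m, ∀ c ∈ V m, D.u * c ∈ V (m + 1))
    (m₂ n : ℕ) {x : Fk} (hx : x ∈ D.Y V m₂ n) : D.u * x ∈ D.Y V m₂ (n + 1) := by
  have key : D.Y V m₂ n ≤ (D.Y V m₂ (n + 1)).comap (LinearMap.mulLeft k D.u) := by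
    refine sup_le ?_ (Submodule.span_le.2 ?_)
    · intro c hc
      exact Submodule.mem_sup_left (hVmul _ c hc)
    · rintro _ ⟨j, hj, e, he, rfl⟩
      show D.u * (D.u ^ j * e) ∈ D.Y V m₂ (n + 1)
      refine Submodule.mem_sup_right (Submodule.subset_span ⟨j + 1, Nat.succ_le_succ hj, e, he, ?_⟩)
      rw [pow_succ']
      ring
  exact key hx

theorem ffoa_onto (H : D.Hyp) (V : ℕ → Submodule k Fk) (hVmono : ∀ m, V m ≤ V (m + 1))
    (hVmul : ∀ m, ∀ c ∈ V m, D.u * c ∈ V (m + 1))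
    (hι : ∀ c ∈ D.C, ∃ m, c ∈ V m)
    (hμ : ∀ c' ∈ D.C', ∃ j₀ : ℕ, ∀ j ≥ j₀, D.u ^ j * c' ∈ V j) :
    ∃ m₀ : ℕ, ∀ m ≥ m₀, D.L m ≤ V m := by
  classical
  have hVmono' : ∀ {m n : ℕ}, m ≤ n → V m ≤ V n := by
    intro m n h
    induction n, h using Nat.le_induction with
    | base => exact le_rfl
    | succ n _ ih => exact ih.trans (hVmono n)
  obtain ⟨m₁, hm₁⟩ := D.ffoa_h1 H
  set m₂ : ℕ := m₁ + 1 with hm₂
  -- `L_{m₂+n} ⊂ Y_n`
  have hLY : ∀ n, D.L (m₂ + n) ≤ D.Y V m₂ n := by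
    intro n
    induction n with
    | zero =>
      intro e he
      exact Submodule.mem_sup_right (Submodule.subset_span ⟨0, le_rfl, e, he, by simp⟩)
    | succ n ih =>
      intro f hf
      have hf' : f ∈ D.L ((m₁ + n) + 2) := by
        have : m₂ + (n + 1) = (m₁ + n) + 2 := by omega
        rw [← this]; exact hf
      obtain ⟨a, ha, b, hb, rfl⟩ := D.ffoa_pencil (hm₁ (m₁ + n) (Nat.le_add_right _ _)) hf'
      have e : m₁ + n + 1 = m₂ + n := by omega
      rw [e] at ha hb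
      exact (D.Y V m₂ (n + 1)).add_mem (D.Y_mono V hVmono m₂ n (ih ha))
        (D.u_mul_mem_Y V hVmul m₂ n (ih hb))
  -- finitely many generators of `L_{m₂}`
  obtain ⟨G, hG⟩ := D.ffoa_fg H m₂
  have hGL : ∀ e ∈ G, e ∈ D.L m₂ := fun e he => hG ▸ Submodule.subset_span he
  -- `μ`-nilpotency
  have hμ' : ∀ e ∈ D.L m₂, ∃ i₀ : ℕ, ∀ i ≥ i₀, D.u ^ i * e ∈ V (m₂ + i) := by
    intro e he
    obtain ⟨j₀, hj₀⟩ := hμ _ he.2
    refine ⟨j₀, fun i hi => ?_⟩
    have h := hj₀ (m₂ + i) (hi.trans (Nat.le_add_left _ _))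
    have e1 : D.u ^ (m₂ + i) * (e * D.ui ^ m₂) = D.u ^ i * e := by
      rw [pow_add]
      calc D.u ^ m₂ * D.u ^ i * (e * D.ui ^ m₂)
          = (D.u ^ m₂ * D.ui ^ m₂) * (D.u ^ i * e) := by ring
        _ = D.u ^ i * e := by rw [D.u_pow_mul_ui_pow, one_mul]
    rwa [e1] at h
  choose! i₀ hi₀ using hμ'
  set b : ℕ := G.sup i₀ with hb
  -- `ι`-nilpotency for the finitely many `u^j e`, `j < b`, `e ∈ G`
  have hι' : ∀ p : Fk × ℕ, p ∈ G ×ˢ Finset.range b → ∃ m, D.u ^ p.2 * p.1 ∈ V m := by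
    intro p hp
    exact hι _ (D.C.mul_mem (D.C.pow_mem D.hu_mem _) (hGL p.1 (Finset.mem_product.1 hp).1).1)
  choose! mι hmι using hι'
  set a : ℕ := (G ×ˢ Finset.range b).sup mι with ha
  refine ⟨max a m₂, fun M hM => ?_⟩
  obtain ⟨n, rfl⟩ : ∃ n, M = m₂ + n := ⟨M - m₂, by omega⟩
  refine (hLY n).trans (sup_le le_rfl (Submodule.span_le.2 ?_))
  rintro _ ⟨j, hj, e, he, rfl⟩
  -- reduce to the generators
  have key : D.L m₂ ≤ (V (m₂ + n)).comap (LinearMap.mulLeft k (D.u ^ j)) := by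
    rw [← hG]
    refine Submodule.span_le.2 fun g hg => ?_
    show D.u ^ j * g ∈ V (m₂ + n)
    by_cases hjb : j < b
    · have h1 := hmι (g, j) (Finset.mem_product.2 ⟨hg, Finset.mem_range.2 hjb⟩)
      have h2 : mι (g, j) ≤ m₂ + n :=
        (Finset.le_sup (f := mι) (Finset.mem_product.2 ⟨hg, Finset.mem_range.2 hjb⟩)).trans
          ((le_max_left a m₂).trans hM)
      exact hVmono' h2 h1
    · have h1 : i₀ g ≤ j := (Finset.le_sup (f := i₀) hg).trans (not_lt.1 hjb)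
      exact hVmono' (Nat.add_le_add_left hj m₂) (hi₀ g (hGL g hg) j h1)
  exact key he

end FfoaData

end Fermat.Agent.FF
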