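import Mathlib
import Fermat.Agent.G.Red.Spec
import Fermat.Prelude.Def_AlgebraicCurve_Repartitions
import Fermat.Agent.FF.OntoAbs

/-!
# Program FF (S19 + S32), leaf B2 (O5)-ONTO at `G/Red` level

Owner: helper5.  Namespace `Fermat.Agent.FF`, prefix `ffio`.

`hat : GrdAtlas M 𝔸 τ τ'`, `u = τ_ℚ̄`, `u' = τ'_ℚ̄ = u⁻¹`, `ū`, `ū'` their reductions,
`B_u`, `B_u'` the chart rings of `F = F_ℚ̄(M)` (integral closures of `𝔸[u]`, `𝔸[u']`),
`C_ū`, `C_ū'` the chart rings of `F_k = F_k(M)`.  Then for `m ≥ m₀` the lattice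
`Λ_m = B_u ∩ u^m B_u'` reduces ONTO `L~_m = C_ū ∩ ū^m C_ū'`  (`ffio_onto`).
-/

set_option autoImplicit false
set_option linter.unusedSectionVars false
set_option linter.unusedVariables false
set_option synthInstance.maxHeartbeats 400000

noncomputable section

namespace Fermat.Agent.FF

open ModularCurve AlgebraicCurve IsLocalRing Polynomial Fermat.Agent.S18 Fermat.Agent.S24
  Fermat.Agent.G

/-! ### generalities -/

section General

variable {R T : Type*} [CommRing R] [CommRing T] [Algebra R T]

theorem ffio_isIntegralElem_of_isIntegral (t x : T) (hx : IsIntegral (Algebra.adjoin R {t}) x) :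
    (Polynomial.eval₂RingHom (algebraMap R T) t).IsIntegralElem x := by
  have h := grdl_isIntegralElem_of_adjoin t x hx
  have e : ((aeval t : R[X] →ₐ[R] T) : R[X] →+* T) = Polynomial.eval₂RingHom (algebraMap R T) t :=
    RingHom.ext fun p => by simp [aeval_def]
  rwa [e] at h

theorem ffio_isIntegral_of_isIntegralElem (t x : T)
    (hx : (Polynomial.eval₂RingHom (algebraMap R T) t).IsIntegralElem x) :
    IsIntegral (Algebra.adjoin R {t}) x := by
  obtain ⟨p, hp, hpx⟩ := hx
  have hrange : Algebra.adjoin R {t} = (aeval t : R[X] →ₐ[R] T).range :=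
    Algebra.adjoin_singleton_eq_range_aeval R t
  let f : R[X] →+* ↥(Algebra.adjoin R {t}) :=
    { toFun := fun a => ⟨aeval t a, by rw [hrange]; exact ⟨a, rfl⟩⟩
      map_one' := Subtype.ext (map_one _)
      map_mul' := fun a b => Subtype.ext (map_mul _ a b)
      map_zero' := Subtype.ext (map_zero _)
      map_add' := fun a b => Subtype.ext (map_add _ a b) }
  refine ⟨p.map f, hp.map f, ?_⟩
  rw [eval₂_map]
  have e : (algebraMap (↥(Algebra.adjoin R {t})) T).comp f =
      Polynomial.eval₂RingHom (algebraMap R T) t :=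
    RingHom.ext fun a => by simp [f, aeval_def]
  rw [e]
  exact hpx

end General

section Span

variable {k F : Type*} [Field k] [Field F] [Algebra k F]

/-- a finite `k[t]`-module is spanned over `k` by the `t^j s` -/
theorem ffio_span_of_finite (t : F) [hfin : Module.Finite (Algebra.adjoin k {t}) (intRing k t)] :
    ∃ T : Finset F, (∀ s ∈ T, s ∈ intRing k t) ∧
      ∀ c ∈ intRing k t, c ∈ Submodule.span k {x | ∃ s ∈ T, ∃ j : ℕ, x = t ^ j * s} := by
  classical
  obtain ⟨T', hT'⟩ := hfin.fg_top
  refine ⟨T'.image Subtype.val, ?_, ?_⟩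
  · intro s hs
    obtain ⟨s', -, rfl⟩ := Finset.mem_image.1 hs
    exact s'.2
  · set S : Submodule k F :=
      Submodule.span k {x | ∃ s ∈ T'.image Subtype.val, ∃ j : ℕ, x = t ^ j * s} with hS
    -- `S` is stable under multiplication by `k[t]`
    have hmul : ∀ a ∈ Algebra.adjoin k {t}, ∀ s ∈ S, a * s ∈ S := by
      intro a ha
      induction ha using Algebra.adjoin_induction with
      | mem x hx =>
        rw [Set.mem_singleton_iff] at hx
        subst hx
        intro s hs
        have key : S ≤ S.comap (LinearMap.mulLeft k x) := by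
          refine Submodule.span_le.2 ?_
          rintro _ ⟨s, hs, j, rfl⟩
          show x * (x ^ j * s) ∈ S
          refine Submodule.subset_span ⟨s, hs, j + 1, ?_⟩
          rw [pow_succ']; ring
        exact key hs
      | algebraMap r =>
        intro s hs
        rw [← Algebra.smul_def]
        exact S.smul_mem r hs
      | add x y _ _ hx hy =>
        intro s hs
        rw [add_mul]
        exact S.add_mem (hx s hs) (hy s hs)
      | mul x y _ _ hx hy =>
        intro s hs
        rw [mul_assoc]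
        exact hx _ (hy s hs)
    intro c hc
    have hc' : (⟨c, hc⟩ : intRing k t) ∈ Submodule.span (Algebra.adjoin k {t}) (T' : Set _) := by
      rw [hT']; exact Submodule.mem_top
    have : ∀ y ∈ Submodule.span (Algebra.adjoin k {t}) (T' : Set (intRing k t)), (y : F) ∈ S := by
      intro y hy
      induction hy using Submodule.span_induction with
      | mem y hy =>
        refine Submodule.subset_span ⟨y, Finset.mem_image.2 ⟨y, hy, rfl⟩, 0, by simp⟩
      | zero => exact S.zero_mem
      | add x y _ _ hx hy => exact S.add_mem hx hy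
      | smul a x _ hx => exact hmul a a.2 _ hx
    exact this _ hc'

end Span

/-! ### the special fibre data -/

section Inst

variable (M : ℕ) [NeZero M] {ℓ : ℕ} [Fact ℓ.Prime]
variable (A : ValuationSubring (AlgebraicClosure ℚ))
variable {τ τ' : LaurentSeries ℤ}

theorem ffio_self_mem {k F : Type*} [Field k] [Field F] [Algebra k F] (t : F) :
    t ∈ intRing k t :=
  (intRing k t).algebraMap_mem ⟨t, Algebra.subset_adjoin rfl⟩

/-- the two charts of the special fibre -/
def ffioData (hat : GrdAtlas M A τ τ') :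
    FfoaData (ResidueField A) (modularFunctionFieldFullC (ResidueField A) M) where
  C := (intRing (ResidueField A) (grdK M A hat.c.mem)).restrictScalars (ResidueField A)
  C' := (intRing (ResidueField A) (grdK M A hat.c'.mem)).restrictScalars (ResidueField A)
  u := grdK M A hat.c.mem
  ui := grdK M A hat.c'.mem
  hu := grda_grdK_mul M A hat
  hu_mem := ffio_self_mem _
  hui_mem := ffio_self_mem _

theorem ffio_mem_C (hat : GrdAtlas M A τ τ')
    {c : modularFunctionFieldFullC (ResidueField A) M} :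
    c ∈ (ffioData M A hat).C ↔ c ∈ intRing (ResidueField A) (grdK M A hat.c.mem) := Iff.rfl

theorem ffio_mem_C' (hat : GrdAtlas M A τ τ')
    {c : modularFunctionFieldFullC (ResidueField A) M} :
    c ∈ (ffioData M A hat).C' ↔ c ∈ intRing (ResidueField A) (grdK M A hat.c'.mem) := Iff.rfl

/-- `C ∩ C' ⊂ L(0)` -/
theorem ffio_L_zero_le (hat : GrdAtlas M A τ τ') :
    (ffioData M A hat).L 0 ≤
      riemannRochSpace (0 : Divisor (ResidueField A) (modularFunctionFieldFullC (ResidueField A) M)) := by
  rintro c ⟨hc, hc'⟩ v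
  rw [pow_zero, mul_one] at hc'
  show v.adicValuation c ≤ WithZero.exp ((0 : Divisor _ _) v)
  rw [Finsupp.zero_apply, WithZero.exp_zero]
  apply v.adicValuation_le_one_of_mem
  by_cases hv : grdK M A hat.c.mem ∈ v.toValuationSubring
  · exact intRing_le_place v hv ⟨c, hc⟩
  · have hv' : grdK M A hat.c'.mem ∈ v.toValuationSubring := by
      have h1 : grdK M A hat.c'.mem = (grdK M A hat.c.mem)⁻¹ :=
        eq_inv_of_mul_eq_one_right (grda_grdK_mul M A hat)
      rw [h1]
      exact (v.toValuationSubring.mem_or_inv_mem _).resolve_left hv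
    exact intRing_le_place v hv' ⟨c, hc'⟩

theorem ffio_hyp (hat : GrdAtlas M A τ τ')
    (hfin0 : Module.Finite (ResidueField A) ↥(riemannRochSpace
      (0 : Divisor (ResidueField A) (modularFunctionFieldFullC (ResidueField A) M)))) :
    (ffioData M A hat).Hyp where
  hpow := by
    intro c hc
    have h1 := ffio_isIntegralElem_of_isIntegral (R := ResidueField A) _ c
      ((mem_integralClosure_iff _ _).1 ((ffio_mem_C M A hat).1 hc))
    have huu' : grdK M A hat.c'.mem * grdK M A hat.c.mem = 1 := by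
      rw [mul_comm]; exact grda_grdK_mul M A hat
    obtain ⟨n, hn⟩ := grda_isIntegralElem_pow_mul _ _ _ huu' c h1
    exact ⟨n, (ffio_mem_C' M A hat).2
      ((mem_integralClosure_iff _ _).2 (ffio_isIntegral_of_isIntegralElem _ _ hn))⟩
  hfg := by
    have := intRing_finite hat.c.sepK
    exact ffio_span_of_finite (grdK M A hat.c.mem)
  hfg' := by
    have := intRing_finite hat.c'.sepK
    exact ffio_span_of_finite (grdK M A hat.c'.mem)
  hfin0 := by
    have h1 : (riemannRochSpace (0 : Divisor (ResidueField A)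
        (modularFunctionFieldFullC (ResidueField A) M))).FG := Module.Finite.iff_fg.1 hfin0
    exact FfoaData.ffoa_fg_of_le (ffio_L_zero_le M A hat) h1

end Inst

/-! ### the reductions of the lattices `Λ_m` -/

section Lattice

variable (M : ℕ) [NeZero M] {ℓ : ℕ} [Fact ℓ.Prime]
variable (A : ValuationSubring (AlgebraicClosure ℚ))
variable {τ τ' : LaurentSeries ℤ}

/-- `x ∈ Λ_m = B_u ∩ u^m B_u'` reduces to `c` -/
def FfioLifts (hat : GrdAtlas M A τ τ') (m : ℕ)
    (c : modularFunctionFieldFullC (ResidueField A) M) : Prop :=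
  ∃ x : ↥(grdO M A), GrdIsInt M A (grdQ M hat.c.mem) (x : modularFunctionFieldBar M) ∧
    GrdIsInt M A (grdQ M hat.c'.mem) ((x : modularFunctionFieldBar M) * grdQ M hat.c'.mem ^ m) ∧
    grdRed M A x = c

/-- `V_m = red(Λ_m)` as a `k`-subspace of `F_k` -/
def ffioV (hat : GrdAtlas M A τ τ') (m : ℕ) :
    Submodule (ResidueField A) (modularFunctionFieldFullC (ResidueField A) M) where
  carrier := {c | FfioLifts M A hat m c}
  add_mem' := by
    rintro _ _ ⟨x, hx, hx', rfl⟩ ⟨y, hy, hy', rfl⟩
    refine ⟨x + y, RingHom.IsIntegralElem.add _ hx hy, ?_, map_add _ _ _⟩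
    have : ((x + y : ↥(grdO M A)) : modularFunctionFieldBar M) * grdQ M hat.c'.mem ^ m =
        (x : modularFunctionFieldBar M) * grdQ M hat.c'.mem ^ m +
          (y : modularFunctionFieldBar M) * grdQ M hat.c'.mem ^ m := by
      push_cast; ring
    rw [this]
    exact RingHom.IsIntegralElem.add _ hx' hy'
  zero_mem' := by
    refine ⟨0, RingHom.isIntegralElem_zero _, ?_, map_zero _⟩
    have : ((0 : ↥(grdO M A)) : modularFunctionFieldBar M) * grdQ M hat.c'.mem ^ m = 0 := by
      push_cast; ring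
    rw [this]
    exact RingHom.isIntegralElem_zero _
  smul_mem' := by
    rintro κ _ ⟨x, hx, hx', rfl⟩
    obtain ⟨a, rfl⟩ := IsLocalRing.residue_surjective κ
    set a' : ↥(grdO M A) := ⟨algebraMap (AlgebraicClosure ℚ) (modularFunctionFieldBar M)
      (a : AlgebraicClosure ℚ), grdO_algebraMap_mem M A a⟩ with ha'
    refine ⟨a' * x, ?_, ?_, ?_⟩
    · have : ((a' * x : ↥(grdO M A)) : modularFunctionFieldBar M) =
          algebraMap (AlgebraicClosure ℚ) (modularFunctionFieldBar M) (a : AlgebraicClosure ℚ) *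
            (x : modularFunctionFieldBar M) := rfl
      rw [this]
      exact RingHom.IsIntegralElem.mul _ (grdr5_isInt_const M A _ a) hx
    · have : ((a' * x : ↥(grdO M A)) : modularFunctionFieldBar M) *
          grdQ M hat.c'.mem ^ m =
          algebraMap (AlgebraicClosure ℚ) (modularFunctionFieldBar M) (a : AlgebraicClosure ℚ) *
            ((x : modularFunctionFieldBar M) * grdQ M hat.c'.mem ^ m) := by
        push_cast; ring
      rw [this]
      exact RingHom.IsIntegralElem.mul _ (grdr5_isInt_const M A _ a) hx'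
    · rw [map_mul, ha', grdRed_algebraMap, Algebra.smul_def]

theorem ffio_mem_V (hat : GrdAtlas M A τ τ') {m : ℕ}
    {c : modularFunctionFieldFullC (ResidueField A) M} :
    c ∈ ffioV M A hat m ↔ FfioLifts M A hat m c := Iff.rfl

/-- **ONTO** : for `m ≥ m₀` every element of `L~_m = C_ū ∩ ū^m C_ū'` is the reduction of an element
of `Λ_m = B_u ∩ u^m B_u'`. -/
theorem ffio_onto (hℓM : ¬ ℓ ∣ M) (hA : A.LiesOverPrime ℓ) (hat : GrdAtlas M A τ τ')
    (hfin0 : Module.Finite (ResidueField A) ↥(riemannRochSpace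
      (0 : Divisor (ResidueField A) (modularFunctionFieldFullC (ResidueField A) M)))) :
    ∃ m₀ : ℕ, ∀ m ≥ m₀, ∀ c : modularFunctionFieldFullC (ResidueField A) M,
      c ∈ intRing (ResidueField A) (grdK M A hat.c.mem) →
      c * grdK M A hat.c'.mem ^ m ∈ intRing (ResidueField A) (grdK M A hat.c'.mem) →
      ∃ x : ↥(grdO M A), GrdIsInt M A (grdQ M hat.c.mem) (x : modularFunctionFieldBar M) ∧
        GrdIsInt M A (grdQ M hat.c'.mem)
          ((x : modularFunctionFieldBar M) * grdQ M hat.c'.mem ^ m) ∧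
        grdRed M A x = c := by
  have huu' := grda_grdQ_mul M A hat
  have hu'u : grdQ M hat.c'.mem * grdQ M hat.c.mem = 1 := by rw [mul_comm]; exact huu'
  have hpp : ∀ j : ℕ, grdQ M hat.c.mem ^ j * grdQ M hat.c'.mem ^ j = 1 := fun j => by
    rw [← mul_pow, huu', one_pow]
  have h1 : ∀ m, ffioV M A hat m ≤ ffioV M A hat (m + 1) := by
    rintro m _ ⟨x, hx, hx', rfl⟩
    refine ⟨x, hx, ?_, rfl⟩
    rw [pow_succ, ← mul_assoc]
    exact RingHom.IsIntegralElem.mul _ hx' (grda_isInt_self M A _)
  set uO : ↥(grdO M A) := ⟨grdQ M hat.c.mem, grdQ_mem_grdO M A hat.c.mem⟩ with huO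
  have h2 : ∀ m, ∀ c ∈ ffioV M A hat m, (ffioData M A hat).u * c ∈ ffioV M A hat (m + 1) := by
    rintro m _ ⟨x, hx, hx', rfl⟩
    refine ⟨uO * x, ?_, ?_, ?_⟩
    · exact RingHom.IsIntegralElem.mul _ (grda_isInt_self M A _) hx
    · have : ((uO * x : ↥(grdO M A)) : modularFunctionFieldBar M) *
          grdQ M hat.c'.mem ^ (m + 1) =
          (grdQ M hat.c.mem * grdQ M hat.c'.mem) *
            ((x : modularFunctionFieldBar M) * grdQ M hat.c'.mem ^ m) := by
        rw [huO]; push_cast; ring
      rw [this, huu', one_mul]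
      exact hx'
    · rw [map_mul, huO, grdRed_grdQ]
      rfl
  have h3 : ∀ c ∈ (ffioData M A hat).C, ∃ m, c ∈ ffioV M A hat m := by
    intro c hc
    obtain ⟨x, hx, hxc⟩ := grd_lift M A hℓM hA hat.c ⟨c, (ffio_mem_C M A hat).1 hc⟩
    obtain ⟨n, hn⟩ := grda_isIntegralElem_pow_mul (grdInclA M A) _ _ hu'u _ hx
    refine ⟨n, x, hx, ?_, hxc⟩
    rw [mul_comm]
    exact hn
  have h4 : ∀ c' ∈ (ffioData M A hat).C', ∃ j₀ : ℕ, ∀ j ≥ j₀,
      (ffioData M A hat).u ^ j * c' ∈ ffioV M A hat j := by
    intro c' hc'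
    obtain ⟨y, hy, hyc⟩ := grd_lift M A hℓM hA hat.c' ⟨c', (ffio_mem_C' M A hat).1 hc'⟩
    obtain ⟨j₀, hj₀⟩ := grda_isIntegralElem_pow_mul (grdInclA M A) _ _ huu' _ hy
    refine ⟨j₀, fun j hj => ?_⟩
    refine ⟨uO ^ j * y, ?_, ?_, ?_⟩
    · have : ((uO ^ j * y : ↥(grdO M A)) : modularFunctionFieldBar M) =
          grdQ M hat.c.mem ^ (j - j₀) *
            (grdQ M hat.c.mem ^ j₀ * (y : modularFunctionFieldBar M)) := by
        rw [huO]; push_cast
        rw [← mul_assoc, ← pow_add, Nat.sub_add_cancel hj]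
      rw [this]
      exact RingHom.IsIntegralElem.mul _
        ((grdB M A (grdQ M hat.c.mem)).pow_mem (grda_isInt_self M A _) _) hj₀
    · have : ((uO ^ j * y : ↥(grdO M A)) : modularFunctionFieldBar M) *
          grdQ M hat.c'.mem ^ j =
          (grdQ M hat.c.mem ^ j * grdQ M hat.c'.mem ^ j) * (y : modularFunctionFieldBar M) := by
        rw [huO]; push_cast; ring
      rw [this, hpp, one_mul]
      exact hy
    · rw [map_mul, map_pow, huO, grdRed_grdQ, hyc]
      rfl
  obtain ⟨m₀, hm₀⟩ := (ffioData M A hat).ffoa_onto (ffio_hyp M A hat hfin0) (ffioV M A hat)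
    h1 h2 h3 h4
  exact ⟨m₀, fun m hm c hc hc' => hm₀ m hm ⟨hc, hc'⟩⟩

end Lattice

end Fermat.Agent.FF
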