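import Mathlib
import Fermat.Agent.G.Red.Spec
import Fermat.Agent.S05.Inertia
import Fermat.Prelude.Def_AlgebraicCurve_Repartitions

/-!
# PROGRAM FF, leaf B3 (owner helper6) : POINTS of the integral model of `X₀(M)` at `ℓ ∤ M`

Setting (package `G/Red` on main): `𝔸 = A ⊂ ℚ̄` a valuation ring over `ℓ`, `k = 𝔸/𝔪`,
`F = F_ℚ̄(M)`, `F_k = F_k(M)`, an atlas `hat : GrdAtlas M A τ τ'` (`u = τ_ℚ̄`, `u' = τ'_ℚ̄ = u⁻¹`),
`r` THE place reduction map (`hr : GrdIsRed M A hat.c.mem hat.c'.mem r`).

* (P1) `ffip_surjective`   : `r` is surjective;  `ffip_isRed_swap` : `r` is also the reduction map of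
  the swapped atlas `(τ', τ)`, so every statement below holds in BOTH charts;
* (P2) `ffip_disc`         : RESIDUE DISCS : `t₀ ∈ B_u`, `ord_Q(t̄₀ - β̄) = 1` ⟹ there is EXACTLY ONE
  place `P` over `Q` with `t₀(P) = β`, and `ord_P(t₀ - β) = 1`;  `ffip_disc_coord` (`t₀ = u`);
  `ffip_disc_val` : every `P` over `Q` has a value `t₀(P) = β ∈ 𝔸` with `β̄ = t̄₀(Q)`.
-/

set_option autoImplicit false
set_option linter.unusedSectionVars false
set_option linter.unusedVariables false
set_option synthInstance.maxHeartbeats 400000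

noncomputable section

namespace Fermat.Agent.FF

open ModularCurve AlgebraicCurve IsLocalRing Polynomial Fermat.Agent.S18 Fermat.Agent.S24
  Fermat.Agent.G

section Points

variable (M : ℕ) [NeZero M] {ℓ : ℕ} [Fact ℓ.Prime]
variable (A : ValuationSubring (AlgebraicClosure ℚ))
variable {τ τ' : LaurentSeries ℤ}

/-- the swapped atlas -/
theorem ffip_atlas_swap (hat : GrdAtlas M A τ τ') : GrdAtlas M A τ' τ :=
  ⟨by rw [mul_comm]; exact hat.inv, hat.c', hat.c⟩

/-- `r` is also THE reduction map of the swapped atlas. -/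
theorem ffip_isRed_swap (hℓM : ¬ ℓ ∣ M) (hA : A.LiesOverPrime ℓ) (hat : GrdAtlas M A τ τ')
    (r : Place (AlgebraicClosure ℚ) (modularFunctionFieldBar M) →
      Place (ResidueField A) (modularFunctionFieldFullC (ResidueField A) M))
    (hr : GrdIsRed M A hat.c.mem hat.c'.mem r) :
    GrdIsRed M A (ffip_atlas_swap M A hat).c.mem (ffip_atlas_swap M A hat).c'.mem r := by
  intro P
  refine ⟨fun hP' => (grd_isRed_rel M A hℓM hA hat r hr P).2 hP', fun hP' => ?_⟩
  rcases grd_chart_cover M A hat P with h | ⟨a, -, ha⟩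
  · exact (hr P).1 h
  · exact absurd ⟨a, ha⟩ hP'

/-- (P1) THE REDUCTION MAP IS SURJECTIVE. -/
theorem ffip_surjective (hℓM : ¬ ℓ ∣ M) (hA : A.LiesOverPrime ℓ) (hat : GrdAtlas M A τ τ')
    (r : Place (AlgebraicClosure ℚ) (modularFunctionFieldBar M) →
      Place (ResidueField A) (modularFunctionFieldFullC (ResidueField A) M))
    (hr : GrdIsRed M A hat.c.mem hat.c'.mem r) : Function.Surjective r := by
  intro Q
  rcases grd_chart_coverK M A hat Q with hQ | hQ
  · obtain ⟨P, hP, hrel⟩ := grd_rel_surj M A hℓM hA hat.c Q hQ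
    exact ⟨P, (grdf_fibre M A hℓM hA hat r hr Q hQ P).2 ⟨hP, hrel⟩⟩
  · obtain ⟨P, hP, hrel⟩ := grd_rel_surj M A hℓM hA hat.c' Q (grdf_mem_of_val_zero Q hQ)
    exact ⟨P, (grdf_fibre' M A hℓM hA hat r hr Q hQ P).2 ⟨hP, hrel⟩⟩

/-! ### (P2) residue discs -/

/-- `t₀ - β` as an element of the Gauss ring -/
def ffipSub (t₀ : ↥(grdO M A)) (β : A) : ↥(grdO M A) :=
  t₀ - ⟨algebraMap (AlgebraicClosure ℚ) (modularFunctionFieldBar M) (β : AlgebraicClosure ℚ),
    grdO_algebraMap_mem M A β⟩

theorem ffipSub_coe (t₀ : ↥(grdO M A)) (β : A) :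
    ((ffipSub M A t₀ β : ↥(grdO M A)) : modularFunctionFieldBar M) =
      (t₀ : modularFunctionFieldBar M) -
        algebraMap (AlgebraicClosure ℚ) (modularFunctionFieldBar M) (β : AlgebraicClosure ℚ) := rfl

theorem ffipSub_red (t₀ : ↥(grdO M A)) (β : A) :
    grdRed M A (ffipSub M A t₀ β) = grdRed M A t₀ -
      algebraMap (ResidueField A) (modularFunctionFieldFullC (ResidueField A) M) (residue A β) := by
  unfold ffipSub
  rw [map_sub, grdRed_algebraMap]

theorem ffipSub_isInt (u : modularFunctionFieldBar M) (t₀ : ↥(grdO M A)) (β : A)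
    (ht₀ : GrdIsInt M A u (t₀ : modularFunctionFieldBar M)) :
    GrdIsInt M A u ((ffipSub M A t₀ β : ↥(grdO M A)) : modularFunctionFieldBar M) :=
  (grdB M A u).sub_mem ht₀ (grdr_isInt_algebraMap M A u β)

/-- `(t₀ - β)(P) = 0 ↔ t₀(P) = β` -/
theorem ffipSub_val {K F : Type*} [Field K] [Field F] [Algebra K F] (P : Place K F) (x : F)
    (b : K) : GrdVal P (x - algebraMap K F b) 0 ↔ GrdVal P x b := by
  unfold GrdVal
  rw [map_zero, sub_zero]

/-- (P2) RESIDUE DISCS : if `t₀ ∈ B_u` and `t̄₀ - β̄` is a uniformiser at the place `Q` of the chart,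
there is EXACTLY ONE place `P` over `Q` with `t₀(P) = β`. -/
theorem ffip_disc (hℓM : ¬ ℓ ∣ M) (hA : A.LiesOverPrime ℓ) (hat : GrdAtlas M A τ τ')
    (r : Place (AlgebraicClosure ℚ) (modularFunctionFieldBar M) →
      Place (ResidueField A) (modularFunctionFieldFullC (ResidueField A) M))
    (hr : GrdIsRed M A hat.c.mem hat.c'.mem r)
    (Q : Place (ResidueField A) (modularFunctionFieldFullC (ResidueField A) M))
    (hQ : grdK M A hat.c.mem ∈ Q.toValuationSubring)
    (t₀ : ↥(grdO M A)) (ht₀ : GrdIsInt M A (grdQ M hat.c.mem) (t₀ : modularFunctionFieldBar M))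
    (β : A)
    (hord : Q.ord (grdRed M A t₀ - algebraMap (ResidueField A)
      (modularFunctionFieldFullC (ResidueField A) M) (residue A β)) = 1) :
    ∃! P : Place (AlgebraicClosure ℚ) (modularFunctionFieldBar M),
      r P = Q ∧ GrdVal P (t₀ : modularFunctionFieldBar M) (β : AlgebraicClosure ℚ) := by
  set b := ffipSub M A t₀ β with hb
  have hbint := ffipSub_isInt M A (grdQ M hat.c.mem) t₀ β ht₀
  have hordb : Q.ord (grdRed M A b) = 1 := by rw [hb, ffipSub_red]; exact hord
  have hb0 : grdRed M A b ≠ 0 := by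
    intro h0
    rw [h0, Place.ord_zero] at hordb
    exact zero_ne_one hordb
  have hbQ : GrdVal Q (grdRed M A b) 0 := by
    rw [grdg_val_zero_iff_ord Q hb0, hordb]
    exact one_pos
  obtain ⟨P, hP, hrel, hval⟩ := grd_exists_zero M A hℓM hA hat.c Q hQ b hbint hb0 hbQ
  have hsimple := grd_simple_zero M A hℓM hA hat.c P hP Q hrel b hbint hordb 0
    (by rwa [ZeroMemClass.coe_zero])
  refine ⟨P, ⟨(grdf_fibre M A hℓM hA hat r hr Q hQ P).2 ⟨hP, hrel⟩, ?_⟩, ?_⟩
  · rw [← ffipSub_val, ← ffipSub_coe]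
    exact hval
  · rintro P' ⟨hP'Q, hP'val⟩
    obtain ⟨hP', hrel'⟩ := (grdf_fibre M A hℓM hA hat r hr Q hQ P').1 hP'Q
    refine hsimple.2 P' hP' hrel' ?_
    rw [ZeroMemClass.coe_zero, hb, ffipSub_coe, ffipSub_val]
    exact hP'val

/-- (P2) ... and `t₀ - β` is a uniformiser at that place. -/
theorem ffip_disc_ord (hℓM : ¬ ℓ ∣ M) (hA : A.LiesOverPrime ℓ) (hat : GrdAtlas M A τ τ')
    (r : Place (AlgebraicClosure ℚ) (modularFunctionFieldBar M) →
      Place (ResidueField A) (modularFunctionFieldFullC (ResidueField A) M))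
    (hr : GrdIsRed M A hat.c.mem hat.c'.mem r)
    (Q : Place (ResidueField A) (modularFunctionFieldFullC (ResidueField A) M))
    (hQ : grdK M A hat.c.mem ∈ Q.toValuationSubring)
    (t₀ : ↥(grdO M A)) (ht₀ : GrdIsInt M A (grdQ M hat.c.mem) (t₀ : modularFunctionFieldBar M))
    (β : A)
    (hord : Q.ord (grdRed M A t₀ - algebraMap (ResidueField A)
      (modularFunctionFieldFullC (ResidueField A) M) (residue A β)) = 1)
    (P : Place (AlgebraicClosure ℚ) (modularFunctionFieldBar M)) (hPQ : r P = Q)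
    (hval : GrdVal P (t₀ : modularFunctionFieldBar M) (β : AlgebraicClosure ℚ)) :
    P.ord ((t₀ : modularFunctionFieldBar M) -
      algebraMap (AlgebraicClosure ℚ) (modularFunctionFieldBar M) (β : AlgebraicClosure ℚ)) = 1 := by
  set b := ffipSub M A t₀ β with hb
  have hbint := ffipSub_isInt M A (grdQ M hat.c.mem) t₀ β ht₀
  have hordb : Q.ord (grdRed M A b) = 1 := by rw [hb, ffipSub_red]; exact hord
  obtain ⟨hP, hrel⟩ := (grdf_fibre M A hℓM hA hat r hr Q hQ P).1 hPQ
  have hsimple := grd_simple_zero M A hℓM hA hat.c P hP Q hrel b hbint hordb 0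
    (by rw [ZeroMemClass.coe_zero, hb, ffipSub_coe, ffipSub_val]; exact hval)
  have h1 := hsimple.1
  rw [ZeroMemClass.coe_zero, map_zero, sub_zero, hb, ffipSub_coe] at h1
  exact h1

/-- every place over a place `Q` of the chart has values in `𝔸` on `B_u`, reducing to the value at
`Q`. -/
theorem ffip_disc_val (hℓM : ¬ ℓ ∣ M) (hA : A.LiesOverPrime ℓ) (hat : GrdAtlas M A τ τ')
    (r : Place (AlgebraicClosure ℚ) (modularFunctionFieldBar M) →
      Place (ResidueField A) (modularFunctionFieldFullC (ResidueField A) M))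
    (hr : GrdIsRed M A hat.c.mem hat.c'.mem r)
    (Q : Place (ResidueField A) (modularFunctionFieldFullC (ResidueField A) M))
    (hQ : grdK M A hat.c.mem ∈ Q.toValuationSubring)
    (t₀ : ↥(grdO M A)) (ht₀ : GrdIsInt M A (grdQ M hat.c.mem) (t₀ : modularFunctionFieldBar M))
    (P : Place (AlgebraicClosure ℚ) (modularFunctionFieldBar M)) (hPQ : r P = Q) :
    ∃ β : A, GrdVal P (t₀ : modularFunctionFieldBar M) (β : AlgebraicClosure ℚ) ∧
      GrdVal Q (grdRed M A t₀) (residue A β) := by
  obtain ⟨hP, hrel⟩ := (grdf_fibre M A hℓM hA hat r hr Q hQ P).1 hPQ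
  obtain ⟨β, hβ⟩ := grd_val_exists M A hat.c P hP ht₀
  exact ⟨β, hβ, hrel _ t₀.2 ht₀ β hβ⟩

/-- (P2) for the chart coordinate itself : over an unramified point `Q` of the `ū`-line with
`ū(Q) = ᾱ` there is exactly one place `P` with `u(P) = α`. -/
theorem ffip_disc_coord (hℓM : ¬ ℓ ∣ M) (hA : A.LiesOverPrime ℓ) (hat : GrdAtlas M A τ τ')
    (r : Place (AlgebraicClosure ℚ) (modularFunctionFieldBar M) →
      Place (ResidueField A) (modularFunctionFieldFullC (ResidueField A) M))
    (hr : GrdIsRed M A hat.c.mem hat.c'.mem r)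
    (Q : Place (ResidueField A) (modularFunctionFieldFullC (ResidueField A) M))
    (α : A)
    (hord : Q.ord (grdK M A hat.c.mem - algebraMap (ResidueField A)
      (modularFunctionFieldFullC (ResidueField A) M) (residue A α)) = 1) :
    ∃! P : Place (AlgebraicClosure ℚ) (modularFunctionFieldBar M),
      r P = Q ∧ GrdVal P (grdQ M hat.c.mem) (α : AlgebraicClosure ℚ) := by
  have hne : grdK M A hat.c.mem - algebraMap (ResidueField A)
      (modularFunctionFieldFullC (ResidueField A) M) (residue A α) ≠ 0 := by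
    intro h0
    rw [h0, Place.ord_zero] at hord
    exact zero_ne_one hord
  have hQ : grdK M A hat.c.mem ∈ Q.toValuationSubring := by
    have h1 : grdK M A hat.c.mem - algebraMap (ResidueField A)
        (modularFunctionFieldFullC (ResidueField A) M) (residue A α) ∈ Q.toValuationSubring := by
      rw [grdg_mem_iff_ord Q hne, hord]
      exact zero_le_one
    have h2 := Q.toValuationSubring.add_mem _ _ h1 (Q.algebraMap_mem' (residue A α))
    rwa [sub_add_cancel] at h2
  have h := ffip_disc M A hℓM hA hat r hr Q hQ ⟨grdQ M hat.c.mem, grdQ_mem_grdO M A hat.c.mem⟩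
    (grdf_isInt_self M A _) α (by rw [grdRed_grdQ]; exact hord)
  exact h

end Points

/-! ### values at places under a semilinear automorphism -/

section GenericSmul

variable {K F : Type*} [Field K] [Field F] [Algebra K F]

open scoped Pointwise in
theorem ffip_nonunits_smul (g : SemilinearAut K F) (V : ValuationSubring F) {y : F}
    (hy : y ∈ V.nonunits) : g • y ∈ (g • V : ValuationSubring F).nonunits := by
  rw [ValuationSubring.mem_nonunits_iff_exists_mem_maximalIdeal] at hy ⊢
  obtain ⟨hyV, hym⟩ := hy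
  refine ⟨ValuationSubring.smul_mem_pointwise_smul g y V hyV, ?_⟩
  have h : (SemilinearAut.smulValuationSubringEquiv g V) ⟨y, hyV⟩ ∈
      maximalIdeal (g • V : ValuationSubring F) := by
    rw [mem_maximalIdeal, mem_nonunits_iff] at hym ⊢
    intro hu
    exact hym ((MulEquiv.isUnit_map (SemilinearAut.smulValuationSubringEquiv g V)).1 hu)
  exact h

/-- `x(P) = a ⟹ (g x)(g P) = g a`. -/
theorem ffip_val_smul (g : SemilinearAut K F) (P : Place K F) {x : F} {a : K}
    (h : GrdVal P x a) : GrdVal (g • P) (g • x) (SemilinearAut.baseAut g a) := by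
  unfold GrdVal at h ⊢
  have h1 := ffip_nonunits_smul g P.toValuationSubring h
  rw [smul_sub, SemilinearAut.smul_algebraMap] at h1
  exact h1

end GenericSmul

/-! ### (P3) inertia -/

section Inertia

variable (M : ℕ) [NeZero M] {ℓ : ℕ} [Fact ℓ.Prime]
variable (A : ValuationSubring (AlgebraicClosure ℚ))
variable {τ τ' : LaurentSeries ℤ}
variable (σ : AlgebraicClosure ℚ ≃ₐ[ℚ] AlgebraicClosure ℚ)

/-- the semilinear automorphism of `F = F_ℚ̄(M)` induced by `σ` (coefficientwise) -/
abbrev ffipG : SemilinearAut (AlgebraicClosure ℚ) (modularFunctionFieldBar M) :=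
  arithmeticGalois (modularFunctionFieldFull M) σ

theorem ffipG_coe (x : modularFunctionFieldBar M) :
    ((ffipG M σ • x : modularFunctionFieldBar M) : LaurentSeries (AlgebraicClosure ℚ)) =
      coeffMap (σ : AlgebraicClosure ℚ →+* AlgebraicClosure ℚ)
        (x : LaurentSeries (AlgebraicClosure ℚ)) := rfl

theorem ffipG_algebraMap (a : AlgebraicClosure ℚ) :
    ffipG M σ • algebraMap (AlgebraicClosure ℚ) (modularFunctionFieldBar M) a =
      algebraMap (AlgebraicClosure ℚ) (modularFunctionFieldBar M) (σ a) :=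
  arithmeticRingAut_algebraMap (modularFunctionFieldFull M) σ a

/-- chart coordinates (integral series) are Galois-fixed -/
theorem ffipG_coord {υ : LaurentSeries ℤ} (hυ : GrdSerMem M υ) :
    ffipG M σ • grdQ M hυ = grdQ M hυ := by
  apply Subtype.ext
  rw [ffipG_coe]
  exact grdSer_coeffMap υ (σ : AlgebraicClosure ℚ →+* AlgebraicClosure ℚ)

theorem ffipG_inv_smul (x : modularFunctionFieldBar M) :
    ffipG M σ⁻¹ • (ffipG M σ • x) = x := by
  rw [ffipG, ffipG, map_inv, inv_smul_smul]

theorem ffipG_smul_inv (x : modularFunctionFieldBar M) :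
    ffipG M σ • (ffipG M σ⁻¹ • x) = x := by
  rw [ffipG, ffipG, map_inv, smul_inv_smul]

variable {A σ}

open Fermat.Agent.S05 in
/-- the restriction of an inertial `σ` to `𝔸` -/
def ffipResA (hσ : IsInertial A σ) : A →+* A :=
  ((σ : AlgebraicClosure ℚ →+* AlgebraicClosure ℚ).comp A.subtype).codRestrict A.toSubring
    (fun a => (hσ.mem_iff _).2 a.2)

open Fermat.Agent.S05 in
theorem ffipResA_coe (hσ : IsInertial A σ) (a : A) :
    ((ffipResA hσ a : A) : AlgebraicClosure ℚ) = σ (a : AlgebraicClosure ℚ) := rfl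

open Fermat.Agent.S05 in
theorem ffipResA_residue (hσ : IsInertial A σ) (a : A) :
    residue A (ffipResA hσ a) = residue A a := by
  rw [← sub_eq_zero, ← map_sub, residue_eq_zero_iff]
  have h := hσ.sub_mem (a : AlgebraicClosure ℚ) a.2
  exact (ValuationSubring.coe_mem_nonunits_iff (A := A)).mp h

open Fermat.Agent.S05 in
theorem ffipResA_subtype (hσ : IsInertial A σ) (y : LaurentSeries A) :
    coeffMap A.subtype (coeffMap (ffipResA hσ) y) =
      coeffMap (σ : AlgebraicClosure ℚ →+* AlgebraicClosure ℚ) (coeffMap A.subtype y) := by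
  rw [coeffMap_coeffMap, coeffMap_coeffMap]
  exact coeffMap_congr (RingHom.ext fun a => rfl) y

open Fermat.Agent.S05 in
theorem ffipResA_res (hσ : IsInertial A σ) (y : LaurentSeries A) :
    coeffMap (residue A) (coeffMap (ffipResA hσ) y) = coeffMap (residue A) y := by
  rw [coeffMap_coeffMap]
  exact coeffMap_congr (RingHom.ext fun a => ffipResA_residue hσ a) y

open Fermat.Agent.S05 in
theorem ffip_good_smul (hσ : IsInertial A σ) {y : LaurentSeries A} (hy : S18Good M A y) :
    S18Good M A (coeffMap (ffipResA hσ) y) := by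
  refine ⟨?_, ?_⟩
  · rw [ffipResA_subtype]
    exact coeffMap_mem_laurentBaseChange σ hy.1
  · rw [ffipResA_res]
    exact hy.2

open Fermat.Agent.S05 in
/-- the Gauss ring is stable under inertia ... -/
theorem ffip_smul_mem_grdO (hσ : IsInertial A σ) {x : modularFunctionFieldBar M}
    (hx : x ∈ grdO M A) : ffipG M σ • x ∈ grdO M A := by
  obtain ⟨a, b, ha, hb, hb0, hxab⟩ := hx
  refine ⟨coeffMap (ffipResA hσ) a, coeffMap (ffipResA hσ) b, ffip_good_smul M hσ ha,
    ffip_good_smul M hσ hb, ?_, ?_⟩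
  · rw [ffipResA_res]; exact hb0
  · rw [ffipG_coe, ffipResA_subtype, ffipResA_subtype, ← map_mul, hxab]

open Fermat.Agent.S05 in
/-- ... and inertia acts trivially on the reductions. -/
theorem ffip_red_smul (hσ : IsInertial A σ) (x : ↥(grdO M A)) :
    grdRed M A ⟨ffipG M σ • (x : modularFunctionFieldBar M), ffip_smul_mem_grdO M hσ x.2⟩ =
      grdRed M A x := by
  obtain ⟨a, b, ha, hb, hb0, hxab⟩ := x.2
  apply Subtype.ext
  rw [grdRed_eq M A x a b hb0 hxab,
    grdRed_eq M A ⟨ffipG M σ • (x : modularFunctionFieldBar M), ffip_smul_mem_grdO M hσ x.2⟩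
      (coeffMap (ffipResA hσ) a) (coeffMap (ffipResA hσ) b) (by rw [ffipResA_res]; exact hb0)
      (by
        show ((ffipG M σ • (x : modularFunctionFieldBar M) : modularFunctionFieldBar M) :
          LaurentSeries (AlgebraicClosure ℚ)) * _ = _
        rw [ffipG_coe, ffipResA_subtype, ffipResA_subtype, ← map_mul, hxab]),
    ffipResA_res, ffipResA_res]

open Fermat.Agent.S05 in
theorem ffip_inertial_inv (hσ : IsInertial A σ) : IsInertial A σ⁻¹ := by
  refine ⟨fun x => ?_, fun x hx => ?_⟩
  · have h := hσ.mem_iff (σ⁻¹ x)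
    rw [show σ (σ⁻¹ x) = x from σ.apply_symm_apply x] at h
    exact h.symm
  · have hx' : σ⁻¹ x ∈ A := by
      have h := hσ.mem_iff (σ⁻¹ x)
      rw [show σ (σ⁻¹ x) = x from σ.apply_symm_apply x] at h
      exact h.1 hx
    have h := hσ.sub_mem (σ⁻¹ x) hx'
    rw [show σ (σ⁻¹ x) = x from σ.apply_symm_apply x] at h
    have h2 : σ⁻¹ x - x = -(x - σ⁻¹ x) := by ring
    rw [h2]
    rw [ValuationSubring.mem_nonunits_iff] at h ⊢
    rwa [Valuation.map_neg]

open Fermat.Agent.S05 in
/-- integrality over `𝔸[u]` is stable under inertia (for a Galois-fixed coordinate `u`). -/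
theorem ffip_isInt_smul (hσ : IsInertial A σ) {u x : modularFunctionFieldBar M}
    (hu : ffipG M σ • u = u) (hx : GrdIsInt M A u x) : GrdIsInt M A u (ffipG M σ • x) := by
  unfold GrdIsInt at hx ⊢
  refine grdst_isIntegralElem_map (Polynomial.eval₂RingHom (grdInclA M A) u)
    (Polynomial.eval₂RingHom (grdInclA M A) u) (Polynomial.mapRingHom (ffipResA hσ))
    ((SemilinearAut.toRingAut (ffipG M σ) : modularFunctionFieldBar M ≃+*
      modularFunctionFieldBar M) : modularFunctionFieldBar M →+* modularFunctionFieldBar M) ?_ hx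
  apply Polynomial.ringHom_ext
  · intro a
    simp only [RingHom.comp_apply, Polynomial.coe_mapRingHom, Polynomial.map_C,
      Polynomial.coe_eval₂RingHom, Polynomial.eval₂_C]
    show grdInclA M A (ffipResA hσ a) = ffipG M σ • grdInclA M A a
    show algebraMap (AlgebraicClosure ℚ) (modularFunctionFieldBar M) (σ (a : AlgebraicClosure ℚ)) =
      ffipG M σ • algebraMap (AlgebraicClosure ℚ) (modularFunctionFieldBar M)
        (a : AlgebraicClosure ℚ)
    rw [ffipG_algebraMap]
  · simp only [RingHom.comp_apply, Polynomial.coe_mapRingHom, Polynomial.map_X,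
      Polynomial.coe_eval₂RingHom, Polynomial.eval₂_X]
    exact hu.symm

theorem ffipG_inv_smul_place (P : Place (AlgebraicClosure ℚ) (modularFunctionFieldBar M)) :
    ffipG M σ⁻¹ • (ffipG M σ • P) = P := by
  rw [ffipG, ffipG, map_inv, inv_smul_smul]

open Fermat.Agent.S05 in
/-- chart membership is stable under inertia -/
theorem ffip_inChart_smul (hσ : IsInertial A σ) {υ : LaurentSeries ℤ} (hυ : GrdSerMem M υ)
    (P : Place (AlgebraicClosure ℚ) (modularFunctionFieldBar M))
    (hP : GrdInChart M A (grdQ M hυ) P) : GrdInChart M A (grdQ M hυ) (ffipG M σ • P) := by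
  obtain ⟨a, ha⟩ := hP
  refine ⟨ffipResA hσ a, ?_⟩
  have h := ffip_val_smul (ffipG M σ) P ha
  rw [ffipG_coord] at h
  exact h

open Fermat.Agent.S05 in
/-- the reduction relation is stable under inertia -/
theorem ffip_rel_smul (hσ : IsInertial A σ) {υ : LaurentSeries ℤ} (hυ : GrdSerMem M υ)
    (P : Place (AlgebraicClosure ℚ) (modularFunctionFieldBar M))
    (Q : Place (ResidueField A) (modularFunctionFieldFullC (ResidueField A) M))
    (h : GrdRel M A (grdQ M hυ) (ffipG M σ • P) Q) : GrdRel M A (grdQ M hυ) P Q := by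
  intro x hx hxint a ha
  have h1 := h (ffipG M σ • x) (ffip_smul_mem_grdO M hσ hx)
    (ffip_isInt_smul M hσ (ffipG_coord M σ hυ) hxint) (ffipResA hσ a)
    (ffip_val_smul (ffipG M σ) P ha)
  rw [ffip_red_smul M hσ ⟨x, hx⟩, ffipResA_residue] at h1
  exact h1

open Fermat.Agent.S05 in
/-- (P3) INERTIA ACTS TRIVIALLY ON THE REDUCTIONS OF PLACES. -/
theorem ffip_inertia (hℓM : ¬ ℓ ∣ M) (hA : A.LiesOverPrime ℓ) (hat : GrdAtlas M A τ τ')
    (r : Place (AlgebraicClosure ℚ) (modularFunctionFieldBar M) →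
      Place (ResidueField A) (modularFunctionFieldFullC (ResidueField A) M))
    (hr : GrdIsRed M A hat.c.mem hat.c'.mem r) (hσ : IsInertial A σ)
    (P : Place (AlgebraicClosure ℚ) (modularFunctionFieldBar M)) :
    r (ffipG M σ • P) = r P := by
  have key : GrdIsRed M A hat.c.mem hat.c'.mem (fun P => r (ffipG M σ • P)) := by
    intro P
    constructor
    · intro hP
      exact ffip_rel_smul M hσ hat.c.mem P _ ((hr _).1 (ffip_inChart_smul M hσ hat.c.mem P hP))
    · intro hP
      have hP' : ¬ GrdInChart M A (grdQ M hat.c.mem) (ffipG M σ • P) := by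
        intro h
        apply hP
        have h2 := ffip_inChart_smul M (ffip_inertial_inv hσ) hat.c.mem _ h
        rwa [ffipG_inv_smul_place] at h2
      exact ffip_rel_smul M hσ hat.c'.mem P _ ((hr _).2 hP')
  exact congrFun (grd_isRed_unique M A hℓM hA hat _ r key hr) P

open Fermat.Agent.S05 in
/-- (P3) for the Prelude's inertia group. -/
theorem ffip_inertia' (hℓM : ¬ ℓ ∣ M) (hA : A.LiesOverPrime ℓ) (hat : GrdAtlas M A τ τ')
    (r : Place (AlgebraicClosure ℚ) (modularFunctionFieldBar M) →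
      Place (ResidueField A) (modularFunctionFieldFullC (ResidueField A) M))
    (hr : GrdIsRed M A hat.c.mem hat.c'.mem r) (hσ : σ ∈ A.inertiaSubgroupIn ℚ)
    (P : Place (AlgebraicClosure ℚ) (modularFunctionFieldBar M)) :
    r (ffipG M σ • P) = r P :=
  ffip_inertia M hℓM hA hat r hr (isInertial_of_mem_inertiaSubgroupIn A σ hσ) P

open Fermat.Agent.S05 in
/-- (P3) I-RATIONAL LIFTS OF POINTS : the unique place `P` over an unramified point `Q` with
`t₀(P) = β` is fixed by every inertial `σ` fixing `t₀` and `β`. -/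
theorem ffip_disc_fixed (hℓM : ¬ ℓ ∣ M) (hA : A.LiesOverPrime ℓ) (hat : GrdAtlas M A τ τ')
    (r : Place (AlgebraicClosure ℚ) (modularFunctionFieldBar M) →
      Place (ResidueField A) (modularFunctionFieldFullC (ResidueField A) M))
    (hr : GrdIsRed M A hat.c.mem hat.c'.mem r) (hσ : IsInertial A σ)
    (Q : Place (ResidueField A) (modularFunctionFieldFullC (ResidueField A) M))
    (hQ : grdK M A hat.c.mem ∈ Q.toValuationSubring)
    (t₀ : ↥(grdO M A)) (ht₀ : GrdIsInt M A (grdQ M hat.c.mem) (t₀ : modularFunctionFieldBar M))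
    (β : A)
    (hord : Q.ord (grdRed M A t₀ - algebraMap (ResidueField A)
      (modularFunctionFieldFullC (ResidueField A) M) (residue A β)) = 1)
    (ht₀σ : ffipG M σ • (t₀ : modularFunctionFieldBar M) = t₀)
    (hβσ : σ (β : AlgebraicClosure ℚ) = β)
    (P : Place (AlgebraicClosure ℚ) (modularFunctionFieldBar M)) (hPQ : r P = Q)
    (hval : GrdVal P (t₀ : modularFunctionFieldBar M) (β : AlgebraicClosure ℚ)) :
    ffipG M σ • P = P := by
  obtain ⟨P₀, -, huniq⟩ := ffip_disc M A hℓM hA hat r hr Q hQ t₀ ht₀ β hord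
  have h1 : ffipG M σ • P = P₀ := by
    apply huniq
    refine ⟨by rw [ffip_inertia M hℓM hA hat r hr hσ, hPQ], ?_⟩
    have h := ffip_val_smul (ffipG M σ) P hval
    rw [ht₀σ] at h
    have e : SemilinearAut.baseAut (ffipG M σ) (β : AlgebraicClosure ℚ) = β := hβσ
    rwa [e] at h
  rw [h1]
  exact (huniq P ⟨hPQ, hval⟩).symm

open Fermat.Agent.S05 in
/-- (P3) the same for the chart coordinate. -/
theorem ffip_disc_coord_fixed (hℓM : ¬ ℓ ∣ M) (hA : A.LiesOverPrime ℓ) (hat : GrdAtlas M A τ τ')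
    (r : Place (AlgebraicClosure ℚ) (modularFunctionFieldBar M) →
      Place (ResidueField A) (modularFunctionFieldFullC (ResidueField A) M))
    (hr : GrdIsRed M A hat.c.mem hat.c'.mem r) (hσ : IsInertial A σ)
    (Q : Place (ResidueField A) (modularFunctionFieldFullC (ResidueField A) M))
    (α : A)
    (hord : Q.ord (grdK M A hat.c.mem - algebraMap (ResidueField A)
      (modularFunctionFieldFullC (ResidueField A) M) (residue A α)) = 1)
    (hασ : σ (α : AlgebraicClosure ℚ) = α)
    (P : Place (AlgebraicClosure ℚ) (modularFunctionFieldBar M)) (hPQ : r P = Q)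
    (hval : GrdVal P (grdQ M hat.c.mem) (α : AlgebraicClosure ℚ)) :
    ffipG M σ • P = P := by
  obtain ⟨P₀, -, huniq⟩ := ffip_disc_coord M A hℓM hA hat r hr Q α hord
  have h1 : ffipG M σ • P = P₀ := by
    apply huniq
    refine ⟨by rw [ffip_inertia M hℓM hA hat r hr hσ, hPQ], ?_⟩
    have h := ffip_val_smul (ffipG M σ) P hval
    rw [ffipG_coord] at h
    have e : SemilinearAut.baseAut (ffipG M σ) (α : AlgebraicClosure ℚ) = α := hασ
    rwa [e] at h
  rw [h1]
  exact (huniq P ⟨hPQ, hval⟩).symm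

end Inertia

/-! ### (P5) norm-one scaling and the divisor formula on the whole Gauss ring -/

section Div

variable (M : ℕ) [NeZero M] {ℓ : ℕ} [Fact ℓ.Prime]
variable (A : ValuationSubring (AlgebraicClosure ℚ))
variable {τ τ' : LaurentSeries ℤ}

/-- (P5) NORM-ONE SCALING : every nonzero `f ∈ F` has a constant multiple in the Gauss ring with
nonzero reduction. -/
theorem ffip_scale (hℓM : ¬ ℓ ∣ M) (hA : A.LiesOverPrime ℓ) (f : modularFunctionFieldBar M)
    (hf : f ≠ 0) :
    ∃ (c : AlgebraicClosure ℚ) (_ : c ≠ 0)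
      (h : algebraMap (AlgebraicClosure ℚ) (modularFunctionFieldBar M) c * f ∈ grdO M A),
      grdRed M A ⟨_, h⟩ ≠ 0 := by
  obtain ⟨c, u₁, u₂, h₁, h₂, hc, hs₁, hs₂, hfu⟩ := ggn_normal M A hℓM hA f hf
  have hb0 : coeffMap (residue A) u₂ ≠ 0 := fun h0 => hs₂ (Subtype.ext h0)
  have ha0 : coeffMap (residue A) u₁ ≠ 0 := fun h0 => hs₁ (Subtype.ext h0)
  have hser : ((algebraMap (AlgebraicClosure ℚ) (modularFunctionFieldBar M) c * f :
      modularFunctionFieldBar M) : LaurentSeries (AlgebraicClosure ℚ)) * coeffMap A.subtype u₂ =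
      coeffMap A.subtype u₁ := congrArg Subtype.val hfu
  have hmem : algebraMap (AlgebraicClosure ℚ) (modularFunctionFieldBar M) c * f ∈ grdO M A :=
    ⟨u₁, u₂, h₁, h₂, hb0, hser⟩
  refine ⟨c, hc, hmem, ?_⟩
  intro h0
  have h1 := grdRed_eq M A ⟨_, hmem⟩ u₁ u₂ hb0 hser
  rw [h0] at h1
  have h2 : coeffMap (residue A) u₁ / coeffMap (residue A) u₂ = 0 := h1.symm
  rcases div_eq_zero_iff.mp h2 with h | h
  · exact ha0 h
  · exact hb0 h

/-- THE DIVISOR FORMULA for an arbitrary element of the Gauss ring with nonzero reduction, given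
that the fibre of `r` over `Q` is the fibre of the chart `υ`. -/
theorem ffip_div_of_fibre (hℓM : ¬ ℓ ∣ M) (hA : A.LiesOverPrime ℓ) {υ : LaurentSeries ℤ}
    (hc : GrdChart M A υ)
    (r : Place (AlgebraicClosure ℚ) (modularFunctionFieldBar M) →
      Place (ResidueField A) (modularFunctionFieldFullC (ResidueField A) M))
    (Q : Place (ResidueField A) (modularFunctionFieldFullC (ResidueField A) M))
    (hQ : grdK M A hc.mem ∈ Q.toValuationSubring)
    (hfib : ∀ P, r P = Q ↔
      GrdInChart M A (grdQ M hc.mem) P ∧ GrdRel M A (grdQ M hc.mem) P Q)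
    (x : ↥(grdO M A)) (hx0 : grdRed M A x ≠ 0) :
    {P : Place (AlgebraicClosure ℚ) (modularFunctionFieldBar M) |
        r P = Q ∧ P.ord (x : modularFunctionFieldBar M) ≠ 0}.Finite ∧
      ∑ᶠ P ∈ {P : Place (AlgebraicClosure ℚ) (modularFunctionFieldBar M) | r P = Q},
        P.ord (x : modularFunctionFieldBar M) = Q.ord (grdRed M A x) := by
  obtain ⟨b₁, b₂, hb₁, hb₂, hb₂0, hmul⟩ := grd_frac M A hℓM hA hc x
  have hred : grdRed M A x * grdRed M A b₂ = grdRed M A b₁ := by
    rw [← map_mul]
    congr 1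
    exact Subtype.ext hmul
  have hb₁0 : grdRed M A b₁ ≠ 0 := by
    rw [← hred]
    exact mul_ne_zero hx0 hb₂0
  obtain ⟨hfin1, hsum1⟩ := grd_div_chart M A hℓM hA hc Q hQ b₁ hb₁ hb₁0
  obtain ⟨hfin2, hsum2⟩ := grd_div_chart M A hℓM hA hc Q hQ b₂ hb₂ hb₂0
  have hb₁F : (b₁ : modularFunctionFieldBar M) ≠ 0 := by
    intro h0
    apply hb₁0
    have : b₁ = 0 := Subtype.ext h0
    rw [this, map_zero]
  have hb₂F : (b₂ : modularFunctionFieldBar M) ≠ 0 := by
    intro h0
    apply hb₂0
    have : b₂ = 0 := Subtype.ext h0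
    rw [this, map_zero]
  have hgenF : (x : modularFunctionFieldBar M) ≠ 0 := by
    intro h0
    apply hb₁F
    rw [← hmul, h0, zero_mul]
  have hord : ∀ P : Place (AlgebraicClosure ℚ) (modularFunctionFieldBar M),
      P.ord (x : modularFunctionFieldBar M) = P.ord (b₁ : modularFunctionFieldBar M) +
        -P.ord (b₂ : modularFunctionFieldBar M) := by
    intro P
    have h1 : P.ord (b₁ : modularFunctionFieldBar M) =
        P.ord (x : modularFunctionFieldBar M) + P.ord (b₂ : modularFunctionFieldBar M) := by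
      rw [← hmul]
      exact P.ord_mul hgenF hb₂F
    rw [h1]
    ring
  have hS : {P : Place (AlgebraicClosure ℚ) (modularFunctionFieldBar M) | r P = Q} =
      {P : Place (AlgebraicClosure ℚ) (modularFunctionFieldBar M) |
        GrdInChart M A (grdQ M hc.mem) P ∧ GrdRel M A (grdQ M hc.mem) P Q} :=
    Set.ext fun P => hfib P
  have hfinG : {P : Place (AlgebraicClosure ℚ) (modularFunctionFieldBar M) |
      r P = Q ∧ P.ord (x : modularFunctionFieldBar M) ≠ 0}.Finite := by
    refine (hfin1.union hfin2).subset ?_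
    rintro P ⟨hP, hne⟩
    have hP' := (hfib P).1 hP
    by_cases h1 : P.ord (b₁ : modularFunctionFieldBar M) = 0
    · right
      refine ⟨hP', fun h2 => hne ?_⟩
      rw [hord P, h1, h2]
      ring
    · left
      exact ⟨hP', h1⟩
  refine ⟨hfinG, ?_⟩
  rw [hS]
  have hfG : ({P : Place (AlgebraicClosure ℚ) (modularFunctionFieldBar M) |
        GrdInChart M A (grdQ M hc.mem) P ∧ GrdRel M A (grdQ M hc.mem) P Q} ∩
      Function.support fun P : Place (AlgebraicClosure ℚ) (modularFunctionFieldBar M) =>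
        P.ord (x : modularFunctionFieldBar M)).Finite := by
    refine hfinG.subset ?_
    rintro P ⟨hP, hne⟩
    exact ⟨(hfib P).2 hP, hne⟩
  have hf2 : ({P : Place (AlgebraicClosure ℚ) (modularFunctionFieldBar M) |
        GrdInChart M A (grdQ M hc.mem) P ∧ GrdRel M A (grdQ M hc.mem) P Q} ∩
      Function.support fun P : Place (AlgebraicClosure ℚ) (modularFunctionFieldBar M) =>
        P.ord (b₂ : modularFunctionFieldBar M)).Finite := by
    refine hfin2.subset ?_
    rintro P ⟨hP, hne⟩
    exact ⟨hP, hne⟩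
  have e1 : ∑ᶠ P ∈ {P : Place (AlgebraicClosure ℚ) (modularFunctionFieldBar M) |
        GrdInChart M A (grdQ M hc.mem) P ∧ GrdRel M A (grdQ M hc.mem) P Q},
        P.ord (b₁ : modularFunctionFieldBar M) =
      ∑ᶠ P ∈ {P : Place (AlgebraicClosure ℚ) (modularFunctionFieldBar M) |
        GrdInChart M A (grdQ M hc.mem) P ∧ GrdRel M A (grdQ M hc.mem) P Q},
        (P.ord (x : modularFunctionFieldBar M) + P.ord (b₂ : modularFunctionFieldBar M)) :=
    finsum_mem_congr rfl fun P _ => by rw [hord P]; ring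
  rw [finsum_mem_add_distrib' hfG hf2, hsum2] at e1
  rw [hsum1, ← hred, Q.ord_mul hx0 hb₂0] at e1
  linarith

/-- (P5) THE DIVISOR FORMULA on the whole Gauss ring : `∑_{r P = Q} ord_P(x) = ord_Q(x̄)` for every
`x ∈ grdO` with `x̄ ≠ 0`. -/
theorem ffip_div (hℓM : ¬ ℓ ∣ M) (hA : A.LiesOverPrime ℓ) (hat : GrdAtlas M A τ τ')
    (r : Place (AlgebraicClosure ℚ) (modularFunctionFieldBar M) →
      Place (ResidueField A) (modularFunctionFieldFullC (ResidueField A) M))
    (hr : GrdIsRed M A hat.c.mem hat.c'.mem r)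
    (x : ↥(grdO M A)) (hx0 : grdRed M A x ≠ 0)
    (Q : Place (ResidueField A) (modularFunctionFieldFullC (ResidueField A) M)) :
    {P : Place (AlgebraicClosure ℚ) (modularFunctionFieldBar M) |
        r P = Q ∧ P.ord (x : modularFunctionFieldBar M) ≠ 0}.Finite ∧
      ∑ᶠ P ∈ {P : Place (AlgebraicClosure ℚ) (modularFunctionFieldBar M) | r P = Q},
        P.ord (x : modularFunctionFieldBar M) = Q.ord (grdRed M A x) := by
  rcases grd_chart_coverK M A hat Q with hQ | hQ
  · exact ffip_div_of_fibre M A hℓM hA hat.c r Q hQ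
      (grdf_fibre M A hℓM hA hat r hr Q hQ) x hx0
  · exact ffip_div_of_fibre M A hℓM hA hat.c' r Q (grdf_mem_of_val_zero Q hQ)
      (grdf_fibre' M A hℓM hA hat r hr Q hQ) x hx0

/-- (P5) the divisor formula in `Finsupp.mapDomain` form. -/
theorem ffip_div_mapDomain (hℓM : ¬ ℓ ∣ M) (hA : A.LiesOverPrime ℓ) (hat : GrdAtlas M A τ τ')
    (r : Place (AlgebraicClosure ℚ) (modularFunctionFieldBar M) →
      Place (ResidueField A) (modularFunctionFieldFullC (ResidueField A) M))
    (hr : GrdIsRed M A hat.c.mem hat.c'.mem r)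
    (x : ↥(grdO M A)) (hx0 : grdRed M A x ≠ 0)
    (D : Divisor (AlgebraicClosure ℚ) (modularFunctionFieldBar M))
    (hD : ∀ P, D P = P.ord (x : modularFunctionFieldBar M))
    (Q : Place (ResidueField A) (modularFunctionFieldFullC (ResidueField A) M)) :
    Finsupp.mapDomain r D Q = Q.ord (grdRed M A x) := by
  rw [grdf_mapDomain_apply, ← (ffip_div M A hℓM hA hat r hr x hx0 Q).2]
  exact finsum_mem_congr rfl fun P _ => hD P

/-- (P5) THE REDUCTION HYPOTHESIS of `ffgl_main` (helper27, `g̃ ≤ g`) : every nonzero `f ∈ F` has a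
"reduction" `f' ∈ F_k`, `f' ≠ 0`, with `r_*(div f) = div f'`. -/
theorem ffip_hred (hℓM : ¬ ℓ ∣ M) (hA : A.LiesOverPrime ℓ) (hat : GrdAtlas M A τ τ')
    (r : Place (AlgebraicClosure ℚ) (modularFunctionFieldBar M) →
      Place (ResidueField A) (modularFunctionFieldFullC (ResidueField A) M))
    (hr : GrdIsRed M A hat.c.mem hat.c'.mem r)
    (f : modularFunctionFieldBar M) (hf : f ≠ 0) :
    ∃ f' : modularFunctionFieldFullC (ResidueField A) M, f' ≠ 0 ∧
      ∀ D : Divisor (AlgebraicClosure ℚ) (modularFunctionFieldBar M), (∀ P, D P = P.ord f) →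
        ∀ Q, Finsupp.mapDomain r D Q = Q.ord f' := by
  obtain ⟨c, hc, hmem, hred⟩ := ffip_scale M A hℓM hA f hf
  refine ⟨grdRed M A ⟨_, hmem⟩, hred, fun D hD Q => ?_⟩
  refine ffip_div_mapDomain M A hℓM hA hat r hr ⟨_, hmem⟩ hred D (fun P => ?_) Q
  rw [hD P]
  have hc' : algebraMap (AlgebraicClosure ℚ) (modularFunctionFieldBar M) c ≠ 0 :=
    (_root_.map_ne_zero _).2 hc
  show P.ord f = P.ord (algebraMap (AlgebraicClosure ℚ) (modularFunctionFieldBar M) c * f)
  rw [P.ord_mul hc' hf, PlaceOrd.ord_algebraMap, zero_add]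

end Div

/-! ### (P4) divisors : push-forward, semicontinuity, lifting along a section -/

section Divisors

variable (M : ℕ) [NeZero M] {ℓ : ℕ} [Fact ℓ.Prime]
variable (A : ValuationSubring (AlgebraicClosure ℚ))
variable {τ τ' : LaurentSeries ℤ}

/-- (P4) SEMICONTINUITY, elementwise : the reduction of an element of `L(D) ∩ grdO` with nonzero
reduction lies in `L̃(r_* D)`. -/
theorem ffip_semicont_mem (hℓM : ¬ ℓ ∣ M) (hA : A.LiesOverPrime ℓ) (hat : GrdAtlas M A τ τ')
    (r : Place (AlgebraicClosure ℚ) (modularFunctionFieldBar M) →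
      Place (ResidueField A) (modularFunctionFieldFullC (ResidueField A) M))
    (hr : GrdIsRed M A hat.c.mem hat.c'.mem r)
    (x : ↥(grdO M A)) (hx0 : grdRed M A x ≠ 0)
    (D : Divisor (AlgebraicClosure ℚ) (modularFunctionFieldBar M))
    (hx : (x : modularFunctionFieldBar M) ∈ riemannRochSpace D) :
    grdRed M A x ∈ riemannRochSpace (Finsupp.mapDomain r D) := by
  rw [mem_riemannRochSpace_iff] at hx ⊢
  intro Q
  right
  have hxF : (x : modularFunctionFieldBar M) ≠ 0 := by
    intro h0
    apply hx0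
    have : x = 0 := Subtype.ext h0
    rw [this, map_zero]
  obtain ⟨hfin, hsum⟩ := ffip_div M A hℓM hA hat r hr x hx0 Q
  rw [grdf_mapDomain_apply, ← hsum]
  have hfx : ({P : Place (AlgebraicClosure ℚ) (modularFunctionFieldBar M) | r P = Q} ∩
      Function.support fun P : Place (AlgebraicClosure ℚ) (modularFunctionFieldBar M) =>
        P.ord (x : modularFunctionFieldBar M)).Finite := by
    refine hfin.subset ?_
    rintro P ⟨hP, hne⟩
    exact ⟨hP, hne⟩
  have hfD : ({P : Place (AlgebraicClosure ℚ) (modularFunctionFieldBar M) | r P = Q} ∩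
      Function.support fun P : Place (AlgebraicClosure ℚ) (modularFunctionFieldBar M) =>
        D P).Finite := by
    refine D.support.finite_toSet.subset ?_
    rintro P ⟨-, hne⟩
    exact Finsupp.mem_support_iff.2 hne
  have h1 := finsum_mem_add_distrib' hfx hfD
  have h2 : 0 ≤ ∑ᶠ P ∈ {P : Place (AlgebraicClosure ℚ) (modularFunctionFieldBar M) | r P = Q},
      (P.ord (x : modularFunctionFieldBar M) + D P) :=
    finsum_nonneg fun P => finsum_nonneg fun _ => by
      have := (hx P).resolve_left hxF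
      linarith
  linarith

end Divisors

section DivisorsGeneric

variable {K F k F' : Type*} [Field K] [Field F] [Algebra K F] [Field k] [Field F'] [Algebra k F']

/-- push-forward of an effective divisor is effective -/
theorem ffip_mapDomain_nonneg (r : Place K F → Place k F') {D : Divisor K F} (hD : 0 ≤ D) :
    0 ≤ Finsupp.mapDomain r D := by
  classical
  intro Q
  rw [Finsupp.mapDomain, Finsupp.sum_apply]
  simp only [Finsupp.coe_zero, Pi.zero_apply]
  refine Finset.sum_nonneg fun P _ => ?_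
  show 0 ≤ (Finsupp.single (r P) (D P)) Q
  rw [Finsupp.single_apply]
  split_ifs
  · exact hD P
  · exact le_refl _

/-- the degree of a push-forward along a degree-preserving map of places -/
theorem ffip_degree_mapDomain (r : Place K F → Place k F') (hdeg : ∀ P, (r P).deg = P.deg)
    (D : Divisor K F) : Divisor.degree (Finsupp.mapDomain r D) = Divisor.degree D := by
  induction D using Finsupp.induction with
  | zero => simp
  | single_add P n D _ _ ih =>
    rw [Finsupp.mapDomain_add, map_add, map_add, ih, Finsupp.mapDomain_single,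
      Divisor.degree_single, Divisor.degree_single, hdeg]

/-- (P4) LIFTING OF DIVISORS along a section `s` of `r` : `r_*(s_* D̃) = D̃`. -/
theorem ffip_lift_divisor (r : Place K F → Place k F') (s : Place k F' → Place K F)
    (D' : Divisor k F') (hs : ∀ Q ∈ D'.support, r (s Q) = Q) :
    Finsupp.mapDomain r (Finsupp.mapDomain s D') = D' := by
  rw [← Finsupp.mapDomain_comp]
  have h := Finsupp.mapDomain_congr (v := D') (f := r ∘ s) (g := id) (fun Q hQ => hs Q hQ)
  rw [h, Finsupp.mapDomain_id]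

/-- (P4) a divisor supported on fixed places is fixed. -/
theorem ffip_smul_mapDomain (g : SemilinearAut K F) (s : Place k F' → Place K F)
    (D' : Divisor k F') (hs : ∀ Q ∈ D'.support, g • s Q = s Q) :
    g • Finsupp.mapDomain s D' = Finsupp.mapDomain s D' := by
  rw [SemilinearAut.divisor_smul_def, ← Finsupp.mapDomain_comp]
  exact Finsupp.mapDomain_congr (fun Q hQ => hs Q hQ)

end DivisorsGeneric

end Fermat.Agent.FF
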