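import Mathlib
import Fermat.Agent.G.Red.Spec
import Fermat.Agent.FF.IntL

/-!
# Program FF, leaf (LR) (prefix `fflr`): the G/Red half of `Λ_m = L(m·D_∞) ∩ grdO`

Owner: helper17.  Setting of G/Red: `𝔸 ⊂ ℚ̄` over `ℓ ∤ M`, `F = F_ℚ̄(M)`, a chart coordinate `υ`
(`GrdChart M 𝔸 υ`), `u = grdQ M hc.mem ∈ F`, `ū = grdK M 𝔸 hc.mem ∈ F_k`.

* `fflr_exists_smul_isIntegralElem` (Mathlib only): integrality over `K[u]`, `K = Frac A₀`, descends
  to `A₀[u]` after scaling by a nonzero constant of `A₀`;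
* `fflr_mem_intRing_of_isInt` : `GrdIsInt M 𝔸 u x → x ∈ intRing ℚ̄ u`;
* `fflr_isInt_of_mem` : `x ∈ grdO ∧ x ∈ intRing ℚ̄ u → GrdIsInt M 𝔸 u x` (`grd_saturated`);
  `fflr_isInt_iff` : `GrdIsInt M 𝔸 u x ↔ x ∈ grdO ∧ x ∈ intRing ℚ̄ u`, i.e. `B_u = C_u ∩ grdO`;
* `fflr_lattice_iff` : for an atlas `(τ, τ')` : `GrdIsInt u x ∧ GrdIsInt u' (x u'^m) ↔
  x ∈ grdO ∧ x ∈ L(m·(u)_∞)`, i.e. `Λ_m = L(m·D_∞) ∩ grdO` (with helper27's `ffil_mem_rr_iff`);
* `fflr_hpole`, `fflr_hzero`, `fflr_mapDomain_polar` : for the place reduction map `r` of the atlas,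
  poles of `u` reduce to poles of `ū`, zeros to zeros, and `r_* (u)_∞ = (ū)_∞`;
  `fflr_degree_polar` : both polar divisors have the same degree.
-/

set_option autoImplicit false
set_option linter.unusedSectionVars false
set_option linter.unusedVariables false
set_option linter.style.haveILetI false
set_option synthInstance.maxHeartbeats 400000

noncomputable section

namespace Fermat.Agent.FF

open ModularCurve AlgebraicCurve IsLocalRing Polynomial Fermat.Agent.S18 Fermat.Agent.S24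
  Fermat.Agent.G

/-! ### a general lemma: clearing denominators by a constant -/

/-- integrality over `K[u]` descends to `A₀[u]` after scaling by a nonzero constant of `A₀`
(`K = Frac A₀`). -/
theorem fflr_exists_smul_isIntegralElem {A₀ K F : Type*} [CommRing A₀] [Field K] [Algebra A₀ K]
    [IsFractionRing A₀ K] [Field F] [Algebra K F] (u x : F)
    (hx : IsIntegral (Algebra.adjoin K {u}) x) :
    ∃ π : A₀, π ≠ 0 ∧
      (Polynomial.eval₂RingHom ((algebraMap K F).comp (algebraMap A₀ K)) u).IsIntegralElem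
        (algebraMap K F (algebraMap A₀ K π) * x) := by
  classical
  have : Nontrivial A₀ := (algebraMap A₀ K).domain_nontrivial
  letI i1 : Algebra A₀[X] K[X] := Polynomial.algebra A₀ K
  have i2 : IsLocalization ((nonZeroDivisors A₀).map (C : A₀ →+* A₀[X])) K[X] :=
    Polynomial.isLocalization (nonZeroDivisors A₀) K
  letI i3 : Algebra K[X] F := (aeval u : K[X] →ₐ[K] F).toRingHom.toAlgebra
  letI i4 : Algebra A₀[X] F :=
    (Polynomial.eval₂RingHom ((algebraMap K F).comp (algebraMap A₀ K)) u).toAlgebra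
  have i5 : IsScalarTower A₀[X] K[X] F := by
    refine IsScalarTower.of_algebraMap_eq fun p => ?_
    change eval₂ ((algebraMap K F).comp (algebraMap A₀ K)) u p =
      aeval u (p.map (algebraMap A₀ K))
    rw [aeval_def, eval₂_map]
  -- integrality over `K[X]`
  have hx' : IsIntegral K[X] x := by
    obtain ⟨P, hP, hPx⟩ := hx
    let ψ : K[X] →+* Algebra.adjoin K {u} :=
      ((aeval u : K[X] →ₐ[K] F).codRestrict (Algebra.adjoin K {u}) (fun p => by
        rw [Algebra.adjoin_singleton_eq_range_aeval]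
        exact ⟨p, rfl⟩)).toRingHom
    have hψ : Function.Surjective ψ := by
      rintro ⟨y, hy⟩
      rw [Algebra.adjoin_singleton_eq_range_aeval] at hy
      obtain ⟨p, rfl⟩ := hy
      exact ⟨p, rfl⟩
    have hlift : P ∈ Polynomial.lifts ψ := by
      rw [Polynomial.lifts_iff_coeff_lifts]
      intro n
      exact hψ _
    obtain ⟨P', hP'map, -, hP'monic⟩ := Polynomial.lifts_and_degree_eq_and_monic hlift hP
    refine ⟨P', hP'monic, ?_⟩
    have hcomp : (algebraMap K[X] F) = (algebraMap (Algebra.adjoin K {u}) F).comp ψ := by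
      ext <;> rfl
    rw [hcomp, ← Polynomial.eval₂_map, hP'map]
    exact hPx
  obtain ⟨⟨m, hm⟩, hint⟩ := IsIntegral.exists_multiple_integral_of_isLocalization
    ((nonZeroDivisors A₀).map (C : A₀ →+* A₀[X])) (Rₘ := K[X]) x hx'
  obtain ⟨π, hπ, rfl⟩ := Submonoid.mem_map.mp hm
  refine ⟨π, nonZeroDivisors.ne_zero hπ, ?_⟩
  have hsmul : ((⟨C π, hm⟩ : (nonZeroDivisors A₀).map (C : A₀ →+* A₀[X])) • x) =
      algebraMap K F (algebraMap A₀ K π) * x := by
    rw [Submonoid.smul_def, Algebra.smul_def]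
    change eval₂ ((algebraMap K F).comp (algebraMap A₀ K)) u (C π) * x = _
    rw [eval₂_C]
    rfl
  rw [hsmul] at hint
  exact hint

/-! ### the chart ring `B_u = C_u ∩ grdO` -/

section Chart

variable (M : ℕ) [NeZero M] {ℓ : ℕ} [Fact ℓ.Prime]
variable (A : ValuationSubring (AlgebraicClosure ℚ))

local notation "Qb" => AlgebraicClosure ℚ

/-- (LR1a) integral over `𝔸[u]` implies integral over `ℚ̄[u]`. -/
theorem fflr_mem_intRing_of_isInt {u x : modularFunctionFieldBar M} (h : GrdIsInt M A u x) :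
    x ∈ intRing Qb u := by
  obtain ⟨p, hp, hpx⟩ := h
  have hrange : ∀ a : (↥A)[X],
      Polynomial.eval₂RingHom (grdInclA M A) u a ∈ Algebra.adjoin Qb {u} := by
    intro a
    rw [Algebra.adjoin_singleton_eq_range_aeval]
    refine ⟨a.map A.subtype, ?_⟩
    change aeval u (a.map A.subtype) = eval₂ (grdInclA M A) u a
    rw [aeval_def, eval₂_map]
    rfl
  let ψ : (↥A)[X] →+* Algebra.adjoin Qb {u} :=
    (Polynomial.eval₂RingHom (grdInclA M A) u).codRestrict (Algebra.adjoin Qb {u}) hrange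
  change IsIntegral (Algebra.adjoin Qb {u}) x
  refine ⟨p.map ψ, hp.map _, ?_⟩
  rw [Polynomial.eval₂_map]
  have : (algebraMap (Algebra.adjoin Qb {u}) (modularFunctionFieldBar M)).comp ψ =
      Polynomial.eval₂RingHom (grdInclA M A) u := by
    ext <;> rfl
  rw [this]
  exact hpx

/-- (LR1b) an element of the Gauss ring which is integral over `ℚ̄[u]` is integral over `𝔸[u]`
(clear denominators by a constant, then `grd_saturated`). -/
theorem fflr_isInt_of_mem (hℓM : ¬ ℓ ∣ M) (hA : A.LiesOverPrime ℓ) {υ : LaurentSeries ℤ}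
    (hc : GrdChart M A υ) {x : modularFunctionFieldBar M} (hxO : x ∈ grdO M A)
    (hx : x ∈ intRing Qb (grdQ M hc.mem)) : GrdIsInt M A (grdQ M hc.mem) x := by
  obtain ⟨π, hπ, hint⟩ := fflr_exists_smul_isIntegralElem (A₀ := ↥A) (K := Qb)
    (grdQ M hc.mem) x hx
  exact grd_saturated M A hℓM hA hc ⟨x, hxO⟩ π hπ hint

/-- (LR1) `B_u = C_u ∩ grdO`. -/
theorem fflr_isInt_iff (hℓM : ¬ ℓ ∣ M) (hA : A.LiesOverPrime ℓ) {υ : LaurentSeries ℤ}
    (hc : GrdChart M A υ) (x : modularFunctionFieldBar M) :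
    GrdIsInt M A (grdQ M hc.mem) x ↔ x ∈ grdO M A ∧ x ∈ intRing Qb (grdQ M hc.mem) :=
  ⟨fun h => ⟨grdB_le_grdO M A hℓM hA (grdQ_mem_grdO M A hc.mem) h,
    fflr_mem_intRing_of_isInt M A h⟩, fun h => fflr_isInt_of_mem M A hℓM hA hc h.1 h.2⟩

end Chart

/-! ### the lattice `Λ_m = L(m·D_∞) ∩ grdO` and the reduction of the polar divisor -/

section Atlas

variable (M : ℕ) [NeZero M] {ℓ : ℕ} [Fact ℓ.Prime]
variable (A : ValuationSubring (AlgebraicClosure ℚ)) {τ τ' : LaurentSeries ℤ}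

local notation "Qb" => AlgebraicClosure ℚ

/-- (LR2) **`Λ_m = L(m·D_∞) ∩ grdO`** : the two-chart lattice of G/Red is the Gauss-integral part
of the Riemann–Roch space of `m·(u)_∞`. -/
theorem fflr_lattice_iff (hℓM : ¬ ℓ ∣ M) (hA : A.LiesOverPrime ℓ) (hat : GrdAtlas M A τ τ')
    (m : ℕ) (x : modularFunctionFieldBar M) :
    (GrdIsInt M A (grdQ M hat.c.mem) x ∧
        GrdIsInt M A (grdQ M hat.c'.mem) (x * grdQ M hat.c'.mem ^ m)) ↔
      (x ∈ grdO M A ∧ x ∈ riemannRochSpace ((m : ℤ) • ffilPolar hat.c.sepQ)) := by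
  have huu' : grdQ M hat.c.mem * grdQ M hat.c'.mem = 1 := grda_grdQ_mul M A hat
  rw [ffil_mem_rr_iff hat.c.sepQ huu' m x]
  constructor
  · rintro ⟨h1, h2⟩
    exact ⟨grdB_le_grdO M A hℓM hA (grdQ_mem_grdO M A hat.c.mem) h1,
      fflr_mem_intRing_of_isInt M A h1, fflr_mem_intRing_of_isInt M A h2⟩
  · rintro ⟨hO, h1, h2⟩
    refine ⟨fflr_isInt_of_mem M A hℓM hA hat.c hO h1, fflr_isInt_of_mem M A hℓM hA hat.c' ?_ h2⟩
    exact Subring.mul_mem _ hO (Subring.pow_mem _ (grdQ_mem_grdO M A hat.c'.mem) m)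

variable (r : Place Qb (modularFunctionFieldBar M) →
  Place (ResidueField A) (modularFunctionFieldFullC (ResidueField A) M))

/-- (LR3) zeros of `u` reduce to zeros of `ū`. -/
theorem fflr_hzero (hat : GrdAtlas M A τ τ') (hr : GrdIsRed M A hat.c.mem hat.c'.mem r)
    (P : Place Qb (modularFunctionFieldBar M)) (hP : 0 < P.ord (grdQ M hat.c.mem)) :
    0 < (r P).ord (grdK M A hat.c.mem) := by
  have hu0 : grdQ M hat.c.mem ≠ 0 := left_ne_zero_of_mul_eq_one (grda_grdQ_mul M A hat)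
  have huk0 : grdK M A hat.c.mem ≠ 0 := left_ne_zero_of_mul_eq_one (grda_grdK_mul M A hat)
  have hval : GrdVal P (grdQ M hat.c.mem) (((0 : A) : A) : Qb) := by
    unfold GrdVal
    rw [ZeroMemClass.coe_zero, map_zero, sub_zero]
    have hmem : grdQ M hat.c.mem ∈ P.toValuationSubring := PlaceOrd.mem_of_ord_nonneg P hP.le
    rw [ValuationSubring.mem_nonunits_iff_exists_mem_maximalIdeal]
    refine ⟨hmem, ?_⟩
    rw [← PlaceOrd.ord_pos_iff_mem_maximalIdeal P (a := ⟨_, hmem⟩)
      (by intro h; exact hu0 (congrArg Subtype.val h))]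
    exact hP
  have hin : GrdInChart M A (grdQ M hat.c.mem) P := ⟨0, hval⟩
  have hrel := (hr P).1 hin
  have h0 := grdf_rel_coord_zero M A hat.c.mem P (r P) hrel 0 (Ideal.zero_mem _) hval
  -- `ū(r P) = 0`
  unfold GrdVal at h0
  rw [map_zero, sub_zero, ValuationSubring.mem_nonunits_iff_exists_mem_maximalIdeal] at h0
  obtain ⟨hmem, hmax⟩ := h0
  rwa [← PlaceOrd.ord_pos_iff_mem_maximalIdeal (r P) (a := ⟨_, hmem⟩)
    (by intro h; exact huk0 (congrArg Subtype.val h))] at hmax

/-- (LR3) poles of `u` reduce to poles of `ū`. -/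
theorem fflr_hpole (hat : GrdAtlas M A τ τ') (hr : GrdIsRed M A hat.c.mem hat.c'.mem r)
    (P : Place Qb (modularFunctionFieldBar M)) (hP : P.ord (grdQ M hat.c.mem) < 0) :
    (r P).ord (grdK M A hat.c.mem) < 0 := by
  have huu' : grdQ M hat.c.mem * grdQ M hat.c'.mem = 1 := grda_grdQ_mul M A hat
  have hkk' : grdK M A hat.c.mem * grdK M A hat.c'.mem = 1 := grda_grdK_mul M A hat
  have hu0 : grdQ M hat.c.mem ≠ 0 := left_ne_zero_of_mul_eq_one huu'
  have hu'0 : grdQ M hat.c'.mem ≠ 0 := right_ne_zero_of_mul_eq_one huu'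
  have huk0 : grdK M A hat.c.mem ≠ 0 := left_ne_zero_of_mul_eq_one hkk'
  have huk'0 : grdK M A hat.c'.mem ≠ 0 := right_ne_zero_of_mul_eq_one hkk'
  have hu' : grdQ M hat.c'.mem = (grdQ M hat.c.mem)⁻¹ := eq_inv_of_mul_eq_one_right huu'
  have hk' : grdK M A hat.c'.mem = (grdK M A hat.c.mem)⁻¹ := eq_inv_of_mul_eq_one_right hkk'
  have hP' : 0 < P.ord (grdQ M hat.c'.mem) := by rw [hu', P.ord_inv]; omega
  -- `u` is not regular at `P`, so `P` is not in the chart `u`
  have hnot : ¬ GrdInChart M A (grdQ M hat.c.mem) P := by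
    rintro ⟨a, ha⟩
    unfold GrdVal at ha
    have h1 : grdQ M hat.c.mem - algebraMap Qb (modularFunctionFieldBar M) (a : Qb) ∈
        P.toValuationSubring := (ValuationSubring.mem_nonunits_iff_exists_mem_maximalIdeal.mp ha).1
    have h2 : grdQ M hat.c.mem ∈ P.toValuationSubring := by
      have := P.toValuationSubring.add_mem _ _ h1 (P.algebraMap_mem' (a : Qb))
      simpa using this
    have := PlaceOrd.ord_nonneg_of_mem P h2
    omega
  have hrel := (hr P).2 hnot
  have hval : GrdVal P (grdQ M hat.c'.mem) (((0 : A) : A) : Qb) := by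
    unfold GrdVal
    rw [ZeroMemClass.coe_zero, map_zero, sub_zero]
    have hmem : grdQ M hat.c'.mem ∈ P.toValuationSubring := PlaceOrd.mem_of_ord_nonneg P hP'.le
    rw [ValuationSubring.mem_nonunits_iff_exists_mem_maximalIdeal]
    refine ⟨hmem, ?_⟩
    rw [← PlaceOrd.ord_pos_iff_mem_maximalIdeal P (a := ⟨_, hmem⟩)
      (by intro h; exact hu'0 (congrArg Subtype.val h))]
    exact hP'
  have h0 := grdf_rel_coord_zero M A hat.c'.mem P (r P) hrel 0 (Ideal.zero_mem _) hval
  unfold GrdVal at h0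
  rw [map_zero, sub_zero, ValuationSubring.mem_nonunits_iff_exists_mem_maximalIdeal] at h0
  obtain ⟨hmem, hmax⟩ := h0
  rw [← PlaceOrd.ord_pos_iff_mem_maximalIdeal (r P) (a := ⟨_, hmem⟩)
    (by intro h; exact huk'0 (congrArg Subtype.val h))] at hmax
  change 0 < (r P).ord (grdK M A hat.c'.mem) at hmax
  rw [hk', (r P).ord_inv] at hmax
  omega

/-- (LR3) **`r_* (u)_∞ = (ū)_∞`** for the place reduction map of the atlas. -/
theorem fflr_mapDomain_polar (hℓM : ¬ ℓ ∣ M) (hA : A.LiesOverPrime ℓ) (hat : GrdAtlas M A τ τ')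
    (hr : GrdIsRed M A hat.c.mem hat.c'.mem r) :
    Finsupp.mapDomain r (ffilPolar hat.c.sepQ) = ffilPolar hat.c.sepK := by
  have hu0 : grdQ M hat.c.mem ≠ 0 := left_ne_zero_of_mul_eq_one (grda_grdQ_mul M A hat)
  have huk0 : grdK M A hat.c.mem ≠ 0 := left_ne_zero_of_mul_eq_one (grda_grdK_mul M A hat)
  have hpd : HasPrincipalDivisors Qb (modularFunctionFieldBar M) := hat.c.sepQ.hasPrincipalDivisors
  obtain ⟨Du, hDu, -⟩ := hpd.exists_divisor (grdQ M hat.c.mem) hu0
  refine ffil_mapDomain_polar hat.c.sepQ hat.c.sepK r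
    (fun P hP => fflr_hpole M A r hat hr P hP)
    (fun P hP => (fflr_hzero M A r hat hr P hP).le) Du hDu ?_
  intro Q
  have hred := grd_isPlaceReductionAlong M A hℓM hA hat r hr
  have hgood := grdga_good_ser M A hat.c.mem
  have hne : coeffMap (residue A) (grdSer τ A) ≠ 0 := by
    intro h
    apply huk0
    rw [← grdga_spec_ser M A hat.c.mem]
    exact Subtype.ext h
  have h1 := hred.2 (grdSer τ A) hgood.1 hgood.2 hne Du (fun P => by
    rw [hDu P, ← grdga_gen_ser M A hat.c.mem]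
    rfl) Q
  rw [h1, ← grdga_spec_ser M A hat.c.mem]
  rfl

/-- the polar divisors of `u` and `ū` have the same degree `d = [F : ℚ̄(u)] = [F_k : k(ū)]`. -/
theorem fflr_degree_polar (hℓM : ¬ ℓ ∣ M) (hA : A.LiesOverPrime ℓ) (hat : GrdAtlas M A τ τ')
    (hr : GrdIsRed M A hat.c.mem hat.c'.mem r) :
    Divisor.degree (ffilPolar hat.c.sepK) = Divisor.degree (ffilPolar hat.c.sepQ) := by
  classical
  have hred := grd_isPlaceReductionAlong M A hℓM hA hat r hr
  rw [← fflr_mapDomain_polar M A r hℓM hA hat hr]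
  -- `r` preserves degrees of places
  have key : ∀ D : Divisor Qb (modularFunctionFieldBar M),
      Divisor.degree (Finsupp.mapDomain r D) = Divisor.degree D := by
    intro D
    induction D using Finsupp.induction_linear with
    | zero => simp
    | add f g hf hg => rw [Finsupp.mapDomain_add, map_add, map_add, hf, hg]
    | single P n => rw [Finsupp.mapDomain_single, Divisor.degree_single, Divisor.degree_single,
        hred.1 P]
  exact key _

/-- `[F : ℚ̄(u)] = [F_k : k(ū)]` : the chart coordinate has the same degree on both fibres. -/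
theorem fflr_finrank_eq (hℓM : ¬ ℓ ∣ M) (hA : A.LiesOverPrime ℓ) (hat : GrdAtlas M A τ τ')
    (hr : GrdIsRed M A hat.c.mem hat.c'.mem r) :
    Module.finrank (IntermediateField.adjoin (ResidueField A) {grdK M A hat.c.mem})
        (modularFunctionFieldFullC (ResidueField A) M) =
      Module.finrank (IntermediateField.adjoin Qb {grdQ M hat.c.mem})
        (modularFunctionFieldBar M) := by
  have h := fflr_degree_polar M A r hℓM hA hat hr
  rw [ffil_degree_polar hat.c.sepK, ffil_degree_polar hat.c.sepQ] at h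
  exact_mod_cast h

end Atlas

end Fermat.Agent.FF
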