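import Mathlib
import Fermat.Agent.S18
import Fermat.Agent.S27
import Fermat.Agent.V.A.Main
import Fermat.Agent.V.Div.Modular
import Fermat.Agent.V.RR.Closed
import Fermat.Agent.G.Red.Gauss
import Fermat.Agent.S18.A.Lift
import Fermat.Agent.S18.A.Const
import Fermat.Agent.S18.V.DegreeDown
import Fermat.Agent.S24.KaehlerRank
import Fermat.Agent.S24.PlacesCenter

/-!
# Program FF (S19 / S32), leaf (GENUS-LE) : `g ≤ g̃` by counting torsion (prefix `ffg_`)

Owner: helper8.

`𝔸 ⊂ ℚ̄` a valuation subring over `ℓ ∤ N`, `k = 𝔸/𝔪` (an algebraic closure of `𝔽_ℓ`),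
`F = F_ℚ̄(N) = modularFunctionFieldBar N`, `F̃ = F_k(N) = modularFunctionFieldFullC k N`.

* `ffg_isAlgebraic_residue` : `k` is algebraic over `𝔽_ℓ`;
* `ffg_hasPrincipalDivisors_modL` : `HasPrincipalDivisors k F̃` FROM THE REDUCTION DATA (every
  `φ ∈ F̃` is a quotient of reductions of good integral series, `div φ = r_*(div a - div b)`);
* `ffg_isCurveOver_modL`, `ffg_essFiniteType_modL` : `F̃ / k` is a Prelude curve;
* `ffg_reduction_injective` : `reductionModL` is injective on `J₀(N)[p]`, `p ≠ ℓ` (= `S18.result`);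
* **`ffg_genus_le`** : `genusFF ℚ̄ F ≤ genusFF k F̃` : the injection `J₀(N)[p] ↪ Pic⁰(F̃)[p]`
  compares `p ^ (2 g)` (`S27.result`, characteristic `0`) with `p ^ (2 g̃)` (`v27A_main`,
  characteristic `ℓ`).
-/

set_option autoImplicit false
set_option linter.unusedSectionVars false
set_option linter.unusedVariables false
set_option linter.style.haveILetI false
set_option synthInstance.maxHeartbeats 400000

noncomputable section

namespace Fermat.Agent.FF

open ModularCurve AlgebraicCurve IsLocalRing Polynomial Fermat.Agent.S18 Fermat.Agent.S24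
  Fermat.Agent.G

/-! ### the residue field -/

section Residue

variable {ℓ : ℕ} [Fact ℓ.Prime]
variable (A : ValuationSubring (AlgebraicClosure ℚ))

/-- the residue field of a valuation ring of `ℚ̄` of residue characteristic `ℓ` is algebraic over
`𝔽_ℓ`. -/
theorem ffg_isAlgebraic_residue [CharP (ResidueField A) ℓ] :
    letI : Algebra (ZMod ℓ) (ResidueField A) := ZMod.algebra _ ℓ
    Algebra.IsAlgebraic (ZMod ℓ) (ResidueField A) := by
  letI : Algebra (ZMod ℓ) (ResidueField A) := ZMod.algebra _ ℓ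
  haveI : Algebra.IsAlgebraic ℚ (AlgebraicClosure ℚ) := AlgebraicClosure.isAlgebraic ℚ
  refine ⟨fun c => ?_⟩
  obtain ⟨a, rfl⟩ := residue_surjective c
  have halg : IsAlgebraic ℤ (a : AlgebraicClosure ℚ) :=
    (IsFractionRing.isAlgebraic_iff ℤ ℚ (AlgebraicClosure ℚ)).mpr
      (Algebra.IsAlgebraic.isAlgebraic (a : AlgebraicClosure ℚ))
  obtain ⟨P, hP0, hP⟩ := halg
  have hc0 : P.content ≠ 0 := by rwa [Ne, Polynomial.content_eq_zero_iff]
  have hprim : P.primPart.IsPrimitive := P.isPrimitive_primPart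
  have hPP : aeval (a : AlgebraicClosure ℚ) P.primPart = 0 := by
    have h1 : aeval (a : AlgebraicClosure ℚ) P =
        aeval (a : AlgebraicClosure ℚ) (C P.content * P.primPart) := by
      rw [← P.eq_C_content_mul_primPart]
    rw [hP, map_mul, aeval_C] at h1
    have h2 : algebraMap ℤ (AlgebraicClosure ℚ) P.content ≠ 0 := by
      rw [Ne, map_eq_zero_iff _ (algebraMap ℤ (AlgebraicClosure ℚ)).injective_int]
      exact hc0
    exact (mul_eq_zero.mp h1.symm).resolve_left h2
  refine ⟨P.primPart.map (Int.castRingHom (ZMod ℓ)), ?_, ?_⟩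
  · intro h0
    have hdvd : C (ℓ : ℤ) ∣ P.primPart := by
      rw [Polynomial.C_dvd_iff_dvd_coeff]
      intro i
      have h1 : (P.primPart.map (Int.castRingHom (ZMod ℓ))).coeff i = 0 := by rw [h0, coeff_zero]
      rw [coeff_map] at h1
      exact (ZMod.intCast_zmod_eq_zero_iff_dvd _ _).mp h1
    have hu := hprim (ℓ : ℤ) hdvd
    have hℓ : (ℓ : ℤ).natAbs = 1 := Int.isUnit_iff_natAbs_eq.mp hu
    have h2 : 2 ≤ ℓ := (Fact.out : ℓ.Prime).two_le
    simp only [Int.natAbs_natCast] at hℓ
    omega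
  · rw [aeval_def, eval₂_map]
    have e1 : (algebraMap (ZMod ℓ) (ResidueField A)).comp (Int.castRingHom (ZMod ℓ)) =
        (residue A).comp (Int.castRingHom A) := RingHom.ext_int _ _
    rw [e1, ← hom_eval₂]
    have e2 : eval₂ (Int.castRingHom A) a P.primPart = 0 := by
      apply Subtype.val_injective
      have := hom_eval₂ P.primPart (Int.castRingHom A) A.subtype a
      rw [ValuationSubring.subtype_apply] at this
      rw [this]
      have e3 : A.subtype.comp (Int.castRingHom A) = algebraMap ℤ (AlgebraicClosure ℚ) :=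
        RingHom.ext_int _ _
      rw [e3]
      exact hPP
    rw [e2, map_zero]

end Residue

/-! ### `F̃ / k` is a Prelude curve -/

section Curve

variable (N : ℕ) [NeZero N] {ℓ : ℕ} [Fact ℓ.Prime]
variable (A : ValuationSubring (AlgebraicClosure ℚ))

/-- `HasPrincipalDivisors k F̃` from the reduction data : `div φ = r_*(div a - div b)`. -/
theorem ffg_hasPrincipalDivisors_modL
    [HasPrincipalDivisors (AlgebraicClosure ℚ) (modularFunctionFieldBar N)]
    (h : ReductionInputsModL A N) :
    HasPrincipalDivisors (ResidueField A) (modularFunctionFieldFullC (ResidueField A) N) := by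
  obtain ⟨r, hr, -⟩ := h
  refine ⟨fun φ hφ => ?_⟩
  obtain ⟨y₁, y₂, h₁, h₂, h2ne, h12⟩ := s18a_lift N A φ
  have h1ne : h₁.spec ≠ 0 := by rw [h12]; exact mul_ne_zero hφ h2ne
  have hg1 : h₁.gen ≠ 0 := S18Good.gen_ne_zero h₁ h1ne
  have hg2 : h₂.gen ≠ 0 := S18Good.gen_ne_zero h₂ h2ne
  obtain ⟨D₁, hD₁, hdeg₁⟩ :=
    HasPrincipalDivisors.exists_divisor (K := AlgebraicClosure ℚ) h₁.gen hg1
  obtain ⟨D₂, hD₂, hdeg₂⟩ :=
    HasPrincipalDivisors.exists_divisor (K := AlgebraicClosure ℚ) h₂.gen hg2
  refine ⟨Finsupp.mapDomain r D₁ - Finsupp.mapDomain r D₂, fun Q => ?_, ?_⟩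
  · have e1 := hr.2 y₁ h₁.1 h₁.2 (fun h0 => h1ne (Subtype.ext h0)) D₁ hD₁ Q
    have e2 := hr.2 y₂ h₂.1 h₂.2 (fun h0 => h2ne (Subtype.ext h0)) D₂ hD₂ Q
    rw [Finsupp.sub_apply, e1, e2]
    have e3 : Q.ord h₁.spec = Q.ord φ + Q.ord h₂.spec := by
      rw [h12, Q.ord_mul hφ h2ne]
    show Q.ord h₁.spec - Q.ord h₂.spec = Q.ord φ
    rw [e3]
    ring
  · rw [map_sub, degree_mapDomain_of_deg_eq hr.1, degree_mapDomain_of_deg_eq hr.1, hdeg₁, hdeg₂,
      sub_zero]

/-- `F̃ / k` is a Prelude curve. -/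
theorem ffg_isCurveOver_modL (hℓN : ¬ ℓ ∣ N) (hA : A.LiesOverPrime ℓ)
    [HasPrincipalDivisors (AlgebraicClosure ℚ) (modularFunctionFieldBar N)]
    (h : ReductionInputsModL A N) :
    IsCurveOver (ResidueField A) (modularFunctionFieldFullC (ResidueField A) N) := by
  haveI : CharP (ResidueField A) ℓ := s18ac_charP A hA
  have ht := s18v_isSepGen_res (ℓ := ℓ) (ResidueField A) N hℓN
  exact
    { toHasPrincipalDivisors := ffg_hasPrincipalDivisors_modL N A h
      finiteResidue := ht.finite_residueField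
      kaehler_free_rank_one := by
        haveI := ht.finite
        haveI := ht.separable
        exact ⟨Module.Free.of_divisionRing _ _, kaehlerRank_finrank_eq_one ht.transcendental⟩ }

theorem ffg_essFiniteType_modL (hℓN : ¬ ℓ ∣ N) (hA : A.LiesOverPrime ℓ) :
    Algebra.EssFiniteType (ResidueField A) (modularFunctionFieldFullC (ResidueField A) N) := by
  haveI : CharP (ResidueField A) ℓ := s18ac_charP A hA
  have ht := s18v_isSepGen_res (ℓ := ℓ) (ResidueField A) N hℓN
  haveI := ht.finite
  exact kaehlerRank_essFiniteType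
    (⟨jqModC (ResidueField A), jqModC_mem_full (ResidueField A) N⟩ :
      modularFunctionFieldFullC (ResidueField A) N)

end Curve

/-! ### the count -/

section Count

variable (N : ℕ) [NeZero N] {ℓ : ℕ} [Fact ℓ.Prime]
variable (A : ValuationSubring (AlgebraicClosure ℚ))

/-- `S18.result` : the reduction is injective on the `m`-torsion, `ℓ ∤ m`. -/
theorem ffg_reduction_injective (hℓN : ¬ ℓ ∣ N) (hA : A.LiesOverPrime ℓ)
    (h : ReductionInputsModL A N) (m : ℕ) (hm : ¬ ℓ ∣ m) (x y : JZero N)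
    (hx : m • x = 0) (hy : m • y = 0)
    (hxy : reductionModL A N x = reductionModL A N y) : x = y := by
  have h0 : x - y = 0 :=
    Fermat.Agent.S18.result N hℓN A hA h m hm (x - y) (by rw [nsmul_sub, hx, hy, sub_zero])
      (by rw [map_sub, hxy, sub_self])
  exact sub_eq_zero.mp h0

/-- **`g ≤ g̃`** : the genus of `X₀(N)` over `ℚ̄` is at most the genus of `X₀(N)` over
`𝔽̄_ℓ`, `ℓ ∤ N`. -/
theorem ffg_genus_le (hℓN : ¬ ℓ ∣ N) (hA : A.LiesOverPrime ℓ)
    [IsCurveOver (AlgebraicClosure ℚ) (modularFunctionFieldBar N)]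
    [Algebra.EssFiniteType (AlgebraicClosure ℚ) (modularFunctionFieldBar N)]
    (h : ReductionInputsModL A N) :
    genusFF (AlgebraicClosure ℚ) (modularFunctionFieldBar N) ≤
      genusFF (ResidueField A) (modularFunctionFieldFullC (ResidueField A) N) := by
  classical
  -- a prime `p ≠ ℓ`
  obtain ⟨p, hp, hpℓ⟩ : ∃ p : ℕ, p.Prime ∧ p ≠ ℓ := by
    by_cases h2 : ℓ = 2
    · exact ⟨3, Nat.prime_three, by omega⟩
    · exact ⟨2, Nat.prime_two, fun h' => h2 h'.symm⟩
  haveI : Fact p.Prime := ⟨hp⟩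
  have hℓp : ¬ ℓ ∣ p := fun hd =>
    hpℓ ((Nat.prime_dvd_prime_iff_eq (Fact.out : ℓ.Prime) hp).mp hd).symm
  -- the instances on `k`
  haveI : CharP (ResidueField A) ℓ := s18ac_charP A hA
  haveI : IsAlgClosed (ResidueField A) := grd_isAlgClosed_residue A
  letI : Algebra (ZMod ℓ) (ResidueField A) := ZMod.algebra _ ℓ
  haveI : Algebra.IsAlgebraic (ZMod ℓ) (ResidueField A) := ffg_isAlgebraic_residue A
  haveI : IsCurveOver (ResidueField A) (modularFunctionFieldFullC (ResidueField A) N) :=
    ffg_isCurveOver_modL N A hℓN hA h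
  haveI : Algebra.EssFiniteType (ResidueField A)
      (modularFunctionFieldFullC (ResidueField A) N) := ffg_essFiniteType_modL N A hℓN hA
  -- the two counts
  have hc0 : Nat.card (Pic0.torsion (AlgebraicClosure ℚ) (modularFunctionFieldBar N) (p ^ 1)) =
      p ^ (2 * genusFF (AlgebraicClosure ℚ) (modularFunctionFieldBar N) * 1) :=
    Fermat.Agent.S27.result (AlgebraicClosure ℚ) (modularFunctionFieldBar N) p 1
  have hcℓ : Nat.card (Pic0.torsion (ResidueField A)
      (modularFunctionFieldFullC (ResidueField A) N) (p ^ 1)) =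
      p ^ (2 * genusFF (ResidueField A) (modularFunctionFieldFullC (ResidueField A) N) * 1) :=
    Fermat.Agent.V.v27A_main ℓ p hpℓ 1
  -- the injection
  have hfin : Finite (Pic0.torsion (ResidueField A)
      (modularFunctionFieldFullC (ResidueField A) N) (p ^ 1)) := by
    apply Nat.finite_of_card_ne_zero
    rw [hcℓ]
    exact pow_ne_zero _ hp.ne_zero
  let f : Pic0.torsion (AlgebraicClosure ℚ) (modularFunctionFieldBar N) (p ^ 1) →
      Pic0.torsion (ResidueField A) (modularFunctionFieldFullC (ResidueField A) N) (p ^ 1) :=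
    fun x => ⟨reductionModL A N (x : JZero N), by
      have hx := x.2
      rw [Pic0.mem_torsion] at hx ⊢
      rw [← map_zsmul, hx, map_zero]⟩
  have hf : Function.Injective f := by
    intro x y hxy
    have h1 : reductionModL A N (x : JZero N) = reductionModL A N (y : JZero N) :=
      congrArg Subtype.val hxy
    have hx := x.2
    have hy := y.2
    rw [Pic0.mem_torsion] at hx hy
    apply Subtype.ext
    refine ffg_reduction_injective N A hℓN hA h (p ^ 1) ?_ _ _ ?_ ?_ h1
    · rw [pow_one]; exact hℓp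
    · rw [← natCast_zsmul]; exact hx
    · rw [← natCast_zsmul]; exact hy
  have hle := Nat.card_le_card_of_injective f hf
  rw [hc0, hcℓ] at hle
  have := (Nat.pow_le_pow_iff_right hp.one_lt).mp hle
  omega

/-- `ffg_genus_le` with the instances of `F_ℚ̄(N)` supplied by main's `V/Div/Modular.lean`. -/
theorem ffg_genus_le' (hℓN : ¬ ℓ ∣ N) (hA : A.LiesOverPrime ℓ) (h : ReductionInputsModL A N) :
    genusFF (AlgebraicClosure ℚ) (modularFunctionFieldBar N) ≤
      genusFF (ResidueField A) (modularFunctionFieldFullC (ResidueField A) N) := by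
  haveI := Fermat.Agent.V.v27dv_isCurveOver_modular N
  haveI := Fermat.Agent.V.v27dv_essFiniteType_modular N
  exact ffg_genus_le N A hℓN hA h

/-- `F̃ / k` is a Prelude curve (instances of `F_ℚ̄(N)` supplied by main). -/
theorem ffg_isCurveOver_modL' (hℓN : ¬ ℓ ∣ N) (hA : A.LiesOverPrime ℓ)
    (h : ReductionInputsModL A N) :
    IsCurveOver (ResidueField A) (modularFunctionFieldFullC (ResidueField A) N) := by
  haveI := Fermat.Agent.V.v27dv_isCurveOver_modular N
  exact ffg_isCurveOver_modL N A hℓN hA h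

/-- **Riemann–Roch on the special fibre** : the package `V27RR k F̃ g̃`. -/
theorem ffg_rr_modL (hℓN : ¬ ℓ ∣ N) (hA : A.LiesOverPrime ℓ) (h : ReductionInputsModL A N) :
    Fermat.Agent.V.RR.V27RR (ResidueField A) (modularFunctionFieldFullC (ResidueField A) N)
      (genusFF (ResidueField A) (modularFunctionFieldFullC (ResidueField A) N)) := by
  haveI : IsAlgClosed (ResidueField A) := grd_isAlgClosed_residue A
  haveI := ffg_isCurveOver_modL' N A hℓN hA h
  haveI := ffg_essFiniteType_modL N A hℓN hA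
  exact Fermat.Agent.V.RR.v27x_rr

/-- Riemann–Roch on the generic fibre : the package `V27RR ℚ̄ F g`. -/
theorem ffg_rr_bar :
    Fermat.Agent.V.RR.V27RR (AlgebraicClosure ℚ) (modularFunctionFieldBar N)
      (genusFF (AlgebraicClosure ℚ) (modularFunctionFieldBar N)) := by
  haveI := Fermat.Agent.V.v27dv_isCurveOver_modular N
  haveI := Fermat.Agent.V.v27dv_essFiniteType_modular N
  exact Fermat.Agent.V.RR.v27x_rr

end Count

end Fermat.Agent.FF
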