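import Mathlib
import Fermat.Agent.FF.Genus
import Fermat.Agent.G.GN
import Fermat.Agent.S24.PlacesPrincipal
import Fermat.Agent.S24.PlaceOrd
import Fermat.Agent.S18.RH.SmallAlg
import Fermat.Agent.V.RR.Pack

/-!
# Program FF (S19 / S32), leaf (GENUS-EQ) : `g̃ ≤ g`, hence `g̃ = g` (prefix `ffg_`)

Owner: helper8.

Abstract part (`R : V27RR K F g`, `K` infinite) :
* `ffg_exists_zero` : a function with a pole has a zero;
* `ffg_exists_place_not_mem` : there is a place outside any finite set;
* `ffg_exists_divisor_no_section` : a divisor `E` of degree `g - 1` with `L(E) = 0`.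

Modular part (`h : ReductionInputsModL A N`, `r` the place reduction) :
* `ffg_mapDomain_quot` : the divisor formula `r_*(div f) = div(ā/b̄)` for `f = c · a/b`;
* `ffg_red_section` : a nonzero `f ∈ L(D)` yields a nonzero `φ ∈ L(r_* D)` (Gauss normalisation
  `ggn_normal'` + the divisor formula);
* `ffg_r_surjective` : `r` is onto;  `ffg_exists_lift_divisor` : every divisor of `F̃` is `r_*`;
* **`ffg_genus_ge`** : `genusFF k F̃ ≤ genusFF ℚ̄ F`;  **`ffg_genus_eq`** : equality.
-/

set_option autoImplicit false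
set_option linter.unusedSectionVars false
set_option linter.unusedVariables false
set_option linter.style.haveILetI false
set_option synthInstance.maxHeartbeats 400000

noncomputable section

namespace Fermat.Agent.FF

open ModularCurve AlgebraicCurve IsLocalRing Fermat.Agent.S18 Fermat.Agent.S24
  Fermat.Agent.G Fermat.Agent.V.RR Fermat.Agent.V.Dual Module

/-! ### abstract lemmas on a Riemann–Roch package -/

section Abstract

theorem ffg_mapDomain_nonneg {α β : Type*} (r : α → β) (E : α →₀ ℤ) (hE : 0 ≤ E) :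
    0 ≤ Finsupp.mapDomain r E := by
  classical
  intro Q
  rw [Finsupp.mapDomain, Finsupp.sum_apply]
  refine Finset.sum_nonneg fun a _ => ?_
  show (0 : ℤ) ≤ (Finsupp.single (r a) (E a)) Q
  rw [Finsupp.single_apply]
  split_ifs
  · exact hE a
  · exact le_refl _

variable {K F : Type*} [Field K] [Field F] [Algebra K F] {g : ℕ}

/-- a function with a pole has a zero. -/
theorem ffg_exists_zero (R : V27RR K F g) {f : F} (hf : f ≠ 0) {P₀ : Place K F}
    (hP₀ : P₀.ord f < 0) : ∃ Z : Place K F, 0 < Z.ord f := by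
  classical
  haveI := R.hasDiv
  obtain ⟨D, hD, hdeg⟩ := HasPrincipalDivisors.exists_divisor (K := K) f hf
  by_contra hno
  push Not at hno
  have hsum := pp_degree_eq_sum D (insert P₀ D.support) (Finset.subset_insert _ _)
  rw [hdeg] at hsum
  have hlt : ∑ v ∈ insert P₀ D.support, D v * (v.deg : ℤ) < 0 := by
    rw [← Finset.sum_const_zero (s := insert P₀ D.support)]
    apply Finset.sum_lt_sum
    · intro v _
      rw [hD v]
      exact mul_nonpos_of_nonpos_of_nonneg (hno v) (Int.natCast_nonneg _)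
    · refine ⟨P₀, Finset.mem_insert_self _ _, ?_⟩
      rw [hD P₀]
      have hdp : (0 : ℤ) < (P₀.deg : ℤ) := by exact_mod_cast v27d_deg_pos R.res P₀
      exact mul_neg_of_neg_of_pos hP₀ hdp
  omega

/-- there is a place outside any finite set. -/
theorem ffg_exists_place_not_mem (R : V27RR K F g) [Infinite K] (T : Finset (Place K F)) :
    ∃ P : Place K F, P ∉ T := by
  classical
  obtain ⟨P₀⟩ := R.place
  have hdp : 0 < P₀.deg := v27d_deg_pos R.res P₀
  set D : Divisor K F := Finsupp.single P₀ (2 * (g : ℤ) + 1) with hDdef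
  have hdegD : Divisor.degree D = (2 * (g : ℤ) + 1) * P₀.deg := Divisor.degree_single _ _
  have hD : 2 * (g : ℤ) - 2 + P₀.deg < Divisor.degree D := by
    rw [hdegD]
    have h1 : (1 : ℤ) ≤ (P₀.deg : ℤ) := by exact_mod_cast hdp
    nlinarith
  obtain ⟨f, hf0, hfD, hford⟩ := R.exists_ord_eq P₀ hD
  have hford' : P₀.ord f < 0 := by
    rw [hford, hDdef, Finsupp.single_eq_same]
    omega
  -- `f - c` for a constant `c`
  have hne : ∀ c : K, f - algebraMap K F c ≠ 0 := by
    intro c h0
    have : f = algebraMap K F c := sub_eq_zero.mp h0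
    rw [this, PlaceOrd.ord_algebraMap] at hford'
    exact lt_irrefl _ hford'
  have hord : ∀ c : K, P₀.ord (f - algebraMap K F c) < 0 := by
    intro c
    have h1 : P₀.ord (f + -algebraMap K F c) = P₀.ord f := by
      apply s18rs_ord_add_of_lt P₀ hf0
      by_cases hc : c = 0
      · left; rw [hc, map_zero, neg_zero]
      · right
        rw [PlaceOrd.ord_neg, PlaceOrd.ord_algebraMap]
        exact hford'
    rw [sub_eq_add_neg, h1]
    exact hford'
  choose Z hZ using fun c : K => ffg_exists_zero R (hne c) (hord c)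
  have hinj : Function.Injective Z := by
    intro c c' hcc
    by_contra hne'
    have h1 := hZ c
    have h2 := hZ c'
    rw [hcc] at h1
    have hdiff : (f - algebraMap K F c) - (f - algebraMap K F c') = algebraMap K F (c' - c) := by
      rw [map_sub]; ring
    have hcc' : c' - c ≠ 0 := sub_ne_zero.mpr (fun h => hne' h.symm)
    have hd0 : (f - algebraMap K F c) - (f - algebraMap K F c') ≠ 0 := by
      rw [hdiff]
      exact (map_ne_zero_iff _ (algebraMap K F).injective).mpr hcc'
    have h3 := PlaceOrd.ord_sub_pos_of_pos (Z c') h1 h2 hd0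
    rw [hdiff, PlaceOrd.ord_algebraMap] at h3
    exact lt_irrefl _ h3
  by_contra hall
  push Not at hall
  have hfin : (Set.range Z).Finite := T.finite_toSet.subset (by
    rintro _ ⟨c, rfl⟩
    exact hall (Z c))
  exact (Set.infinite_range_of_injective hinj) hfin

/-- a divisor of degree `g - 1` without sections (all places of degree one). -/
theorem ffg_exists_divisor_no_section (R : V27RR K F g) [Infinite K]
    (hdeg1 : ∀ v : Place K F, v.deg = 1) :
    ∃ E : Divisor K F, Divisor.degree E = (g : ℤ) - 1 ∧ riemannRochSpace E = ⊥ := by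
  classical
  haveI := R.hasDiv
  suffices h : ∀ j : ℕ, j ≤ g →
      ∃ E : Divisor K F, Divisor.degree E = (j : ℤ) - 1 ∧ riemannRochSpace E = ⊥ by
    exact h g le_rfl
  intro j
  induction j with
  | zero =>
    intro _
    obtain ⟨P₀⟩ := R.place
    refine ⟨-Finsupp.single P₀ 1, ?_, ?_⟩
    · rw [map_neg, Divisor.degree_single, hdeg1]; norm_num
    · apply R.neg
      rw [map_neg, Divisor.degree_single, hdeg1]; norm_num
  | succ j ih =>
    intro hj
    obtain ⟨E, hdegE, hLE⟩ := ih (by omega)
    obtain ⟨W, hW, -, -, hRR⟩ := R.can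
    -- `l(W - E) = g - j ≥ 1`
    have h1 := hRR E
    rw [hLE, finrank_bot, hdegE] at h1
    have hpos : 0 < finrank K (riemannRochSpace (W - E)) := by
      have : (0 : ℤ) < finrank K (riemannRochSpace (W - E)) := by
        have hj' : ((j + 1 : ℕ) : ℤ) ≤ (g : ℤ) := by exact_mod_cast hj
        push_cast at hj' h1
        linarith
      exact_mod_cast this
    have hne : riemannRochSpace (W - E) ≠ ⊥ := by
      intro h0
      rw [h0, finrank_bot] at hpos
      exact lt_irrefl _ hpos
    obtain ⟨s, hs, hs0⟩ := Submodule.exists_mem_ne_zero_of_ne_bot hne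
    obtain ⟨Ds, hDs, -⟩ := HasPrincipalDivisors.exists_divisor (K := K) s hs0
    obtain ⟨Q, hQ⟩ := ffg_exists_place_not_mem R (Ds.support ∪ (W - E).support)
    have hQ1 : Q.ord s = 0 := by
      have : Q ∉ Ds.support := fun h => hQ (Finset.mem_union_left _ h)
      rw [Finsupp.notMem_support_iff, hDs Q] at this
      exact this
    have hQ2 : (W - E) Q = 0 := by
      have : Q ∉ (W - E).support := fun h => hQ (Finset.mem_union_right _ h)
      rwa [Finsupp.notMem_support_iff] at this
    refine ⟨E + Finsupp.single Q 1, ?_, ?_⟩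
    · rw [map_add, hdegE, Divisor.degree_single, hdeg1]; push_cast; ring
    · -- `L(W - E - Q) ⊊ L(W - E)`
      have hle : riemannRochSpace (W - (E + Finsupp.single Q 1)) ≤ riemannRochSpace (W - E) := by
        apply v27rr_rrSpace_mono
        rw [← sub_sub]
        intro v
        rw [Finsupp.sub_apply]
        have : (0 : ℤ) ≤ (Finsupp.single Q (1 : ℤ)) v := by
          rw [Finsupp.single_apply]; split_ifs <;> norm_num
        linarith
      have hnot : s ∉ riemannRochSpace (W - (E + Finsupp.single Q 1)) := by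
        intro hmem
        rw [mem_riemannRochSpace_iff] at hmem
        rcases hmem Q with h0 | h0
        · exact hs0 h0
        · rw [hQ1, ← sub_sub, Finsupp.sub_apply, hQ2, Finsupp.single_eq_same] at h0
          omega
      have hlt : riemannRochSpace (W - (E + Finsupp.single Q 1)) < riemannRochSpace (W - E) :=
        lt_of_le_of_ne hle (fun heq => hnot (heq ▸ hs))
      haveI := R.finL (W - E)
      have hfr := Submodule.finrank_lt_finrank_of_lt hlt
      have h2 := hRR (E + Finsupp.single Q 1)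
      rw [map_add, hdegE, Divisor.degree_single, hdeg1] at h2
      have h3 : finrank K (riemannRochSpace (E + Finsupp.single Q 1)) = 0 := by
        have hfr' : (finrank K (riemannRochSpace (W - (E + Finsupp.single Q 1))) : ℤ) <
            finrank K (riemannRochSpace (W - E)) := by exact_mod_cast hfr
        have hnn : (0 : ℤ) ≤ finrank K (riemannRochSpace (E + Finsupp.single Q 1)) :=
          Int.natCast_nonneg _
        push_cast at h1 h2
        have : (finrank K (riemannRochSpace (E + Finsupp.single Q 1)) : ℤ) = 0 := by linarith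
        exact_mod_cast this
      haveI := R.finL (E + Finsupp.single Q 1)
      exact Submodule.finrank_eq_zero.mp h3

end Abstract

/-! ### the modular curve -/

section Modular

variable (N : ℕ) [NeZero N] {ℓ : ℕ} [Fact ℓ.Prime]
variable (A : ValuationSubring (AlgebraicClosure ℚ))
variable {r : Place (AlgebraicClosure ℚ) (modularFunctionFieldBar N) →
  Place (ResidueField A) (modularFunctionFieldFullC (ResidueField A) N)}

/-- the divisor formula for `f = c · a / b`, `a`, `b` good integral series with nonzero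
reductions : `r_*(div f) = div(ā / b̄)`. -/
theorem ffg_mapDomain_quot (hr : IsPlaceReductionAlong A (residue A) N r)
    [HasPrincipalDivisors (AlgebraicClosure ℚ) (modularFunctionFieldBar N)]
    {y₁ y₂ : LaurentSeries A} (h₁ : S18Good N A y₁) (h₂ : S18Good N A y₂)
    (hs₁ : h₁.spec ≠ 0) (hs₂ : h₂.spec ≠ 0) (f : modularFunctionFieldBar N)
    (c : AlgebraicClosure ℚ) (hc : c ≠ 0)
    (hf : f * h₂.gen = algebraMap (AlgebraicClosure ℚ) (modularFunctionFieldBar N) c * h₁.gen)
    (D : Divisor (AlgebraicClosure ℚ) (modularFunctionFieldBar N)) (hD : ∀ P, D P = P.ord f)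
    (Q : Place (ResidueField A) (modularFunctionFieldFullC (ResidueField A) N)) :
    Finsupp.mapDomain r D Q = Q.ord (h₁.spec / h₂.spec) := by
  have hg1 : h₁.gen ≠ 0 := S18Good.gen_ne_zero h₁ hs₁
  have hg2 : h₂.gen ≠ 0 := S18Good.gen_ne_zero h₂ hs₂
  have hcF : algebraMap (AlgebraicClosure ℚ) (modularFunctionFieldBar N) c ≠ 0 :=
    (map_ne_zero_iff _ (algebraMap (AlgebraicClosure ℚ) (modularFunctionFieldBar N)).injective).mpr
      hc
  have hf0 : f ≠ 0 := by
    intro h0
    rw [h0, zero_mul] at hf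
    exact mul_ne_zero hcF hg1 hf.symm
  obtain ⟨D₁, hD₁, -⟩ :=
    HasPrincipalDivisors.exists_divisor (K := AlgebraicClosure ℚ) h₁.gen hg1
  obtain ⟨D₂, hD₂, -⟩ :=
    HasPrincipalDivisors.exists_divisor (K := AlgebraicClosure ℚ) h₂.gen hg2
  have hDD : D = D₁ - D₂ := by
    ext P
    rw [Finsupp.sub_apply, hD P, hD₁ P, hD₂ P]
    have e := congrArg P.ord hf
    rw [P.ord_mul hf0 hg2, P.ord_mul hcF hg1, PlaceOrd.ord_algebraMap] at e
    linarith
  have e1 := hr.2 y₁ h₁.1 h₁.2 (fun h0 => hs₁ (Subtype.ext h0)) D₁ hD₁ Q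
  have e2 := hr.2 y₂ h₂.1 h₂.2 (fun h0 => hs₂ (Subtype.ext h0)) D₂ hD₂ Q
  rw [hDD, Finsupp.mapDomain_sub, Finsupp.sub_apply, e1, e2, div_eq_mul_inv,
    Q.ord_mul hs₁ (inv_ne_zero hs₂), Q.ord_inv]
  show Q.ord h₁.spec - Q.ord h₂.spec = _
  ring

/-- REDUCTION OF SECTIONS : a nonzero `f ∈ L(D)` yields a nonzero `φ ∈ L(r_* D)`. -/
theorem ffg_red_section (hℓN : ¬ ℓ ∣ N) (hA : A.LiesOverPrime ℓ)
    (hr : IsPlaceReductionAlong A (residue A) N r)
    [HasPrincipalDivisors (AlgebraicClosure ℚ) (modularFunctionFieldBar N)]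
    (D : Divisor (AlgebraicClosure ℚ) (modularFunctionFieldBar N))
    {f : modularFunctionFieldBar N} (hf0 : f ≠ 0) (hfD : f ∈ riemannRochSpace D) :
    ∃ φ : modularFunctionFieldFullC (ResidueField A) N,
      φ ≠ 0 ∧ φ ∈ riemannRochSpace (Finsupp.mapDomain r D) := by
  obtain ⟨c, u₁, u₂, h₁, h₂, hc, hs₁, hs₂, hfu⟩ := ggn_normal' N A hℓN hA f hf0
  obtain ⟨Df, hDf, -⟩ := HasPrincipalDivisors.exists_divisor (K := AlgebraicClosure ℚ) f hf0
  refine ⟨h₁.spec / h₂.spec, div_ne_zero hs₁ hs₂, ?_⟩
  rw [mem_riemannRochSpace_iff]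
  intro Q
  right
  rw [← ffg_mapDomain_quot N A hr h₁ h₂ hs₁ hs₂ f c hc hfu Df hDf Q]
  have hnn : 0 ≤ Df + D := by
    intro P
    rw [Finsupp.add_apply, hDf P]
    rw [mem_riemannRochSpace_iff] at hfD
    rcases hfD P with h0 | h0
    · exact absurd h0 hf0
    · show (0 : ℤ) ≤ _
      linarith
  have h2 := ffg_mapDomain_nonneg r (Df + D) hnn Q
  rw [Finsupp.mapDomain_add, Finsupp.add_apply] at h2
  have : (0 : ℤ) ≤ Finsupp.mapDomain r Df Q + Finsupp.mapDomain r D Q := h2
  linarith

/-- `r` is onto. -/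
theorem ffg_r_surjective (hℓN : ¬ ℓ ∣ N) (hA : A.LiesOverPrime ℓ)
    (h : ReductionInputsModL A N) (hr : IsPlaceReductionAlong A (residue A) N r) :
    Function.Surjective r := by
  classical
  haveI := Fermat.Agent.V.v27dv_isCurveOver_modular N
  intro Q
  have R := ffg_rr_modL N A hℓN hA h
  have hdp : 0 < Q.deg := v27d_deg_pos R.res Q
  set g' := genusFF (ResidueField A) (modularFunctionFieldFullC (ResidueField A) N) with hg'
  set D : Divisor (ResidueField A) (modularFunctionFieldFullC (ResidueField A) N) :=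
    Finsupp.single Q (2 * (g' : ℤ) + 1) with hDdef
  have hdegD : Divisor.degree D = (2 * (g' : ℤ) + 1) * Q.deg := Divisor.degree_single _ _
  have hD : 2 * (g' : ℤ) - 2 + Q.deg < Divisor.degree D := by
    rw [hdegD]
    have h1 : (1 : ℤ) ≤ (Q.deg : ℤ) := by exact_mod_cast hdp
    nlinarith
  obtain ⟨t, ht0, -, htord⟩ := R.exists_ord_eq Q hD
  have htord' : Q.ord t ≠ 0 := by
    rw [htord, hDdef, Finsupp.single_eq_same]
    omega
  obtain ⟨y₁, y₂, h₁, h₂, hs₂, h12⟩ := s18a_lift N A t
  have hs₁ : h₁.spec ≠ 0 := by rw [h12]; exact mul_ne_zero ht0 hs₂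
  have hg2 : h₂.gen ≠ 0 := S18Good.gen_ne_zero h₂ hs₂
  have hg1 : h₁.gen ≠ 0 := S18Good.gen_ne_zero h₁ hs₁
  set f : modularFunctionFieldBar N := h₁.gen / h₂.gen with hfdef
  have hf0 : f ≠ 0 := div_ne_zero hg1 hg2
  obtain ⟨Df, hDf, -⟩ := HasPrincipalDivisors.exists_divisor (K := AlgebraicClosure ℚ) f hf0
  have hq := ffg_mapDomain_quot N A hr h₁ h₂ hs₁ hs₂ f 1 one_ne_zero
    (by rw [map_one, one_mul, hfdef, div_mul_cancel₀ _ hg2]) Df hDf Q
  have ht : h₁.spec / h₂.spec = t := by rw [h12, mul_div_assoc, div_self hs₂, mul_one]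
  rw [ht] at hq
  have hmem : Q ∈ (Finsupp.mapDomain r Df).support := by
    rw [Finsupp.mem_support_iff, hq]
    exact htord'
  have := Finsupp.mapDomain_support hmem
  rw [Finset.mem_image] at this
  obtain ⟨P, -, hP⟩ := this
  exact ⟨P, hP⟩

/-- every divisor of the special fibre is the reduction of a divisor of the same degree. -/
theorem ffg_exists_lift_divisor (hr : IsPlaceReductionAlong A (residue A) N r)
    (hsurj : Function.Surjective r)
    (E' : Divisor (ResidueField A) (modularFunctionFieldFullC (ResidueField A) N)) :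
    ∃ E : Divisor (AlgebraicClosure ℚ) (modularFunctionFieldBar N),
      Finsupp.mapDomain r E = E' ∧ Divisor.degree E = Divisor.degree E' := by
  refine ⟨Finsupp.mapDomain (Function.surjInv hsurj) E', ?_, ?_⟩
  · rw [← Finsupp.mapDomain_comp]
    have : r ∘ Function.surjInv hsurj = id := funext (Function.surjInv_eq hsurj)
    rw [this, Finsupp.mapDomain_id]
  · have h1 := degree_mapDomain_of_deg_eq hr.1 (Finsupp.mapDomain (Function.surjInv hsurj) E')
    rw [← Finsupp.mapDomain_comp] at h1
    have : r ∘ Function.surjInv hsurj = id := funext (Function.surjInv_eq hsurj)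
    rw [this, Finsupp.mapDomain_id] at h1
    exact h1.symm

/-- **`g̃ ≤ g`**. -/
theorem ffg_genus_ge (hℓN : ¬ ℓ ∣ N) (hA : A.LiesOverPrime ℓ) (h : ReductionInputsModL A N) :
    genusFF (ResidueField A) (modularFunctionFieldFullC (ResidueField A) N) ≤
      genusFF (AlgebraicClosure ℚ) (modularFunctionFieldBar N) := by
  classical
  haveI := Fermat.Agent.V.v27dv_isCurveOver_modular N
  haveI : IsAlgClosed (ResidueField A) := grd_isAlgClosed_residue A
  have R' := ffg_rr_modL N A hℓN hA h
  have R := ffg_rr_bar N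
  obtain ⟨r, hr, hgen⟩ := h
  have hsurj := ffg_r_surjective N A hℓN hA ⟨r, hr, hgen⟩ hr
  by_contra hlt
  push Not at hlt
  obtain ⟨E', hdegE', hLE'⟩ := ffg_exists_divisor_no_section R'
    (fun v => grdd_deg_res N A hℓN hA v)
  obtain ⟨E, hrE, hdegE⟩ := ffg_exists_lift_divisor N A hr hsurj E'
  have hge : ((genusFF (AlgebraicClosure ℚ) (modularFunctionFieldBar N) : ℕ) : ℤ) ≤
      Divisor.degree E := by
    rw [hdegE, hdegE']
    have : ((genusFF (AlgebraicClosure ℚ) (modularFunctionFieldBar N) : ℕ) : ℤ) <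
      (genusFF (ResidueField A) (modularFunctionFieldFullC (ResidueField A) N) : ℤ) := by
      exact_mod_cast hlt
    omega
  obtain ⟨f, hf0, hfE⟩ := R.exists_ne_zero_mem hge
  obtain ⟨φ, hφ0, hφ⟩ := ffg_red_section N A hℓN hA hr E hf0 hfE
  rw [hrE, hLE'] at hφ
  exact hφ0 ((Submodule.mem_bot _).mp hφ)

/-- **EQUAL GENUS** : `X₀(N)` has the same genus over `ℚ̄` and over `𝔽̄_ℓ`, `ℓ ∤ N`. -/
theorem ffg_genus_eq (hℓN : ¬ ℓ ∣ N) (hA : A.LiesOverPrime ℓ) (h : ReductionInputsModL A N) :
    genusFF (ResidueField A) (modularFunctionFieldFullC (ResidueField A) N) =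
      genusFF (AlgebraicClosure ℚ) (modularFunctionFieldBar N) :=
  le_antisymm (ffg_genus_ge N A hℓN hA h) (ffg_genus_le' N A hℓN hA h)

/-- Riemann–Roch on the special fibre WITH THE GENUS OF THE GENERIC FIBRE. -/
theorem ffg_rr_modL' (hℓN : ¬ ℓ ∣ N) (hA : A.LiesOverPrime ℓ) (h : ReductionInputsModL A N) :
    V27RR (ResidueField A) (modularFunctionFieldFullC (ResidueField A) N)
      (genusFF (AlgebraicClosure ℚ) (modularFunctionFieldBar N)) := by
  rw [← ffg_genus_eq N A hℓN hA h]
  exact ffg_rr_modL N A hℓN hA h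

end Modular

end Fermat.Agent.FF
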