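import Mathlib
import Fermat.Agent.S24.PlacesInt
import Fermat.Agent.S24.PlaceOrd

/-!
# PROGRAM FF, leaf B3 (owner helper6), part 2 : the ramification locus of a separating element is
finite (char-free)

`F / K` a function field, `t` a separating element (`IsSepGen K t` : `t` transcendental,
`F / K(t)` finite separable).  Then the set of places `v` of `F` with `t ∈ 𝒪_v` at which some
`t - a` (`a ∈ K`) vanishes to order `≥ 2` is FINITE (`ffip_ramified_finite`) : these are primes of
the Dedekind domain `B = ` integral closure of `K[t]` in `F` dividing the different of `B / K[t]`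
(Mathlib's `pow_sub_one_dvd_differentIdeal`, `differentIdeal_ne_bot`).
-/

set_option autoImplicit false
set_option linter.unusedSectionVars false
set_option linter.unusedVariables false
set_option linter.style.haveILetI false

noncomputable section

namespace Fermat.Agent.FF

open AlgebraicCurve IsDedekindDomain IntermediateField
open scoped nonZeroDivisors

section Generic

attribute [local instance] FractionRing.liftAlgebra FractionRing.isScalarTower_liftAlgebra

variable (A K L B : Type*) [CommRing A] [Field K] [CommRing B] [Field L]
variable [Algebra A K] [Algebra B L] [Algebra A B] [Algebra K L] [Algebra A L]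
variable [IsScalarTower A K L] [IsScalarTower A B L]
variable [IsDedekindDomain A] [IsFractionRing A K] [IsFractionRing B L]
variable [IsDedekindDomain B] [Module.IsTorsionFree A B] [Module.Finite A B]

/-- separability of the canonical fraction fields, from separability of any pair of fraction
fields -/
theorem ffip_isSeparable_fractionRing [Algebra.IsSeparable K L] :
    Algebra.IsSeparable (FractionRing A) (FractionRing B) := by
  have H : RingHom.comp (algebraMap (FractionRing A) (FractionRing B))
      ↑(FractionRing.algEquiv A K).symm.toRingEquiv =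
        RingHom.comp ↑(FractionRing.algEquiv B L).symm.toRingEquiv (algebraMap K L) := by
    apply IsLocalization.ringHom_ext A⁰
    ext
    simp only [RingHom.coe_comp, RingHom.coe_coe,
      AlgEquiv.coe_ringEquiv, Function.comp_apply, AlgEquiv.commutes,
      ← IsScalarTower.algebraMap_apply]
    rw [IsScalarTower.algebraMap_apply A B L, AlgEquiv.commutes, ← IsScalarTower.algebraMap_apply]
  exact Algebra.IsSeparable.of_equiv_equiv _ _ H

/-- the primes of `B` which divide `x B` twice for some irreducible `x ∈ A` are finite in number
(they divide the different). -/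
theorem ffip_ram_generic [IsPrincipalIdealRing A] [Algebra.IsSeparable K L] :
    {w : HeightOneSpectrum B | ∃ x : A, Irreducible x ∧
      w.asIdeal ^ 2 ∣ Ideal.span {algebraMap A B x}}.Finite := by
  haveI := ffip_isSeparable_fractionRing A K L B
  have hne : differentIdeal A B ≠ ⊥ := differentIdeal_ne_bot
  refine (Ideal.finite_factors hne).subset ?_
  rintro w ⟨x, hx, hw⟩
  haveI : (Ideal.span {x}).IsMaximal := PrincipalIdealRing.isMaximal_of_irreducible hx
  have hp : Ideal.span {x} ≠ ⊥ := by
    rw [Ne, Ideal.span_singleton_eq_bot]
    exact hx.ne_zero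
  have h := pow_sub_one_dvd_differentIdeal A (p := Ideal.span {x}) w.asIdeal 2 hp
    (by rwa [Ideal.map_span, Set.image_singleton])
  simpa using h

end Generic

section Apply

open Fermat.Agent.S24
open scoped IntermediateField.algebraAdjoinAdjoin

variable {K F : Type*} [Field K] [Field F] [Algebra K F] {t : F}

/-- `t - a` as an element of `K[t]` -/
def ffipRamElt (t : F) (a : K) : Algebra.adjoin K {t} :=
  ⟨t, Algebra.self_mem_adjoin_singleton K t⟩ - algebraMap K (Algebra.adjoin K {t}) a

theorem ffipRamElt_coe (t : F) (a : K) :
    ((ffipRamElt t a : Algebra.adjoin K {t}) : F) = t - algebraMap K F a := rfl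

theorem ffipRamElt_irreducible (ht : Transcendental K t) (a : K) :
    Irreducible (ffipRamElt t a) := by
  have h1 : Irreducible (Polynomial.X - Polynomial.C a : Polynomial K) :=
    Polynomial.irreducible_X_sub_C a
  have h2 : Polynomial.algEquivOfTranscendental K t ht (Polynomial.X - Polynomial.C a) =
      ffipRamElt t a := by
    rw [map_sub, Polynomial.algEquivOfTranscendental_apply_X]
    have : (Polynomial.C a : Polynomial K) = algebraMap K (Polynomial K) a := rfl
    rw [this, AlgEquiv.commutes]
    rfl
  rw [← h2]
  exact (MulEquiv.irreducible_iff (Polynomial.algEquivOfTranscendental K t ht).toMulEquiv).2 h1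

/-- **THE RAMIFICATION LOCUS OF A SEPARATING ELEMENT IS FINITE** (any characteristic) : the places
`v` with `t ∈ 𝒪_v` at which some `t - a`, `a ∈ K`, vanishes to order `≥ 2`. -/
theorem ffip_ramified_finite (ht : IsSepGen K t) :
    {v : Place K F | t ∈ v.toValuationSubring ∧
      ∃ a : K, 2 ≤ v.ord (t - algebraMap K F a)}.Finite := by
  haveI := Fact.mk ht
  haveI := isDedekindDomain_adjoin ht.transcendental
  haveI := isPrincipalIdealRing_adjoin ht.transcendental
  haveI := intRing_isDedekindDomain ht
  haveI := intRing_isFractionRing ht
  haveI := intRing_finite ht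
  haveI := ht.finite
  haveI := ht.separable
  have hfin := ffip_ram_generic (Algebra.adjoin K {t}) K⟮t⟯ F (intRing K t)
  refine (hfin.image (Place.ofHeightOneSpectrum (K := K) (F := F))).subset ?_
  rintro v ⟨hv, a, ha⟩
  obtain ⟨w, rfl⟩ := exists_eq_ofHeightOneSpectrum_intRing v hv
  refine ⟨w, ⟨ffipRamElt t a, ffipRamElt_irreducible ht.transcendental a, ?_⟩, rfl⟩
  rw [← w.intValuation_le_pow_iff_dvd, ← w.valuation_of_algebraMap (K := F)]
  show w.valuation F (t - algebraMap K F a) ≤ WithZero.exp (-((2 : ℕ) : ℤ))
  rw [ord_ofHeightOneSpectrum] at ha
  apply WithZero.le_exp_of_log_le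
  push_cast
  linarith

end Apply

end Fermat.Agent.FF
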