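import Mathlib
import Fermat.Agent.FF.IntPts
import Fermat.Agent.FF.IntRam

/-!
# PROGRAM FF, leaf B3 (owner helper6), part 3 : (E3') INERTIA-FIXED LIFTS of points and divisors

Setting of `FF/IntPts.lean`.  `ffipBad M A hat` := the FINITE set of places `Q` of `F_k` which are
poles of `ū` or ramified for `ū` (some `ū - a` vanishes to order `≥ 2`).  Given a set
`S` of inertial automorphisms (`S := 𝔸.inertiaSubgroupIn ℚ`, `hS := isInertial_of_mem_inertiaSubgroupIn`)
and `hW` : every element of `k` has an `S`-fixed lift in `𝔸` (Teichmüller; helper19's (W-res)) :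

* `ffip_exists_fixed_lift` : every `Q ∉ ffipBad` is `r P` for an inertia-fixed place `P`;
* `ffip_exists_lift_divisor` : every divisor `D'` of `F_k` with support off `ffipBad` is `r_* D` for an
  inertia-fixed divisor `D` of the same degree, effective if `D'` is.
-/

set_option autoImplicit false
set_option linter.unusedSectionVars false
set_option linter.unusedVariables false
set_option linter.style.haveILetI false
set_option synthInstance.maxHeartbeats 400000

noncomputable section

namespace Fermat.Agent.FF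

open ModularCurve AlgebraicCurve IsLocalRing Polynomial Fermat.Agent.S18 Fermat.Agent.S24
  Fermat.Agent.G Fermat.Agent.S05

section Lift

variable (M : ℕ) [NeZero M] {ℓ : ℕ} [Fact ℓ.Prime]
variable (A : ValuationSubring (AlgebraicClosure ℚ))
variable {τ τ' : LaurentSeries ℤ}

/-- THE BAD SET : poles of `ū` and ramified points of `ū`. -/
def ffipBad (hat : GrdAtlas M A τ τ') :
    Set (Place (ResidueField A) (modularFunctionFieldFullC (ResidueField A) M)) :=
  {Q | 0 < Q.ord (grdK M A hat.c'.mem)} ∪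
    {Q | grdK M A hat.c.mem ∈ Q.toValuationSubring ∧ ∃ a : ResidueField A,
      2 ≤ Q.ord (grdK M A hat.c.mem - algebraMap (ResidueField A)
        (modularFunctionFieldFullC (ResidueField A) M) a)}

/-- the bad set is finite -/
theorem ffip_bad_finite (hat : GrdAtlas M A τ τ') : (ffipBad M A hat).Finite :=
  (hat.c'.sepK.finite_ord_pos).union (ffip_ramified_finite hat.c.sepK)

/-- off the bad set `ū` is regular ... -/
theorem ffip_mem_of_not_bad (hat : GrdAtlas M A τ τ')
    (Q : Place (ResidueField A) (modularFunctionFieldFullC (ResidueField A) M))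
    (hQ : Q ∉ ffipBad M A hat) : grdK M A hat.c.mem ∈ Q.toValuationSubring := by
  rcases grd_chart_coverK M A hat Q with h | h
  · exact h
  · exfalso
    apply hQ
    left
    have hne : grdK M A hat.c'.mem ≠ 0 := by
      intro h0
      have := grda_grdK_mul M A hat
      rw [h0, mul_zero] at this
      exact zero_ne_one this
    exact (grdg_val_zero_iff_ord Q hne).1 h

/-- ... and `ū - ū(Q)` is a uniformiser. -/
theorem ffip_ord_of_not_bad (hat : GrdAtlas M A τ τ')
    (Q : Place (ResidueField A) (modularFunctionFieldFullC (ResidueField A) M))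
    (hQ : Q ∉ ffipBad M A hat) (c : ResidueField A) (hc : GrdVal Q (grdK M A hat.c.mem) c) :
    Q.ord (grdK M A hat.c.mem - algebraMap (ResidueField A)
      (modularFunctionFieldFullC (ResidueField A) M) c) = 1 := by
  have hne : grdK M A hat.c.mem - algebraMap (ResidueField A)
      (modularFunctionFieldFullC (ResidueField A) M) c ≠ 0 := by
    intro h0
    apply hat.c.sepK.transcendental
    rw [sub_eq_zero.1 h0]
    exact isAlgebraic_algebraMap _
  have hpos : 0 < Q.ord (grdK M A hat.c.mem - algebraMap (ResidueField A)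
      (modularFunctionFieldFullC (ResidueField A) M) c) := by
    rw [← grdg_val_zero_iff_ord Q hne, ffipSub_val]
    exact hc
  have hlt : ¬ 2 ≤ Q.ord (grdK M A hat.c.mem - algebraMap (ResidueField A)
      (modularFunctionFieldFullC (ResidueField A) M) c) := by
    intro h2
    apply hQ
    right
    exact ⟨ffip_mem_of_not_bad M A hat Q hQ, c, h2⟩
  omega

/-- (E3') every place off the bad set is the reduction of an INERTIA-FIXED place. -/
theorem ffip_exists_fixed_lift (hℓM : ¬ ℓ ∣ M) (hA : A.LiesOverPrime ℓ) (hat : GrdAtlas M A τ τ')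
    (r : Place (AlgebraicClosure ℚ) (modularFunctionFieldBar M) →
      Place (ResidueField A) (modularFunctionFieldFullC (ResidueField A) M))
    (hr : GrdIsRed M A hat.c.mem hat.c'.mem r)
    (S : Set (AlgebraicClosure ℚ ≃ₐ[ℚ] AlgebraicClosure ℚ)) (hS : ∀ σ ∈ S, IsInertial A σ)
    (hW : ∀ c : ResidueField A, ∃ α : A, residue A α = c ∧
      ∀ σ ∈ S, σ (α : AlgebraicClosure ℚ) = α)
    (Q : Place (ResidueField A) (modularFunctionFieldFullC (ResidueField A) M))
    (hQ : Q ∉ ffipBad M A hat) :
    ∃ P : Place (AlgebraicClosure ℚ) (modularFunctionFieldBar M), r P = Q ∧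
      ∀ σ ∈ S, ffipG M σ • P = P := by
  haveI : IsAlgClosed (ResidueField A) := grd_isAlgClosed_residue A
  obtain ⟨c, hc⟩ := grdg_val_exists hat.c.sepK Q (ffip_mem_of_not_bad M A hat Q hQ)
  obtain ⟨α, rfl, hα⟩ := hW c
  have hord := ffip_ord_of_not_bad M A hat Q hQ _ hc
  obtain ⟨P, ⟨hPQ, hval⟩, -⟩ := ffip_disc_coord M A hℓM hA hat r hr Q α hord
  exact ⟨P, hPQ, fun σ hσ =>
    ffip_disc_coord_fixed M hℓM hA hat r hr (hS σ hσ) Q α hord (hα σ hσ) P hPQ hval⟩

/-- (E3') LIFTING OF DIVISORS : a divisor of `F_k` with support off the bad set is `r_* D` for an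
inertia-fixed divisor `D` of the same degree, effective if `D'` is. -/
theorem ffip_exists_lift_divisor (hℓM : ¬ ℓ ∣ M) (hA : A.LiesOverPrime ℓ)
    (hat : GrdAtlas M A τ τ')
    (r : Place (AlgebraicClosure ℚ) (modularFunctionFieldBar M) →
      Place (ResidueField A) (modularFunctionFieldFullC (ResidueField A) M))
    (hr : GrdIsRed M A hat.c.mem hat.c'.mem r)
    (S : Set (AlgebraicClosure ℚ ≃ₐ[ℚ] AlgebraicClosure ℚ)) (hS : ∀ σ ∈ S, IsInertial A σ)
    (hW : ∀ c : ResidueField A, ∃ α : A, residue A α = c ∧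
      ∀ σ ∈ S, σ (α : AlgebraicClosure ℚ) = α)
    (D' : Divisor (ResidueField A) (modularFunctionFieldFullC (ResidueField A) M))
    (hD' : ∀ Q ∈ D'.support, Q ∉ ffipBad M A hat) :
    ∃ D : Divisor (AlgebraicClosure ℚ) (modularFunctionFieldBar M),
      Finsupp.mapDomain r D = D' ∧ (0 ≤ D' → 0 ≤ D) ∧
      Divisor.degree D = Divisor.degree D' ∧
      (∀ P ∈ D.support, r P ∈ D'.support) ∧
      ∀ σ ∈ S, ffipG M σ • D = D := by
  classical
  haveI : IsAlgClosed (ResidueField A) := grd_isAlgClosed_residue A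
  obtain ⟨P₀⟩ : Nonempty (Place (AlgebraicClosure ℚ) (modularFunctionFieldBar M)) := by
    obtain ⟨Q₀, -⟩ := hat.c.sepK.exists_ord_pos
    exact ⟨(ffip_surjective M A hℓM hA hat r hr Q₀).choose⟩
  have hex : ∀ Q : Place (ResidueField A) (modularFunctionFieldFullC (ResidueField A) M),
      ∃ P : Place (AlgebraicClosure ℚ) (modularFunctionFieldBar M), Q ∉ ffipBad M A hat →
        (r P = Q ∧ ∀ σ ∈ S, ffipG M σ • P = P) := by
    intro Q
    by_cases hQ : Q ∈ ffipBad M A hat
    · exact ⟨P₀, fun h => absurd hQ h⟩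
    · obtain ⟨P, hP⟩ := ffip_exists_fixed_lift M A hℓM hA hat r hr S hS hW Q hQ
      exact ⟨P, fun _ => hP⟩
  choose s hs using hex
  refine ⟨Finsupp.mapDomain s D', ?_, ?_, ?_, ?_, ?_⟩
  · exact ffip_lift_divisor r s D' fun Q hQ => (hs Q (hD' Q hQ)).1
  · exact fun h => ffip_mapDomain_nonneg s h
  · exact ffip_degree_mapDomain s (fun Q => by
      rw [hat.c.sepQ.deg_eq_one, hat.c.sepK.deg_eq_one]) D'
  · intro P hP
    obtain ⟨Q, hQ, rfl⟩ := Finset.mem_image.1 (Finsupp.mapDomain_support hP)
    rw [(hs Q (hD' Q hQ)).1]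
    exact hQ
  · intro σ hσ
    exact ffip_smul_mapDomain (ffipG M σ) s D' fun Q hQ => (hs Q (hD' Q hQ)).2 σ hσ

end Lift

end Fermat.Agent.FF
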