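import Mathlib
import Fermat.Agent.G.Red.Spec
import Fermat.Agent.FF.IntPts
import Fermat.Agent.FF.IntL

/-!
# PROGRAM FF, leaf B3 (P7) = (O7) (owner helper12) : VALUES of the integral lattice `L(m·D_∞) ∩ grdO`

Setting of `FF/IntPts.lean` (helper6) : `𝔸 = A ⊂ ℚ̄` a valuation ring over `ℓ ∤ M`, an atlas
`hat : GrdAtlas M A τ τ'` (`u = τ_ℚ̄`, `ū = τ_k`), `r` THE place reduction map.  `D_∞ := (u)_∞`
(`ffilPolar hat.c.sepQ`, helper27 `FF/IntL.lean`), `D̃_∞ := (ū)_∞`.

* `ffiv_isInt`      : `x ∈ grdO` integral over `ℚ̄[u]`  ⟹  `x ∈ B_u` (integral over `𝔸[u]`);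
* `ffiv_polar`      : `r_* (u)_∞ = (ū)_∞`;
* `ffiv_mem_chart`  : `(r_* D_∞)(Q) = 0`  ⟹  `ū` is regular at `Q`;
* `ffiv_val`        : (P7) : `x ∈ L(m·D_∞) ∩ grdO`, `(r_* D_∞)(r P) = 0`  ⟹  `x(P) = α ∈ 𝔸` and
  `x̄(r P) = ᾱ`;  `ffiv_val'` the same with the `ℕ`-multiple `m • D_∞`.
-/

set_option autoImplicit false
set_option linter.unusedSectionVars false
set_option linter.unusedVariables false
set_option synthInstance.maxHeartbeats 400000

noncomputable section

namespace Fermat.Agent.FF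

open ModularCurve AlgebraicCurve IsLocalRing Polynomial Fermat.Agent.S18 Fermat.Agent.S24
  Fermat.Agent.G

section Values

variable (M : ℕ) [NeZero M] {ℓ : ℕ} [Fact ℓ.Prime]
variable (A : ValuationSubring (AlgebraicClosure ℚ))
variable {τ τ' : LaurentSeries ℤ}

/-- an element of the Gauss ring which is integral over `ℚ̄[u]` is integral over `𝔸[u]`. -/
theorem ffiv_isInt (hℓM : ¬ ℓ ∣ M) (hA : A.LiesOverPrime ℓ) {υ : LaurentSeries ℤ}
    (hc : GrdChart M A υ) (x : ↥(grdO M A))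
    (hx : (x : modularFunctionFieldBar M) ∈ intRing (AlgebraicClosure ℚ) (grdQ M hc.mem)) :
    GrdIsInt M A (grdQ M hc.mem) (x : modularFunctionFieldBar M) := by
  obtain ⟨π, hπ, h⟩ := grds_exists_scale M A (grdQ M hc.mem) (x : modularFunctionFieldBar M) hx
  exact grd_saturated M A hℓM hA hc x π hπ h

/-- poles of `u` reduce to poles of `ū`. -/
theorem ffiv_pole (hℓM : ¬ ℓ ∣ M) (hA : A.LiesOverPrime ℓ) (hat : GrdAtlas M A τ τ')
    (r : Place (AlgebraicClosure ℚ) (modularFunctionFieldBar M) →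
      Place (ResidueField A) (modularFunctionFieldFullC (ResidueField A) M))
    (hr : GrdIsRed M A hat.c.mem hat.c'.mem r)
    (P : Place (AlgebraicClosure ℚ) (modularFunctionFieldBar M))
    (hP : P.ord (grdQ M hat.c.mem) < 0) : (r P).ord (grdK M A hat.c.mem) < 0 := by
  have huu' := grda_grdQ_mul M A hat
  have hkk' := grda_grdK_mul M A hat
  have hu' : grdQ M hat.c'.mem = (grdQ M hat.c.mem)⁻¹ := eq_inv_of_mul_eq_one_right huu'
  have hk' : grdK M A hat.c'.mem = (grdK M A hat.c.mem)⁻¹ := eq_inv_of_mul_eq_one_right hkk'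
  have hu'0 : grdQ M hat.c'.mem ≠ 0 := right_ne_zero_of_mul_eq_one huu'
  have hk'0 : grdK M A hat.c'.mem ≠ 0 := right_ne_zero_of_mul_eq_one hkk'
  have h1 : 0 < P.ord (grdQ M hat.c'.mem) := by rw [hu', Place.ord_inv]; omega
  have h2 : GrdVal P (grdQ M hat.c'.mem) (((0 : A) : A) : AlgebraicClosure ℚ) := by
    rw [show (((0 : A) : A) : AlgebraicClosure ℚ) = 0 from rfl]
    exact (grdg_val_zero_iff_ord P hu'0).2 h1
  have hrel := (grd_isRed_rel M A hℓM hA hat r hr P).2 ⟨0, h2⟩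
  have h3 := grdf_rel_coord_zero M A hat.c'.mem P (r P) hrel 0 (Ideal.zero_mem _) h2
  have h4 := (grdg_val_zero_iff_ord (r P) hk'0).1 h3
  rw [hk', Place.ord_inv] at h4
  omega

/-- zeros of `u` reduce to zeros of `ū`. -/
theorem ffiv_zero (hℓM : ¬ ℓ ∣ M) (hA : A.LiesOverPrime ℓ) (hat : GrdAtlas M A τ τ')
    (r : Place (AlgebraicClosure ℚ) (modularFunctionFieldBar M) →
      Place (ResidueField A) (modularFunctionFieldFullC (ResidueField A) M))
    (hr : GrdIsRed M A hat.c.mem hat.c'.mem r)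
    (P : Place (AlgebraicClosure ℚ) (modularFunctionFieldBar M))
    (hP : 0 < P.ord (grdQ M hat.c.mem)) : 0 < (r P).ord (grdK M A hat.c.mem) := by
  have huu' := grda_grdQ_mul M A hat
  have hkk' := grda_grdK_mul M A hat
  have hu0 : grdQ M hat.c.mem ≠ 0 := left_ne_zero_of_mul_eq_one huu'
  have hk0 : grdK M A hat.c.mem ≠ 0 := left_ne_zero_of_mul_eq_one hkk'
  have h2 : GrdVal P (grdQ M hat.c.mem) (((0 : A) : A) : AlgebraicClosure ℚ) := by
    rw [show (((0 : A) : A) : AlgebraicClosure ℚ) = 0 from rfl]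
    exact (grdg_val_zero_iff_ord P hu0).2 hP
  have hrel := (hr P).1 ⟨0, h2⟩
  have h3 := grdf_rel_coord_zero M A hat.c.mem P (r P) hrel 0 (Ideal.zero_mem _) h2
  exact (grdg_val_zero_iff_ord (r P) hk0).1 h3

/-- **`r_* (u)_∞ = (ū)_∞`**. -/
theorem ffiv_polar (hℓM : ¬ ℓ ∣ M) (hA : A.LiesOverPrime ℓ) (hat : GrdAtlas M A τ τ')
    (r : Place (AlgebraicClosure ℚ) (modularFunctionFieldBar M) →
      Place (ResidueField A) (modularFunctionFieldFullC (ResidueField A) M))
    (hr : GrdIsRed M A hat.c.mem hat.c'.mem r) :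
    Finsupp.mapDomain r (ffilPolar hat.c.sepQ) = ffilPolar hat.c.sepK := by
  have huu' := grda_grdQ_mul M A hat
  have hkk' := grda_grdK_mul M A hat
  have hk0 : grdK M A hat.c.mem ≠ 0 := left_ne_zero_of_mul_eq_one hkk'
  -- the divisor of `u`
  have hfin : (Function.support fun P : Place (AlgebraicClosure ℚ) (modularFunctionFieldBar M) =>
      P.ord (grdQ M hat.c.mem)).Finite := by
    refine (hat.c.sepQ.finite_ord_pos.union hat.c.sepQ.inv.finite_ord_pos).subset fun P hP => ?_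
    simp only [Function.mem_support, ne_eq] at hP
    simp only [Set.mem_union, Set.mem_ofPred_eq, Place.ord_inv]
    omega
  refine ffil_mapDomain_polar hat.c.sepQ hat.c.sepK r
    (fun P hP => ffiv_pole M A hℓM hA hat r hr P hP)
    (fun P hP => (ffiv_zero M A hℓM hA hat r hr P hP).le)
    (Finsupp.ofSupportFinite _ hfin) (fun P => rfl) (fun Q => ?_)
  have h := ffip_div_mapDomain M A hℓM hA hat r hr ⟨grdQ M hat.c.mem, grdQ_mem_grdO M A hat.c.mem⟩
    (by rw [grdRed_grdQ]; exact hk0) (Finsupp.ofSupportFinite _ hfin) (fun P => rfl) Q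
  rw [grdRed_grdQ] at h
  exact h

/-- off the support of `r_* (u)_∞` the coordinate `ū` is regular. -/
theorem ffiv_mem_chart (hℓM : ¬ ℓ ∣ M) (hA : A.LiesOverPrime ℓ) (hat : GrdAtlas M A τ τ')
    (r : Place (AlgebraicClosure ℚ) (modularFunctionFieldBar M) →
      Place (ResidueField A) (modularFunctionFieldFullC (ResidueField A) M))
    (hr : GrdIsRed M A hat.c.mem hat.c'.mem r)
    (Q : Place (ResidueField A) (modularFunctionFieldFullC (ResidueField A) M))
    (hQ : Finsupp.mapDomain r (ffilPolar hat.c.sepQ) Q = 0) :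
    grdK M A hat.c.mem ∈ Q.toValuationSubring := by
  have hkk' := grda_grdK_mul M A hat
  have hk0 : grdK M A hat.c.mem ≠ 0 := left_ne_zero_of_mul_eq_one hkk'
  rw [ffiv_polar M A hℓM hA hat r hr] at hQ
  rw [grdg_mem_iff_ord Q hk0]
  by_contra hneg
  exact (ffil_polar_ne_zero_iff hat.c.sepK Q).2 (by omega) hQ

/-- **(P7) = (O7) : VALUES.**  An element `x` of `L(m·D_∞) ∩ grdO` has a value `x(P) = α ∈ 𝔸` at
every place `P` whose reduction is not a pole of `ū`, and `x̄(r P) = ᾱ`. -/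
theorem ffiv_val (hℓM : ¬ ℓ ∣ M) (hA : A.LiesOverPrime ℓ) (hat : GrdAtlas M A τ τ')
    (r : Place (AlgebraicClosure ℚ) (modularFunctionFieldBar M) →
      Place (ResidueField A) (modularFunctionFieldFullC (ResidueField A) M))
    (hr : GrdIsRed M A hat.c.mem hat.c'.mem r) (m : ℕ) (x : ↥(grdO M A))
    (hx : (x : modularFunctionFieldBar M) ∈
      riemannRochSpace ((m : ℤ) • ffilPolar hat.c.sepQ))
    (P : Place (AlgebraicClosure ℚ) (modularFunctionFieldBar M))
    (hP : Finsupp.mapDomain r (ffilPolar hat.c.sepQ) (r P) = 0) :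
    ∃ α : A, GrdVal P (x : modularFunctionFieldBar M) (α : AlgebraicClosure ℚ) ∧
      GrdVal (r P) (grdRed M A x) (residue A α) := by
  have hx1 := ((ffil_mem_rr_iff hat.c.sepQ (grda_grdQ_mul M A hat) m _).1 hx).1
  exact ffip_disc_val M A hℓM hA hat r hr (r P) (ffiv_mem_chart M A hℓM hA hat r hr (r P) hP) x
    (ffiv_isInt M A hℓM hA hat.c x hx1) P rfl

/-- (P7) with the `ℕ`-multiple `m • D_∞` (the spelling of `FfirModel.onto`). -/
theorem ffiv_val' (hℓM : ¬ ℓ ∣ M) (hA : A.LiesOverPrime ℓ) (hat : GrdAtlas M A τ τ')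
    (r : Place (AlgebraicClosure ℚ) (modularFunctionFieldBar M) →
      Place (ResidueField A) (modularFunctionFieldFullC (ResidueField A) M))
    (hr : GrdIsRed M A hat.c.mem hat.c'.mem r) (m : ℕ) (x : ↥(grdO M A))
    (hx : (x : modularFunctionFieldBar M) ∈ riemannRochSpace (m • ffilPolar hat.c.sepQ))
    (P : Place (AlgebraicClosure ℚ) (modularFunctionFieldBar M))
    (hP : Finsupp.mapDomain r (ffilPolar hat.c.sepQ) (r P) = 0) :
    ∃ α : A, GrdVal P (x : modularFunctionFieldBar M) (α : AlgebraicClosure ℚ) ∧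
      GrdVal (r P) (grdRed M A x) (residue A α) := by
  refine ffiv_val M A hℓM hA hat r hr m x ?_ P hP
  rwa [natCast_zsmul]

end Values

end Fermat.Agent.FF
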