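import Mathlib
import Fermat.Agent.FF.IntRR
import Fermat.Agent.G.Red.Val

/-!
# Program FF, leaf B2 (INTERP): interpolation at points in general position

Setting of `FF/IntRR.lean` (`FfirRed A O red`), `V ≤ F` a finite-dimensional `K`-subspace,
`Vk ≤ Fk` a `k`-subspace containing the reduction of `V ∩ O` with `dim_k Vk ≤ dim_K V`,
`P i` (`i : ι`, `#ι = dim_K V`) places of `F` such that

* (O7) `FfinVal` : every `x ∈ V ∩ O` has a value `x(P i) = α ∈ A` and `(red x)(r (P i)) = ᾱ`;
* general position : an element of `Vk` vanishing at all `r (P i)` is zero.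

Then (`ffin_main`) there is a family `b : ι → O` of elements of `V` with `b j (P i) = δ_ij`, which
is a `K`-basis of `V`, and whose reductions are a `k`-basis of `Vk`: ONTO, fullness and the
orthonormal basis at once.  If a semilinear automorphism fixes the points and stabilises `V`
it fixes the `b j` (`ffin_fixed`).  `ffin_onto` is the producer of the field `onto` of `FfirModel`.
-/

set_option autoImplicit false
set_option linter.unusedSectionVars false
set_option linter.unusedVariables false
set_option linter.style.haveILetI false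

noncomputable section

namespace Fermat.Agent.FF

open AlgebraicCurve IsLocalRing Module Fermat.Agent.G

variable {K : Type*} [Field K] {A : ValuationSubring K}
variable {F : Type*} [Field F] [Algebra K F]
variable {Fk : Type*} [Field Fk] [Algebra (ResidueField A) Fk]
variable {O : Subring F} {red : O →+* Fk}
variable {r : Place K F → Place (ResidueField A) Fk}

/-! ### Values -/

theorem ffin_val_zero {K F : Type*} [Field K] [Field F] [Algebra K F] (P : Place K F) :
    GrdVal P (0 : F) 0 := by
  show (0 : F) - algebraMap K F 0 ∈ _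
  rw [map_zero, sub_zero]
  exact zero_mem _

theorem ffin_val_smul {K F : Type*} [Field K] [Field F] [Algebra K F] (P : Place K F) {x : F}
    {a : K} (c : K) (hx : GrdVal P x a) : GrdVal P (algebraMap K F c * x) (c * a) :=
  grdg_val_mul P (grdg_val_algebraMap P c) hx

theorem ffin_val_sum {K F : Type*} [Field K] [Field F] [Algebra K F] (P : Place K F)
    {ι : Type*} (s : Finset ι) (x : ι → F) (a : ι → K) (hx : ∀ i ∈ s, GrdVal P (x i) (a i)) :
    GrdVal P (∑ i ∈ s, x i) (∑ i ∈ s, a i) := by
  classical
  induction s using Finset.induction_on with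
  | empty => simpa using ffin_val_zero P
  | insert i s hi ih =>
    rw [Finset.sum_insert hi, Finset.sum_insert hi]
    exact grdg_val_add P (hx i (Finset.mem_insert_self i s))
      (ih fun j hj => hx j (Finset.mem_insert_of_mem hj))

/-- values and semilinear automorphisms. -/
theorem ffin_val_smul_aut {K F : Type*} [Field K] [Field F] [Algebra K F] (σ : SemilinearAut K F)
    (P : Place K F) {x : F} {a : K} (hx : GrdVal P x a) :
    GrdVal (σ • P) (σ • x) (SemilinearAut.baseAut σ a) := by
  unfold GrdVal at hx ⊢
  have h1 : σ • x - algebraMap K F (SemilinearAut.baseAut σ a) = σ • (x - algebraMap K F a) := by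
    rw [smul_sub, SemilinearAut.smul_algebraMap]
  rw [h1, SemilinearAut.smul_toValuationSubring, ValuationSubring.mem_nonunits_iff_or]
  rw [ValuationSubring.mem_nonunits_iff_or] at hx
  rcases hx with h0 | h0
  · left
    rw [h0, smul_zero]
  · right
    intro hmem
    apply h0
    have := (ValuationSubring.mem_pointwise_smul_iff_inv_smul_mem (g := σ)
      (S := P.toValuationSubring) (x := (σ • (x - algebraMap K F a))⁻¹)).mp hmem
    rwa [← smul_inv'', inv_smul_smul] at this

/-! ### The interpolation theorem -/

/-- (O7) at the points `P i` : values of the elements of `V ∩ O` are in `A` and commute with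
reduction. -/
def FfinVal (red : O →+* Fk) (r : Place K F → Place (ResidueField A) Fk) (V : Submodule K F)
    {ι : Type*} (P : ι → Place K F) : Prop :=
  ∀ x : O, ((x : O) : F) ∈ V → ∀ i, ∃ α : A, GrdVal (P i) ((x : O) : F) (α : K) ∧
    GrdVal (r (P i)) (red x) (residue A α)

section Main

variable (h : FfirRed A O red) (V : Submodule K F) (Vk : Submodule (ResidueField A) Fk)
variable {ι : Type*} [Fintype ι] (P : ι → Place K F)

include h

/-- every element of `V` has a value at every `P i`. -/
theorem ffin_exists_val (hval : FfinVal red r V P) (x : F) (hx : x ∈ V) (i : ι) :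
    ∃ a : K, GrdVal (P i) x a := by
  by_cases hx0 : x = 0
  · exact ⟨0, hx0 ▸ ffin_val_zero (P i)⟩
  obtain ⟨c, hc, hmem, -⟩ := h.scale x hx0
  have hyV : algebraMap K F c * x ∈ V := by rw [← Algebra.smul_def]; exact V.smul_mem _ hx
  obtain ⟨α, hα, -⟩ := hval ⟨algebraMap K F c * x, hmem⟩ hyV i
  refine ⟨c⁻¹ * α, ?_⟩
  have := ffin_val_smul (P i) c⁻¹ hα
  rwa [← mul_assoc, ← map_mul, inv_mul_cancel₀ hc, map_one, one_mul] at this

/-- **injectivity of the evaluation** : an element of `V` vanishing at all `P i` is zero. -/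
theorem ffin_eq_zero_of_val_zero (hredV : ∀ x : O, ((x : O) : F) ∈ V → red x ∈ Vk)
    (hval : FfinVal red r V P)
    (hgen : ∀ c ∈ Vk, (∀ i, GrdVal (r (P i)) c 0) → c = 0) (x : F) (hx : x ∈ V)
    (hx0 : ∀ i, GrdVal (P i) x 0) : x = 0 := by
  by_contra hne
  obtain ⟨c, hc, hmem, hred⟩ := h.scale x hne
  have hyV : algebraMap K F c * x ∈ V := by rw [← Algebra.smul_def]; exact V.smul_mem _ hx
  apply hred
  apply hgen _ (hredV ⟨algebraMap K F c * x, hmem⟩ hyV)
  intro i
  obtain ⟨α, hα, hαk⟩ := hval ⟨algebraMap K F c * x, hmem⟩ hyV i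
  have h1 := ffin_val_smul (P i) c (hx0 i)
  rw [mul_zero] at h1
  have h2 : (α : K) = 0 := grdg_val_unique (P i) hα h1
  have h3 : α = 0 := Subtype.ext h2
  rw [h3, map_zero] at hαk
  exact hαk

variable [DecidableEq ι]

/-- **(INTERP)** the orthonormal interpolation basis. -/
theorem ffin_main [FiniteDimensional K V] [FiniteDimensional (ResidueField A) Vk]
    (hredV : ∀ x : O, ((x : O) : F) ∈ V → red x ∈ Vk)
    (hVk : finrank (ResidueField A) Vk ≤ finrank K V)
    (hcard : Fintype.card ι = finrank K V) (hval : FfinVal red r V P)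
    (hgen : ∀ c ∈ Vk, (∀ i, GrdVal (r (P i)) c 0) → c = 0) :
    ∃ b : ι → O, (∀ j, ((b j : O) : F) ∈ V) ∧
      (∀ i j, GrdVal (P i) ((b j : O) : F) (if i = j then 1 else 0)) ∧
      LinearIndependent (ResidueField A) (fun j => red (b j)) ∧
      Submodule.span (ResidueField A) (Set.range fun j => red (b j)) = Vk ∧
      LinearIndependent K (fun j => ((b j : O) : F)) ∧
      Submodule.span K (Set.range fun j => ((b j : O) : F)) = V := by
  classical
  -- the evaluation map
  have hex : ∀ (x : V) (i : ι), ∃ a : K, GrdVal (P i) (x : F) a := fun x i =>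
    ffin_exists_val h V P hval x x.2 i
  choose e he using hex
  let ev : V →ₗ[K] (ι → K) :=
    { toFun := fun x i => e x i
      map_add' := fun x y => funext fun i =>
        grdg_val_unique (P i) (he (x + y) i) (grdg_val_add (P i) (he x i) (he y i))
      map_smul' := fun c x => funext fun i => by
        have h1 := ffin_val_smul (P i) c (he x i)
        rw [← Algebra.smul_def] at h1
        exact grdg_val_unique (P i) (he (c • x) i) h1 }
  have hev : ∀ (x : V) (i : ι), ev x i = e x i := fun _ _ => rfl
  have hinj : Function.Injective ev := by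
    rw [← LinearMap.ker_eq_bot, LinearMap.ker_eq_bot']
    intro x hx
    have : (x : F) = 0 := ffin_eq_zero_of_val_zero h V Vk P hredV hval hgen x x.2 fun i => by
      have := he x i
      rw [← hev, hx] at this
      exact this
    exact Subtype.ext this
  have hsurj : Function.Surjective ev := by
    refine (LinearMap.injective_iff_surjective_of_finrank_eq_finrank ?_).mp hinj
    rw [Module.finrank_fintype_fun_eq_card, hcard]
  -- the preimages of the unit vectors
  choose x hx using fun j : ι => hsurj (Pi.single j 1)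
  have hxval : ∀ i j, GrdVal (P i) ((x j : V) : F) (if i = j then 1 else 0) := by
    intro i j
    have := he (x j) i
    rw [← hev, hx j, Pi.single_apply] at this
    exact this
  -- they lie in `O`
  have hxO : ∀ j, ((x j : V) : F) ∈ O := by
    intro j
    have hxj0 : ((x j : V) : F) ≠ 0 := by
      intro h0
      have := grdg_val_unique (P j) (hxval j j) (h0 ▸ ffin_val_zero (P j))
      rw [if_pos rfl] at this
      exact one_ne_zero this
    obtain ⟨c, hc, hmem, hred⟩ := h.scale _ hxj0
    have hyV : algebraMap K F c * ((x j : V) : F) ∈ V := by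
      rw [← Algebra.smul_def]; exact V.smul_mem _ (x j).2
    -- the values of `y = c x j`
    have hyval : ∀ i, ∃ α : A, (α : K) = c * (if i = j then 1 else 0) ∧
        GrdVal (r (P i)) (red ⟨algebraMap K F c * ((x j : V) : F), hmem⟩) (residue A α) := by
      intro i
      obtain ⟨α, hα, hαk⟩ := hval ⟨_, hmem⟩ hyV i
      exact ⟨α, grdg_val_unique (P i) hα (ffin_val_smul (P i) c (hxval i j)), hαk⟩
    obtain ⟨αj, hαj, -⟩ := hyval j
    rw [if_pos rfl, mul_one] at hαj
    have hcA : c ∈ A := hαj ▸ αj.2
    have hresc : residue A ⟨c, hcA⟩ ≠ 0 := by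
      intro hres
      apply hred
      apply hgen _ (hredV ⟨_, hmem⟩ hyV)
      intro i
      obtain ⟨α, hα, hαk⟩ := hyval i
      have : residue A α = 0 := by
        by_cases hij : i = j
        · have : α = ⟨c, hcA⟩ := Subtype.ext (by rw [hα, if_pos hij, mul_one])
          rw [this, hres]
        · have : α = 0 := Subtype.ext (by rw [hα, if_neg hij, mul_zero]; rfl)
          rw [this, map_zero]
      rw [this] at hαk
      exact hαk
    have hunit : IsUnit (⟨c, hcA⟩ : A) := by
      by_contra hnu
      exact hresc ((residue_eq_zero_iff _).mpr hnu)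
    have hv1 : A.valuation c = 1 := (A.valuation_eq_one_iff ⟨c, hcA⟩).mp hunit
    have hinvA : c⁻¹ ∈ A := by
      rw [← A.valuation_le_one_iff, map_inv₀, hv1, inv_one]
    have : ((x j : V) : F) = algebraMap K F c⁻¹ * (algebraMap K F c * ((x j : V) : F)) := by
      rw [← mul_assoc, ← map_mul, inv_mul_cancel₀ hc, map_one, one_mul]
    rw [this]
    exact O.mul_mem (h.const_mem ⟨c⁻¹, hinvA⟩) hmem
  set b : ι → O := fun j => ⟨((x j : V) : F), hxO j⟩ with hb
  have hbV : ∀ j, ((b j : O) : F) ∈ V := fun j => (x j).2
  -- the values of the reductions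
  have hbk : ∀ i j, GrdVal (r (P i)) (red (b j)) (if i = j then 1 else 0) := by
    intro i j
    obtain ⟨α, hα, hαk⟩ := hval (b j) (hbV j) i
    have h1 : (α : K) = if i = j then 1 else 0 := grdg_val_unique (P i) hα (hxval i j)
    have h2 : residue A α = if i = j then 1 else 0 := by
      split_ifs with hij
      · have : α = 1 := Subtype.ext (by rw [h1, if_pos hij]; rfl)
        rw [this, map_one]
      · have : α = 0 := Subtype.ext (by rw [h1, if_neg hij]; rfl)
        rw [this, map_zero]
    rw [h2] at hαk
    exact hαk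
  have hind : LinearIndependent (ResidueField A) (fun j => red (b j)) := by
    rw [Fintype.linearIndependent_iff]
    intro a ha i
    have h1 : GrdVal (r (P i)) (∑ j, a j • red (b j)) (∑ j, a j * (if i = j then 1 else 0)) := by
      refine ffin_val_sum (r (P i)) Finset.univ _ _ fun j _ => ?_
      rw [Algebra.smul_def]
      exact ffin_val_smul (r (P i)) (a j) (hbk i j)
    rw [ha] at h1
    have h2 := grdg_val_unique (r (P i)) h1 (ffin_val_zero (r (P i)))
    rw [Finset.sum_eq_single i] at h2
    · rwa [if_pos rfl, mul_one] at h2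
    · intro j _ hj
      rw [if_neg (Ne.symm hj), mul_zero]
    · intro hnot
      exact absurd (Finset.mem_univ _) hnot
  have hK := ffir_linearIndependent h b hind
  refine ⟨b, hbV, hxval, hind, ?_, hK, ?_⟩
  · have hle : Submodule.span (ResidueField A) (Set.range fun j => red (b j)) ≤ Vk :=
      Submodule.span_le.mpr (by rintro _ ⟨j, rfl⟩; exact hredV (b j) (hbV j))
    apply Submodule.eq_of_le_of_finrank_le hle
    rw [finrank_span_eq_card hind, hcard]
    exact hVk
  · have hle : Submodule.span K (Set.range fun j => ((b j : O) : F)) ≤ V :=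
      Submodule.span_le.mpr (by rintro _ ⟨j, rfl⟩; exact hbV j)
    apply Submodule.eq_of_le_of_finrank_eq hle
    rw [finrank_span_eq_card hK, hcard]

/-- the interpolation basis is fixed by every semilinear automorphism fixing the points and
stabilising `V`. -/
theorem ffin_fixed (hredV : ∀ x : O, ((x : O) : F) ∈ V → red x ∈ Vk) (hval : FfinVal red r V P)
    (hgen : ∀ c ∈ Vk, (∀ i, GrdVal (r (P i)) c 0) → c = 0) (σ : SemilinearAut K F)
    (hσP : ∀ i, σ • P i = P i) (hσV : ∀ x ∈ V, σ • x ∈ V) (y : F) (hy : y ∈ V) (j : ι)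
    (hyval : ∀ i, GrdVal (P i) y (if i = j then 1 else 0)) : σ • y = y := by
  have hz : σ • y - y = 0 := by
    refine ffin_eq_zero_of_val_zero h V Vk P hredV hval hgen _ (V.sub_mem (hσV y hy) hy)
      fun i => ?_
    have h1 := ffin_val_smul_aut σ (P i) (hyval i)
    rw [hσP i] at h1
    have h2 : SemilinearAut.baseAut σ (if i = j then (1 : K) else 0) = if i = j then 1 else 0 := by
      split_ifs
      · exact map_one _
      · exact map_zero _
    rw [h2] at h1
    have := grdg_val_add (P i) h1 (grdg_val_neg (P i) (hyval i))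
    rwa [← sub_eq_add_neg, add_neg_cancel] at this
  exact sub_eq_zero.mp hz

end Main

/-! ### The producer of the field `onto` of `FfirModel` -/

section Onto

variable {G : Type*} [Group G]

/-- a semilinear automorphism fixing the divisor `X` stabilises `L(X)`. -/
theorem ffin_rrSpace_smul (σ : SemilinearAut K F) {X : Divisor K F} (hX : σ • X = X) {f : F}
    (hf : f ∈ riemannRochSpace X) : σ • f ∈ riemannRochSpace X := by
  rw [mem_riemannRochSpace_iff] at hf ⊢
  intro v
  by_cases hf0 : f = 0
  · left; rw [hf0, smul_zero]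
  right
  have h1 := (hf (σ⁻¹ • v)).resolve_left hf0
  have h2 : v.ord (σ • f) = (σ⁻¹ • v).ord f := by
    have := SemilinearAut.ord_smul σ (σ⁻¹ • v) f
    rwa [smul_inv_smul] at this
  have h3 : X v = X (σ⁻¹ • v) := by
    conv_lhs => rw [← hX]
    exact SemilinearAut.divisor_smul_apply σ X v
  rw [h2, h3]
  exact h1

/-- **(INTERP) ⟹ ONTO with fixed lifts** : the literal of the field `onto` of `FfirModel` for the
divisor `X`, from the value axiom at points in general position. -/
theorem ffin_onto (h : FfirRed A O red) (hdiv : FfirDiv (A := A) red r)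
    [HasPrincipalDivisors K F] (ρ : G →* SemilinearAut K F) (X : Divisor K F)
    [FiniteDimensional K (riemannRochSpace X)]
    [FiniteDimensional (ResidueField A) (riemannRochSpace (Finsupp.mapDomain r X))]
    (hVk : finrank (ResidueField A) (riemannRochSpace (Finsupp.mapDomain r X)) ≤
      finrank K (riemannRochSpace X))
    {ι : Type*} [Fintype ι] (P : ι → Place K F)
    (hcard : Fintype.card ι = finrank K (riemannRochSpace X))
    (hval : FfinVal red r (riemannRochSpace X) P)
    (hgen : ∀ c ∈ riemannRochSpace (Finsupp.mapDomain r X),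
      (∀ i, GrdVal (r (P i)) c 0) → c = 0)
    (hPfix : ∀ (σ : G) i, ρ σ • P i = P i) (hXfix : ∀ σ : G, ρ σ • X = X)
    (hW : ∀ κ : ResidueField A, ∃ a : A, residue A a = κ ∧
      ∀ σ : G, SemilinearAut.baseAut (ρ σ) (a : K) = a) :
    ∀ c ∈ riemannRochSpace (Finsupp.mapDomain r X),
      ∃ x : O, ((x : O) : F) ∈ riemannRochSpace X ∧ red x = c ∧
        ∀ σ : G, ρ σ • ((x : O) : F) = x := by
  classical
  have hredV : ∀ x : O, ((x : O) : F) ∈ riemannRochSpace X →
      red x ∈ riemannRochSpace (Finsupp.mapDomain r X) := fun x hx =>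
    ffir_red_mem_rrSpace hdiv X x hx
  obtain ⟨b, hbV, hbval, hbk, hspank, hbK, hspanK⟩ :=
    ffin_main h (riemannRochSpace X) (riemannRochSpace (Finsupp.mapDomain r X)) P hredV hVk
      hcard hval hgen
  have hbfix : ∀ (σ : G) j, ρ σ • ((b j : O) : F) = b j := fun σ j =>
    ffin_fixed h (riemannRochSpace X) (riemannRochSpace (Finsupp.mapDomain r X)) P hredV hval
      hgen (ρ σ) (hPfix σ) (fun x hx => ffin_rrSpace_smul (ρ σ) (hXfix σ) hx) _ (hbV j) j
      (fun i => hbval i j)
  intro c hc
  rw [← hspank] at hc
  obtain ⟨κ, hκ⟩ := (Submodule.mem_span_range_iff_exists_fun (ResidueField A)).mp hc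
  choose w hw hwfix using fun j => hW (κ j)
  refine ⟨∑ j, ffirC h (w j) * b j, ?_, ?_, fun σ => ?_⟩
  · rw [AddSubmonoidClass.coe_finsetSum]
    refine Submodule.sum_mem _ fun j _ => ?_
    rw [Subring.coe_mul, ffirC_coe, ← Algebra.smul_def]
    exact Submodule.smul_mem _ _ (hbV j)
  · rw [ffir_red_sum, ← hκ]
    exact Finset.sum_congr rfl fun j _ => by rw [hw j]
  · rw [AddSubmonoidClass.coe_finsetSum, Finset.smul_sum]
    refine Finset.sum_congr rfl fun j _ => ?_
    rw [Subring.coe_mul, ffirC_coe, smul_mul', SemilinearAut.smul_algebraMap, hwfix j σ,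
      hbfix σ j]

/-- general position in divisor form (the output shape of `ffkg_general_position`) gives the
hypothesis `hgen` of `ffin_main`. -/
theorem ffin_gen_of_divisor {k Fk : Type*} [Field k] [Field Fk] [Algebra k Fk]
    (Xk E : Divisor k Fk) (hE1 : ∀ Q, E Q ≤ 1)
    (hoff : ∀ Q, E Q ≠ 0 → Xk Q = 0) (hbot : riemannRochSpace (Xk - E) = ⊥) (c : Fk)
    (hc : c ∈ riemannRochSpace Xk) (hc0 : ∀ Q ∈ E.support, GrdVal Q c 0) : c = 0 := by
  by_contra hne
  have : c ∈ riemannRochSpace (Xk - E) := by
    rw [mem_riemannRochSpace_iff]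
    intro Q
    right
    have h1 := ((mem_riemannRochSpace_iff.mp hc) Q).resolve_left hne
    rw [Finsupp.sub_apply]
    by_cases hEQ : E Q = 0
    · rw [hEQ, sub_zero]; exact h1
    · have h2 := (grdg_val_zero_iff_ord Q hne).mp (hc0 Q (Finsupp.mem_support_iff.mpr hEQ))
      have h3 := hE1 Q
      rw [hoff Q hEQ]
      omega
  rw [hbot] at this
  exact hne ((Submodule.mem_bot _).mp this)

/-- the number of points of a reduced effective divisor is its degree. -/
theorem ffin_card_support {k Fk : Type*} [Field k] [Field Fk] [Algebra k Fk]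
    (hdegk : ∀ Q : Place k Fk, Q.deg = 1) (E : Divisor k Fk) (hE0 : 0 ≤ E) (hE1 : ∀ Q, E Q ≤ 1) :
    (E.support.card : ℤ) = Divisor.degree E := by
  classical
  have hval : ∀ Q ∈ E.support, E Q = 1 := by
    intro Q hQ
    have h0 : 0 ≤ E Q := hE0 Q
    have h1 := hE1 Q
    have h2 : E Q ≠ 0 := Finsupp.mem_support_iff.mp hQ
    omega
  have : Divisor.degree E = ∑ Q ∈ E.support, E Q * (Q.deg : ℤ) := by
    unfold Divisor.degree
    rw [Finsupp.liftAddHom_apply, Finsupp.sum]
    rfl
  rw [this, Finset.sum_congr rfl fun Q hQ => by rw [hval Q hQ, hdegk Q, Nat.cast_one, mul_one]]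
  simp

end Onto

end Fermat.Agent.FF
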