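import Mathlib
import Fermat.Agent.FF.KMGeneral

/-!
# Program FF (S19): general position, points version

Owner: helper28.  Namespace `Fermat.Agent.FF`, prefix `ffkp`.

`ffkp_general_position` : the statement of `ffkg_general_position` with the reduced effective
divisor `E` given by an injective family of points `pts : Fin r → Place K F` off a finite set `T`;
`ffkp_kill` : `r = l(X)` points off `T` with `L(X - ∑ pts) = ⊥` and, for each `j`, a section of
`L(X)` vanishing at all points but `pts j` (interpolation basis).
-/

set_option autoImplicit false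
set_option linter.unusedSectionVars false
set_option linter.unusedVariables false

noncomputable section

namespace Fermat.Agent.FF

open AlgebraicCurve Module Fermat.Agent.V.RR Fermat.Agent.V Fermat.Agent.MW17

variable {K F : Type*} [Field K] [Field F] [Algebra K F] {g : ℕ}

/-- general position with points -/
theorem ffkp_general_position [Infinite K] (R : V27RR K F g)
    (hdeg1 : ∀ v : Place K F, v.deg = 1) {ι : Type*} [Finite ι] (X : ι → Divisor K F)
    (T : Finset (Place K F)) (r : ℕ) (hr : ∀ i, r ≤ finrank K (riemannRochSpace (X i))) :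
    ∃ pts : Fin r → Place K F, Function.Injective pts ∧ (∀ j, pts j ∉ T) ∧
      ∀ i, finrank K (riemannRochSpace (X i - ∑ j, Finsupp.single (pts j) 1)) + r =
        finrank K (riemannRochSpace (X i)) := by
  classical
  cases nonempty_fintype ι
  induction r with
  | zero =>
    refine ⟨Fin.elim0, fun a => a.elim0, fun a => a.elim0, fun i => ?_⟩
    rw [Finset.univ_eq_empty, Finset.sum_empty, sub_zero, add_zero]
  | succ r ih =>
    obtain ⟨pts, hinj, hT, hl⟩ := ih fun i => (Nat.le_succ r).trans (hr i)
    set E : Divisor K F := ∑ j, Finsupp.single (pts j) 1 with hE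
    have hpos : ∀ i, 0 < finrank K (riemannRochSpace (X i - E)) := by
      intro i
      have := hl i
      have := hr i
      omega
    choose S hS using fun i => ffkg_exists_finset_good R hdeg1 (X i - E) (hpos i)
    obtain ⟨P, hP⟩ := ffkg_exists_place_not_mem R hdeg1
      (T ∪ Finset.univ.image pts ∪ Finset.univ.biUnion S)
    rw [Finset.mem_union, Finset.mem_union, not_or, not_or] at hP
    obtain ⟨⟨hPT, hPE⟩, hPS⟩ := hP
    refine ⟨Fin.cons P pts, ?_, ?_, ?_⟩
    · rw [Fin.cons_injective_iff]
      refine ⟨?_, hinj⟩
      rintro ⟨j, hj⟩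
      exact hPE (Finset.mem_image.mpr ⟨j, Finset.mem_univ j, hj⟩)
    · intro j
      refine Fin.cases ?_ (fun j => ?_) j
      · simpa using hPT
      · simpa using hT j
    · intro i
      have h1 := hS i P (fun h => hPS (Finset.mem_biUnion.mpr ⟨i, Finset.mem_univ i, h⟩))
      have h2 := hl i
      have e : X i - ∑ j, Finsupp.single ((Fin.cons P pts : Fin (r + 1) → Place K F) j) 1 =
          X i - E - Finsupp.single P 1 := by
        rw [Fin.sum_univ_succ]
        simp only [Fin.cons_zero, Fin.cons_succ]
        rw [← hE]
        abel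
      rw [e]
      omega

/-- **killing a Riemann-Roch space by `l(X)` general points** : for `n = l(X)` there are `n`
distinct points off `T` with `L(X - ∑ pts) = ⊥`. -/
theorem ffkp_kill [Infinite K] (R : V27RR K F g) (hdeg1 : ∀ v : Place K F, v.deg = 1)
    (X : Divisor K F) (T : Finset (Place K F)) {n : ℕ}
    (hn : finrank K (riemannRochSpace X) = n) :
    ∃ pts : Fin n → Place K F, Function.Injective pts ∧ (∀ j, pts j ∉ T) ∧
      riemannRochSpace (X - ∑ j, Finsupp.single (pts j) 1) = ⊥ := by
  obtain ⟨pts, hinj, hT, hl⟩ := ffkp_general_position R hdeg1 (fun _ : Unit => X) T n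
    (fun _ => hn.ge)
  refine ⟨pts, hinj, hT, ?_⟩
  have h := hl ()
  have hfin : Module.Finite K (riemannRochSpace (X - ∑ j, Finsupp.single (pts j) 1)) := R.finL _
  apply Submodule.finrank_eq_zero.mp
  omega

end Fermat.Agent.FF
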