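import Mathlib
import Fermat.Agent.FF.Interp
import Fermat.Agent.FF.KMPoints

/-!
# Program FF, leaf B2 (INTERP), top layer: the field `onto` of `FfirModel` in one call

`ffin_onto_model` : in the setting of `FF/IntRR.lean`, Riemann–Roch on both fibres with the same
genus, all places of degree one, an infinite residue field, a `G`-fixed effective divisor `Dinf`,

* (weak lift) off a finite set `S` of places of the special fibre every place has a `G`-fixed lift,
* (O7) elements of `L(m • Dinf) ∩ O` have integral values commuting with reduction at all places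
  whose reduction is off the support of `r_* Dinf`,
* (W-res) every residue class has a `G`-fixed representative,

give the field `onto` of `FfirModel` verbatim.  The points of interpolation are chosen in general
position on the special fibre (`ffkp_general_position`), off `S` and off the support of `r_* Dinf`,
and lifted by the weak lifting hypothesis.
-/

set_option autoImplicit false
set_option linter.unusedSectionVars false
set_option linter.unusedVariables false
set_option linter.style.haveILetI false

noncomputable section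

namespace Fermat.Agent.FF

open AlgebraicCurve IsLocalRing Module Fermat.Agent.G Fermat.Agent.V.RR

variable {K : Type*} [Field K] {A : ValuationSubring K}
variable {F : Type*} [Field F] [Algebra K F]
variable {Fk : Type*} [Field Fk] [Algebra (ResidueField A) Fk]
variable {O : Subring F} {red : O →+* Fk}
variable {r : Place K F → Place (ResidueField A) Fk}
variable {G : Type*} [Group G] {g : ℕ}

/-- the degree of an effective divisor is nonnegative. -/
theorem ffin_degree_nonneg {k Fk : Type*} [Field k] [Field Fk] [Algebra k Fk]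
    {D : Divisor k Fk} (hD : 0 ≤ D) : 0 ≤ Divisor.degree D := by
  classical
  have : Divisor.degree D = ∑ Q ∈ D.support, D Q * (Q.deg : ℤ) := by
    unfold Divisor.degree
    rw [Finsupp.liftAddHom_apply, Finsupp.sum]
    rfl
  rw [this]
  apply Finset.sum_nonneg
  intro Q _
  exact mul_nonneg (hD Q) (Int.natCast_nonneg _)

open Classical in
/-- the reduced divisor of an injective family of points. -/
theorem ffin_sum_single_apply {k Fk : Type*} [Field k] [Field Fk] [Algebra k Fk] {n : ℕ}
    (pts : Fin n → Place k Fk) (hinj : Function.Injective pts) (Q : Place k Fk) :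
    (∑ j, Finsupp.single (pts j) (1 : ℤ) : Divisor k Fk) Q = if ∃ j, pts j = Q then 1 else 0 := by
  classical
  rw [Finsupp.finsetSum_apply]
  split_ifs with hQ
  · obtain ⟨j, rfl⟩ := hQ
    rw [Finset.sum_eq_single j]
    · simp
    · intro i _ hij
      rw [Finsupp.single_apply, if_neg]
      exact fun h => hij (hinj h)
    · intro hj
      exact absurd (Finset.mem_univ j) hj
  · apply Finset.sum_eq_zero
    intro i _
    rw [Finsupp.single_apply, if_neg]
    exact fun h => hQ ⟨i, h⟩

/-- **the field `onto` of `FfirModel`** from the weak lifting property, (O7) and (W-res). -/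
theorem ffin_onto_model (h : FfirRed A O red) (hdiv : FfirDiv (A := A) red r)
    [Infinite (ResidueField A)]
    (RR : V27RR K F g) (RRk : V27RR (ResidueField A) Fk g)
    (hdeg : ∀ P : Place K F, P.deg = 1) (hdegk : ∀ Q : Place (ResidueField A) Fk, Q.deg = 1)
    (ρ : G →* SemilinearAut K F) (Dinf : Divisor K F) (hDnn : 0 ≤ Dinf)
    (hDfix : ∀ σ : G, ρ σ • Dinf = Dinf)
    (hlift : ∃ S : Finset (Place (ResidueField A) Fk), ∀ Q, Q ∉ S →
      ∃ P : Place K F, r P = Q ∧ ∀ σ : G, ρ σ • P = P)
    (hval : ∀ (m : ℕ) (x : O), ((x : O) : F) ∈ riemannRochSpace (m • Dinf) →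
      ∀ P : Place K F, Finsupp.mapDomain r Dinf (r P) = 0 →
        ∃ α : A, GrdVal P ((x : O) : F) (α : K) ∧ GrdVal (r P) (red x) (residue A α))
    (hW : ∀ κ : ResidueField A, ∃ a : A, residue A a = κ ∧
      ∀ σ : G, SemilinearAut.baseAut (ρ σ) (a : K) = a)
    (m0 : ℕ) (hm0 : 2 * (g : ℤ) - 2 < m0 * Divisor.degree Dinf) :
    ∀ m : ℕ, m0 ≤ m → ∀ c ∈ riemannRochSpace (m • Finsupp.mapDomain r Dinf),
      ∃ x : O, ((x : O) : F) ∈ riemannRochSpace (m • Dinf) ∧ red x = c ∧
        ∀ σ : G, ρ σ • ((x : O) : F) = x := by
  classical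
  intro m hm c hc
  haveI := RR.hasDiv
  haveI : FiniteDimensional K (riemannRochSpace (m • Dinf)) := RR.finL _
  haveI : FiniteDimensional (ResidueField A)
      (riemannRochSpace (Finsupp.mapDomain r (m • Dinf))) := RRk.finL _
  -- degrees
  have hd0 : 0 ≤ Divisor.degree Dinf := ffin_degree_nonneg hDnn
  have hdX : Divisor.degree (m • Dinf) = m * Divisor.degree Dinf := by
    rw [map_nsmul, nsmul_eq_mul]
  have hmd : 2 * (g : ℤ) - 2 < Divisor.degree (m • Dinf) := by
    rw [hdX]
    have : (m0 : ℤ) * Divisor.degree Dinf ≤ m * Divisor.degree Dinf :=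
      mul_le_mul_of_nonneg_right (by exact_mod_cast hm) hd0
    linarith
  have hdXk : Divisor.degree (Finsupp.mapDomain r (m • Dinf)) = Divisor.degree (m • Dinf) :=
    ffir_degree_mapDomain r hdeg hdegk _
  have hl := (RR.finrank_of_lt hmd).1
  have hlk := (RRk.finrank_of_lt (by rw [hdXk]; exact hmd)).1
  have hfin : finrank (ResidueField A) (riemannRochSpace (Finsupp.mapDomain r (m • Dinf))) =
      finrank K (riemannRochSpace (m • Dinf)) := by
    have : (finrank (ResidueField A)
        (riemannRochSpace (Finsupp.mapDomain r (m • Dinf))) : ℤ) =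
        finrank K (riemannRochSpace (m • Dinf)) := by rw [hl, hlk, hdXk]
    exact_mod_cast this
  set n := finrank K (riemannRochSpace (m • Dinf)) with hn
  -- points in general position
  obtain ⟨S, hS⟩ := hlift
  obtain ⟨pts, hinj, hoffT, hgp⟩ := ffkp_general_position RRk hdegk
    (fun _ : Unit => Finsupp.mapDomain r (m • Dinf))
    (S ∪ (Finsupp.mapDomain r Dinf).support) n (fun _ => hfin.ge)
  have hgp' := hgp ()
  have hbot : riemannRochSpace (Finsupp.mapDomain r (m • Dinf) -
      ∑ j, Finsupp.single (pts j) (1 : ℤ)) = ⊥ := by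
    haveI : FiniteDimensional (ResidueField A) (riemannRochSpace
      (Finsupp.mapDomain r (m • Dinf) - ∑ j, Finsupp.single (pts j) (1 : ℤ))) := RRk.finL _
    apply Submodule.finrank_eq_zero.mp
    omega
  have hoffS : ∀ j, pts j ∉ S := fun j hj => hoffT j (Finset.mem_union_left _ hj)
  have hoffD : ∀ j, Finsupp.mapDomain r Dinf (pts j) = 0 := by
    intro j
    by_contra hne
    exact hoffT j (Finset.mem_union_right _ (Finsupp.mem_support_iff.mpr hne))
  -- the lifts
  choose P hrP hPfix using fun j => hS (pts j) (hoffS j)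
  have hXfix : ∀ σ : G, ρ σ • (m • Dinf) = m • Dinf := by
    intro σ
    rw [smul_comm, hDfix σ]
  have hvalP : FfinVal red r (riemannRochSpace (m • Dinf)) P := by
    intro x hx i
    exact hval m x hx (P i) (by rw [hrP i]; exact hoffD i)
  have hgen : ∀ c ∈ riemannRochSpace (Finsupp.mapDomain r (m • Dinf)),
      (∀ i, GrdVal (r (P i)) c 0) → c = 0 := by
    intro c hc hc0
    refine ffin_gen_of_divisor (Finsupp.mapDomain r (m • Dinf))
      (∑ j, Finsupp.single (pts j) (1 : ℤ)) ?_ ?_ hbot c hc ?_
    · intro Q
      rw [ffin_sum_single_apply pts hinj Q]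
      split_ifs <;> norm_num
    · intro Q hQ
      rw [ffin_sum_single_apply pts hinj Q] at hQ
      split_ifs at hQ with hex
      · obtain ⟨j, rfl⟩ := hex
        rw [ffir_mapDomain_nsmul, Finsupp.smul_apply, hoffD j, smul_zero]
      · exact absurd rfl hQ
    · intro Q hQ
      have hQ' := Finsupp.mem_support_iff.mp hQ
      rw [ffin_sum_single_apply pts hinj Q] at hQ'
      split_ifs at hQ' with hex
      · obtain ⟨j, rfl⟩ := hex
        rw [← hrP j]
        exact hc0 j
      · exact absurd rfl hQ'
  have hc' : c ∈ riemannRochSpace (Finsupp.mapDomain r (m • Dinf)) := by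
    rwa [ffir_mapDomain_nsmul]
  exact ffin_onto h hdiv ρ (m • Dinf) hfin.le P (by rw [Fintype.card_fin]) hvalP hgen
    (fun σ i => hPfix i σ) hXfix hW c hc'

end Fermat.Agent.FF
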