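import Fermat.Agent.FF.Spec2
import Fermat.Agent.G.Open.Main
import Fermat.Agent.V.Div.Modular
import Fermat.Agent.S27

/-!
# PROGRAM FF: the top assembly of S19 from the `Spec` arrows (plug test of the interface)

Owner: helper16.  Every leaf of the program enters as ONE hypothesis (a `Prop` of `FF/Spec.lean`,
`FF/Spec2.lean`):

* `hLit  : FfLitSpec ℓ`        (A1, helper7)
* `hSub  : FfSubSpec ℓ`, `hQuot : FfQuotSpec ℓ`   (A2, helper9)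
* `hDesc : FfDescentSpec2 ℓ`   (A3 + A4, helper23)
* `hLvl`  : the level change for `ℓ ∈ {2, 3}`   (A5, helper3)
* `hCore : FfCoreAll ℓ`        (B + C, helper10 + helper1 + ...)

and `fftp_s19` is the literal of statement S19.
-/

set_option autoImplicit false

namespace Fermat.Agent.FF

open ModularCurve AlgebraicCurve

/-- the action on the torsion is an additive group action. -/
theorem fftp_act (N : ℕ) (n : ℤ) :
    FfAct ↥(Submodule.torsionBy ℤ (JZero N) n) (ffTorsAct N n) where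
  one m := Subtype.ext (by rw [ffTorsAct_coe, one_smul])
  mul σ τ m := Subtype.ext (by simp only [ffTorsAct_coe, mul_smul])
  add σ m m' := Subtype.ext (by
    simp only [ffTorsAct_coe, Submodule.coe_add, smul_add])

/-- the action on the torsion is continuous (main: `G.gop_exists_fixing`). -/
theorem fftp_cont (N : ℕ) [NeZero N] (n : ℤ) :
    FfCont ↥(Submodule.torsionBy ℤ (JZero N) n) (ffTorsAct N n) := by
  intro m
  obtain ⟨E, hE, h⟩ := Fermat.Agent.G.gop_exists_fixing N (m : JZero N)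
  exact ⟨E, hE, fun σ hσ => Subtype.ext (by rw [ffTorsAct_coe]; exact h σ hσ)⟩

/-- `J₀(N)[ℓ^k]` is finite (S27). -/
theorem fftp_finite (N : ℕ) [NeZero N] (ℓ : ℕ) [Fact ℓ.Prime] (k : ℕ) :
    Finite ↥(Submodule.torsionBy ℤ (JZero N) ((ℓ : ℤ) ^ k)) := by
  haveI := Fermat.Agent.V.v27dv_isCurveOver_modular N
  haveI := Fermat.Agent.V.v27dv_essFiniteType_modular N
  have h := Fermat.Agent.S27.result FfQb (modularFunctionFieldBar N) ℓ k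
  have hfin : Finite ↥(Pic0.torsion FfQb (modularFunctionFieldBar N) (ℓ ^ k)) :=
    Nat.finite_of_card_ne_zero (by
      rw [h]; exact pow_ne_zero _ (Fact.out : ℓ.Prime).pos.ne')
  have hmem : ∀ x : JZero N, x ∈ Submodule.torsionBy ℤ (JZero N) ((ℓ : ℤ) ^ k) →
      x ∈ Pic0.torsion FfQb (modularFunctionFieldBar N) (ℓ ^ k) := by
    intro x hx
    rw [Pic0.mem_torsion]
    have := (Submodule.mem_torsionBy_iff _ _).mp hx
    push_cast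
    exact this
  exact Finite.of_injective
    (fun x : ↥(Submodule.torsionBy ℤ (JZero N) ((ℓ : ℤ) ^ k)) =>
      (⟨x.1, hmem x.1 x.2⟩ : ↥(Pic0.torsion FfQb (modularFunctionFieldBar N) (ℓ ^ k))))
    (fun x y hxy => Subtype.ext (congrArg Subtype.val hxy))

/-- a global order at every GOOD level: (CORE-OUT) + descent. -/
theorem fftp_modOrd_good (ℓ : ℕ) [Fact ℓ.Prime] (hDesc : FfDescentSpec2 ℓ) (hCore : FfCoreAll ℓ)
    (N : ℕ) [NeZero N] (k : ℕ) (hg : FfGoodLevel N ℓ) :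
    FfModOrd ℓ ↥(Submodule.torsionBy ℤ (JZero N) ((ℓ : ℤ) ^ k)) (ffTorsAct N ((ℓ : ℤ) ^ k)) := by
  haveI := fftp_finite N ℓ k
  obtain ⟨𝔸, h𝔸, hc⟩ := hCore N k hg
  exact hDesc _ _ (fftp_act N _) (fftp_cont N _) 𝔸 h𝔸 hc

/-- transport of a global order along `FfLevelSpec` (sub, then quotient). -/
theorem fftp_modOrd_level (ℓ : ℕ) [Fact ℓ.Prime] (hSub : FfSubSpec ℓ) (hQuot : FfQuotSpec ℓ)
    (N a s k : ℕ) [NeZero N] [NeZero (N * a)] (hLvl : FfLevelSpec N a ℓ s k)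
    (h : FfModOrd ℓ ↥(Submodule.torsionBy ℤ (JZero (N * a)) ((ℓ : ℤ) ^ (k + s)))
      (ffTorsAct (N * a) ((ℓ : ℤ) ^ (k + s)))) :
    FfModOrd ℓ ↥(Submodule.torsionBy ℤ (JZero N) ((ℓ : ℤ) ^ k)) (ffTorsAct N ((ℓ : ℤ) ^ k)) := by
  haveI := fftp_finite (N * a) ℓ (k + s)
  obtain ⟨M₁, q, hst, hq, heq⟩ := hLvl
  -- the action on the stable subgroup
  let act₁ : FfGal → ↥M₁ → ↥M₁ := fun σ y =>
    ⟨ffTorsAct (N * a) ((ℓ : ℤ) ^ (k + s)) σ y.1, hst σ y.1 y.2⟩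
  have hact := fftp_act (N * a) ((ℓ : ℤ) ^ (k + s))
  have hact₁ : FfAct ↥M₁ act₁ :=
    { one := fun m => Subtype.ext (hact.one m.1)
      mul := fun σ τ m => Subtype.ext (hact.mul σ τ m.1)
      add := fun σ m m' => Subtype.ext (hact.add σ m.1 m'.1) }
  have h₁ : FfModOrd ℓ ↥M₁ act₁ :=
    hSub _ ↥M₁ _ act₁ M₁.subtype Subtype.val_injective (fun σ m => rfl) hact h
  haveI : Finite ↥M₁ := Finite.of_injective _ Subtype.val_injective
  exact hQuot ↥M₁ _ act₁ _ q hq (fun σ m => heq σ m (hst σ m.1 m.2)) hact₁ h₁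

/-- a global order at EVERY level prime to `ℓ`. -/
theorem fftp_modOrd (ℓ : ℕ) [Fact ℓ.Prime] (hDesc : FfDescentSpec2 ℓ) (hCore : FfCoreAll ℓ)
    (hSub : FfSubSpec ℓ) (hQuot : FfQuotSpec ℓ)
    (N : ℕ) [NeZero N] (hℓN : ¬ ℓ ∣ N) (k : ℕ)
    (hLvl : ℓ < 5 → ¬ (5 - ℓ) ∣ N →
      ¬ ℓ ∣ N * (5 - ℓ) ∧ ∃ s : ℕ, FfLevelSpec N (5 - ℓ) ℓ s k) :
    FfModOrd ℓ ↥(Submodule.torsionBy ℤ (JZero N) ((ℓ : ℤ) ^ k)) (ffTorsAct N ((ℓ : ℤ) ^ k)) := by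
  by_cases hg : 5 ≤ ℓ ∨ (5 - ℓ) ∣ N
  · exact fftp_modOrd_good ℓ hDesc hCore N k ⟨hℓN, hg⟩
  · rw [not_or, not_le] at hg
    obtain ⟨h5, hdvd⟩ := hg
    obtain ⟨hℓNa, s, hs⟩ := hLvl h5 hdvd
    haveI : NeZero (N * (5 - ℓ)) := ⟨Nat.mul_ne_zero (NeZero.ne N) (by omega)⟩
    exact fftp_modOrd_level ℓ hSub hQuot N (5 - ℓ) s k hs
      (fftp_modOrd_good ℓ hDesc hCore (N * (5 - ℓ)) (k + s)
        ⟨hℓNa, Or.inr (Dvd.intro_left N rfl)⟩)

/-- **S19 from the arrows of the program.** -/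
theorem fftp_s19 (ℓ : ℕ) [Fact ℓ.Prime] (hLit : FfLitSpec ℓ) (hDesc : FfDescentSpec2 ℓ)
    (hCore : FfCoreAll ℓ) (hSub : FfSubSpec ℓ) (hQuot : FfQuotSpec ℓ)
    (p : ℕ) [NeZero p] (hℓp : ¬ ℓ ∣ p) (k : ℕ)
    (hLvl : ℓ < 5 → ¬ (5 - ℓ) ∣ p →
      ¬ ℓ ∣ p * (5 - ℓ) ∧ ∃ s : ℕ, FfLevelSpec p (5 - ℓ) ℓ s k) :
    ∃ (H : Type) (_ : CommRing H) (_ : HopfAlgebra (GaloisRep.ratLocalizedAt ℓ) H),
      Module.Finite (GaloisRep.ratLocalizedAt ℓ) H ∧ Module.Flat (GaloisRep.ratLocalizedAt ℓ) H ∧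
      Coalgebra.IsCocomm (GaloisRep.ratLocalizedAt ℓ) H ∧
      ∃ e : WithConv (H →ₐ[GaloisRep.ratLocalizedAt ℓ] AlgebraicClosure ℚ) ≃
          ↥(Submodule.torsionBy ℤ (JZero p) ((ℓ : ℤ) ^ k)),
        (∀ f g, e (f * g) = e f + e g) ∧
        ∀ (σ : AlgebraicClosure ℚ ≃ₐ[ℚ] AlgebraicClosure ℚ)
          (f g : WithConv (H →ₐ[GaloisRep.ratLocalizedAt ℓ] AlgebraicClosure ℚ)),
          (∀ h : H, g h = σ (f h)) → ((e g : JZero p)) = σ • (e f : JZero p) := by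
  haveI := fftp_finite p ℓ k
  obtain ⟨H, i1, i2, hfin, hflat, hco, e, hmul, hgal⟩ :=
    hLit _ _ (fftp_act p _) (fftp_modOrd ℓ hDesc hCore hSub hQuot p hℓp k hLvl)
  exact ⟨H, i1, i2, hfin, hflat, hco, e, hmul, fun σ f g hfg => by
    rw [hgal σ f g hfg, ffTorsAct_coe]⟩

end Fermat.Agent.FF
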