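import Mathlib

/-!
# Program FF (S19 + S32), leaf C6: rings of functions `R ⊂ (X → A)`

Owner: helper4.  Namespace `Fermat.Agent.FF`, prefix `fffr`.  Mathlib only.

`W` a base ring, `A` a `W`-algebra (in the application `A = 𝔸`, the valuation ring of `Qbar` over `ℓ`,
`W = 𝔸 ∩ K_f` a discrete valuation ring over which `𝔸` is integral), `X` a finite set (a coset of
`Γ = J₀(N)[ℓ^k]`, or a product of two cosets), `R : Subalgebra W (X → A)` a `W`-algebra of
`A`-valued functions on `X`.

* `fffrEval R x`           : the point `x`, a `W`-algebra map `R → A`; jointly injective (`fffr_ext`);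
* `fffr_isIntegral_fun`    : `X → A` is integral over `W` (`X` finite, `A` integral over `W`);
* `fffr_isUnit_iff`        : **units are pointwise**;
* `fffr_isUnit_det_iff`, `fffr_exists_inv_of_pointwise` : the matrix form;
* `FffrResConst R`         : all elements of `R` are residually constant; `fffr_resConst_adjoin`;
* `fffr_isLocalRing`       : then `R` is local; `fffrClosed R x₀ : R →ₐ[W] ResidueField A`;
* `fffrProd R S`           : the ring of functions on `X × Y` generated by `R` and `S`;
  `fffr_mem_prod_iff`      : its elements are the `∑ i, a i x * b i y`.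
-/

set_option autoImplicit false

noncomputable section

namespace Fermat.Agent.FF

open Polynomial

/-! ### an element with an integral inverse is a unit -/

theorem fffr_isUnit_of_isIntegral_inv {R S : Type*} [CommRing R] [CommRing S] [Algebra R S]
    (hinj : Function.Injective (algebraMap R S)) {r : R} {s : S}
    (hrs : algebraMap R S r * s = 1) (hs : IsIntegral R s) : IsUnit r := by
  obtain ⟨p, hp, hps⟩ := hs
  letI hinv : Invertible s := ⟨algebraMap R S r, hrs, by rw [mul_comm]; exact hrs⟩
  have h1 := eval₂_reverse_mul_pow (algebraMap R S) s p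
  rw [hps] at h1
  have hinvs : ⅟s = algebraMap R S r := invOf_eq_right_inv (by rw [mul_comm]; exact hrs)
  rw [hinvs] at h1
  have hunit : IsUnit (s ^ p.natDegree) := (isUnit_of_invertible s).pow _
  have h2 : eval₂ (algebraMap R S) (algebraMap R S r) (reverse p) = 0 :=
    (hunit.mul_left_eq_zero).mp h1
  rw [eval₂_at_apply] at h2
  have h3 : eval r (reverse p) = 0 := hinj (by rw [h2, map_zero])
  have h4 : eval r (reverse p) = eval r (divX (reverse p)) * r + 1 := by
    conv_lhs => rw [← divX_mul_X_add (reverse p)]
    rw [eval_add, eval_mul, eval_X, eval_C, coeff_zero_reverse, hp.leadingCoeff]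
  rw [h4] at h3
  refine IsUnit.of_mul_eq_one (-eval r (divX (reverse p))) ?_
  linear_combination -h3

/-! ### functions on a finite set with values in an integral extension -/

section Basic

variable {W A X : Type*} [CommRing W] [CommRing A] [Algebra W A]

/-- the point `x` of `R` -/
def fffrEval (R : Subalgebra W (X → A)) (x : X) : R →ₐ[W] A :=
  (Pi.evalAlgHom W (fun _ : X => A) x).comp R.val

@[simp] theorem fffrEval_apply (R : Subalgebra W (X → A)) (x : X) (r : R) :
    fffrEval R x r = (r : X → A) x := rfl

/-- the points are jointly injective -/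
theorem fffr_ext (R : Subalgebra W (X → A)) {r r' : R}
    (h : ∀ x, fffrEval R x r = fffrEval R x r') : r = r' :=
  Subtype.ext (funext h)

theorem fffr_eq_zero_iff (R : Subalgebra W (X → A)) (r : R) :
    r = 0 ↔ ∀ x, fffrEval R x r = 0 :=
  ⟨fun h x => by rw [h, map_zero], fun h => fffr_ext R fun x => by rw [h x, map_zero]⟩

/-- a ring of functions with values in a reduced ring is reduced -/
theorem fffr_isReduced [IsReduced A] (R : Subalgebra W (X → A)) : IsReduced R := by
  refine ⟨fun r hr => ?_⟩
  obtain ⟨n, hn⟩ := hr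
  refine fffr_ext R fun x => ?_
  rw [map_zero]
  have h := congrArg (fffrEval R x) hn
  rw [map_pow, map_zero] at h
  exact IsReduced.eq_zero _ ⟨n, h⟩

/-- the point `x` with values in a bigger algebra `K` (e.g. `K = Qbar ⊇ 𝔸`) -/
def fffrEvalK {K : Type*} [CommRing K] [Algebra W K] (R : Subalgebra W (X → A))
    (φ : A →ₐ[W] K) (x : X) : R →ₐ[W] K := φ.comp (fffrEval R x)

@[simp] theorem fffrEvalK_apply {K : Type*} [CommRing K] [Algebra W K]
    (R : Subalgebra W (X → A)) (φ : A →ₐ[W] K) (x : X) (r : R) :
    fffrEvalK R φ x r = φ ((r : X → A) x) := rfl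

theorem fffr_extK {K : Type*} [CommRing K] [Algebra W K] (R : Subalgebra W (X → A))
    (φ : A →ₐ[W] K) (hφ : Function.Injective φ) {r r' : R}
    (h : ∀ x, fffrEvalK R φ x r = fffrEvalK R φ x r') : r = r' :=
  fffr_ext R fun x => hφ (h x)

/-- every function on a finite set with values in an integral `W`-algebra is integral over `W` -/
theorem fffr_isIntegral_fun [Finite X] [Algebra.IsIntegral W A] (f : X → A) : IsIntegral W f := by
  classical
  have := Fintype.ofFinite X
  choose P hPm hP using fun x : X => Algebra.IsIntegral.isIntegral (R := W) (f x)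
  refine ⟨∏ x, P x, monic_prod_of_monic _ _ fun x _ => hPm x, ?_⟩
  funext x
  have h1 : (eval₂ (algebraMap W (X → A)) f (∏ y, P y)) x
      = eval₂ (algebraMap W A) (f x) (∏ y, P y) := by
    have := Polynomial.hom_eval₂ (∏ y, P y) (algebraMap W (X → A))
      (Pi.evalRingHom (fun _ : X => A) x) f
    rw [Pi.evalRingHom_apply, Pi.evalRingHom_apply] at this
    rw [this]
    rfl
  rw [h1, eval₂_finsetProd, Pi.zero_apply]
  exact Finset.prod_eq_zero (Finset.mem_univ x) (hP x)

instance fffr_isIntegral_pi [Finite X] [Algebra.IsIntegral W A] :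
    Algebra.IsIntegral W (X → A) := ⟨fffr_isIntegral_fun⟩

/-- **units are pointwise** -/
theorem fffr_isUnit_iff [Finite X] [Algebra.IsIntegral W A] (R : Subalgebra W (X → A)) (r : R) :
    IsUnit r ↔ ∀ x, IsUnit ((r : X → A) x) := by
  constructor
  · intro h x
    exact h.map (fffrEval R x)
  · intro h
    choose u hu using h
    let s : X → A := fun x => ((u x)⁻¹ : Aˣ)
    have hrs : algebraMap R (X → A) r * s = 1 := by
      funext x
      change (r : X → A) x * ((u x)⁻¹ : Aˣ) = 1
      rw [← hu x]
      exact Units.mul_inv _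
    have hs : IsIntegral R s := (fffr_isIntegral_fun (W := W) s).tower_top
    exact fffr_isUnit_of_isIntegral_inv Subtype.val_injective hrs hs

/-- matrix form: the determinant is a unit iff it is one at every point -/
theorem fffr_isUnit_det_iff [Finite X] [Algebra.IsIntegral W A] (R : Subalgebra W (X → A))
    {n : Type*} [Fintype n] [DecidableEq n] (M : Matrix n n R) :
    IsUnit M.det ↔ ∀ x, IsUnit (M.map (fffrEval R x)).det := by
  rw [fffr_isUnit_iff]
  refine forall_congr' fun x => ?_
  have h : (M.map (fffrEval R x)).det = fffrEval R x M.det := by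
    rw [← AlgHom.mapMatrix_apply, ← AlgHom.map_det]
  rw [h, fffrEval_apply]

/-- a square matrix over `R` which is invertible at every point is invertible over `R` -/
theorem fffr_exists_inv_of_pointwise [Finite X] [Algebra.IsIntegral W A]
    (R : Subalgebra W (X → A)) {n : Type*} [Fintype n] [DecidableEq n] (M : Matrix n n R)
    (h : ∀ x, IsUnit (M.map (fffrEval R x)).det) :
    ∃ N : Matrix n n R, M * N = 1 ∧ N * M = 1 := by
  have hdet : IsUnit M.det := (fffr_isUnit_det_iff R M).mpr h
  have hM : IsUnit M := (Matrix.isUnit_iff_isUnit_det M).mpr hdet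
  obtain ⟨u, rfl⟩ := hM
  exact ⟨((u⁻¹ : (Matrix n n R)ˣ) : Matrix n n R), Units.mul_inv u, Units.inv_mul u⟩

end Basic

/-! ### residually constant rings of functions are local -/

section Local

variable {W A X : Type*} [CommRing W] [CommRing A] [Algebra W A] [IsLocalRing A]

/-- all elements of `R` are residually constant on `X` -/
def FffrResConst (R : Subalgebra W (X → A)) : Prop :=
  ∀ r ∈ R, ∀ x y, IsLocalRing.residue A (r x) = IsLocalRing.residue A (r y)

/-- it is enough to check residual constancy on generators -/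
theorem fffr_resConst_adjoin (s : Set (X → A))
    (hs : ∀ f ∈ s, ∀ x y, IsLocalRing.residue A (f x) = IsLocalRing.residue A (f y)) :
    FffrResConst (Algebra.adjoin W s) := by
  intro r hr x y
  induction hr using Algebra.adjoin_induction with
  | mem f hf => exact hs f hf x y
  | algebraMap w => rfl
  | add f g _ _ hf hg => rw [Pi.add_apply, Pi.add_apply, map_add, map_add, hf, hg]
  | mul f g _ _ hf hg => rw [Pi.mul_apply, Pi.mul_apply, map_mul, map_mul, hf, hg]

theorem FffrResConst.mono {R S : Subalgebra W (X → A)} (hS : FffrResConst S) (h : R ≤ S) :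
    FffrResConst R := fun r hr => hS r (h hr)

theorem FffrResConst.isUnit_iff {R : Subalgebra W (X → A)} (hR : FffrResConst R) (r : R)
    (x y : X) : IsUnit ((r : X → A) x) ↔ IsUnit ((r : X → A) y) := by
  rw [← IsLocalRing.residue_ne_zero_iff_isUnit, ← IsLocalRing.residue_ne_zero_iff_isUnit,
    hR r.1 r.2 x y]

/-- a unit at ONE point is a unit of `R` -/
theorem FffrResConst.isUnit_iff_at [Finite X] [Algebra.IsIntegral W A]
    {R : Subalgebra W (X → A)} (hR : FffrResConst R) (r : R) (x₀ : X) :
    IsUnit r ↔ IsUnit ((r : X → A) x₀) := by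
  rw [fffr_isUnit_iff]
  exact ⟨fun h => h x₀, fun h x => (hR.isUnit_iff r x x₀).mpr h⟩

/-- **a residually constant ring of functions is local** -/
theorem fffr_isLocalRing [Finite X] [Nonempty X] [Algebra.IsIntegral W A]
    (R : Subalgebra W (X → A)) (hR : FffrResConst R) : IsLocalRing R := by
  obtain ⟨x₀⟩ := ‹Nonempty X›
  haveI : Nontrivial R := by
    refine ⟨⟨0, 1, fun h => ?_⟩⟩
    have := congrArg (fun r : R => (r : X → A) x₀) h
    exact zero_ne_one this
  refine IsLocalRing.of_nonunits_add fun a b ha hb => ?_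
  rw [mem_nonunits_iff, hR.isUnit_iff_at _ x₀] at ha hb ⊢
  change ¬IsUnit ((a : X → A) x₀ + (b : X → A) x₀)
  exact IsLocalRing.nonunits_add ha hb

/-- the maximal ideal of `R`: the functions with values in `𝔪_A` -/
theorem fffr_mem_maximalIdeal_iff [Finite X] [Nonempty X] [Algebra.IsIntegral W A]
    (R : Subalgebra W (X → A)) (hR : FffrResConst R) (r : R) (x₀ : X) :
    haveI := fffr_isLocalRing R hR
    r ∈ IsLocalRing.maximalIdeal R ↔ (r : X → A) x₀ ∈ IsLocalRing.maximalIdeal A := by
  haveI := fffr_isLocalRing R hR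
  rw [IsLocalRing.mem_maximalIdeal, IsLocalRing.mem_maximalIdeal, mem_nonunits_iff,
    mem_nonunits_iff, hR.isUnit_iff_at r x₀]

/-- the closed point of `R` -/
def fffrClosed (R : Subalgebra W (X → A)) (x₀ : X) : R →ₐ[W] IsLocalRing.ResidueField A :=
  (IsScalarTower.toAlgHom W A (IsLocalRing.ResidueField A)).comp (fffrEval R x₀)

theorem fffrClosed_apply (R : Subalgebra W (X → A)) (x₀ : X) (r : R) :
    fffrClosed R x₀ r = IsLocalRing.residue A ((r : X → A) x₀) := rfl

/-- the closed point does not depend on the base point -/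
theorem fffrClosed_eq {R : Subalgebra W (X → A)} (hR : FffrResConst R) (x y : X) :
    fffrClosed R x = fffrClosed R y :=
  AlgHom.ext fun r => hR r.1 r.2 x y

theorem fffrClosed_eq_zero_iff [Finite X] [Nonempty X] [Algebra.IsIntegral W A]
    (R : Subalgebra W (X → A)) (hR : FffrResConst R) (x₀ : X) (r : R) :
    haveI := fffr_isLocalRing R hR
    fffrClosed R x₀ r = 0 ↔ r ∈ IsLocalRing.maximalIdeal R := by
  haveI := fffr_isLocalRing R hR
  rw [fffrClosed_apply, IsLocalRing.residue_eq_zero_iff, fffr_mem_maximalIdeal_iff R hR r x₀]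

/-- the closed point is a local homomorphism -/
theorem fffrClosed_isUnit_iff [Finite X] [Algebra.IsIntegral W A]
    {R : Subalgebra W (X → A)} (hR : FffrResConst R) (x₀ : X) (r : R) :
    fffrClosed R x₀ r ≠ 0 ↔ IsUnit r := by
  rw [fffrClosed_apply, IsLocalRing.residue_ne_zero_iff_isUnit, hR.isUnit_iff_at r x₀]

/-- the value at any point reduces to the value at the closed point -/
theorem fffr_residue_eval {R : Subalgebra W (X → A)} (hR : FffrResConst R) (x₀ x : X) (r : R) :
    IsLocalRing.residue A (fffrEval R x r) = fffrClosed R x₀ r :=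
  hR r.1 r.2 x x₀

/-- residues rational over `W` -/
def FffrResRat (R : Subalgebra W (X → A)) : Prop :=
  ∀ r ∈ R, ∃ w : W, ∀ x, IsLocalRing.residue A (r x) = IsLocalRing.residue A (algebraMap W A w)

theorem FffrResRat.resConst {R : Subalgebra W (X → A)} (hR : FffrResRat R) : FffrResConst R := by
  intro r hr x y
  obtain ⟨w, hw⟩ := hR r hr
  rw [hw x, hw y]

theorem fffr_resRat_adjoin (s : Set (X → A))
    (hs : ∀ f ∈ s, ∃ w : W, ∀ x,
      IsLocalRing.residue A (f x) = IsLocalRing.residue A (algebraMap W A w)) :
    FffrResRat (Algebra.adjoin W s) := by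
  intro r hr
  induction hr using Algebra.adjoin_induction with
  | mem f hf => exact hs f hf
  | algebraMap w => exact ⟨w, fun x => rfl⟩
  | add f g _ _ hf hg =>
    obtain ⟨w, hw⟩ := hf
    obtain ⟨w', hw'⟩ := hg
    exact ⟨w + w', fun x => by rw [Pi.add_apply, map_add, hw x, hw' x, map_add, map_add]⟩
  | mul f g _ _ hf hg =>
    obtain ⟨w, hw⟩ := hf
    obtain ⟨w', hw'⟩ := hg
    exact ⟨w * w', fun x => by rw [Pi.mul_apply, map_mul, hw x, hw' x, map_mul, map_mul]⟩

/-- with `W`-rational residues the closed point has the same image as `W` -/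
theorem fffrClosed_range_eq {R : Subalgebra W (X → A)} (hR : FffrResRat R) (x₀ : X) :
    (fffrClosed R x₀).range = ⊥ := by
  refine le_antisymm ?_ bot_le
  rintro _ ⟨r, rfl⟩
  obtain ⟨w, hw⟩ := hR r.1 r.2
  rw [Algebra.mem_bot]
  refine ⟨w, ?_⟩
  change _ = IsLocalRing.residue A ((r : X → A) x₀)
  rw [hw x₀]
  rfl

end Local

/-! ### the ring of functions on a product generated by two rings of functions -/

section Prod

variable {W A X Y : Type*} [CommRing W] [CommRing A] [Algebra W A]

/-- pull back along the first projection -/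
def fffrPullL (W A X Y : Type*) [CommRing W] [CommRing A] [Algebra W A] :
    (X → A) →ₐ[W] (X × Y → A) where
  toFun f := fun p => f p.1
  map_one' := rfl
  map_mul' _ _ := rfl
  map_zero' := rfl
  map_add' _ _ := rfl
  commutes' _ := rfl

/-- pull back along the second projection -/
def fffrPullR (W A X Y : Type*) [CommRing W] [CommRing A] [Algebra W A] :
    (Y → A) →ₐ[W] (X × Y → A) where
  toFun f := fun p => f p.2
  map_one' := rfl
  map_mul' _ _ := rfl
  map_zero' := rfl
  map_add' _ _ := rfl
  commutes' _ := rfl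

@[simp] theorem fffrPullL_apply (f : X → A) (p : X × Y) : fffrPullL W A X Y f p = f p.1 := rfl

@[simp] theorem fffrPullR_apply (f : Y → A) (p : X × Y) : fffrPullR W A X Y f p = f p.2 := rfl

/-- the ring of functions on `X × Y` generated by `R` and `S` (the image of `R ⊗ S`) -/
def fffrProd (R : Subalgebra W (X → A)) (S : Subalgebra W (Y → A)) : Subalgebra W (X × Y → A) :=
  R.map (fffrPullL W A X Y) ⊔ S.map (fffrPullR W A X Y)

theorem fffr_pullL_mem_prod (R : Subalgebra W (X → A)) (S : Subalgebra W (Y → A)) {f : X → A}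
    (hf : f ∈ R) : fffrPullL W A X Y f ∈ fffrProd R S :=
  (le_sup_left : R.map (fffrPullL W A X Y) ≤ _) ⟨f, hf, rfl⟩

theorem fffr_pullR_mem_prod (R : Subalgebra W (X → A)) (S : Subalgebra W (Y → A)) {f : Y → A}
    (hf : f ∈ S) : fffrPullR W A X Y f ∈ fffrProd R S :=
  (le_sup_right : S.map (fffrPullR W A X Y) ≤ _) ⟨f, hf, rfl⟩

/-- the list form of the elements of `fffrProd R S` -/
theorem fffr_mem_prod_iff_list (R : Subalgebra W (X → A)) (S : Subalgebra W (Y → A))
    (f : X × Y → A) :
    f ∈ fffrProd R S ↔ ∃ l : List (R × S), ∀ x y,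
      f (x, y) = (l.map fun p => (p.1 : X → A) x * (p.2 : Y → A) y).sum := by
  constructor
  · intro hf
    have hf' : f ∈ Subalgebra.toSubmodule (R.map (fffrPullL W A X Y)) *
        Subalgebra.toSubmodule (S.map (fffrPullR W A X Y)) := by
      rw [Subalgebra.mul_toSubmodule]
      exact hf
    refine Submodule.mul_induction_on
      (C := fun f : X × Y → A => ∃ l : List (R × S), ∀ x y,
        f (x, y) = (l.map fun p => (p.1 : X → A) x * (p.2 : Y → A) y).sum) hf' ?_ ?_
    · intro a ha b hb
      obtain ⟨a', ha', rfl⟩ := ha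
      obtain ⟨b', hb', rfl⟩ := hb
      exact ⟨[(⟨a', ha'⟩, ⟨b', hb'⟩)], fun x y => by simp⟩
    · rintro a b ⟨l, hl⟩ ⟨l', hl'⟩
      exact ⟨l ++ l', fun x y => by rw [Pi.add_apply, hl x y, hl' x y, List.map_append,
        List.sum_append]⟩
  · rintro ⟨l, hl⟩
    have key : ∀ (l : List (R × S)) (x : X) (y : Y),
        (l.map fun p : R × S =>
          fffrPullL W A X Y (p.1 : X → A) * fffrPullR W A X Y (p.2 : Y → A)).sum (x, y)
        = (l.map fun p : R × S => (p.1 : X → A) x * (p.2 : Y → A) y).sum := by
      intro l x y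
      induction l with
      | nil => simp
      | cons p l ih =>
        simp only [List.map_cons, List.sum_cons, Pi.add_apply, Pi.mul_apply, fffrPullL_apply,
          fffrPullR_apply]
        rw [ih]
    have h : f = (l.map fun p : R × S =>
        fffrPullL W A X Y (p.1 : X → A) * fffrPullR W A X Y (p.2 : Y → A)).sum := by
      funext ⟨x, y⟩
      rw [hl x y, key]
    rw [h]
    refine Subalgebra.list_sum_mem _ fun g hg => ?_
    rw [List.mem_map] at hg
    obtain ⟨p, _, rfl⟩ := hg
    exact Subalgebra.mul_mem _ (fffr_pullL_mem_prod R S p.1.2) (fffr_pullR_mem_prod R S p.2.2)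

/-- **the elements of `fffrProd R S` are the finite sums `∑ i, a i x * b i y`** -/
theorem fffr_mem_prod_iff (R : Subalgebra W (X → A)) (S : Subalgebra W (Y → A))
    (f : X × Y → A) :
    f ∈ fffrProd R S ↔ ∃ (n : ℕ) (a : Fin n → R) (b : Fin n → S), ∀ x y,
      f (x, y) = ∑ i, ((a i : R) : X → A) x * ((b i : S) : Y → A) y := by
  rw [fffr_mem_prod_iff_list]
  constructor
  · rintro ⟨l, hl⟩
    refine ⟨l.length, fun i => (l.get i).1, fun i => (l.get i).2, fun x y => ?_⟩
    rw [hl x y]
    conv_lhs => rw [← List.ofFn_get l, List.map_ofFn, List.sum_ofFn]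
    rfl
  · rintro ⟨n, a, b, h⟩
    refine ⟨List.ofFn fun i => (a i, b i), fun x y => ?_⟩
    rw [h x y, List.map_ofFn, List.sum_ofFn]
    rfl

/-- residual constancy passes to the product -/
theorem FffrResConst.prod [IsLocalRing A] {R : Subalgebra W (X → A)} {S : Subalgebra W (Y → A)}
    (hR : FffrResConst R) (hS : FffrResConst S) : FffrResConst (fffrProd R S) := by
  rintro f hf ⟨x, y⟩ ⟨x', y'⟩
  obtain ⟨n, a, b, h⟩ := (fffr_mem_prod_iff R S f).mp hf
  rw [h x y, h x' y', map_sum, map_sum]
  refine Finset.sum_congr rfl fun i _ => ?_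
  rw [map_mul, map_mul, hR (a i).1 (a i).2 x x', hS (b i).1 (b i).2 y y']

/-- rationality of the residues passes to the product -/
theorem FffrResRat.prod [IsLocalRing A] {R : Subalgebra W (X → A)} {S : Subalgebra W (Y → A)}
    (hR : FffrResRat R) (hS : FffrResRat S) : FffrResRat (fffrProd R S) := by
  intro f hf
  obtain ⟨n, a, b, h⟩ := (fffr_mem_prod_iff R S f).mp hf
  choose wa hwa using fun i => hR (a i).1 (a i).2
  choose wb hwb using fun i => hS (b i).1 (b i).2
  refine ⟨∑ i, wa i * wb i, ?_⟩
  rintro ⟨x, y⟩
  rw [h x y, map_sum, map_sum, map_sum]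
  refine Finset.sum_congr rfl fun i _ => ?_
  rw [map_mul, map_mul, hwa i x, hwb i y, map_mul]

/-- the product of the rings generated by two families is generated by the pullbacks -/
theorem fffrProd_adjoin (s : Set (X → A)) (t : Set (Y → A)) :
    fffrProd (Algebra.adjoin W s) (Algebra.adjoin W t) =
      Algebra.adjoin W (fffrPullL W A X Y '' s ∪ fffrPullR W A X Y '' t) := by
  rw [fffrProd, AlgHom.map_adjoin, AlgHom.map_adjoin, ← Algebra.adjoin_union]

end Prod

/-! ### equivariant functions -/

section Equivariant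

variable {W A X Y G : Type*} [CommRing W] [CommRing A] [Algebra W A] [Group G]
  [MulAction G X] [MulAction G Y] [MulSemiringAction G A] [SMulCommClass G W A]

/-- the `G`-equivariant functions `X → A` -/
def fffrEquivariant (W A X G : Type*) [CommRing W] [CommRing A] [Algebra W A] [Group G]
    [MulAction G X] [MulSemiringAction G A] [SMulCommClass G W A] : Subalgebra W (X → A) where
  carrier := {f | ∀ (g : G) (x : X), f (g • x) = g • f x}
  mul_mem' {a b} ha hb g x := by
    rw [Pi.mul_apply, Pi.mul_apply, ha g x, hb g x, smul_mul']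
  add_mem' {a b} ha hb g x := by
    rw [Pi.add_apply, Pi.add_apply, ha g x, hb g x, smul_add]
  algebraMap_mem' w g x := by
    change algebraMap W A w = g • algebraMap W A w
    rw [Algebra.algebraMap_eq_smul_one, smul_comm, smul_one]

theorem fffr_mem_equivariant_iff (f : X → A) :
    f ∈ fffrEquivariant W A X G ↔ ∀ (g : G) (x : X), f (g • x) = g • f x := Iff.rfl

/-- equivariance passes to the product (diagonal action) -/
theorem fffrProd_le_equivariant {R : Subalgebra W (X → A)} {S : Subalgebra W (Y → A)}
    (hR : R ≤ fffrEquivariant W A X G) (hS : S ≤ fffrEquivariant W A Y G) :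
    fffrProd R S ≤ fffrEquivariant W A (X × Y) G := by
  intro f hf g
  rintro ⟨x, y⟩
  obtain ⟨n, a, b, h⟩ := (fffr_mem_prod_iff R S f).mp hf
  change f (g • x, g • y) = g • f (x, y)
  rw [h, h, Finset.smul_sum]
  refine Finset.sum_congr rfl fun i _ => ?_
  rw [hR (a i).2 g x, hS (b i).2 g y, smul_mul']

end Equivariant

/-! ### finiteness and freeness -/

section Finite

variable {W A X : Type*} [CommRing W] [CommRing A] [Algebra W A]

/-- a ring of functions with values in a finite `W`-submodule is a finite `W`-module -/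
theorem fffr_finite [Finite X] [IsNoetherianRing W] (R : Subalgebra W (X → A))
    (A' : Submodule W A) (hA' : A'.FG) (hR : ∀ r ∈ R, ∀ x, r x ∈ A') : Module.Finite W R := by
  have : Module.Finite W A' := Module.Finite.iff_fg.mpr hA'
  let φ : R →ₗ[W] (X → A') :=
    { toFun := fun r x => ⟨(r : X → A) x, hR r.1 r.2 x⟩
      map_add' := fun r r' => rfl
      map_smul' := fun w r => rfl }
  have hφ : Function.Injective φ := by
    intro r r' h
    apply Subtype.ext
    funext x
    exact congrArg (fun f : X → A' => ((f x : A') : A)) h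
  exact Module.Finite.of_injective φ hφ

/-- over a principal ideal domain a finite ring of functions with torsion-free values is free -/
theorem fffr_free [IsDomain W] [IsPrincipalIdealRing W] [Module.IsTorsionFree W A]
    (R : Subalgebra W (X → A)) [Module.Finite W R] : Module.Free W R := by
  have : Module.IsTorsionFree W (X → A) := inferInstance
  have : Module.IsTorsionFree W R :=
    Function.Injective.moduleIsTorsionFree (Subalgebra.toSubmodule R).subtype
      Subtype.val_injective (fun _ _ => rfl)
  infer_instance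

end Finite

end Fermat.Agent.FF
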