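/-
FF / leaf C6, part 2 (prefix `fffr`, owner helper4): complements to `FF/FunRing.lean`.

* the closed point is a local homomorphism (`fffrClosed_isLocalHom`), field points
  `fffrPtK R φ x : R →+* K` and their joint injectivity (the literal shape of the hypotheses of
  helper25's `ffcr_exists_unit_minor` / `ffcr_exists_data`);
* `FffrResConst.resRat`: residually constant + (residue field of `W`) = (residue field of `A`)
  gives `W`-rational residues;
* extension by zero `fffrExtZero p : ({x // p x} → A) → (X → A)`, the indicator `fffrInd p`, and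
  `fffr_extZero_mem_adjoin`;
* `fffr_delta_of_fibres`: a function on `X` supported on one fibre of `ρ : X → C` whose
  "comultiplication" is known fibre by fibre is Δ-closed on all of `X`
  (the bridge from the engine's output on `Γ_c × Γ_c'` to the literal (L4) of (CORE-OUT)).
-/
import Fermat.Agent.FF.FunRing

set_option autoImplicit false

namespace Fermat.Agent.FF

open scoped BigOperators

/-! ### the closed point and the field points, in `RingHom` shape -/

section Points

variable {W A X : Type*} [CommRing W] [CommRing A] [Algebra W A]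

/-- the closed point is a local homomorphism (instance-shaped version of `fffrClosed_isUnit_iff`) -/
theorem fffrClosed_isLocalHom [IsLocalRing A] [Finite X] [Algebra.IsIntegral W A]
    {R : Subalgebra W (X → A)} (hR : FffrResConst R) (x₀ : X) :
    IsLocalHom (fffrClosed R x₀).toRingHom :=
  ⟨fun r hr => (fffrClosed_isUnit_iff hR x₀ r).mp hr.ne_zero⟩

/-- the point `x` with values in a ring `K ⊇ A`, as a ring homomorphism -/
def fffrPtK {K : Type*} [CommRing K] (R : Subalgebra W (X → A)) (φ : A →+* K) (x : X) :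
    R →+* K := φ.comp (fffrEval R x).toRingHom

@[simp] theorem fffrPtK_apply {K : Type*} [CommRing K] (R : Subalgebra W (X → A))
    (φ : A →+* K) (x : X) (r : R) : fffrPtK R φ x r = φ ((r : X → A) x) := rfl

/-- the field points are jointly injective -/
theorem fffr_ptK_jointly_injective {K : Type*} [CommRing K] (R : Subalgebra W (X → A))
    (φ : A →+* K) (hφ : Function.Injective φ) (b : R) (h : ∀ x, fffrPtK R φ x b = 0) : b = 0 :=
  (fffr_eq_zero_iff R b).mpr fun x => hφ (by rw [map_zero]; exact h x)

/-- the closed point is the residue of any field point (for `K`-points that factor through `A`) -/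
theorem fffrClosed_eq_residue [IsLocalRing A] {R : Subalgebra W (X → A)} (hR : FffrResConst R)
    (x₀ x : X) (r : R) :
    (fffrClosed R x₀).toRingHom r = IsLocalRing.residue A ((r : X → A) x) :=
  (fffr_residue_eval hR x₀ x r).symm

/-- entrywise: a matrix over `R` at the closed point is the residue of the matrix at any point -/
theorem fffrClosed_map_matrix [IsLocalRing A] {m n : Type*} {R : Subalgebra W (X → A)}
    (hR : FffrResConst R) (x₀ x : X) (M : Matrix m n R) :
    M.map (fffrClosed R x₀).toRingHom
      = (M.map (fffrEval R x).toRingHom).map (IsLocalRing.residue A) := by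
  ext i j
  exact fffrClosed_eq_residue hR x₀ x (M i j)

/-- if the residue field of `W` is that of `A`, residually constant rings have `W`-rational
residues -/
theorem FffrResConst.resRat [IsLocalRing A] [Nonempty X] {R : Subalgebra W (X → A)}
    (hR : FffrResConst R)
    (hW : ∀ a : A, ∃ w : W, IsLocalRing.residue A a = IsLocalRing.residue A (algebraMap W A w)) :
    FffrResRat R := by
  intro r hr
  obtain ⟨x₀⟩ := ‹Nonempty X›
  obtain ⟨w, hw⟩ := hW (r x₀)
  exact ⟨w, fun x => by rw [hR r hr x x₀, hw]⟩

end Points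

/-! ### extension by zero from a subtype -/

section ExtZero

variable {W A X : Type*} [CommRing W] [CommRing A] [Algebra W A]

open Classical in
/-- extension by zero of a function on the subtype `{x // p x}` -/
noncomputable def fffrExtZero (p : X → Prop) (f : {x // p x} → A) : X → A :=
  fun x => if h : p x then f ⟨x, h⟩ else 0

theorem fffrExtZero_of_pos {p : X → Prop} (f : {x // p x} → A) {x : X} (h : p x) :
    fffrExtZero p f x = f ⟨x, h⟩ := by
  unfold fffrExtZero
  rw [dif_pos h]

theorem fffrExtZero_of_neg {p : X → Prop} (f : {x // p x} → A) {x : X} (h : ¬p x) :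
    fffrExtZero p f x = 0 := by
  unfold fffrExtZero
  rw [dif_neg h]

@[simp] theorem fffrExtZero_val {p : X → Prop} (f : {x // p x} → A) (x : {x // p x}) :
    fffrExtZero p f x.1 = f x := by
  rw [fffrExtZero_of_pos f x.2]

/-- the indicator function of `p` -/
noncomputable def fffrInd (A : Type*) [CommRing A] {X : Type*} (p : X → Prop) : X → A :=
  fffrExtZero p 1

theorem fffrInd_of_pos {p : X → Prop} {x : X} (h : p x) : fffrInd A p x = 1 := by
  unfold fffrInd
  rw [fffrExtZero_of_pos _ h]
  rfl

theorem fffrInd_of_neg {p : X → Prop} {x : X} (h : ¬p x) : fffrInd A p x = 0 :=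
  fffrExtZero_of_neg _ h

theorem fffrExtZero_one (p : X → Prop) : fffrExtZero p (1 : {x // p x} → A) = fffrInd A p := rfl

theorem fffrExtZero_zero (p : X → Prop) : fffrExtZero p (0 : {x // p x} → A) = 0 := by
  funext x
  by_cases h : p x
  · rw [fffrExtZero_of_pos _ h]; rfl
  · rw [fffrExtZero_of_neg _ h]; rfl

theorem fffrExtZero_add (p : X → Prop) (f g : {x // p x} → A) :
    fffrExtZero p (f + g) = fffrExtZero p f + fffrExtZero p g := by
  funext x
  by_cases h : p x
  · rw [Pi.add_apply, fffrExtZero_of_pos _ h, fffrExtZero_of_pos _ h, fffrExtZero_of_pos _ h]; rfl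
  · rw [Pi.add_apply, fffrExtZero_of_neg _ h, fffrExtZero_of_neg _ h, fffrExtZero_of_neg _ h,
      add_zero]

theorem fffrExtZero_mul (p : X → Prop) (f g : {x // p x} → A) :
    fffrExtZero p (f * g) = fffrExtZero p f * fffrExtZero p g := by
  funext x
  by_cases h : p x
  · rw [Pi.mul_apply, fffrExtZero_of_pos _ h, fffrExtZero_of_pos _ h, fffrExtZero_of_pos _ h]; rfl
  · rw [Pi.mul_apply, fffrExtZero_of_neg _ h, fffrExtZero_of_neg _ h, fffrExtZero_of_neg _ h,
      mul_zero]

theorem fffrExtZero_smul (p : X → Prop) (w : W) (f : {x // p x} → A) :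
    fffrExtZero p (w • f) = w • fffrExtZero p f := by
  funext x
  by_cases h : p x
  · rw [Pi.smul_apply, fffrExtZero_of_pos _ h, fffrExtZero_of_pos _ h]; rfl
  · rw [Pi.smul_apply, fffrExtZero_of_neg _ h, fffrExtZero_of_neg _ h, smul_zero]

theorem fffrExtZero_algebraMap (p : X → Prop) (w : W) :
    fffrExtZero p (algebraMap W ({x // p x} → A) w) = w • fffrInd A p := by
  rw [Algebra.algebraMap_eq_smul_one, fffrExtZero_smul, fffrExtZero_one]

theorem fffrExtZero_sum (p : X → Prop) {ι : Type*} (s : Finset ι) (f : ι → {x // p x} → A) :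
    fffrExtZero p (∑ i ∈ s, f i) = ∑ i ∈ s, fffrExtZero p (f i) := by
  classical
  induction s using Finset.induction_on with
  | empty => rw [Finset.sum_empty, Finset.sum_empty, fffrExtZero_zero]
  | insert a s ha ih => rw [Finset.sum_insert ha, Finset.sum_insert ha, fffrExtZero_add, ih]

/-- the indicator is idempotent and absorbs extensions by zero -/
theorem fffrInd_mul_extZero (p : X → Prop) (f : {x // p x} → A) :
    fffrInd A p * fffrExtZero p f = fffrExtZero p f := by
  rw [← fffrExtZero_one, ← fffrExtZero_mul, one_mul]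

/-- restriction to the subtype, as an algebra homomorphism -/
def fffrRestr (W A : Type*) [CommRing W] [CommRing A] [Algebra W A] {X : Type*} (p : X → Prop) :
    (X → A) →ₐ[W] ({x // p x} → A) where
  toFun f := fun x => f x.1
  map_one' := rfl
  map_mul' _ _ := rfl
  map_zero' := rfl
  map_add' _ _ := rfl
  commutes' _ := rfl

@[simp] theorem fffrRestr_apply (p : X → Prop) (f : X → A) (x : {x // p x}) :
    fffrRestr W A p f x = f x.1 := rfl

theorem fffrRestr_extZero (p : X → Prop) (f : {x // p x} → A) :
    fffrRestr W A p (fffrExtZero p f) = f := by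
  funext x
  rw [fffrRestr_apply, fffrExtZero_val]

theorem fffrExtZero_restr (p : X → Prop) (f : X → A) :
    fffrExtZero p (fffrRestr W A p f) = fffrInd A p * f := by
  funext x
  by_cases h : p x
  · rw [fffrExtZero_of_pos _ h, Pi.mul_apply, fffrInd_of_pos h, one_mul]; rfl
  · rw [fffrExtZero_of_neg _ h, Pi.mul_apply, fffrInd_of_neg h, zero_mul]

/-- **extension by zero of the algebra generated by `G` lies in the algebra generated by the
indicator and the extensions by zero of `G`** -/
theorem fffr_extZero_mem_adjoin (p : X → Prop) (G : Set ({x // p x} → A)) {a : {x // p x} → A}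
    (ha : a ∈ Algebra.adjoin W G) :
    fffrExtZero p a ∈ Algebra.adjoin W (insert (fffrInd A p) (fffrExtZero p '' G)) := by
  induction ha using Algebra.adjoin_induction with
  | mem f hf => exact Algebra.subset_adjoin (Set.mem_insert_of_mem _ ⟨f, hf, rfl⟩)
  | algebraMap w =>
    rw [fffrExtZero_algebraMap]
    exact Subalgebra.smul_mem _ (Algebra.subset_adjoin (Set.mem_insert _ _)) w
  | add f g _ _ hf hg => rw [fffrExtZero_add]; exact Subalgebra.add_mem _ hf hg
  | mul f g _ _ hf hg => rw [fffrExtZero_mul]; exact Subalgebra.mul_mem _ hf hg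

/-- variant: any subalgebra containing the indicator and the extensions of the generators -/
theorem fffr_extZero_mem_of_adjoin (p : X → Prop) (G : Set ({x // p x} → A))
    (H : Subalgebra W (X → A)) (hind : fffrInd A p ∈ H) (hG : ∀ f ∈ G, fffrExtZero p f ∈ H)
    {a : {x // p x} → A} (ha : a ∈ Algebra.adjoin W G) : fffrExtZero p a ∈ H := by
  refine Algebra.adjoin_le ?_ (fffr_extZero_mem_adjoin p G ha)
  rintro f (rfl | ⟨g, hg, rfl⟩)
  · exact hind
  · exact hG g hg

/-- equivariance passes to the extension by zero -/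
theorem fffrExtZero_equivariant (p : X → Prop) (σX : X → X) (σA : A → A) (h0 : σA 0 = 0)
    (hp : ∀ x, p (σX x) ↔ p x) (f : {x // p x} → A)
    (hf : ∀ (x : X) (h : p x), f ⟨σX x, (hp x).mpr h⟩ = σA (f ⟨x, h⟩)) (x : X) :
    fffrExtZero p f (σX x) = σA (fffrExtZero p f x) := by
  by_cases h : p x
  · rw [fffrExtZero_of_pos _ h, fffrExtZero_of_pos _ ((hp x).mpr h), hf x h]
  · rw [fffrExtZero_of_neg _ h, fffrExtZero_of_neg _ (fun h' => h ((hp x).mp h')), h0]

/-- the indicator of an invariant predicate is equivariant -/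
theorem fffrInd_equivariant (p : X → Prop) (σX : X → X) (σA : A → A) (h0 : σA 0 = 0)
    (h1 : σA 1 = 1) (hp : ∀ x, p (σX x) ↔ p x) (x : X) :
    fffrInd A p (σX x) = σA (fffrInd A p x) :=
  fffrExtZero_equivariant p σX σA h0 hp 1 (fun _ _ => h1.symm) x

end ExtZero

/-! ### Δ-closedness fibre by fibre -/

section Delta

variable {W A X C : Type*} [CommRing W] [CommRing A] [Algebra W A]

/-- one product term: `(x, y) ↦ (ext₀ a)(x) * (ext₀ b)(y)` lies in `fffrProd H H` -/
theorem fffr_extZero_mul_mem_prod (H : Subalgebra W (X → A)) {p q : X → Prop}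
    {a : {x // p x} → A} {b : {x // q x} → A} (ha : fffrExtZero p a ∈ H)
    (hb : fffrExtZero q b ∈ H) :
    (fun z : X × X => fffrExtZero p a z.1 * fffrExtZero q b z.2) ∈ fffrProd H H :=
  Subalgebra.mul_mem _ (fffr_pullL_mem_prod H H ha) (fffr_pullR_mem_prod H H hb)

/-- **Δ-closedness fibre by fibre.**  `ρ : X → C` is compatible with the operations `op`, `opC`;
`φ` vanishes off the fibre `c''`; for every pair of fibres `c, c'` with `opC c c' = c''` the function
`(x, y) ↦ φ (op x y)` on `fibre c × fibre c'` is a finite sum of products `a i x * b i y` whose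
extensions by zero lie in `H`.  Then `(x, y) ↦ φ (op x y)` lies in `fffrProd H H`, i.e. (by
`fffr_mem_prod_iff`) it is `∑ i, a i x * b i y` with `a i, b i ∈ H`. -/
theorem fffr_delta_of_fibres [Finite C] (H : Subalgebra W (X → A)) (ρ : X → C)
    (op : X → X → X) (opC : C → C → C) (hρ : ∀ x y, ρ (op x y) = opC (ρ x) (ρ y))
    (φ : X → A) (c'' : C) (hφ0 : ∀ x, ρ x ≠ c'' → φ x = 0)
    (h : ∀ c c', opC c c' = c'' →
      ∃ (n : ℕ) (a : Fin n → ({x // ρ x = c} → A)) (b : Fin n → ({x // ρ x = c'} → A)),
        (∀ i, fffrExtZero _ (a i) ∈ H) ∧ (∀ i, fffrExtZero _ (b i) ∈ H) ∧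
        ∀ (x : {x // ρ x = c}) (y : {x // ρ x = c'}),
          φ (op x.1 y.1) = ∑ i, a i x * b i y) :
    (fun z : X × X => φ (op z.1 z.2)) ∈ fffrProd H H := by
  classical
  have := Fintype.ofFinite C
  -- the contribution of the pair of fibres `(c, c')`
  have key : ∀ c c', ∃ F : X × X → A, F ∈ fffrProd H H ∧
      ∀ x y, F (x, y) = if ρ x = c ∧ ρ y = c' then φ (op x y) else 0 := by
    intro c c'
    by_cases hcc : opC c c' = c''
    · obtain ⟨n, a, b, ha, hb, hab⟩ := h c c' hcc
      refine ⟨fun z => ∑ i, fffrExtZero _ (a i) z.1 * fffrExtZero _ (b i) z.2, ?_, ?_⟩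
      · have : (fun z : X × X => ∑ i, fffrExtZero _ (a i) z.1 * fffrExtZero _ (b i) z.2)
            = ∑ i, fun z : X × X => fffrExtZero _ (a i) z.1 * fffrExtZero _ (b i) z.2 := by
          funext z
          rw [Finset.sum_apply]
        rw [this]
        exact Subalgebra.sum_mem _ fun i _ => fffr_extZero_mul_mem_prod H (ha i) (hb i)
      · intro x y
        by_cases hxy : ρ x = c ∧ ρ y = c'
        · rw [if_pos hxy]
          obtain ⟨hx, hy⟩ := hxy
          have := hab ⟨x, hx⟩ ⟨y, hy⟩
          rw [this]
          refine Finset.sum_congr rfl fun i _ => ?_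
          rw [fffrExtZero_of_pos (p := fun x => ρ x = c) _ hx,
            fffrExtZero_of_pos (p := fun x => ρ x = c') _ hy]
        · rw [if_neg hxy]
          refine Finset.sum_eq_zero fun i _ => ?_
          by_cases hx : ρ x = c
          · have hy : ¬ρ y = c' := fun hy => hxy ⟨hx, hy⟩
            rw [fffrExtZero_of_neg (p := fun x => ρ x = c') _ hy, mul_zero]
          · rw [fffrExtZero_of_neg (p := fun x => ρ x = c) _ hx, zero_mul]
    · refine ⟨0, Subalgebra.zero_mem _, fun x y => ?_⟩
      by_cases hxy : ρ x = c ∧ ρ y = c'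
      · rw [if_pos hxy]
        obtain ⟨hx, hy⟩ := hxy
        have : ρ (op x y) ≠ c'' := by rw [hρ, hx, hy]; exact hcc
        rw [hφ0 _ this]
        rfl
      · rw [if_neg hxy]
        rfl
  choose F hF hFv using key
  have hsum : (fun z : X × X => φ (op z.1 z.2)) = ∑ c, ∑ c', F c c' := by
    funext z
    obtain ⟨x, y⟩ := z
    rw [Finset.sum_apply]
    simp only [Finset.sum_apply, hFv]
    rw [Finset.sum_eq_single (ρ x)]
    · rw [Finset.sum_eq_single (ρ y)]
      · rw [if_pos ⟨rfl, rfl⟩]
      · intro c' _ hc'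
        rw [if_neg fun hh => hc' hh.2.symm]
      · intro hh
        exact absurd (Finset.mem_univ _) hh
    · intro c _ hc
      refine Finset.sum_eq_zero fun c' _ => ?_
      rw [if_neg fun hh => hc hh.1.symm]
    · intro hh
      exact absurd (Finset.mem_univ _) hh
  rw [hsum]
  exact Subalgebra.sum_mem _ fun c _ => Subalgebra.sum_mem _ fun c' _ => hF c c'

/-- the indicators of the fibres are Δ-closed: `e_{c''}(op x y) = ∑_{opC c c' = c''} e_c x * e_c' y` -/
theorem fffr_delta_ind [Finite C] (H : Subalgebra W (X → A)) (ρ : X → C)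
    (op : X → X → X) (opC : C → C → C) (hρ : ∀ x y, ρ (op x y) = opC (ρ x) (ρ y))
    (hH : ∀ c, fffrInd A (fun x => ρ x = c) ∈ H) (c'' : C) :
    (fun z : X × X => fffrInd A (fun x => ρ x = c'') (op z.1 z.2)) ∈ fffrProd H H := by
  refine fffr_delta_of_fibres H ρ op opC hρ _ c''
    (fun x hx => fffrInd_of_neg (p := fun x => ρ x = c'') hx) ?_
  intro c c' hcc
  refine ⟨1, fun _ => 1, fun _ => 1, fun _ => hH c, fun _ => hH c', fun x y => ?_⟩
  have : ρ (op x.1 y.1) = c'' := by rw [hρ, x.2, y.2, hcc]
  rw [fffrInd_of_pos (p := fun x => ρ x = c'') this]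
  simp

end Delta

/-! ### the comultiplication of functions on an additive structure -/

section Comul

variable {W A M : Type*} [CommRing W] [CommRing A] [Algebra W A] [Add M]

/-- `φ ↦ ((m, m') ↦ φ (m + m'))` -/
def fffrComul (W A M : Type*) [CommRing W] [CommRing A] [Algebra W A] [Add M] :
    (M → A) →ₐ[W] (M × M → A) where
  toFun φ := fun z => φ (z.1 + z.2)
  map_one' := rfl
  map_mul' _ _ := rfl
  map_zero' := rfl
  map_add' _ _ := rfl
  commutes' _ := rfl

@[simp] theorem fffrComul_apply (φ : M → A) (z : M × M) :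
    fffrComul W A M φ z = φ (z.1 + z.2) := rfl

/-- the functions whose comultiplication lies in `H ⊗ H` (image in the functions on `M × M`):
a subalgebra -/
def fffrDeltaSub (H : Subalgebra W (M → A)) : Subalgebra W (M → A) :=
  (fffrProd H H).comap (fffrComul W A M)

theorem fffr_mem_deltaSub_iff (H : Subalgebra W (M → A)) (φ : M → A) :
    φ ∈ fffrDeltaSub H ↔ ∃ (n : ℕ) (a b : Fin n → H), ∀ m m' : M,
      φ (m + m') = ∑ i, ((a i : H) : M → A) m * ((b i : H) : M → A) m' := by
  unfold fffrDeltaSub
  rw [Subalgebra.mem_comap, fffr_mem_prod_iff]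
  rfl

/-- **Δ-closedness is checked on generators** -/
theorem fffr_adjoin_le_deltaSub (Gen : Set (M → A))
    (h : ∀ g ∈ Gen, g ∈ fffrDeltaSub (Algebra.adjoin W Gen)) :
    Algebra.adjoin W Gen ≤ fffrDeltaSub (Algebra.adjoin W Gen) :=
  Algebra.adjoin_le h

/-- literal (L4) ⟹ literal `comul` of `FfOrder` for the algebra generated by `Gen` -/
theorem fffr_comul_of_gens (Gen : Set (M → A))
    (h : ∀ g ∈ Gen, ∃ (n : ℕ) (a b : Fin n → Algebra.adjoin W Gen), ∀ m m' : M,
      g (m + m') = ∑ i, ((a i : Algebra.adjoin W Gen) : M → A) m *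
        ((b i : Algebra.adjoin W Gen) : M → A) m')
    (φ : M → A) (hφ : φ ∈ Algebra.adjoin W Gen) :
    ∃ (n : ℕ) (a b : Fin n → Algebra.adjoin W Gen), ∀ m m' : M,
      φ (m + m') = ∑ i, ((a i : Algebra.adjoin W Gen) : M → A) m *
        ((b i : Algebra.adjoin W Gen) : M → A) m' :=
  (fffr_mem_deltaSub_iff _ φ).mp
    (fffr_adjoin_le_deltaSub Gen (fun g hg => (fffr_mem_deltaSub_iff _ g).mpr (h g hg)) hφ)

/-- Δ-closedness is monotone in the target: if `H ≤ H'` then `fffrDeltaSub H ≤ fffrDeltaSub H'` -/
theorem fffrDeltaSub_mono {H H' : Subalgebra W (M → A)} (h : H ≤ H') :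
    fffrDeltaSub H ≤ fffrDeltaSub H' := by
  intro φ hφ
  rw [fffr_mem_deltaSub_iff] at hφ ⊢
  obtain ⟨n, a, b, hab⟩ := hφ
  exact ⟨n, fun i => ⟨a i, h (a i).2⟩, fun i => ⟨b i, h (b i).2⟩, hab⟩

/-- the compositum of Δ-closed algebras is Δ-closed -/
theorem fffr_sup_le_deltaSub {H H' : Subalgebra W (M → A)} (h : H ≤ fffrDeltaSub H)
    (h' : H' ≤ fffrDeltaSub H') : H ⊔ H' ≤ fffrDeltaSub (H ⊔ H') :=
  sup_le (h.trans (fffrDeltaSub_mono le_sup_left)) (h'.trans (fffrDeltaSub_mono le_sup_right))

end Comul

/-! ### equivariance and finiteness of `Algebra.adjoin` -/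

section AdjoinEq

variable {W A X G : Type*} [CommRing W] [CommRing A] [Algebra W A] [Group G]
  [MulAction G X] [MulSemiringAction G A] [SMulCommClass G W A]

/-- the algebra generated by equivariant functions consists of equivariant functions -/
theorem fffr_adjoin_le_equivariant (Gen : Set (X → A))
    (h : ∀ f ∈ Gen, ∀ (g : G) (x : X), f (g • x) = g • f x) :
    Algebra.adjoin W Gen ≤ fffrEquivariant W A X G :=
  Algebra.adjoin_le h

omit [Group G] [MulAction G X] [MulSemiringAction G A] [SMulCommClass G W A] in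
/-- the algebra generated by finitely many functions on a finite set with integral values is a
finitely generated module -/
theorem fffr_adjoin_fg [Finite X] [Algebra.IsIntegral W A] (Gen : Set (X → A))
    (hGen : Gen.Finite) : (Algebra.adjoin W Gen).toSubmodule.FG :=
  fg_adjoin_of_finite hGen fun f _ => fffr_isIntegral_fun f

end AdjoinEq

end Fermat.Agent.FF
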