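/-
Program FF — plug of helper4's rings of functions (`FF/FunRing`, `FF/FunRing2`) into the
constant-rank lemma (`FF/ConstRank`) and the chart lemma (`FF/Chart`) (helper25, prefix `ffpc`).

`R : Subalgebra W (X → A)` residually constant, `A` local, `φ : A →+* K` an injective hom into a
field: the closed point `fffrClosed R x₀` is a local hom into the residue field and the points
`fffrPtK R φ x` are jointly injective, so `ffcr_exists_data` and `ffch_main` apply verbatim.
-/
import Fermat.Agent.FF.Chart
import Fermat.Agent.FF.FunRing2

namespace Fermat.Agent.FF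

section Plug

variable {W A X K : Type*} [CommRing W] [CommRing A] [Algebra W A] [IsLocalRing A] [Finite X]
  [Algebra.IsIntegral W A] [Field K]
variable {p q : Type*} [Fintype p] [Fintype q] [DecidableEq p] [DecidableEq q]

/-- Constant rank over a residually constant ring of functions: closed rank `r` and rank `≤ r` at
every point of `X` give rows and columns with `FfcrData`. -/
theorem ffpc_exists_data {R : Subalgebra W (X → A)} (hR : FffrResConst R) (x₀ : X)
    (φ : A →+* K) (hφ : Function.Injective φ) (M : Matrix p q R) (r : ℕ)
    (hr : (M.map (fffrClosed R x₀).toRingHom).rank = r)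
    (hrk : ∀ x, (M.map (fffrPtK R φ x)).rank ≤ r) :
    ∃ (f : Fin r → p) (g : Fin r → q), Function.Injective f ∧ Function.Injective g ∧
      FfcrData M f g := by
  have := fffrClosed_isLocalHom hR x₀
  exact ffcr_exists_data (fffrClosed R x₀).toRingHom (L := fun _ : X => K)
    (fun x => fffrPtK R φ x) (fun b hb => fffr_ptK_jointly_injective R φ hφ b hb) M r hr hrk

/-- Chart of an idempotent family over a residually constant ring of functions: only the closed
fibre is inspected. -/
theorem ffpc_chart {R : Subalgebra W (X → A)} (hR : FffrResConst R) (x₀ : X)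
    {P : Matrix p p R} (hP : P * P = P) {r : ℕ}
    (hr : (P.map (fffrClosed R x₀).toRingHom).rank = r) (f : Fin r → p)
    (hf : ∀ v ∈ LinearMap.range (P.map (fffrClosed R x₀).toRingHom).mulVecLin,
      v ∘ f = 0 → v = 0) :
    ∃ g : Fin r → p, Function.Injective g ∧ FfcrData P f g := by
  have := fffrClosed_isLocalHom hR x₀
  exact ffch_main (fffrClosed R x₀).toRingHom hP hr f hf

/-- The value of the chart matrix at a point `x` is the chart matrix of the fibre at `x`. -/
theorem ffpc_chart_eval {R : Subalgebra W (X → A)} (hR : FffrResConst R) (x₀ : X)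
    {P : Matrix p p R} (hP : P * P = P) {r : ℕ}
    (hr : (P.map (fffrClosed R x₀).toRingHom).rank = r) (f : Fin r → p)
    (hf : ∀ v ∈ LinearMap.range (P.map (fffrClosed R x₀).toRingHom).mulVecLin,
      v ∘ f = 0 → v = 0)
    (φ : A →+* K) (x : X) (Z' : Matrix p (Fin r) K) (hZ' : Z'.submatrix f id = 1)
    (hrange : LinearMap.range Z'.mulVecLin =
      LinearMap.range (P.map (fffrPtK R φ x)).mulVecLin) :
    ∀ i a, Z' i a = φ (((ffchZ P f i a : R) : X → A) x) := by
  have := fffrClosed_isLocalHom hR x₀
  have h := (ffch_main_map (fffrClosed R x₀).toRingHom hP hr f hf (fffrPtK R φ x)).2.2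
    Z' hZ' hrange
  intro i a
  rw [h]
  rfl

end Plug

end Fermat.Agent.FF
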