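import Mathlib

/-!
# Program FF (S19 + S32): a Hopf algebra structure on a `Δ`-closed algebra of functions on a finite
abelian group (abstract layer)

Owner: helper7.  Namespace `Fermat.Agent.FF`, prefix `ffha`.

`R` a commutative ring, `K` a field with `R → K` injective, `M` an additive commutative group, and
`H ⊂ (M → K)` an `R`-subalgebra with an `R`-basis `b` whose members are `K`-linearly independent
as functions (`hind`).  If `H` is closed under the comultiplication `φ ↦ φ (m + m')` (`hΔ`),
the values `φ 0` lie in `R` (`hε`) and `H` is closed under `φ ↦ φ (-m)` (`hS`), then `H` is a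
cocommutative Hopf algebra over `R`, and the evaluations `M → (H →ₐ[R] K)` are multiplicative for
the convolution product.
-/

set_option autoImplicit false
set_option linter.unusedSectionVars false
set_option linter.style.haveILetI false

noncomputable section

namespace Fermat.Agent.FF

open TensorProduct Module

section Pull

variable (R : Type*) [CommSemiring R] {K : Type*} [CommSemiring K] [Algebra R K]
  {X Y Z : Type*}

/-- pull-back of functions along a map, as an algebra homomorphism. -/
def ffhaPull (f : X → Y) : (Y → K) →ₐ[R] (X → K) where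
  toFun g := fun x => g (f x)
  map_one' := rfl
  map_mul' _ _ := rfl
  map_zero' := rfl
  map_add' _ _ := rfl
  commutes' _ := rfl

@[simp] theorem ffhaPull_apply (f : X → Y) (g : Y → K) (x : X) : ffhaPull R f g x = g (f x) := rfl

end Pull

section Indep

variable {R : Type*} [CommRing R] {K : Type*} [Field K] [Algebra R K]

/-- the product of two families of functions which are `K`-independent (relation form) is
`K`-independent on the product. -/
theorem ffha_indep_prod {ι κ X Y : Type*} [Fintype ι] [Fintype κ] (f : ι → X → K) (g : κ → Y → K)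
    (hf : ∀ c : ι → K, (∀ x, ∑ i, c i * f i x = 0) → c = 0)
    (hg : ∀ c : κ → K, (∀ y, ∑ j, c j * g j y = 0) → c = 0)
    (c : ι × κ → K) (h : ∀ p : X × Y, ∑ q : ι × κ, c q * (f q.1 p.1 * g q.2 p.2) = 0) : c = 0 := by
  have h1 : ∀ (y : Y) (i : ι), ∑ j, c (i, j) * g j y = 0 := by
    intro y
    have := hf (fun i => ∑ j, c (i, j) * g j y) fun x => by
      have h2 := h (x, y)
      rw [Fintype.sum_prod_type] at h2
      rw [← h2]
      refine Finset.sum_congr rfl fun i _ => ?_
      rw [Finset.sum_mul]
      refine Finset.sum_congr rfl fun j _ => ?_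
      ring
    exact fun i => congrFun this i
  funext q
  obtain ⟨i, j⟩ := q
  have := hg (fun j => c (i, j)) fun y => h1 y i
  exact congrFun this j

/-- a linear map out of a free module which sends a basis to a `K`-independent family of functions
is injective. -/
theorem ffha_injective_of_indep {ι A X : Type*} [Fintype ι] [AddCommGroup A] [Module R A]
    (hinj : Function.Injective (algebraMap R K)) (b : Basis ι R A) (L : A →ₗ[R] (X → K))
    (hind : ∀ c : ι → K, (∀ x, ∑ i, c i * L (b i) x = 0) → c = 0) : Function.Injective L := by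
  rw [injective_iff_map_eq_zero]
  intro a ha
  have h1 : a = ∑ i, b.repr a i • b i := (b.sum_repr a).symm
  have h2 : ∀ x, ∑ i, algebraMap R K (b.repr a i) * L (b i) x = 0 := fun x => by
    have h3 : (L a) x = 0 := by rw [ha]; rfl
    rw [h1, map_sum, Finset.sum_apply] at h3
    rw [← h3]
    refine Finset.sum_congr rfl fun i _ => ?_
    rw [map_smul, Pi.smul_apply, Algebra.smul_def]
  have h4 := hind _ h2
  have h5 : b.repr a = 0 := by
    ext i
    have := congrFun h4 i
    simp only [Pi.zero_apply] at this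
    apply hinj
    rw [this]
    simp
  exact b.repr.map_eq_zero_iff.mp h5

end Indep

/-- the data of a `Δ`-closed algebra of functions on `M`. -/
structure FfhaData (R : Type*) [CommRing R] (K : Type*) [Field K] [Algebra R K] (M : Type*)
    [AddCommGroup M] (ι : Type*) [Fintype ι] where
  /-- the algebra of functions -/
  H : Subalgebra R (M → K)
  /-- an `R`-basis -/
  b : Basis ι R H
  hinj : Function.Injective (algebraMap R K)
  hind : ∀ c : ι → K, (∀ m, ∑ i, c i * (b i).1 m = 0) → c = 0
  hΔ : ∀ φ : H, ∃ (n : ℕ) (a a' : Fin n → H), ∀ m m' : M,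
    φ.1 (m + m') = ∑ i, (a i).1 m * (a' i).1 m'
  hε : ∀ φ : H, φ.1 0 ∈ Set.range (algebraMap R K)
  hS : ∀ φ : H, (fun m => φ.1 (-m)) ∈ H

namespace FfhaData

variable {R : Type*} [CommRing R] {K : Type*} [Field K] [Algebra R K] {M : Type*}
  [AddCommGroup M] {ι : Type*} [Fintype ι] (D : FfhaData R K M ι)

/-- evaluation of the tensor square on `M × M`. -/
def j2 : D.H ⊗[R] D.H →ₐ[R] (M × M → K) :=
  Algebra.TensorProduct.productMap ((ffhaPull R Prod.fst).comp D.H.val)
    ((ffhaPull R Prod.snd).comp D.H.val)

theorem j2_tmul (a a' : D.H) (p : M × M) : D.j2 (a ⊗ₜ a') p = a.1 p.1 * a'.1 p.2 := by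
  rw [j2, Algebra.TensorProduct.productMap_apply_tmul]
  rfl

/-- evaluation of the tensor cube on `M × (M × M)`. -/
def j3 : D.H ⊗[R] (D.H ⊗[R] D.H) →ₐ[R] (M × (M × M) → K) :=
  Algebra.TensorProduct.productMap ((ffhaPull R Prod.fst).comp D.H.val)
    ((ffhaPull R Prod.snd).comp D.j2)

theorem j3_tmul (a : D.H) (x : D.H ⊗[R] D.H) (p : M × (M × M)) :
    D.j3 (a ⊗ₜ x) p = a.1 p.1 * D.j2 x p.2 := by
  rw [j3, Algebra.TensorProduct.productMap_apply_tmul]
  rfl

theorem j2_basis (i j : ι) (p : M × M) :
    D.j2 (D.b.tensorProduct D.b (i, j)) p = (D.b i).1 p.1 * (D.b j).1 p.2 := by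
  rw [Basis.tensorProduct_apply, j2_tmul]

theorem ind2 (c : ι × ι → K)
    (hc : ∀ p : M × M, ∑ q : ι × ι, c q * D.j2 (D.b.tensorProduct D.b q) p = 0) : c = 0 := by
  refine ffha_indep_prod (fun i m => (D.b i).1 m) (fun i m => (D.b i).1 m) D.hind D.hind c
    fun p => ?_
  rw [← hc p]
  refine Finset.sum_congr rfl fun q _ => ?_
  obtain ⟨i, j⟩ := q
  rw [j2_basis]

theorem j2_injective : Function.Injective D.j2 := by
  have hL : ∀ c : ι × ι → K,
      (∀ p : M × M, ∑ q, c q * D.j2.toLinearMap (D.b.tensorProduct D.b q) p = 0) → c = 0 :=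
    fun c hc => D.ind2 c hc
  have := ffha_injective_of_indep (ι := ι × ι) (A := D.H ⊗[R] D.H) (X := M × M) D.hinj
    (b := D.b.tensorProduct D.b) (L := D.j2.toLinearMap) hL
  exact this

theorem j3_basis (i : ι) (q : ι × ι) (p : M × (M × M)) :
    D.j3 (D.b.tensorProduct (D.b.tensorProduct D.b) (i, q)) p =
      (D.b i).1 p.1 * D.j2 (D.b.tensorProduct D.b q) p.2 := by
  rw [Basis.tensorProduct_apply, j3_tmul]

theorem ind3 (c : ι × (ι × ι) → K)
    (hc : ∀ p : M × (M × M),
      ∑ q : ι × (ι × ι), c q * D.j3 (D.b.tensorProduct (D.b.tensorProduct D.b) q) p = 0) :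
    c = 0 := by
  refine ffha_indep_prod (fun i m => (D.b i).1 m)
    (fun q p => D.j2 (D.b.tensorProduct D.b q) p) D.hind D.ind2 c fun p => ?_
  rw [← hc p]
  refine Finset.sum_congr rfl fun q _ => ?_
  obtain ⟨i, q⟩ := q
  rw [j3_basis]

theorem j3_injective : Function.Injective D.j3 := by
  have hL : ∀ c : ι × (ι × ι) → K,
      (∀ p : M × (M × M),
        ∑ q, c q * D.j3.toLinearMap (D.b.tensorProduct (D.b.tensorProduct D.b) q) p = 0) →
      c = 0 := fun c hc => D.ind3 c hc
  have := ffha_injective_of_indep (ι := ι × (ι × ι)) (A := D.H ⊗[R] (D.H ⊗[R] D.H))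
    (X := M × (M × M)) D.hinj
    (b := D.b.tensorProduct (D.b.tensorProduct D.b)) (L := D.j3.toLinearMap) hL
  exact this

/-- `φ ↦ ((m, m') ↦ φ (m + m'))`. -/
def mu2 : D.H →ₐ[R] (M × M → K) := (ffhaPull R fun p : M × M => p.1 + p.2).comp D.H.val

theorem mu2_apply (φ : D.H) (p : M × M) : D.mu2 φ p = φ.1 (p.1 + p.2) := rfl

theorem mu2_mem_range (φ : D.H) : D.mu2 φ ∈ D.j2.range := by
  obtain ⟨n, a, a', h⟩ := D.hΔ φ
  refine (AlgHom.mem_range _).mpr ⟨∑ i, a i ⊗ₜ a' i, ?_⟩
  funext p
  rw [map_sum, Finset.sum_apply, mu2_apply, h p.1 p.2]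
  refine Finset.sum_congr rfl fun i _ => ?_
  rw [j2_tmul]

/-- **the comultiplication.** -/
def comulAlg : D.H →ₐ[R] D.H ⊗[R] D.H :=
  ((AlgEquiv.ofInjective D.j2 D.j2_injective).symm : D.j2.range →ₐ[R] D.H ⊗[R] D.H).comp
    (D.mu2.codRestrict D.j2.range D.mu2_mem_range)

theorem j2_comul (φ : D.H) : D.j2 (D.comulAlg φ) = D.mu2 φ := by
  have h := (AlgEquiv.ofInjective D.j2 D.j2_injective).apply_symm_apply
    (D.mu2.codRestrict D.j2.range D.mu2_mem_range φ)
  have h' := congrArg Subtype.val h
  exact h'

theorem j2_comul_apply (φ : D.H) (m m' : M) : D.j2 (D.comulAlg φ) (m, m') = φ.1 (m + m') := by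
  rw [j2_comul]
  rfl

/-- evaluation at `0`. -/
def ev0 : D.H →ₐ[R] K := (Pi.evalAlgHom R (fun _ : M => K) 0).comp D.H.val

theorem ev0_apply (φ : D.H) : D.ev0 φ = φ.1 0 := rfl

theorem ev0_mem_range (φ : D.H) : D.ev0 φ ∈ (Algebra.ofId R K).range := by
  obtain ⟨r, hr⟩ := D.hε φ
  exact ⟨r, hr⟩

/-- **the counit.** -/
def counitAlg : D.H →ₐ[R] R :=
  ((AlgEquiv.ofInjective (Algebra.ofId R K) D.hinj).symm : (Algebra.ofId R K).range →ₐ[R] R).comp
    (D.ev0.codRestrict (Algebra.ofId R K).range D.ev0_mem_range)

theorem algebraMap_counit (φ : D.H) : algebraMap R K (D.counitAlg φ) = φ.1 0 := by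
  have h := (AlgEquiv.ofInjective (Algebra.ofId R K) D.hinj).apply_symm_apply
    (D.ev0.codRestrict (Algebra.ofId R K).range D.ev0_mem_range φ)
  have h' := congrArg Subtype.val h
  exact h'

/-- **the antipode.** -/
def antipodeAlg : D.H →ₐ[R] D.H :=
  ((ffhaPull R fun m : M => -m).comp D.H.val).codRestrict D.H D.hS

theorem antipode_apply (φ : D.H) (m : M) : (D.antipodeAlg φ).1 m = φ.1 (-m) := rfl

/-! ### evaluation of the structure maps -/

theorem j3_map_id_comul (x : D.H ⊗[R] D.H) (p : M × (M × M)) :
    D.j3 (Algebra.TensorProduct.map (AlgHom.id R D.H) D.comulAlg x) p =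
      D.j2 x (p.1, p.2.1 + p.2.2) := by
  induction x using TensorProduct.induction_on with
  | zero => simp
  | tmul a a' =>
    rw [Algebra.TensorProduct.map_tmul, j3_tmul, j2_tmul]
    have : p.2 = (p.2.1, p.2.2) := rfl
    rw [this, j2_comul_apply]
    rfl
  | add x y hx hy => rw [map_add, map_add, Pi.add_apply, hx, hy, map_add, Pi.add_apply]

theorem j3_assoc_tmul (y : D.H ⊗[R] D.H) (a' : D.H) (p : M × (M × M)) :
    D.j3 (Algebra.TensorProduct.assoc R R R D.H D.H D.H (y ⊗ₜ a')) p =
      D.j2 y (p.1, p.2.1) * a'.1 p.2.2 := by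
  induction y using TensorProduct.induction_on with
  | zero => simp
  | tmul c d =>
    rw [Algebra.TensorProduct.assoc_tmul, j3_tmul, j2_tmul, j2_tmul]
    ring
  | add x y hx hy =>
    rw [TensorProduct.add_tmul, map_add, map_add, Pi.add_apply, hx, hy, map_add, Pi.add_apply]
    ring

theorem j3_assoc_map_comul_id (x : D.H ⊗[R] D.H) (p : M × (M × M)) :
    D.j3 (Algebra.TensorProduct.assoc R R R D.H D.H D.H
      (Algebra.TensorProduct.map D.comulAlg (AlgHom.id R D.H) x)) p =
      D.j2 x (p.1 + p.2.1, p.2.2) := by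
  induction x using TensorProduct.induction_on with
  | zero => simp
  | tmul a a' =>
    rw [Algebra.TensorProduct.map_tmul, j3_assoc_tmul, j2_comul_apply, j2_tmul]
    rfl
  | add x y hx hy =>
    rw [map_add, map_add, map_add, Pi.add_apply, hx, hy, map_add, Pi.add_apply]

theorem lid_map_counit_id (x : D.H ⊗[R] D.H) (m : M) :
    (Algebra.TensorProduct.lid R D.H
      (Algebra.TensorProduct.map D.counitAlg (AlgHom.id R D.H) x)).1 m = D.j2 x (0, m) := by
  induction x using TensorProduct.induction_on with
  | zero => simp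
  | tmul a a' =>
    rw [Algebra.TensorProduct.map_tmul, Algebra.TensorProduct.lid_tmul, j2_tmul, AlgHom.id_apply]
    change (D.counitAlg a • a'.1) m = _
    rw [Pi.smul_apply, Algebra.smul_def, algebraMap_counit]
  | add x y hx hy =>
    rw [map_add, map_add, map_add, Pi.add_apply]
    change (_ : M → K) m + (_ : M → K) m = _
    rw [hx, hy]

theorem rid_map_id_counit (x : D.H ⊗[R] D.H) (m : M) :
    (Algebra.TensorProduct.rid R R D.H
      (Algebra.TensorProduct.map (AlgHom.id R D.H) D.counitAlg x)).1 m = D.j2 x (m, 0) := by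
  induction x using TensorProduct.induction_on with
  | zero => simp
  | tmul a a' =>
    rw [Algebra.TensorProduct.map_tmul, Algebra.TensorProduct.rid_tmul, j2_tmul, AlgHom.id_apply]
    change (D.counitAlg a' • a.1) m = _
    rw [Pi.smul_apply, Algebra.smul_def, algebraMap_counit]
    ring
  | add x y hx hy =>
    rw [map_add, map_add, map_add, Pi.add_apply]
    change (_ : M → K) m + (_ : M → K) m = _
    rw [hx, hy]

/-! ### the bialgebra -/

theorem coassoc_alg :
    (Algebra.TensorProduct.assoc R R R D.H D.H D.H : _ →ₐ[R] _).comp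
        ((Algebra.TensorProduct.map D.comulAlg (AlgHom.id R D.H)).comp D.comulAlg) =
      (Algebra.TensorProduct.map (AlgHom.id R D.H) D.comulAlg).comp D.comulAlg := by
  ext φ
  apply D.j3_injective
  funext p
  simp only [AlgHom.comp_apply, AlgEquiv.coe_toAlgHom]
  rw [j3_assoc_map_comul_id, j3_map_id_comul, j2_comul_apply, j2_comul_apply, add_assoc]

theorem counit_left_alg :
    (Algebra.TensorProduct.map D.counitAlg (AlgHom.id R D.H)).comp D.comulAlg =
      ((Algebra.TensorProduct.lid R D.H).symm : D.H →ₐ[R] R ⊗[R] D.H) := by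
  ext φ
  apply (Algebra.TensorProduct.lid R D.H).injective
  simp only [AlgHom.comp_apply, AlgEquiv.coe_toAlgHom, AlgEquiv.apply_symm_apply]
  apply Subtype.ext
  funext m
  rw [lid_map_counit_id, j2_comul_apply, zero_add]

theorem counit_right_alg :
    (Algebra.TensorProduct.map (AlgHom.id R D.H) D.counitAlg).comp D.comulAlg =
      ((Algebra.TensorProduct.rid R R D.H).symm : D.H →ₐ[R] D.H ⊗[R] R) := by
  ext φ
  apply (Algebra.TensorProduct.rid R R D.H).injective
  simp only [AlgHom.comp_apply, AlgEquiv.coe_toAlgHom, AlgEquiv.apply_symm_apply]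
  apply Subtype.ext
  funext m
  rw [rid_map_id_counit, j2_comul_apply, add_zero]

/-- **the bialgebra structure.** -/
@[reducible] def bialgebra : Bialgebra R D.H :=
  Bialgebra.ofAlgHom D.comulAlg D.counitAlg D.coassoc_alg D.counit_left_alg D.counit_right_alg

section Hopf

attribute [local instance] FfhaData.bialgebra

theorem comul_eq (φ : D.H) : CoalgebraStruct.comul (R := R) φ = D.comulAlg φ := rfl

theorem counit_eq (φ : D.H) : CoalgebraStruct.counit (R := R) φ = D.counitAlg φ := rfl

theorem mul_rTensor_antipode (x : D.H ⊗[R] D.H) (m : M) :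
    (LinearMap.mul' R D.H (LinearMap.rTensor D.H D.antipodeAlg.toLinearMap x)).1 m =
      D.j2 x (-m, m) := by
  induction x using TensorProduct.induction_on with
  | zero => simp
  | tmul a a' =>
    rw [LinearMap.rTensor_tmul, LinearMap.mul'_apply, j2_tmul]
    rfl
  | add x y hx hy =>
    rw [map_add, map_add, map_add, Pi.add_apply]
    change (_ : M → K) m + (_ : M → K) m = _
    rw [hx, hy]

theorem mul_lTensor_antipode (x : D.H ⊗[R] D.H) (m : M) :
    (LinearMap.mul' R D.H (LinearMap.lTensor D.H D.antipodeAlg.toLinearMap x)).1 m =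
      D.j2 x (m, -m) := by
  induction x using TensorProduct.induction_on with
  | zero => simp
  | tmul a a' =>
    rw [LinearMap.lTensor_tmul, LinearMap.mul'_apply, j2_tmul]
    rfl
  | add x y hx hy =>
    rw [map_add, map_add, map_add, Pi.add_apply]
    change (_ : M → K) m + (_ : M → K) m = _
    rw [hx, hy]

/-- **the Hopf algebra structure.** -/
@[reducible] def hopf : HopfAlgebra R D.H :=
  { D.bialgebra with
    antipode := D.antipodeAlg.toLinearMap
    mul_antipode_rTensor_comul := by
      ext φ m
      simp only [LinearMap.comp_apply]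
      rw [comul_eq, mul_rTensor_antipode, j2_comul_apply, neg_add_cancel, counit_eq]
      change _ = (algebraMap R D.H (D.counitAlg φ)).1 m
      rw [← algebraMap_counit]
      rfl
    mul_antipode_lTensor_comul := by
      ext φ m
      simp only [LinearMap.comp_apply]
      rw [comul_eq, mul_lTensor_antipode, j2_comul_apply, add_neg_cancel, counit_eq]
      change _ = (algebraMap R D.H (D.counitAlg φ)).1 m
      rw [← algebraMap_counit]
      rfl }

theorem j2_comm (x : D.H ⊗[R] D.H) (p : M × M) :
    D.j2 (TensorProduct.comm R D.H D.H x) p = D.j2 x (p.2, p.1) := by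
  induction x using TensorProduct.induction_on with
  | zero => simp
  | tmul a a' =>
    rw [TensorProduct.comm_tmul, j2_tmul, j2_tmul]
    ring
  | add x y hx hy => rw [map_add, map_add, Pi.add_apply, hx, hy, map_add, Pi.add_apply]

theorem isCocomm : Coalgebra.IsCocomm R D.H where
  comm_comp_comul := by
    ext φ
    apply D.j2_injective
    funext p
    simp only [LinearMap.comp_apply, LinearEquiv.coe_coe]
    rw [j2_comm, comul_eq, j2_comul_apply, j2_comul]
    rw [mu2_apply, add_comm]

/-- evaluation at a point, as an algebra homomorphism. -/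
def ev (m : M) : D.H →ₐ[R] K := (Pi.evalAlgHom R (fun _ : M => K) m).comp D.H.val

theorem ev_apply (m : M) (φ : D.H) : D.ev m φ = φ.1 m := rfl

theorem lift_ev (m m' : M) (x : D.H ⊗[R] D.H) :
    Algebra.TensorProduct.lift (D.ev m) (D.ev m') (fun _ _ => .all _ _) x = D.j2 x (m, m') := by
  induction x using TensorProduct.induction_on with
  | zero => simp
  | tmul a a' =>
    rw [Algebra.TensorProduct.lift_tmul, j2_tmul]
    rfl
  | add x y hx hy => rw [map_add, hx, hy, map_add, Pi.add_apply]

/-- **the evaluations are multiplicative for the convolution product.** -/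
theorem ev_add (m m' : M) :
    (WithConv.toConv (D.ev m) * WithConv.toConv (D.ev m') : WithConv (D.H →ₐ[R] K)) =
      WithConv.toConv (D.ev (m + m')) := by
  apply WithConv.ofConv_injective
  ext φ
  rw [AlgHom.convMul_apply]
  rw [lift_ev, comul_eq, j2_comul_apply]
  rfl

end Hopf

/-! ### the points -/

theorem ev_injective (hsep : ∀ m m' : M, m ≠ m' → ∃ φ : D.H, φ.1 m ≠ φ.1 m') :
    Function.Injective D.ev := by
  intro m m' h
  by_contra hne
  obtain ⟨φ, hφ⟩ := hsep m m' hne
  exact hφ (by rw [← D.ev_apply m φ, h, D.ev_apply])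

/-- the `K`-linear map reconstructing an `R`-linear functional from its values on the basis. -/
def recon : (ι → K) →ₗ[K] (D.H → K) where
  toFun v := fun h => ∑ i, algebraMap R K (D.b.repr h i) * v i
  map_add' v w := by
    funext h
    simp only [Pi.add_apply, mul_add, Finset.sum_add_distrib]
  map_smul' c v := by
    funext h
    simp only [Pi.smul_apply, smul_eq_mul, RingHom.id_apply, Finset.mul_sum]
    refine Finset.sum_congr rfl fun i _ => ?_
    ring

theorem recon_apply (f : D.H →ₐ[R] K) : D.recon (fun i => f (D.b i)) = ⇑f := by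
  funext h
  change ∑ i, algebraMap R K (D.b.repr h i) * f (D.b i) = f h
  conv_rhs => rw [← D.b.sum_repr h]
  rw [map_sum]
  refine Finset.sum_congr rfl fun i _ => ?_
  rw [map_smul, Algebra.smul_def, mul_comm]

theorem algHom_indep : LinearIndependent K (fun f : D.H →ₐ[R] K => fun i => f (D.b i)) := by
  apply LinearIndependent.of_comp D.recon
  have h1 : (⇑D.recon ∘ fun f : D.H →ₐ[R] K => fun i => f (D.b i)) =
      (fun g : D.H →* K => (g : D.H → K)) ∘ fun f : D.H →ₐ[R] K => (f : D.H →* K) := by
    funext f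
    exact D.recon_apply f
  rw [h1]
  refine (linearIndependent_monoidHom D.H K).comp _ ?_
  intro f g hfg
  ext φ
  exact congrArg (fun h : D.H →* K => h φ) hfg

include D in
theorem card_le [Fintype M] : Fintype.card ι ≤ Fintype.card M := by
  have hli : LinearIndependent K (fun i => ((D.b i).1 : M → K)) := by
    rw [Fintype.linearIndependent_iff]
    intro g hg
    have := D.hind g fun m => by
      have h1 := congrFun hg m
      rw [Finset.sum_apply] at h1
      simpa using h1
    exact fun i => congrFun this i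
  have := hli.fintype_card_le_finrank
  rwa [Module.finrank_fintype_fun_eq_card] at this

/-- **the evaluations exhaust the `K`-points.** -/
theorem ev_bijective [Finite M] (hsep : ∀ m m' : M, m ≠ m' → ∃ φ : D.H, φ.1 m ≠ φ.1 m') :
    Function.Bijective D.ev := by
  classical
  letI : Fintype M := Fintype.ofFinite M
  haveI : Finite (D.H →ₐ[R] K) := D.algHom_indep.finite
  letI : Fintype (D.H →ₐ[R] K) := Fintype.ofFinite _
  refine (D.ev_injective hsep).bijective_of_nat_card_le ?_
  rw [Nat.card_eq_fintype_card, Nat.card_eq_fintype_card]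
  have h1 := D.algHom_indep.fintype_card_le_finrank
  rw [Module.finrank_fintype_fun_eq_card] at h1
  exact h1.trans D.card_le

end FfhaData

end Fermat.Agent.FF
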