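import Mathlib
import Fermat.Prelude.Def_GaloisRep_Flat

/-!
# Program FF (S19 + S32): the base ring `ℤ_(ℓ) = GaloisRep.ratLocalizedAt ℓ ⊂ ℚ`

Owner: helper7.  Namespace `Fermat.Agent.FF`, prefix `ffrl`.

`ffrl_isLocalization` : `ℤ_(ℓ)` is the localisation of `ℤ` at the prime `(ℓ)`; hence it is a discrete
valuation ring (`ffrl_isDVR`), a principal ideal domain, integrally closed, with fraction field `ℚ`
(`ffrl_isFractionRing`).  `ffrl_mem_of_isIntegral` : a rational number integral over `ℤ_(ℓ)` lies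
in `ℤ_(ℓ)`.
-/

set_option autoImplicit false
set_option linter.unusedSectionVars false

noncomputable section

namespace Fermat.Agent.FF

/-- the base ring `ℤ_(ℓ)` of the Prelude. -/
abbrev FfrlR (ℓ : ℕ) : Type := ↥(GaloisRep.ratLocalizedAt ℓ)

variable (ℓ : ℕ) [hℓ : Fact ℓ.Prime]

theorem ffrl_mem_iff (q : ℚ) : q ∈ GaloisRep.ratLocalizedAt ℓ ↔ ¬ ℓ ∣ q.den := by
  have hp : ℓ.Prime := hℓ.out
  change q.den.Coprime ℓ ↔ _
  rw [Nat.coprime_comm, hp.coprime_iff_not_dvd]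

theorem ffrl_int_mem (n : ℤ) : (n : ℚ) ∈ GaloisRep.ratLocalizedAt ℓ := by
  rw [ffrl_mem_iff]
  simp only [Rat.den_intCast, Nat.dvd_one]
  exact hℓ.out.ne_one

instance ffrl_prime_ideal : (Ideal.span {(ℓ : ℤ)}).IsPrime := by
  rw [Ideal.span_singleton_prime (by exact_mod_cast hℓ.out.ne_zero)]
  exact Nat.prime_iff_prime_int.mp hℓ.out

theorem ffrl_algebraMap_int (n : ℤ) : ((algebraMap ℤ (FfrlR ℓ) n : FfrlR ℓ) : ℚ) = n := by
  simp

theorem ffrl_inv_mem {n : ℤ} (hn : ¬ (ℓ : ℤ) ∣ n) : ((n : ℚ))⁻¹ ∈ GaloisRep.ratLocalizedAt ℓ := by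
  rw [ffrl_mem_iff]
  have hn0 : n ≠ 0 := by
    rintro rfl
    exact hn (dvd_zero _)
  have h1 : ((n : ℚ))⁻¹.den = n.natAbs := by
    rw [Rat.den_inv, if_neg (by simpa using hn0)]
    simp
  rw [h1]
  intro h
  exact hn (Int.natCast_dvd.mpr h)

instance ffrl_isLocalization :
    IsLocalization.AtPrime (FfrlR ℓ) (Ideal.span {(ℓ : ℤ)}) where
  map_units y := by
    have hy : ¬ (ℓ : ℤ) ∣ (y : ℤ) := by
      have := y.2
      rwa [Ideal.mem_primeCompl_iff, Ideal.mem_span_singleton] at this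
    have hy0 : ((y : ℤ) : ℚ) ≠ 0 := by
      intro h0
      apply hy
      have : (y : ℤ) = 0 := by exact_mod_cast h0
      rw [this]
      exact dvd_zero _
    refine ⟨⟨algebraMap ℤ (FfrlR ℓ) y, ⟨(((y : ℤ) : ℚ))⁻¹, ffrl_inv_mem ℓ hy⟩, ?_, ?_⟩, rfl⟩
    · apply Subtype.ext
      simp [hy0]
    · apply Subtype.ext
      simp [hy0]
  surj z := by
    have hz : ¬ ℓ ∣ (z : ℚ).den := (ffrl_mem_iff ℓ _).mp z.2
    refine ⟨((z : ℚ).num, ⟨((z : ℚ).den : ℤ), ?_⟩), ?_⟩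
    · rw [Ideal.mem_primeCompl_iff, Ideal.mem_span_singleton]
      intro h
      exact hz (Int.natCast_dvd_natCast.mp h)
    · apply Subtype.ext
      simp only [Subring.coe_mul, ffrl_algebraMap_int]
      push_cast
      exact Rat.mul_den_eq_num _
  exists_of_eq {x y} h := by
    refine ⟨1, ?_⟩
    have h' := congrArg (fun a : FfrlR ℓ => (a : ℚ)) h
    simp only [ffrl_algebraMap_int] at h'
    have : x = y := by exact_mod_cast h'
    simp [this]

instance ffrl_isDVR : IsDiscreteValuationRing (FfrlR ℓ) := by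
  refine IsLocalization.AtPrime.isDiscreteValuationRing_of_dedekind_domain ℤ ?_ (FfrlR ℓ)
    (P := Ideal.span {(ℓ : ℤ)})
  rw [Ne, Ideal.span_singleton_eq_bot]
  exact_mod_cast hℓ.out.ne_zero

instance ffrl_isFractionRing : IsFractionRing (FfrlR ℓ) ℚ where
  map_units y := by
    have hy : (y : FfrlR ℓ) ≠ 0 := nonZeroDivisors.coe_ne_zero y
    have : ((y : FfrlR ℓ) : ℚ) ≠ 0 := fun h0 => hy (Subtype.ext h0)
    exact isUnit_iff_ne_zero.mpr this
  surj z := by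
    have hden : (⟨(z.den : ℚ), by exact_mod_cast ffrl_int_mem ℓ (z.den : ℤ)⟩ : FfrlR ℓ) ≠ 0 := by
      intro h0
      have := congrArg (fun a : FfrlR ℓ => (a : ℚ)) h0
      simp at this
    refine ⟨(⟨(z.num : ℚ), ffrl_int_mem ℓ z.num⟩,
      ⟨⟨(z.den : ℚ), by exact_mod_cast ffrl_int_mem ℓ (z.den : ℤ)⟩,
        mem_nonZeroDivisors_of_ne_zero hden⟩), ?_⟩
    change z * (z.den : ℚ) = (z.num : ℚ)
    exact Rat.mul_den_eq_num z
  exists_of_eq {x y} h := by
    refine ⟨1, ?_⟩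
    have : x = y := Subtype.ext h
    simp [this]

/-- a rational number which is integral over `ℤ_(ℓ)` lies in `ℤ_(ℓ)`. -/
theorem ffrl_mem_of_isIntegral {q : ℚ} (hq : IsIntegral (FfrlR ℓ) q) :
    q ∈ GaloisRep.ratLocalizedAt ℓ := by
  obtain ⟨a, ha⟩ := (IsIntegrallyClosed.isIntegral_iff (R := FfrlR ℓ) (K := ℚ)).mp hq
  rw [← ha]
  exact a.2

end Fermat.Agent.FF
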