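import Mathlib
import Fermat.Prelude.Def_GaloisRep_Flat
import Fermat.Agent.FF.RatLoc
import Fermat.Agent.FF.Artin
import Fermat.Agent.FF.HopfAbs

/-!
# Program FF (S19 + S32): a `Δ`-closed order of equivariant functions on a finite Galois module
is the S19 / S32-`IsFlatAt` literal

Owner: helper7.  Namespace `Fermat.Agent.FF`, prefix `ffho`.

`ffho_main` : `M` a finite additive commutative group with maps `act σ : M → M`
(`σ ∈ Gal(ℚ̄/ℚ)`, surjective, fixing `0`), `𝓗 ⊂ (M → ℚ̄)` a `ℤ_(ℓ)`-subalgebra which is finitely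
generated as a module, consists of equivariant functions, separates the points of `M` and is closed
under `φ ↦ φ (m + m')` (`hΔ`).  Then `H := 𝓗` is a finite flat cocommutative Hopf algebra over
`ℤ_(ℓ)` whose `ℚ̄`-points (with the convolution product) are `M`, Galois-equivariantly: the
conclusion of S19 and the body of `GaloisRepAdic.IsFlatAt` verbatim.

No hypothesis on the antipode (it is `[n - 1]`, obtained from `Δ`), on the counit (`φ 0 ∈ ℤ_(ℓ)` by
equivariance and integrality) or on the continuity of the action.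
-/

set_option autoImplicit false
set_option linter.unusedSectionVars false
set_option linter.style.haveILetI false

noncomputable section

namespace Fermat.Agent.FF

open TensorProduct Module

local instance ffhoIsAlgebraic : Algebra.IsAlgebraic ℚ FfarQb := AlgebraicClosure.isAlgebraic ℚ
local instance ffhoIsAlgClosure : IsAlgClosure ℚ FfarQb := ⟨inferInstance, inferInstance⟩
local instance ffhoNormal : Normal ℚ FfarQb := IsAlgClosure.normal ℚ FfarQb
local instance ffhoIsGalois : IsGalois ℚ FfarQb := inferInstance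

variable (ℓ : ℕ) [hℓ : Fact ℓ.Prime]

theorem ffho_algebraMap_injective : Function.Injective (algebraMap (FfrlR ℓ) FfarQb) := by
  intro a b h
  have : algebraMap ℚ FfarQb (a : ℚ) = algebraMap ℚ FfarQb (b : ℚ) := h
  exact Subtype.ext ((algebraMap ℚ FfarQb).injective this)

variable {M : Type} [AddCommGroup M]

instance ffho_torsionFree_fun : Module.IsTorsionFree (FfrlR ℓ) (M → FfarQb) where
  isSMulRegular r hr := by
    have hr0 : r ≠ 0 := hr.ne_zero
    have hr1 : algebraMap (FfrlR ℓ) FfarQb r ≠ 0 := fun h0 =>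
      hr0 (ffho_algebraMap_injective ℓ (by rw [h0, map_zero]))
    intro f g hfg
    funext m
    have h1 := congrFun hfg m
    simp only [Pi.smul_apply, Algebra.smul_def] at h1
    exact mul_left_cancel₀ hr1 h1

section Order

variable (act : FfarG → M → M) (𝓗 : Subalgebra (FfrlR ℓ) (M → FfarQb))

theorem ffho_torsionFree : Module.IsTorsionFree (FfrlR ℓ) 𝓗 :=
  Function.Injective.moduleIsTorsionFree (N := M → FfarQb) (fun φ : 𝓗 => (φ : M → FfarQb))
    Subtype.val_injective fun _ _ => rfl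

/-- **the counit is integral**: `φ 0 ∈ ℤ_(ℓ)`. -/
theorem ffho_eval_zero_mem [Module.Finite (FfrlR ℓ) 𝓗] (hact0 : ∀ σ, act σ 0 = 0)
    (heq : ∀ φ ∈ 𝓗, ∀ σ m, φ (act σ m) = σ (φ m)) (φ : 𝓗) :
    φ.1 0 ∈ Set.range (algebraMap (FfrlR ℓ) FfarQb) := by
  have hfix : ∀ σ : FfarG, σ (φ.1 0) = φ.1 0 := fun σ => by
    rw [← heq φ.1 φ.2 σ 0, hact0]
  obtain ⟨q, hq⟩ := (InfiniteGalois.mem_range_algebraMap_iff_fixed (k := ℚ) (φ.1 0)).mpr hfix
  have hint : IsIntegral (FfrlR ℓ) φ := (Algebra.IsIntegral.of_finite (FfrlR ℓ) 𝓗).isIntegral φ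
  have hint' : IsIntegral (FfrlR ℓ) (φ.1 0) :=
    hint.map ((Pi.evalAlgHom (FfrlR ℓ) (fun _ : M => FfarQb) 0).comp 𝓗.val)
  rw [← hq] at hint'
  have hq' : IsIntegral (FfrlR ℓ) q :=
    (isIntegral_algebraMap_iff (algebraMap ℚ FfarQb).injective).mp hint'
  exact ⟨⟨q, ffrl_mem_of_isIntegral ℓ hq'⟩, hq⟩

/-- **closure under `m ↦ k • m`** from the closure under the comultiplication. -/
theorem ffho_nsmul_mem [Module.Finite (FfrlR ℓ) 𝓗] (hact0 : ∀ σ, act σ 0 = 0)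
    (heq : ∀ φ ∈ 𝓗, ∀ σ m, φ (act σ m) = σ (φ m))
    (hΔ : ∀ φ ∈ 𝓗, ∃ (n : ℕ) (a b : Fin n → 𝓗), ∀ m m' : M,
      φ (m + m') = ∑ i, (a i).1 m * (b i).1 m') (k : ℕ) :
    ∀ φ ∈ 𝓗, (fun m => φ (k • m)) ∈ 𝓗 := by
  induction k with
  | zero =>
    intro φ hφ
    obtain ⟨r, hr⟩ := ffho_eval_zero_mem ℓ act 𝓗 hact0 heq ⟨φ, hφ⟩
    have : (fun m : M => φ (0 • m)) = algebraMap (FfrlR ℓ) (M → FfarQb) r := by
      funext m
      rw [zero_smul]
      exact hr.symm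
    rw [this]
    exact 𝓗.algebraMap_mem r
  | succ k ih =>
    intro φ hφ
    obtain ⟨n, a, b, hab⟩ := hΔ φ hφ
    have : (fun m : M => φ ((k + 1) • m)) = ∑ i, (fun m => (a i).1 (k • m)) * (b i).1 := by
      funext m
      rw [succ_nsmul, hab, Finset.sum_apply]
      rfl
    rw [this]
    exact Subalgebra.sum_mem _ fun i _ => Subalgebra.mul_mem _ (ih _ (a i).2) (b i).2

theorem ffho_neg_mem [Finite M] [Module.Finite (FfrlR ℓ) 𝓗] (hact0 : ∀ σ, act σ 0 = 0)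
    (heq : ∀ φ ∈ 𝓗, ∀ σ m, φ (act σ m) = σ (φ m))
    (hΔ : ∀ φ ∈ 𝓗, ∃ (n : ℕ) (a b : Fin n → 𝓗), ∀ m m' : M,
      φ (m + m') = ∑ i, (a i).1 m * (b i).1 m') :
    ∀ φ ∈ 𝓗, (fun m => φ (-m)) ∈ 𝓗 := by
  classical
  letI : Fintype M := Fintype.ofFinite M
  intro φ hφ
  have h := ffho_nsmul_mem ℓ act 𝓗 hact0 heq hΔ (Fintype.card M - 1) φ hφ
  have hneg : ∀ m : M, (Fintype.card M - 1) • m = -m := fun m => by
    have hpos : 0 < Fintype.card M := Fintype.card_pos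
    have h1 : (Fintype.card M - 1) • m + m = 0 := by
      rw [← succ_nsmul, Nat.sub_add_cancel hpos, card_nsmul_eq_zero]
    exact eq_neg_of_add_eq_zero_left h1
  simpa only [hneg] using h

/-- the data of `MW…/HopfAbs.lean` from an order of equivariant functions. -/
theorem ffho_exists_data [Finite M] (hact0 : ∀ σ, act σ 0 = 0)
    (hsurj : ∀ σ, Function.Surjective (act σ)) (hfg : 𝓗.toSubmodule.FG)
    (heq : ∀ φ ∈ 𝓗, ∀ σ m, φ (act σ m) = σ (φ m))
    (hΔ : ∀ φ ∈ 𝓗, ∃ (n : ℕ) (a b : Fin n → 𝓗), ∀ m m' : M,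
      φ (m + m') = ∑ i, (a i).1 m * (b i).1 m') :
    ∃ (ι : Type) (_ : Fintype ι) (D : FfhaData (FfrlR ℓ) FfarQb M ι), D.H = 𝓗 := by
  haveI hfin : Module.Finite (FfrlR ℓ) 𝓗 := ⟨(Submodule.fg_top _).mpr hfg⟩
  haveI : Module.IsTorsionFree (FfrlR ℓ) 𝓗 := ffho_torsionFree ℓ 𝓗
  haveI : Module.Free (FfrlR ℓ) 𝓗 := Module.free_of_finite_type_torsion_free'
  set b := Module.Free.chooseBasis (FfrlR ℓ) 𝓗 with hb
  refine ⟨Module.Free.ChooseBasisIndex (FfrlR ℓ) 𝓗, inferInstance,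
    { H := 𝓗
      b := b
      hinj := ffho_algebraMap_injective ℓ
      hind := ?_
      hΔ := fun φ => hΔ φ.1 φ.2
      hε := fun φ => ffho_eval_zero_mem ℓ act 𝓗 hact0 heq φ
      hS := fun φ => ffho_neg_mem ℓ act 𝓗 hact0 heq hΔ φ.1 φ.2 }, rfl⟩
  intro c hc
  refine ffar_eq_zero_of_relation act hsurj (fun i => (b i).1) (fun i σ m => heq _ (b i).2 σ m)
    ?_ c hc
  intro z hz
  have h1 : ∑ i, (algebraMap ℤ (FfrlR ℓ) (z i)) • b i = 0 := by
    apply Subtype.ext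
    funext m
    have h2 : ((∑ i, (algebraMap ℤ (FfrlR ℓ) (z i)) • b i : 𝓗) : M → FfarQb) m =
        ∑ i, (z i : FfarQb) * (b i).1 m := by
      rw [AddSubmonoidClass.coe_finsetSum, Finset.sum_apply]
      refine Finset.sum_congr rfl fun i _ => ?_
      change (algebraMap ℤ (FfrlR ℓ) (z i) • (b i).1) m = _
      rw [Pi.smul_apply, Algebra.smul_def]
      congr 1
    rw [h2, hz m]
    rfl
  have h3 := Fintype.linearIndependent_iff.mp b.linearIndependent _ h1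
  funext i
  have h4 := h3 i
  have h5 : ((algebraMap ℤ (FfrlR ℓ) (z i) : FfrlR ℓ) : ℚ) = 0 := by rw [h4]; rfl
  simpa using h5

end Order

/-- **(FF-LIT)**: a `Δ`-closed order of equivariant functions on a finite Galois module gives the
S19 / S32-`IsFlatAt` literal. -/
theorem ffho_main (M : Type) [AddCommGroup M] [Finite M] (act : FfarG → M → M)
    (hact0 : ∀ σ, act σ 0 = 0) (hsurj : ∀ σ, Function.Surjective (act σ))
    (𝓗 : Subalgebra (FfrlR ℓ) (M → FfarQb)) (hfg : 𝓗.toSubmodule.FG)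
    (heq : ∀ φ ∈ 𝓗, ∀ σ m, φ (act σ m) = σ (φ m))
    (hsep : ∀ m m' : M, m ≠ m' → ∃ φ ∈ 𝓗, φ m ≠ φ m')
    (hΔ : ∀ φ ∈ 𝓗, ∃ (n : ℕ) (a b : Fin n → 𝓗), ∀ m m' : M,
      φ (m + m') = ∑ i, (a i).1 m * (b i).1 m') :
    ∃ (H : Type) (_ : CommRing H) (_ : HopfAlgebra (GaloisRep.ratLocalizedAt ℓ) H),
      Module.Finite (GaloisRep.ratLocalizedAt ℓ) H ∧ Module.Flat (GaloisRep.ratLocalizedAt ℓ) H ∧
      Coalgebra.IsCocomm (GaloisRep.ratLocalizedAt ℓ) H ∧
      ∃ e : WithConv (H →ₐ[GaloisRep.ratLocalizedAt ℓ] AlgebraicClosure ℚ) ≃ M,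
        (∀ f g, e (f * g) = e f + e g) ∧
        ∀ (σ : AlgebraicClosure ℚ ≃ₐ[ℚ] AlgebraicClosure ℚ)
          (f g : WithConv (H →ₐ[GaloisRep.ratLocalizedAt ℓ] AlgebraicClosure ℚ)),
          (∀ h : H, g h = σ (f h)) → e g = act σ (e f) := by
  obtain ⟨ι, _, D, hD⟩ := ffho_exists_data ℓ act 𝓗 hact0 hsurj hfg heq hΔ
  subst hD
  have hsep' : ∀ m m' : M, m ≠ m' → ∃ φ : D.H, φ.1 m ≠ φ.1 m' := fun m m' hne => by
    obtain ⟨φ, hφ, h⟩ := hsep m m' hne
    exact ⟨⟨φ, hφ⟩, h⟩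
  have hbij := D.ev_bijective hsep'
  letI : HopfAlgebra (FfrlR ℓ) D.H := D.hopf
  haveI : Module.Free (FfrlR ℓ) D.H := Module.Free.of_basis D.b
  set e : WithConv (D.H →ₐ[FfrlR ℓ] FfarQb) ≃ M :=
    (WithConv.equiv _).trans (Equiv.ofBijective D.ev hbij).symm with he
  have hev : ∀ m : M, e (WithConv.toConv (D.ev m)) = m := fun m =>
    (Equiv.ofBijective D.ev hbij).symm_apply_apply m
  have hex : ∀ f : WithConv (D.H →ₐ[FfrlR ℓ] FfarQb), ∃ m, f = WithConv.toConv (D.ev m) := fun f => by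
    obtain ⟨m, hm⟩ := hbij.2 f.ofConv
    exact ⟨m, by rw [hm]⟩
  refine ⟨D.H, inferInstance, D.hopf, ⟨(Submodule.fg_top _).mpr hfg⟩, inferInstance, D.isCocomm,
    e, ?_, ?_⟩
  · intro f g
    obtain ⟨m, rfl⟩ := hex f
    obtain ⟨m', rfl⟩ := hex g
    rw [D.ev_add, hev, hev, hev]
  · intro σ f g hfg
    obtain ⟨m, rfl⟩ := hex f
    obtain ⟨m', rfl⟩ := hex g
    have hmm : m' = act σ m := by
      by_contra hne
      obtain ⟨φ, hφ⟩ := hsep' m' (act σ m) hne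
      apply hφ
      have h1 := hfg φ
      change φ.1 m' = σ (φ.1 m) at h1
      rw [h1, heq φ.1 φ.2]
    rw [hev, hev, hmm]

end Fermat.Agent.FF
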