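import Mathlib
import Fermat.Agent.G.Lvl.Main
import Fermat.Agent.V.Div.Modular

/-!
# Program FF (S19 + S32), leaf (0)(c) : the primes `ℓ ∈ {2, 3}` with `a = 5 - ℓ ∤ N`
(prefix `fflq`)

Owner: helper3 (route of helper17, on helper6's package `G/Lvl`).

For a prime `a ∤ N` with `a + 1 = ℓ ^ s` (i.e. `(ℓ, a, s) = (2, 3, 2)` or `(3, 2, 1)`) the Galois module
`J₀(N)[ℓ^k]` is a QUOTIENT of a Galois SUBMODULE of `J₀(N a)[ℓ^(k+s)]`: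

* `M₁ := α^* (J₀(N)[ℓ^(k+s)]) ⊆ J₀(N a)[ℓ^(k+s)]`, `α^* = glvPull N a` (Galois equivariant);
* `q : M₁ → J₀(N)[ℓ^k]`, `q (α^* x) := ℓ^s • x`: well defined because `ker α^*` is killed by
  `[F(N a) : F(N)] = a + 1 = ℓ^s` (`glv_pull_eq_zero`, `glv_finrank`), onto because `J₀(N)` is divisible
  (`v27dv_JZero_divisible`), Galois equivariant.

No injectivity of `α^*`, no ramification theory.  A Hopf order for `J₀(N a)[ℓ^(k+s)]`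
(where `(5 - ℓ) ∣ N a`, so that `grd_reductionInputs_dvd` applies) is transported to `J₀(N)[ℓ^k]` by
the sub/quotient leaf (0)(a).
-/

set_option autoImplicit false
set_option linter.unusedSectionVars false
set_option linter.unusedVariables false

noncomputable section

namespace Fermat.Agent.FF

open ModularCurve AlgebraicCurve Fermat.Agent.G Fermat.Agent.V

local notation "Qb" => AlgebraicClosure ℚ

section Basic

variable (N a : ℕ) [NeZero N] [NeZero a]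

/-- the Galois action commutes with integer multiples -/
theorem fflq_smul_zsmul (M : ℕ) (σ : Qb ≃ₐ[ℚ] Qb) (z : ℤ) (x : JZero M) :
    σ • (z • x) = z • (σ • x) :=
  map_zsmul (DistribSMul.toAddMonoidHom (JZero M) σ) z x

theorem fflq_smul_nsmul (M : ℕ) (σ : Qb ≃ₐ[ℚ] Qb) (n : ℕ) (x : JZero M) :
    σ • (n • x) = n • (σ • x) :=
  map_nsmul (DistribSMul.toAddMonoidHom (JZero M) σ) n x

/-- the Galois action preserves the torsion submodules -/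
theorem fflq_smul_mem_torsionBy (M : ℕ) (σ : Qb ≃ₐ[ℚ] Qb) (z : ℤ) {x : JZero M}
    (hx : x ∈ Submodule.torsionBy ℤ (JZero M) z) :
    σ • x ∈ Submodule.torsionBy ℤ (JZero M) z := by
  rw [Submodule.mem_torsionBy_iff] at hx ⊢
  rw [← fflq_smul_zsmul, hx, smul_zero]

/-- **the key point**: `α^* x = α^* x'` implies `ℓ^s • x = ℓ^s • x'` when `a + 1 = ℓ^s`. -/
theorem fflq_pull_eq (ha : a.Prime) (haN : ¬ a ∣ N) {ℓ s : ℕ} (hs : a + 1 = ℓ ^ s)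
    {x x' : JZero N} (h : glvPull N a x = glvPull N a x') :
    (ℓ ^ s) • x = (ℓ ^ s) • x' := by
  have h0 : glvPull N a (x - x') = 0 := by rw [map_sub, h, sub_self]
  have h1 := glv_pull_eq_zero N a (x - x') h0
  rw [glv_finrank N a ha haN, hs, nsmul_sub, sub_eq_zero] at h1
  exact h1

end Basic

section Main

variable (N a : ℕ) [NeZero N] [NeZero a]

/-- the Galois submodule `M₁ = α^* (J₀(N)[ℓ^(k+s)])` of `J₀(N a)`. -/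
def fflqSub (ℓ j : ℕ) : AddSubgroup (JZero (N * a)) :=
  AddSubgroup.map (glvPull N a) (Submodule.torsionBy ℤ (JZero N) ((ℓ : ℤ) ^ j)).toAddSubgroup

theorem fflq_mem_sub {ℓ j : ℕ} {y : JZero (N * a)} :
    y ∈ fflqSub N a ℓ j ↔
      ∃ x : JZero N, x ∈ Submodule.torsionBy ℤ (JZero N) ((ℓ : ℤ) ^ j) ∧ glvPull N a x = y :=
  Iff.rfl

theorem fflq_sub_torsion {ℓ j : ℕ} {y : JZero (N * a)} (hy : y ∈ fflqSub N a ℓ j) :
    ((ℓ : ℤ) ^ j) • y = 0 := by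
  obtain ⟨x, hx, rfl⟩ := (fflq_mem_sub N a).mp hy
  rw [Submodule.mem_torsionBy_iff] at hx
  rw [← map_zsmul, hx, map_zero]

theorem fflq_sub_galois {ℓ j : ℕ} (σ : Qb ≃ₐ[ℚ] Qb) {y : JZero (N * a)}
    (hy : y ∈ fflqSub N a ℓ j) : σ • y ∈ fflqSub N a ℓ j := by
  obtain ⟨x, hx, rfl⟩ := (fflq_mem_sub N a).mp hy
  exact (fflq_mem_sub N a).mpr
    ⟨σ • x, fflq_smul_mem_torsionBy N σ _ hx, glv_pull_galois N a σ x⟩

/-- a preimage of `y ∈ M₁` under `α^*` in `J₀(N)[ℓ^(k+s)]` -/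
def fflqPre {ℓ j : ℕ} (y : fflqSub N a ℓ j) : JZero N :=
  Classical.choose ((fflq_mem_sub N a).mp y.2)

theorem fflqPre_mem {ℓ j : ℕ} (y : fflqSub N a ℓ j) :
    fflqPre N a y ∈ Submodule.torsionBy ℤ (JZero N) ((ℓ : ℤ) ^ j) :=
  (Classical.choose_spec ((fflq_mem_sub N a).mp y.2)).1

theorem fflqPre_pull {ℓ j : ℕ} (y : fflqSub N a ℓ j) :
    glvPull N a (fflqPre N a y) = (y : JZero (N * a)) :=
  (Classical.choose_spec ((fflq_mem_sub N a).mp y.2)).2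

theorem fflq_pow_smul_mem {ℓ k s : ℕ} {x : JZero N}
    (hx : x ∈ Submodule.torsionBy ℤ (JZero N) ((ℓ : ℤ) ^ (k + s))) :
    (ℓ ^ s) • x ∈ Submodule.torsionBy ℤ (JZero N) ((ℓ : ℤ) ^ k) := by
  rw [Submodule.mem_torsionBy_iff] at hx ⊢
  rw [← natCast_zsmul, smul_smul]
  rw [← hx]
  congr 1
  push_cast
  ring

/-- the quotient map `q : M₁ → J₀(N)[ℓ^k]`, `q (α^* x) = ℓ^s • x`. -/
def fflqQuot (ha : a.Prime) (haN : ¬ a ∣ N) {ℓ s : ℕ} (hs : a + 1 = ℓ ^ s) (k : ℕ) :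
    fflqSub N a ℓ (k + s) →+ ↥(Submodule.torsionBy ℤ (JZero N) ((ℓ : ℤ) ^ k)) :=
  AddMonoidHom.mk' (fun y => ⟨(ℓ ^ s) • fflqPre N a y, fflq_pow_smul_mem N (fflqPre_mem N a y)⟩)
    (by
      intro y y'
      apply Subtype.ext
      change (ℓ ^ s) • fflqPre N a (y + y') = (ℓ ^ s) • fflqPre N a y + (ℓ ^ s) • fflqPre N a y'
      rw [← nsmul_add]
      apply fflq_pull_eq N a ha haN hs
      rw [map_add, fflqPre_pull, fflqPre_pull, fflqPre_pull]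
      rfl)

theorem fflqQuot_apply (ha : a.Prime) (haN : ¬ a ∣ N) {ℓ s : ℕ} (hs : a + 1 = ℓ ^ s) (k : ℕ)
    (y : fflqSub N a ℓ (k + s)) :
    ((fflqQuot N a ha haN hs k y : ↥(Submodule.torsionBy ℤ (JZero N) ((ℓ : ℤ) ^ k))) : JZero N) =
      (ℓ ^ s) • fflqPre N a y :=
  rfl

/-- `q (α^* x) = ℓ^s • x`. -/
theorem fflqQuot_pull (ha : a.Prime) (haN : ¬ a ∣ N) {ℓ s : ℕ} (hs : a + 1 = ℓ ^ s) (k : ℕ)
    (y : fflqSub N a ℓ (k + s)) (x : JZero N) (hx : glvPull N a x = (y : JZero (N * a))) :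
    ((fflqQuot N a ha haN hs k y : ↥(Submodule.torsionBy ℤ (JZero N) ((ℓ : ℤ) ^ k))) : JZero N) =
      (ℓ ^ s) • x := by
  rw [fflqQuot_apply]
  apply fflq_pull_eq N a ha haN hs
  rw [fflqPre_pull, hx]

theorem fflqQuot_surjective (ha : a.Prime) (haN : ¬ a ∣ N) {ℓ s : ℕ} (hℓ : 0 < ℓ)
    (hs : a + 1 = ℓ ^ s) (k : ℕ) : Function.Surjective (fflqQuot N a ha haN hs k) := by
  rintro ⟨z, hz⟩
  obtain ⟨x, hx⟩ := v27dv_JZero_divisible N (ℓ ^ s) (pow_pos hℓ s) z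
  have hxt : x ∈ Submodule.torsionBy ℤ (JZero N) ((ℓ : ℤ) ^ (k + s)) := by
    rw [Submodule.mem_torsionBy_iff] at hz ⊢
    have : ((ℓ : ℤ) ^ (k + s)) • x = ((ℓ : ℤ) ^ k) • ((ℓ ^ s) • x) := by
      rw [← natCast_zsmul x (ℓ ^ s), smul_smul]
      congr 1
      push_cast
      ring
    rw [this, hx, hz]
  refine ⟨⟨glvPull N a x, (fflq_mem_sub N a).mpr ⟨x, hxt, rfl⟩⟩, ?_⟩
  apply Subtype.ext
  rw [fflqQuot_pull N a ha haN hs k _ x rfl]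
  exact hx

theorem fflqQuot_galois (ha : a.Prime) (haN : ¬ a ∣ N) {ℓ s : ℕ} (hs : a + 1 = ℓ ^ s) (k : ℕ)
    (σ : Qb ≃ₐ[ℚ] Qb) (y : JZero (N * a)) (hy : y ∈ fflqSub N a ℓ (k + s))
    (hy' : σ • y ∈ fflqSub N a ℓ (k + s)) :
    ((fflqQuot N a ha haN hs k ⟨σ • y, hy'⟩ :
        ↥(Submodule.torsionBy ℤ (JZero N) ((ℓ : ℤ) ^ k))) : JZero N) =
      σ • ((fflqQuot N a ha haN hs k ⟨y, hy⟩ :
        ↥(Submodule.torsionBy ℤ (JZero N) ((ℓ : ℤ) ^ k))) : JZero N) := by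
  rw [fflqQuot_pull N a ha haN hs k ⟨σ • y, hy'⟩ (σ • fflqPre N a ⟨y, hy⟩)
    (by rw [glv_pull_galois, fflqPre_pull]), fflqQuot_apply, fflq_smul_nsmul]

/-- **(0)(c), main statement**: for a prime `a ∤ N` with `a + 1 = ℓ^s`, the Galois module `J₀(N)[ℓ^k]`
is a quotient of a Galois submodule of `J₀(N a)[ℓ^(k+s)]`. -/
theorem fflq_main (ha : a.Prime) (haN : ¬ a ∣ N) {ℓ s : ℕ} [Fact ℓ.Prime] (hs : a + 1 = ℓ ^ s)
    (k : ℕ) :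
    ∃ (M₁ : AddSubgroup (JZero (N * a)))
      (q : M₁ →+ ↥(Submodule.torsionBy ℤ (JZero N) ((ℓ : ℤ) ^ k))),
      (∀ y ∈ M₁, ((ℓ : ℤ) ^ (k + s)) • y = 0) ∧
      (∀ (σ : Qb ≃ₐ[ℚ] Qb) (y : JZero (N * a)), y ∈ M₁ → σ • y ∈ M₁) ∧
      Function.Surjective q ∧
      ∀ (σ : Qb ≃ₐ[ℚ] Qb) (y : JZero (N * a)) (hy : y ∈ M₁) (hy' : σ • y ∈ M₁),
        ((q ⟨σ • y, hy'⟩ : ↥(Submodule.torsionBy ℤ (JZero N) ((ℓ : ℤ) ^ k))) : JZero N) =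
          σ • ((q ⟨y, hy⟩ : ↥(Submodule.torsionBy ℤ (JZero N) ((ℓ : ℤ) ^ k))) : JZero N) :=
  ⟨fflqSub N a ℓ (k + s), fflqQuot N a ha haN hs k,
    fun y hy => fflq_sub_torsion N a hy,
    fun σ y hy => fflq_sub_galois N a σ hy,
    fflqQuot_surjective N a ha haN (Fact.out : ℓ.Prime).pos hs k,
    fun σ y hy hy' => fflqQuot_galois N a ha haN hs k σ y hy hy'⟩

end Main

section Small

variable (N : ℕ) [NeZero N]

/-- the auxiliary prime `a = 5 - ℓ` for `ℓ ∈ {2, 3}`: `a` is prime, `a ≠ ℓ`, `a + 1 = ℓ ^ s`. -/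
theorem fflq_small_arith {ℓ : ℕ} (hℓ : ℓ.Prime) (h5 : ℓ < 5) :
    (5 - ℓ).Prime ∧ 5 - ℓ ≠ ℓ ∧ ¬ ℓ ∣ 5 - ℓ ∧ ∃ s : ℕ, (5 - ℓ) + 1 = ℓ ^ s := by
  have h2 := hℓ.two_le
  interval_cases ℓ
  · exact ⟨by norm_num, by norm_num, by norm_num, 2, by norm_num⟩
  · exact ⟨by norm_num, by norm_num, by norm_num, 1, by norm_num⟩
  · exact absurd hℓ (by decide)

/-- **(0)(c) in the form used by S19**: `ℓ ∈ {2, 3}`, `a = 5 - ℓ ∤ N`, `ℓ ∤ N`.  Then `ℓ ∤ N a`,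
`(5 - ℓ) ∣ N a` (so `grd_reductionInputs_dvd` applies at the level `N a`) and `J₀(N)[ℓ^k]` is a quotient
of a Galois submodule of `J₀(N a)[ℓ^(k+s)]`. -/
theorem fflq_small {ℓ : ℕ} [Fact ℓ.Prime] (h5 : ℓ < 5) (hℓN : ¬ ℓ ∣ N) (haN : ¬ (5 - ℓ) ∣ N)
    (k : ℕ) :
    ¬ ℓ ∣ N * (5 - ℓ) ∧ (5 - ℓ) ∣ N * (5 - ℓ) ∧ ∃ s : ℕ,
      ∃ (M₁ : AddSubgroup (JZero (N * (5 - ℓ))))
        (q : M₁ →+ ↥(Submodule.torsionBy ℤ (JZero N) ((ℓ : ℤ) ^ k))),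
        (∀ y ∈ M₁, ((ℓ : ℤ) ^ (k + s)) • y = 0) ∧
        (∀ (σ : Qb ≃ₐ[ℚ] Qb) (y : JZero (N * (5 - ℓ))), y ∈ M₁ → σ • y ∈ M₁) ∧
        Function.Surjective q ∧
        ∀ (σ : Qb ≃ₐ[ℚ] Qb) (y : JZero (N * (5 - ℓ))) (hy : y ∈ M₁) (hy' : σ • y ∈ M₁),
          ((q ⟨σ • y, hy'⟩ : ↥(Submodule.torsionBy ℤ (JZero N) ((ℓ : ℤ) ^ k))) : JZero N) =
            σ • ((q ⟨y, hy⟩ : ↥(Submodule.torsionBy ℤ (JZero N) ((ℓ : ℤ) ^ k))) : JZero N) := by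
  have hℓ : ℓ.Prime := Fact.out
  obtain ⟨hap, hne, hℓa, s, hs⟩ := fflq_small_arith hℓ h5
  have : NeZero (5 - ℓ) := ⟨hap.ne_zero⟩
  refine ⟨fun hd => (hℓ.dvd_mul.mp hd).elim hℓN hℓa, Dvd.intro_left N rfl, s, ?_⟩
  exact fflq_main N (5 - ℓ) hap haN hs k

end Small

end Fermat.Agent.FF
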