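import Mathlib
import Fermat.Prelude.Def_GaloisRep_Flat
import Fermat.Prelude.Def_FLTPrelim_Ramification
import Fermat.Prelude.Def_ModularCurve_ArithmeticGalois

/-!
# PROGRAM FF (S19 + S32): interface file

Owner: helper16 (program manager).  Chief architect: helper24.

This file contains ONLY definitions (`Prop`-valued interfaces and a few abbreviations).  Producers
prove the `Prop`s, consumers take them as hypotheses.  The file is frozen blob by blob: additions go
to `FF/Spec2.lean`, ... (announced on the board).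

## Section A: the geometry-free packaging layer

* `FfOrder R Gs M act H`: `H` is a finitely generated `R`-subalgebra of `M → ℚ̄` consisting of
  `Gs`-equivariant functions, separating the points of `M`, and closed under the comultiplication
  `φ ↦ ((m, m') ↦ φ (m + m'))`.
  No antipode, no counit, no spanning hypothesis (all automatic), no hypothesis on `R`.
* `FfHasModel ℓ M act`: the conclusion of S19 / the body of `GaloisRepAdic.IsFlatAt` for `(M, act)`.
* `FfModOrd ℓ M act`: a global order over `ℤ_(ℓ) = GaloisRep.ratLocalizedAt ℓ`, equivariant under the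
  whole Galois group.
* `FfLocalOrder ℓ M act`: an order over `ffW 𝔸 Gs = 𝔸 ∩ ℚ̄^{Gs}` for SOME valuation ring `𝔸` of `ℚ̄`
  over `ℓ` and SOME group `Gs` between the inertia group and the decomposition group of `𝔸`
  (so `ffW 𝔸 Gs` is unramified over `ℤ_(ℓ)`).
-/

set_option autoImplicit false

namespace Fermat.Agent.FF

/-- `ℚ̄` -/
abbrev FfQb : Type := AlgebraicClosure ℚ

/-- the absolute Galois group of `ℚ` -/
abbrev FfGal : Type := FfQb ≃ₐ[ℚ] FfQb

/-- **(FF-ORD)** a `Δ`-closed, separating, finitely generated `R`-algebra of `Gs`-equivariant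
functions on `M`. -/
structure FfOrder (R : Type) [CommRing R] [Algebra R FfQb] (Gs : Subgroup FfGal)
    (M : Type) [AddCommGroup M] (act : FfGal → M → M) (H : Subalgebra R (M → FfQb)) : Prop where
  fg : H.toSubmodule.FG
  equiv : ∀ φ ∈ H, ∀ σ ∈ Gs, ∀ m : M, φ (act σ m) = σ (φ m)
  sep : ∀ m m' : M, m ≠ m' → ∃ φ ∈ H, φ m ≠ φ m'
  comul : ∀ φ ∈ H, ∃ (n : ℕ) (a b : Fin n → ↥H),
    ∀ m m' : M, φ (m + m') = ∑ i, (a i).1 m * (b i).1 m'

/-- the conclusion of S19 / the body of `GaloisRepAdic.IsFlatAt` for a Galois module `(M, act)`. -/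
def FfHasModel (ℓ : ℕ) (M : Type) [AddCommGroup M] (act : FfGal → M → M) : Prop :=
  ∃ (H : Type) (_ : CommRing H) (_ : HopfAlgebra (GaloisRep.ratLocalizedAt ℓ) H),
    Module.Finite (GaloisRep.ratLocalizedAt ℓ) H ∧ Module.Flat (GaloisRep.ratLocalizedAt ℓ) H ∧
    Coalgebra.IsCocomm (GaloisRep.ratLocalizedAt ℓ) H ∧
    ∃ e : WithConv (H →ₐ[GaloisRep.ratLocalizedAt ℓ] FfQb) ≃ M,
      (∀ f g, e (f * g) = e f + e g) ∧
      ∀ (σ : FfGal) (f g : WithConv (H →ₐ[GaloisRep.ratLocalizedAt ℓ] FfQb)),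
        (∀ h : H, g h = σ (f h)) → e g = act σ (e f)

/-- a GLOBAL order: over `ℤ_(ℓ)`, equivariant under the whole Galois group. -/
def FfModOrd (ℓ : ℕ) (M : Type) [AddCommGroup M] (act : FfGal → M → M) : Prop :=
  ∃ H : Subalgebra (GaloisRep.ratLocalizedAt ℓ) (M → FfQb),
    FfOrder (GaloisRep.ratLocalizedAt ℓ) ⊤ M act H

/-- `𝔸 ∩ ℚ̄^{Gs}`: the elements of the valuation ring `𝔸` fixed by `Gs`. -/
def ffW (𝔸 : ValuationSubring FfQb) (Gs : Subgroup FfGal) : Subring FfQb where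
  carrier := {x | x ∈ 𝔸 ∧ ∀ σ ∈ Gs, σ x = x}
  mul_mem' {a b} ha hb := ⟨𝔸.mul_mem _ _ ha.1 hb.1, fun σ hσ => by
    rw [map_mul, ha.2 σ hσ, hb.2 σ hσ]⟩
  one_mem' := ⟨𝔸.one_mem, fun σ _ => map_one σ⟩
  add_mem' {a b} ha hb := ⟨𝔸.add_mem _ _ ha.1 hb.1, fun σ hσ => by
    rw [map_add, ha.2 σ hσ, hb.2 σ hσ]⟩
  zero_mem' := ⟨𝔸.zero_mem, fun σ _ => map_zero σ⟩
  neg_mem' {a} ha := ⟨𝔸.neg_mem _ ha.1, fun σ hσ => by rw [map_neg, ha.2 σ hσ]⟩

theorem mem_ffW {𝔸 : ValuationSubring FfQb} {Gs : Subgroup FfGal} {x : FfQb} :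
    x ∈ ffW 𝔸 Gs ↔ x ∈ 𝔸 ∧ ∀ σ ∈ Gs, σ x = x := Iff.rfl

/-- a LOCAL order: over the unramified ring `ffW 𝔸 Gs`, equivariant under `Gs`, for some `𝔸` over
`ℓ` and some `Gs` between inertia and decomposition group. -/
def FfLocalOrder (ℓ : ℕ) (M : Type) [AddCommGroup M] (act : FfGal → M → M) : Prop :=
  ∃ (𝔸 : ValuationSubring FfQb) (Gs : Subgroup FfGal), 𝔸.LiesOverPrime ℓ ∧
    𝔸.inertiaSubgroupIn ℚ ≤ Gs ∧ Gs ≤ 𝔸.decompositionSubgroup ℚ ∧
    ∃ H : Subalgebra ↥(ffW 𝔸 Gs) (M → FfQb), FfOrder ↥(ffW 𝔸 Gs) Gs M act H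

/-- the action is by additive automorphisms of a group action (what the packaging layer uses). -/
structure FfAct (M : Type) [AddCommGroup M] (act : FfGal → M → M) : Prop where
  one : ∀ m, act 1 m = m
  mul : ∀ σ τ m, act (σ * τ) m = act σ (act τ m)
  add : ∀ σ m m', act σ (m + m') = act σ m + act σ m'

/-- continuity of the action on a discrete module: every element is fixed by an open subgroup. -/
def FfCont (M : Type) (act : FfGal → M → M) : Prop :=
  ∀ m : M, ∃ E : IntermediateField ℚ FfQb, FiniteDimensional ℚ E ∧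
    ∀ σ ∈ E.fixingSubgroup, act σ m = m

/-- the Galois action on `J₀(N)[n]` (as a function, for the interfaces above). -/
noncomputable def ffTorsAct (N : ℕ) (n : ℤ) (σ : FfGal)
    (x : ↥(Submodule.torsionBy ℤ (ModularCurve.JZero N) n)) :
    ↥(Submodule.torsionBy ℤ (ModularCurve.JZero N) n) :=
  ⟨σ • (x : ModularCurve.JZero N), by
    rw [Submodule.mem_torsionBy_iff, smul_comm, (Submodule.mem_torsionBy_iff _ _).mp x.2,
      smul_zero]⟩

@[simp] theorem ffTorsAct_coe (N : ℕ) (n : ℤ) (σ : FfGal)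
    (x : ↥(Submodule.torsionBy ℤ (ModularCurve.JZero N) n)) :
    ((ffTorsAct N n σ x : ↥(Submodule.torsionBy ℤ (ModularCurve.JZero N) n)) :
      ModularCurve.JZero N) = σ • (x : ModularCurve.JZero N) := rfl

/-! ## Section A: the arrows (as `Prop`s, so that producer and consumer share ONE literal) -/

/-- (A1) = (FF-LIT), helper7: a global order gives the S19 / `IsFlatAt` literal. -/
def FfLitSpec (ℓ : ℕ) : Prop :=
  ∀ (M : Type) [AddCommGroup M] [Finite M] (act : FfGal → M → M), FfAct M act →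
    FfModOrd ℓ M act → FfHasModel ℓ M act

/-- (A3)+(A4), helper23 + helper9: compositum over the conjugates + unramified descent. -/
def FfDescentSpec (ℓ : ℕ) : Prop :=
  ∀ (M : Type) [AddCommGroup M] [Finite M] (act : FfGal → M → M), FfAct M act → FfCont M act →
    FfLocalOrder ℓ M act → FfModOrd ℓ M act

/-- (A2) sub, helper9: restriction of an order to a stable subgroup. -/
def FfSubSpec (ℓ : ℕ) : Prop :=
  ∀ (M M' : Type) [AddCommGroup M] [AddCommGroup M'] [Finite M] (act : FfGal → M → M)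
    (act' : FfGal → M' → M') (i : M' →+ M), Function.Injective i →
    (∀ σ m, i (act' σ m) = act σ (i m)) → FfAct M act → FfModOrd ℓ M act → FfModOrd ℓ M' act'

/-- (A2) quotient, helper9: the invariant functions give an order on an equivariant quotient. -/
def FfQuotSpec (ℓ : ℕ) : Prop :=
  ∀ (M M' : Type) [AddCommGroup M] [AddCommGroup M'] [Finite M] (act : FfGal → M → M)
    (act' : FfGal → M' → M') (q : M →+ M'), Function.Surjective q →
    (∀ σ m, q (act σ m) = act' σ (q m)) → FfAct M act → FfModOrd ℓ M act → FfModOrd ℓ M' act'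

/-- (A2) product, helper9. -/
def FfProdSpec (ℓ : ℕ) : Prop :=
  ∀ (M M' : Type) [AddCommGroup M] [AddCommGroup M'] [Finite M] [Finite M']
    (act : FfGal → M → M) (act' : FfGal → M' → M'), FfAct M act → FfAct M' act' →
    FfModOrd ℓ M act → FfModOrd ℓ M' act' →
    FfModOrd ℓ (M × M') (fun σ x => (act σ x.1, act' σ x.2))

/-- (B)+(C) THE CORE, at a level `M₀` where the reduction atlas exists: a local order on
`J₀(M₀)[ℓ^k]`. -/
def FfCoreSpec (M₀ ℓ k : ℕ) : Prop :=
  FfLocalOrder ℓ ↥(Submodule.torsionBy ℤ (ModularCurve.JZero M₀) ((ℓ : ℤ) ^ k))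
    (ffTorsAct M₀ ((ℓ : ℤ) ^ k))

/-- (A5), helper17: `J₀(N)[ℓ^k]` is an equivariant quotient of a stable subgroup of
`J₀(N a)[ℓ^(k+s)]` when `a + 1 = ℓ^s`. -/
def FfLevelSpec (N a ℓ s k : ℕ) : Prop :=
  ∃ (M₁ : AddSubgroup ↥(Submodule.torsionBy ℤ (ModularCurve.JZero (N * a)) ((ℓ : ℤ) ^ (k + s))))
    (q : ↥M₁ →+ ↥(Submodule.torsionBy ℤ (ModularCurve.JZero N) ((ℓ : ℤ) ^ k))),
    (∀ (σ : FfGal) (y), y ∈ M₁ → ffTorsAct (N * a) ((ℓ : ℤ) ^ (k + s)) σ y ∈ M₁) ∧
    Function.Surjective q ∧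
    ∀ (σ : FfGal) (y : ↥M₁) (hy : ffTorsAct (N * a) ((ℓ : ℤ) ^ (k + s)) σ y.1 ∈ M₁),
      q ⟨_, hy⟩ = ffTorsAct N ((ℓ : ℤ) ^ k) σ (q y)

end Fermat.Agent.FF
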