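import Mathlib
import Fermat.Agent.FF.Spec
import Fermat.Agent.FF.LevelSubq

/-!
# Program FF, leaf A5: adapter of `fflq_main` to the interface literal `FfLevelSpec`
(prefix `fflq`, owner helper3)

`FfLevelSpec N a ℓ s k` (helper16's `FF/Spec.lean`) wants the stable subgroup `M₁` INSIDE the type
`↥(torsionBy ℤ (J₀(N a)) (ℓ^(k+s)))`, so that `FfSubSpec`/`FfQuotSpec` apply with `i := subtype`.
-/

set_option autoImplicit false
set_option linter.unusedSectionVars false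
set_option linter.unusedVariables false

noncomputable section

namespace Fermat.Agent.FF

open ModularCurve AlgebraicCurve Fermat.Agent.G Fermat.Agent.V

variable (N a : ℕ) [NeZero N] [NeZero a]

/-- `M₁` of `fflq_main`, as a subgroup of the torsion module `J₀(N a)[ℓ^(k+s)]`. -/
def fflqSubT (ℓ j : ℕ) :
    AddSubgroup ↥(Submodule.torsionBy ℤ (JZero (N * a)) ((ℓ : ℤ) ^ j)) :=
  (fflqSub N a ℓ j).comap (Submodule.torsionBy ℤ (JZero (N * a)) ((ℓ : ℤ) ^ j)).subtype.toAddMonoidHom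

theorem fflq_mem_subT {ℓ j : ℕ}
    {y : ↥(Submodule.torsionBy ℤ (JZero (N * a)) ((ℓ : ℤ) ^ j))} :
    y ∈ fflqSubT N a ℓ j ↔ (y : JZero (N * a)) ∈ fflqSub N a ℓ j :=
  Iff.rfl

/-- the inclusion `M₁ (inside the torsion type) → M₁ (inside J₀(N a))`. -/
def fflqSubTIncl (ℓ j : ℕ) : ↥(fflqSubT N a ℓ j) →+ ↥(fflqSub N a ℓ j) where
  toFun y := ⟨((y : ↥(Submodule.torsionBy ℤ (JZero (N * a)) ((ℓ : ℤ) ^ j))) : JZero (N * a)), y.2⟩
  map_zero' := rfl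
  map_add' _ _ := rfl

theorem fflqSubTIncl_surjective (ℓ j : ℕ) : Function.Surjective (fflqSubTIncl N a ℓ j) := by
  rintro ⟨y, hy⟩
  have hyt : y ∈ Submodule.torsionBy ℤ (JZero (N * a)) ((ℓ : ℤ) ^ j) := by
    rw [Submodule.mem_torsionBy_iff]
    exact fflq_sub_torsion N a hy
  exact ⟨⟨⟨y, hyt⟩, hy⟩, rfl⟩

/-- **A5 in the interface literal**: `FfLevelSpec N a ℓ s k` for a prime `a ∤ N` with
`a + 1 = ℓ ^ s`. -/
theorem fflq_spec (ha : a.Prime) (haN : ¬ a ∣ N) {ℓ s : ℕ} [Fact ℓ.Prime] (hs : a + 1 = ℓ ^ s)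
    (k : ℕ) : FfLevelSpec N a ℓ s k := by
  refine ⟨fflqSubT N a ℓ (k + s),
    (fflqQuot N a ha haN hs k).comp (fflqSubTIncl N a ℓ (k + s)), ?_, ?_, ?_⟩
  · intro σ y hy
    exact fflq_sub_galois N a σ hy
  · exact (fflqQuot_surjective N a ha haN (Fact.out : ℓ.Prime).pos hs k).comp
      (fflqSubTIncl_surjective N a ℓ (k + s))
  · intro σ y hy
    apply Subtype.ext
    rw [ffTorsAct_coe]
    exact fflqQuot_galois N a ha haN hs k σ _ y.2 hy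

/-- the form used by `FF/Top.lean` for `ℓ ∈ {2, 3}`: with `a := 5 - ℓ`; then `ℓ ∤ N a`, `(5 - ℓ) ∣ N a`
(so that `grd_reductionInputs_dvd` applies at the level `N a`). -/
theorem fflq_spec_small (N : ℕ) [NeZero N] {ℓ : ℕ} [Fact ℓ.Prime] (h5 : ℓ < 5) (hℓN : ¬ ℓ ∣ N)
    (haN : ¬ (5 - ℓ) ∣ N) (k : ℕ) :
    ¬ ℓ ∣ N * (5 - ℓ) ∧ (5 - ℓ) ∣ N * (5 - ℓ) ∧ NeZero (N * (5 - ℓ)) ∧
      ∃ s : ℕ, FfLevelSpec N (5 - ℓ) ℓ s k := by
  have hℓ : ℓ.Prime := Fact.out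
  obtain ⟨hap, hne, hℓa, s, hs⟩ := fflq_small_arith hℓ h5
  haveI : NeZero (5 - ℓ) := ⟨hap.ne_zero⟩
  exact ⟨fun hd => (hℓ.dvd_mul.mp hd).elim hℓN hℓa, Dvd.intro_left N rfl,
    ⟨mul_ne_zero (NeZero.ne N) hap.ne_zero⟩, s, fflq_spec N (5 - ℓ) hap haN hs k⟩

end Fermat.Agent.FF
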