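import Mathlib
import Fermat.Agent.FF.Spec
import Fermat.Agent.FF.HopfOrder

/-!
# PROGRAM FF, leaf A1 (FF-LIT) in the PM's interface literal

`ffho_lit : FfLitSpec ℓ` — a global order over `ℤ_(ℓ)` on a finite Galois module `(M, act)` gives
the S19 / `GaloisRepAdic.IsFlatAt` literal `FfHasModel ℓ M act`.  This is a thin wrapper around
`ffho_main` (`FF/HopfOrder.lean`): `act σ 0 = 0` and the surjectivity of `act σ` come from `FfAct`.

Owner: helper7.  Imports `FF/Spec.lean` (owner helper16, carried byte-identical).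
-/

set_option autoImplicit false

namespace Fermat.Agent.FF

/-- **(A1) = (FF-LIT)** in the interface literal of `FF/Spec.lean`. -/
theorem ffho_lit (ℓ : ℕ) [Fact ℓ.Prime] : FfLitSpec ℓ := by
  intro M _ _ act hact hord
  obtain ⟨H, hH⟩ := hord
  have hact0 : ∀ σ, act σ 0 = 0 := fun σ => by
    have h := hact.add σ 0 0
    rw [add_zero] at h
    exact left_eq_add.mp h
  have hsurj : ∀ σ, Function.Surjective (act σ) := fun σ m =>
    ⟨act σ⁻¹ m, by rw [← hact.mul, mul_inv_cancel, hact.one]⟩
  exact ffho_main ℓ M act hact0 hsurj H hH.fg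
    (fun φ hφ σ m => hH.equiv φ hφ σ (Subgroup.mem_top σ) m) hH.sep hH.comul

/-- the same with the four hypotheses unbundled (no `FfAct.one`/`mul` needed beyond surjectivity). -/
theorem ffho_lit' (ℓ : ℕ) [Fact ℓ.Prime] (M : Type) [AddCommGroup M] [Finite M]
    (act : FfGal → M → M) (hact : FfAct M act)
    (H : Subalgebra (GaloisRep.ratLocalizedAt ℓ) (M → FfQb))
    (hH : FfOrder (GaloisRep.ratLocalizedAt ℓ) ⊤ M act H) : FfHasModel ℓ M act :=
  ffho_lit ℓ M act hact ⟨H, hH⟩

end Fermat.Agent.FF
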